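import Mathlib

/-!
# Cup products in low degrees for Mathlib's `groupCohomology` (inhomogeneous cochains)

For `A B C : Rep k G` and a `G`-equivariant `k`-bilinear pairing `φ : A × B → C` we define the cup
products on inhomogeneous cochains in total degree `≤ 2`, prove the Leibniz rules and deduce the
induced pairings `H¹ × H¹ → H²`, `H⁰ × Hⁿ → Hⁿ`, `Hⁿ × H⁰ → Hⁿ` (`n ≤ 2`).
-/

set_option autoImplicit false

universe u

open CategoryTheory groupCohomology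

namespace Fermat.Agent.CFT

variable {k G : Type u} [CommRing k] [Group G]

/-- A `G`-equivariant bilinear pairing of representations. -/
structure RepPairing (A B C : Rep.{u} k G) where
  /-- the underlying bilinear map -/
  toLin : A →ₗ[k] B →ₗ[k] C
  /-- equivariance -/
  map_ρ : ∀ (g : G) (a : A) (b : B), toLin (A.ρ g a) (B.ρ g b) = C.ρ g (toLin a b)

namespace RepPairing

variable {A B C : Rep.{u} k G} (φ : RepPairing A B C)

/-- `a ∪ f` for `a ∈ C⁰`, `f ∈ C¹`. -/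
def cup₀₁ : A →ₗ[k] (G → B) →ₗ[k] (G → C) :=
  LinearMap.mk₂ k (fun a f g => φ.toLin a (f g))
    (fun a a' f => by funext g; simp)
    (fun c a f => by funext g; simp)
    (fun a f f' => by funext g; simp)
    (fun c a f => by funext g; simp)

@[simp] lemma cup₀₁_apply (a : A) (f : G → B) (g : G) : φ.cup₀₁ a f g = φ.toLin a (f g) := rfl

/-- `f ∪ b` for `f ∈ C¹`, `b ∈ C⁰`. -/
def cup₁₀ : (G → A) →ₗ[k] B →ₗ[k] (G → C) :=
  LinearMap.mk₂ k (fun f b g => φ.toLin (f g) (B.ρ g b))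
    (fun f f' b => by funext g; simp)
    (fun c f b => by funext g; simp)
    (fun f b b' => by funext g; simp)
    (fun c f b => by funext g; simp)

@[simp] lemma cup₁₀_apply (f : G → A) (b : B) (g : G) :
    φ.cup₁₀ f b g = φ.toLin (f g) (B.ρ g b) := rfl

/-- `f ∪ f'` for `f, f' ∈ C¹`. -/
def cup₁₁ : (G → A) →ₗ[k] (G → B) →ₗ[k] (G × G → C) :=
  LinearMap.mk₂ k (fun f f' p => φ.toLin (f p.1) (B.ρ p.1 (f' p.2)))
    (fun f₁ f₂ f' => by funext p; simp)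
    (fun c f f' => by funext p; simp)
    (fun f f₁ f₂ => by funext p; simp)
    (fun c f f' => by funext p; simp)

@[simp] lemma cup₁₁_apply (f : G → A) (f' : G → B) (p : G × G) :
    φ.cup₁₁ f f' p = φ.toLin (f p.1) (B.ρ p.1 (f' p.2)) := rfl

/-- `a ∪ F` for `a ∈ C⁰`, `F ∈ C²`. -/
def cup₀₂ : A →ₗ[k] (G × G → B) →ₗ[k] (G × G → C) :=
  LinearMap.mk₂ k (fun a F p => φ.toLin a (F p))
    (fun a a' f => by funext g; simp)
    (fun c a f => by funext g; simp)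
    (fun a f f' => by funext g; simp)
    (fun c a f => by funext g; simp)

@[simp] lemma cup₀₂_apply (a : A) (F : G × G → B) (p : G × G) :
    φ.cup₀₂ a F p = φ.toLin a (F p) := rfl

/-- `F ∪ b` for `F ∈ C²`, `b ∈ C⁰`. -/
def cup₂₀ : (G × G → A) →ₗ[k] B →ₗ[k] (G × G → C) :=
  LinearMap.mk₂ k (fun F b p => φ.toLin (F p) (B.ρ (p.1 * p.2) b))
    (fun f f' b => by funext g; simp)
    (fun c f b => by funext g; simp)
    (fun f b b' => by funext g; simp)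
    (fun c f b => by funext g; simp)

@[simp] lemma cup₂₀_apply (F : G × G → A) (b : B) (p : G × G) :
    φ.cup₂₀ F b p = φ.toLin (F p) (B.ρ (p.1 * p.2) b) := rfl

/-! ### Leibniz rules -/

lemma map_ρ' (g : G) (a : A) (b : B) :
    C.ρ g (φ.toLin a b) = φ.toLin (A.ρ g a) (B.ρ g b) := (φ.map_ρ g a b).symm

/-- `d(a ∪ b) = da ∪ b + a ∪ db` in degree `(0,0)`. -/
lemma d₀₁_cup₀₀ (a : A) (b : B) :
    (d₀₁ C).hom (φ.toLin a b) = φ.cup₁₀ ((d₀₁ A).hom a) b + φ.cup₀₁ a ((d₀₁ B).hom b) := by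
  funext g
  simp only [d₀₁_hom_apply, Pi.add_apply, cup₁₀_apply, cup₀₁_apply, map_sub, LinearMap.sub_apply,
    φ.map_ρ']
  abel

/-- `d(a ∪ f) = da ∪ f + a ∪ df` in degree `(0,1)`. -/
lemma d₁₂_cup₀₁ (a : A) (f : G → B) :
    (d₁₂ C).hom (φ.cup₀₁ a f) = φ.cup₁₁ ((d₀₁ A).hom a) f + φ.cup₀₂ a ((d₁₂ B).hom f) := by
  funext p
  simp only [d₁₂_hom_apply, d₀₁_hom_apply, Pi.add_apply, cup₁₁_apply, cup₀₁_apply, cup₀₂_apply,
    map_sub, map_add, LinearMap.sub_apply, φ.map_ρ']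
  abel

/-- `d(f ∪ b) = df ∪ b - f ∪ db` in degree `(1,0)`. -/
lemma d₁₂_cup₁₀ (f : G → A) (b : B) :
    (d₁₂ C).hom (φ.cup₁₀ f b) = φ.cup₂₀ ((d₁₂ A).hom f) b - φ.cup₁₁ f ((d₀₁ B).hom b) := by
  funext p
  obtain ⟨g, h⟩ := p
  simp only [d₁₂_hom_apply, d₀₁_hom_apply, Pi.sub_apply, cup₁₁_apply, cup₁₀_apply, cup₂₀_apply,
    map_sub, map_add, LinearMap.sub_apply, LinearMap.add_apply, φ.map_ρ', map_mul,
    Module.End.mul_apply]
  abel

/-- `d(f ∪ f') = 0` if `f`, `f'` are cocycles. -/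
lemma cup₁₁_mem_cocycles₂ {f : G → A} {f' : G → B} (hf : f ∈ cocycles₁ A)
    (hf' : f' ∈ cocycles₁ B) : φ.cup₁₁ f f' ∈ cocycles₂ C := by
  rw [mem_cocycles₁_iff] at hf hf'
  rw [mem_cocycles₂_iff]
  intro g h j
  simp only [cup₁₁_apply, hf g h, hf' h j, map_add, LinearMap.add_apply, φ.map_ρ', map_mul,
    Module.End.mul_apply]
  abel


/-! ### coboundary lemmas -/

lemma cup₁₁_d₀₁_left_mem (a : A) {f' : G → B} (hf' : f' ∈ cocycles₁ B) :
    φ.cup₁₁ ((d₀₁ A).hom a) f' ∈ coboundaries₂ C := by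
  refine ⟨φ.cup₀₁ a f', ?_⟩
  have h : (d₁₂ B).hom f' = 0 := hf'
  rw [d₁₂_cup₀₁, h, map_zero, add_zero]

lemma cup₁₁_d₀₁_right_mem {f : G → A} (hf : f ∈ cocycles₁ A) (b : B) :
    φ.cup₁₁ f ((d₀₁ B).hom b) ∈ coboundaries₂ C := by
  refine ⟨-φ.cup₁₀ f b, ?_⟩
  have h : (d₁₂ A).hom f = 0 := hf
  rw [map_neg, d₁₂_cup₁₀, h, map_zero, LinearMap.zero_apply, zero_sub, neg_neg]

end RepPairing

namespace Cup

section Desc

variable {R : Type*} [CommRing R] {M N P : Type*} [AddCommGroup M] [AddCommGroup N]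
  [AddCommGroup P] [Module R M] [Module R N] [Module R P]

/-- Descent of a linear map along a surjective linear map. -/
noncomputable def descSurj (π : M →ₗ[R] N) (hπ : Function.Surjective π) (F : M →ₗ[R] P)
    (hF : LinearMap.ker π ≤ LinearMap.ker F) : N →ₗ[R] P :=
  (Submodule.liftQ (LinearMap.ker π) F hF) ∘ₗ
    (LinearMap.quotKerEquivOfSurjective π hπ).symm.toLinearMap

@[simp] lemma descSurj_apply (π : M →ₗ[R] N) (hπ : Function.Surjective π) (F : M →ₗ[R] P)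
    (hF : LinearMap.ker π ≤ LinearMap.ker F) (x : M) : descSurj π hπ F hF (π x) = F x := by
  have : (LinearMap.quotKerEquivOfSurjective π hπ).symm (π x) = Submodule.Quotient.mk x := by
    rw [LinearEquiv.symm_apply_eq]
    rfl
  simp [descSurj, this]

end Desc

section H

variable (A : Rep.{u} k G)

lemma H1π_surjective : Function.Surjective (H1π A).hom :=
  (ModuleCat.epi_iff_surjective _).1 inferInstance

lemma H2π_surjective : Function.Surjective (H2π A).hom :=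
  (ModuleCat.epi_iff_surjective _).1 inferInstance

lemma mem_ker_H1π_iff (x : cocycles₁ A) :
    x ∈ LinearMap.ker (H1π A).hom ↔ ⇑x ∈ coboundaries₁ A := by
  rw [LinearMap.mem_ker]
  exact H1π_eq_zero_iff x

lemma mem_ker_H2π_iff (x : cocycles₂ A) :
    x ∈ LinearMap.ker (H2π A).hom ↔ ⇑x ∈ coboundaries₂ A := by
  rw [LinearMap.mem_ker]
  exact H2π_eq_zero_iff x

end H

end Cup

open Cup

namespace RepPairing

variable {A B C : Rep.{u} k G} (φ : RepPairing A B C)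

/-- The cup product on `1`-cocycles, with values in `2`-cocycles. -/
def cupCocycles₁₁ : cocycles₁ A →ₗ[k] cocycles₁ B →ₗ[k] cocycles₂ C :=
  LinearMap.mk₂ k (fun f f' => ⟨φ.cup₁₁ f f', φ.cup₁₁_mem_cocycles₂ f.2 f'.2⟩)
    (fun f₁ f₂ f' => Subtype.ext (by
      show φ.cup₁₁ (f₁.1 + f₂.1) f'.1 = φ.cup₁₁ f₁.1 f'.1 + φ.cup₁₁ f₂.1 f'.1
      rw [map_add, LinearMap.add_apply]))
    (fun c f f' => Subtype.ext (by
      show φ.cup₁₁ (c • f.1) f'.1 = c • φ.cup₁₁ f.1 f'.1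
      rw [map_smul, LinearMap.smul_apply]))
    (fun f f₁ f₂ => Subtype.ext (by
      show φ.cup₁₁ f.1 (f₁.1 + f₂.1) = φ.cup₁₁ f.1 f₁.1 + φ.cup₁₁ f.1 f₂.1
      rw [map_add]))
    (fun c f f' => Subtype.ext (by
      show φ.cup₁₁ f.1 (c • f'.1) = c • φ.cup₁₁ f.1 f'.1
      rw [map_smul]))

@[simp] lemma coe_cupCocycles₁₁ (f : cocycles₁ A) (f' : cocycles₁ B) :
    (φ.cupCocycles₁₁ f f' : G × G → C) = φ.cup₁₁ f f' := rfl

/-- The cup product `H¹(G, A) × H¹(G, B) → H²(G, C)`. -/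
noncomputable def cupH₁₁ : H1 A →ₗ[k] H1 B →ₗ[k] H2 C :=
  (descSurj (H1π B).hom (H1π_surjective B)
    (descSurj (H1π A).hom (H1π_surjective A)
      (φ.cupCocycles₁₁.compr₂ (H2π C).hom) (by
        intro f hf
        rw [mem_ker_H1π_iff] at hf
        obtain ⟨a, ha⟩ := hf
        rw [LinearMap.mem_ker]
        ext f'
        rw [LinearMap.compr₂_apply, LinearMap.zero_apply]
        rw [H2π_eq_zero_iff]
        rw [coe_cupCocycles₁₁, ← ha]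
        exact φ.cup₁₁_d₀₁_left_mem a f'.2)).flip (by
    intro f' hf'
    rw [mem_ker_H1π_iff] at hf'
    obtain ⟨b, hb⟩ := hf'
    rw [LinearMap.mem_ker]
    ext x
    obtain ⟨f, rfl⟩ := H1π_surjective A x
    rw [LinearMap.flip_apply, descSurj_apply, LinearMap.compr₂_apply, LinearMap.zero_apply,
      H2π_eq_zero_iff, coe_cupCocycles₁₁, ← hb]
    exact φ.cup₁₁_d₀₁_right_mem f.2 b)).flip

@[simp] lemma cupH₁₁_π (f : cocycles₁ A) (f' : cocycles₁ B) :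
    φ.cupH₁₁ ((H1π A).hom f) ((H1π B).hom f') = (H2π C).hom (φ.cupCocycles₁₁ f f') := by
  simp [cupH₁₁]

end RepPairing


namespace RepPairing

variable {A B C : Rep.{u} k G} (φ : RepPairing A B C)

/-! ### `H⁰ × Hⁿ` and `Hⁿ × H⁰` (with `H⁰` modelled by the invariants) -/

lemma cup₀₁_mem_cocycles₁ {a : A} (ha : a ∈ A.ρ.invariants) {f : G → B} (hf : f ∈ cocycles₁ B) :
    φ.cup₀₁ a f ∈ cocycles₁ C := by
  rw [mem_cocycles₁_iff] at hf ⊢
  intro g h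
  simp only [cup₀₁_apply, hf g h, map_add, φ.map_ρ', ha g]

lemma cup₁₀_mem_cocycles₁ {f : G → A} (hf : f ∈ cocycles₁ A) {b : B} (hb : b ∈ B.ρ.invariants) :
    φ.cup₁₀ f b ∈ cocycles₁ C := by
  rw [mem_cocycles₁_iff] at hf ⊢
  intro g h
  simp only [cup₁₀_apply, hf g h, map_add, LinearMap.add_apply, φ.map_ρ', hb _]

lemma cup₀₂_mem_cocycles₂ {a : A} (ha : a ∈ A.ρ.invariants) {F : G × G → B}
    (hF : F ∈ cocycles₂ B) : φ.cup₀₂ a F ∈ cocycles₂ C := by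
  rw [mem_cocycles₂_iff] at hF ⊢
  intro g h j
  simp only [cup₀₂_apply, φ.map_ρ', ha g, ← map_add, hF g h j]

lemma cup₂₀_mem_cocycles₂ {F : G × G → A} (hF : F ∈ cocycles₂ A) {b : B}
    (hb : b ∈ B.ρ.invariants) : φ.cup₂₀ F b ∈ cocycles₂ C := by
  rw [mem_cocycles₂_iff] at hF ⊢
  intro g h j
  simp only [cup₂₀_apply, φ.map_ρ', hb _, ← LinearMap.add_apply, ← map_add, hF g h j]

lemma cup₀₁_d₀₁_mem {a : A} (ha : a ∈ A.ρ.invariants) (b : B) :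
    φ.cup₀₁ a ((d₀₁ B).hom b) ∈ coboundaries₁ C := by
  refine ⟨φ.toLin a b, ?_⟩
  have h : (d₀₁ A).hom a = 0 := by
    funext g
    simp only [d₀₁_hom_apply, ha g, sub_self]
    rfl
  rw [d₀₁_cup₀₀, h, map_zero, LinearMap.zero_apply, zero_add]

lemma cup₁₀_d₀₁_mem (a : A) {b : B} (hb : b ∈ B.ρ.invariants) :
    φ.cup₁₀ ((d₀₁ A).hom a) b ∈ coboundaries₁ C := by
  refine ⟨φ.toLin a b, ?_⟩
  have h : (d₀₁ B).hom b = 0 := by
    funext g
    simp only [d₀₁_hom_apply, hb g, sub_self]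
    rfl
  rw [d₀₁_cup₀₀, h, map_zero, add_zero]

lemma cup₀₂_d₁₂_mem {a : A} (ha : a ∈ A.ρ.invariants) (f : G → B) :
    φ.cup₀₂ a ((d₁₂ B).hom f) ∈ coboundaries₂ C := by
  refine ⟨φ.cup₀₁ a f, ?_⟩
  have h : (d₀₁ A).hom a = 0 := by
    funext g
    simp only [d₀₁_hom_apply, ha g, sub_self]
    rfl
  rw [d₁₂_cup₀₁, h, map_zero, LinearMap.zero_apply, zero_add]

lemma cup₂₀_d₁₂_mem (f : G → A) {b : B} (hb : b ∈ B.ρ.invariants) :
    φ.cup₂₀ ((d₁₂ A).hom f) b ∈ coboundaries₂ C := by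
  refine ⟨φ.cup₁₀ f b, ?_⟩
  have h : (d₀₁ B).hom b = 0 := by
    funext g
    simp only [d₀₁_hom_apply, hb g, sub_self]
    rfl
  rw [d₁₂_cup₁₀, h, map_zero, sub_zero]

/-- `a ∪ f` on invariants and `1`-cocycles. -/
noncomputable def cupCocycles₀₁ : A.ρ.invariants →ₗ[k] cocycles₁ B →ₗ[k] cocycles₁ C :=
  LinearMap.mk₂ k (fun a f => ⟨φ.cup₀₁ a.1 f.1, φ.cup₀₁_mem_cocycles₁ a.2 f.2⟩)
    (fun a₁ a₂ f => Subtype.ext (by
      show φ.cup₀₁ (a₁.1 + a₂.1) f.1 = φ.cup₀₁ a₁.1 f.1 + φ.cup₀₁ a₂.1 f.1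
      rw [map_add, LinearMap.add_apply]))
    (fun c a f => Subtype.ext (by
      show φ.cup₀₁ (c • a.1) f.1 = c • φ.cup₀₁ a.1 f.1
      rw [map_smul, LinearMap.smul_apply]))
    (fun a f₁ f₂ => Subtype.ext (by
      show φ.cup₀₁ a.1 (f₁.1 + f₂.1) = φ.cup₀₁ a.1 f₁.1 + φ.cup₀₁ a.1 f₂.1
      rw [map_add]))
    (fun c a f => Subtype.ext (by
      show φ.cup₀₁ a.1 (c • f.1) = c • φ.cup₀₁ a.1 f.1
      rw [map_smul]))

@[simp] lemma coe_cupCocycles₀₁ (a : A.ρ.invariants) (f : cocycles₁ B) :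
    (φ.cupCocycles₀₁ a f : G → C) = φ.cup₀₁ a.1 f := rfl

/-- `f ∪ b` on `1`-cocycles and invariants. -/
noncomputable def cupCocycles₁₀ : cocycles₁ A →ₗ[k] B.ρ.invariants →ₗ[k] cocycles₁ C :=
  LinearMap.mk₂ k (fun f b => ⟨φ.cup₁₀ f.1 b.1, φ.cup₁₀_mem_cocycles₁ f.2 b.2⟩)
    (fun a₁ a₂ f => Subtype.ext (by
      show φ.cup₁₀ (a₁.1 + a₂.1) f.1 = φ.cup₁₀ a₁.1 f.1 + φ.cup₁₀ a₂.1 f.1
      rw [map_add, LinearMap.add_apply]))
    (fun c a f => Subtype.ext (by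
      show φ.cup₁₀ (c • a.1) f.1 = c • φ.cup₁₀ a.1 f.1
      rw [map_smul, LinearMap.smul_apply]))
    (fun a f₁ f₂ => Subtype.ext (by
      show φ.cup₁₀ a.1 (f₁.1 + f₂.1) = φ.cup₁₀ a.1 f₁.1 + φ.cup₁₀ a.1 f₂.1
      rw [map_add]))
    (fun c a f => Subtype.ext (by
      show φ.cup₁₀ a.1 (c • f.1) = c • φ.cup₁₀ a.1 f.1
      rw [map_smul]))

@[simp] lemma coe_cupCocycles₁₀ (f : cocycles₁ A) (b : B.ρ.invariants) :
    (φ.cupCocycles₁₀ f b : G → C) = φ.cup₁₀ f b.1 := rfl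

/-- `a ∪ F` on invariants and `2`-cocycles. -/
noncomputable def cupCocycles₀₂ : A.ρ.invariants →ₗ[k] cocycles₂ B →ₗ[k] cocycles₂ C :=
  LinearMap.mk₂ k (fun a f => ⟨φ.cup₀₂ a.1 f.1, φ.cup₀₂_mem_cocycles₂ a.2 f.2⟩)
    (fun a₁ a₂ f => Subtype.ext (by
      show φ.cup₀₂ (a₁.1 + a₂.1) f.1 = φ.cup₀₂ a₁.1 f.1 + φ.cup₀₂ a₂.1 f.1
      rw [map_add, LinearMap.add_apply]))
    (fun c a f => Subtype.ext (by
      show φ.cup₀₂ (c • a.1) f.1 = c • φ.cup₀₂ a.1 f.1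
      rw [map_smul, LinearMap.smul_apply]))
    (fun a f₁ f₂ => Subtype.ext (by
      show φ.cup₀₂ a.1 (f₁.1 + f₂.1) = φ.cup₀₂ a.1 f₁.1 + φ.cup₀₂ a.1 f₂.1
      rw [map_add]))
    (fun c a f => Subtype.ext (by
      show φ.cup₀₂ a.1 (c • f.1) = c • φ.cup₀₂ a.1 f.1
      rw [map_smul]))

@[simp] lemma coe_cupCocycles₀₂ (a : A.ρ.invariants) (f : cocycles₂ B) :
    (φ.cupCocycles₀₂ a f : G × G → C) = φ.cup₀₂ a.1 f := rfl

/-- `F ∪ b` on `2`-cocycles and invariants. -/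
noncomputable def cupCocycles₂₀ : cocycles₂ A →ₗ[k] B.ρ.invariants →ₗ[k] cocycles₂ C :=
  LinearMap.mk₂ k (fun f b => ⟨φ.cup₂₀ f.1 b.1, φ.cup₂₀_mem_cocycles₂ f.2 b.2⟩)
    (fun a₁ a₂ f => Subtype.ext (by
      show φ.cup₂₀ (a₁.1 + a₂.1) f.1 = φ.cup₂₀ a₁.1 f.1 + φ.cup₂₀ a₂.1 f.1
      rw [map_add, LinearMap.add_apply]))
    (fun c a f => Subtype.ext (by
      show φ.cup₂₀ (c • a.1) f.1 = c • φ.cup₂₀ a.1 f.1
      rw [map_smul, LinearMap.smul_apply]))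
    (fun a f₁ f₂ => Subtype.ext (by
      show φ.cup₂₀ a.1 (f₁.1 + f₂.1) = φ.cup₂₀ a.1 f₁.1 + φ.cup₂₀ a.1 f₂.1
      rw [map_add]))
    (fun c a f => Subtype.ext (by
      show φ.cup₂₀ a.1 (c • f.1) = c • φ.cup₂₀ a.1 f.1
      rw [map_smul]))

@[simp] lemma coe_cupCocycles₂₀ (f : cocycles₂ A) (b : B.ρ.invariants) :
    (φ.cupCocycles₂₀ f b : G × G → C) = φ.cup₂₀ f b.1 := rfl

/-- The cup product `H⁰(G, A) × H¹(G, B) → H¹(G, C)` (with `H⁰` the invariants). -/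
noncomputable def cupH₀₁ : A.ρ.invariants →ₗ[k] H1 B →ₗ[k] H1 C :=
  (descSurj (H1π B).hom (H1π_surjective B) (φ.cupCocycles₀₁.compr₂ (H1π C).hom).flip (by
    intro f hf
    rw [mem_ker_H1π_iff] at hf
    obtain ⟨b, hb⟩ := hf
    rw [LinearMap.mem_ker]
    ext a
    rw [LinearMap.flip_apply, LinearMap.compr₂_apply, LinearMap.zero_apply, H1π_eq_zero_iff,
      coe_cupCocycles₀₁, ← hb]
    exact φ.cup₀₁_d₀₁_mem a.2 b)).flip

@[simp] lemma cupH₀₁_π (a : A.ρ.invariants) (f : cocycles₁ B) :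
    φ.cupH₀₁ a ((H1π B).hom f) = (H1π C).hom (φ.cupCocycles₀₁ a f) := by
  simp [cupH₀₁]

/-- The cup product `H¹(G, A) × H⁰(G, B) → H¹(G, C)` (with `H⁰` the invariants). -/
noncomputable def cupH₁₀ : H1 A →ₗ[k] B.ρ.invariants →ₗ[k] H1 C :=
  descSurj (H1π A).hom (H1π_surjective A) (φ.cupCocycles₁₀.compr₂ (H1π C).hom) (by
    intro f hf
    rw [mem_ker_H1π_iff] at hf
    obtain ⟨a, ha⟩ := hf
    rw [LinearMap.mem_ker]
    ext b
    rw [LinearMap.compr₂_apply, LinearMap.zero_apply, H1π_eq_zero_iff,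
      coe_cupCocycles₁₀, ← ha]
    exact φ.cup₁₀_d₀₁_mem a b.2)

@[simp] lemma cupH₁₀_π (f : cocycles₁ A) (b : B.ρ.invariants) :
    φ.cupH₁₀ ((H1π A).hom f) b = (H1π C).hom (φ.cupCocycles₁₀ f b) := by
  simp [cupH₁₀]

/-- The cup product `H⁰(G, A) × H²(G, B) → H²(G, C)` (with `H⁰` the invariants). -/
noncomputable def cupH₀₂ : A.ρ.invariants →ₗ[k] H2 B →ₗ[k] H2 C :=
  (descSurj (H2π B).hom (H2π_surjective B) (φ.cupCocycles₀₂.compr₂ (H2π C).hom).flip (by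
    intro f hf
    rw [mem_ker_H2π_iff] at hf
    obtain ⟨b, hb⟩ := hf
    rw [LinearMap.mem_ker]
    ext a
    rw [LinearMap.flip_apply, LinearMap.compr₂_apply, LinearMap.zero_apply, H2π_eq_zero_iff,
      coe_cupCocycles₀₂, ← hb]
    exact φ.cup₀₂_d₁₂_mem a.2 b)).flip

@[simp] lemma cupH₀₂_π (a : A.ρ.invariants) (f : cocycles₂ B) :
    φ.cupH₀₂ a ((H2π B).hom f) = (H2π C).hom (φ.cupCocycles₀₂ a f) := by
  simp [cupH₀₂]

/-- The cup product `H²(G, A) × H⁰(G, B) → H²(G, C)` (with `H⁰` the invariants). -/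
noncomputable def cupH₂₀ : H2 A →ₗ[k] B.ρ.invariants →ₗ[k] H2 C :=
  descSurj (H2π A).hom (H2π_surjective A) (φ.cupCocycles₂₀.compr₂ (H2π C).hom) (by
    intro f hf
    rw [mem_ker_H2π_iff] at hf
    obtain ⟨a, ha⟩ := hf
    rw [LinearMap.mem_ker]
    ext b
    rw [LinearMap.compr₂_apply, LinearMap.zero_apply, H2π_eq_zero_iff,
      coe_cupCocycles₂₀, ← ha]
    exact φ.cup₂₀_d₁₂_mem a b.2)

@[simp] lemma cupH₂₀_π (f : cocycles₂ A) (b : B.ρ.invariants) :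
    φ.cupH₂₀ ((H2π A).hom f) b = (H2π C).hom (φ.cupCocycles₂₀ f b) := by
  simp [cupH₂₀]

end RepPairing

end Fermat.Agent.CFT
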