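import Mathlib
import Fermat.Agent.CFT.CupLow

/-!
# Coinduced pairings, evaluation at `1` and the trace map

For a subgroup `S ≤ G` (of finite index for the trace) and Mathlib's `Rep.coind S.subtype`:

* `Cup.ev₁ S N : res_S (coind_S^G N) ⟶ N`, `f ↦ f 1` (the map inducing Shapiro's isomorphism);
* `Cup.tr S X : coind_S^G (res_S X) ⟶ X`, `f ↦ ∑_{c ∈ G/S} c • f (c⁻¹)` (the map inducing
  corestriction), `Cup.tr_of_forall_eq` (`tr (g ↦ g • x) = [G : S] • x`);
* `RepPairing.res f Φ`: restriction of a pairing along a group homomorphism;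
* `RepPairing.coind S φ : RepPairing (coind A) B (coind C)`, `(f, b) ↦ (g ↦ φ (f g) (g • b))` for
  `φ : RepPairing A (res_S B) C`;
* `RepPairing.ev₁_coind`, `RepPairing.tr_coind`: compatibility of `ev₁` and `tr` with the
  pairings. Together with naturality of the cup product in the coefficients these give the
  projection formula `cor (a ∪ res b) = cor a ∪ b` once `cor := tr_* ∘ Shapiro⁻¹`.
-/

set_option autoImplicit false

universe u

open CategoryTheory groupCohomology

namespace Fermat.Agent.CFT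

variable {k G : Type u} [CommRing k] [Group G] (S : Subgroup G)

open Rep

namespace Cup

/-- Evaluation at `1`: `res_S (coind_S^G N) ⟶ N`. -/
noncomputable def ev₁ (N : Rep.{u} k S) : res S.subtype (coind S.subtype N) ⟶ N :=
  Rep.ofHom ⟨{ toFun := fun f => f.1 1
               map_add' := fun _ _ => rfl
               map_smul' := fun _ _ => rfl }, fun s => by
    ext f
    show f.1 (1 * (s : G)) = N.ρ s (f.1 1)
    rw [one_mul, ← f.2 s 1, mul_one]
    rfl⟩

@[simp] lemma ev₁_hom_apply (N : Rep.{u} k S) (f : coind S.subtype N) :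
    (ev₁ S N).hom f = f.1 1 := rfl

end Cup

/-- The pairing `coind_S^G A × B → coind_S^G C`, `(f, b) ↦ (g ↦ φ (f g) (g • b))`, induced by a
pairing `φ : A × res_S B → C` of `S`-representations. -/
noncomputable def RepPairing.coind {A C : Rep.{u} k S} {B : Rep.{u} k G}
    (φ : RepPairing A (res S.subtype B) C) :
    RepPairing (Rep.coind S.subtype A) B (Rep.coind S.subtype C) where
  toLin := LinearMap.mk₂ k
    (fun f b => ⟨fun g => φ.toLin (f.1 g) (B.ρ g b), fun s g => by
      show φ.toLin (f.1 ((s : G) * g)) (B.ρ ((s : G) * g) b) = C.ρ s (φ.toLin (f.1 g) (B.ρ g b))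
      rw [← φ.map_ρ s, ← f.2 s g, map_mul]
      rfl⟩)
    (fun f f' b => Subtype.ext (funext fun g => by
      show φ.toLin ((f + f').1 g) _ = φ.toLin (f.1 g) _ + φ.toLin (f'.1 g) _
      rw [← LinearMap.add_apply, ← map_add]; rfl))
    (fun c f b => Subtype.ext (funext fun g => by
      show φ.toLin ((c • f).1 g) _ = c • φ.toLin (f.1 g) _
      rw [← LinearMap.smul_apply, ← map_smul]; rfl))
    (fun f b b' => Subtype.ext (funext fun g => by
      show φ.toLin (f.1 g) (B.ρ g (b + b')) = φ.toLin (f.1 g) _ + φ.toLin (f.1 g) _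
      rw [map_add, map_add]))
    (fun c f b => Subtype.ext (funext fun g => by
      show φ.toLin (f.1 g) (B.ρ g (c • b)) = c • φ.toLin (f.1 g) _
      rw [map_smul, map_smul]))
  map_ρ h f b := Subtype.ext (funext fun g => by
    show φ.toLin (f.1 (g * h)) (B.ρ g (B.ρ h b)) = φ.toLin (f.1 (g * h)) (B.ρ (g * h) b)
    rw [map_mul]; rfl)

/-- Restriction of a pairing along a group homomorphism. -/
def RepPairing.res {H : Type u} [Group H] (f : H →* G) {A B C : Rep.{u} k G}
    (Φ : RepPairing A B C) : RepPairing (Rep.res f A) (Rep.res f B) (Rep.res f C) where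
  toLin := Φ.toLin
  map_ρ h a b := Φ.map_ρ (f h) a b

@[simp] lemma RepPairing.res_toLin {H : Type u} [Group H] (f : H →* G) {A B C : Rep.{u} k G}
    (Φ : RepPairing A B C) (a : A) (b : B) : (Φ.res f).toLin a b = Φ.toLin a b := rfl

lemma RepPairing.coind_toLin_apply {A C : Rep.{u} k S} {B : Rep.{u} k G}
    (φ : RepPairing A (Rep.res S.subtype B) C) (f : Rep.coind S.subtype A) (b : B) (g : G) :
    ((φ.coind S).toLin f b).1 g = φ.toLin (f.1 g) (B.ρ g b) := rfl

/-- compatibility of the coinduced pairing with evaluation at `1` -/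
lemma RepPairing.ev₁_coind {A C : Rep.{u} k S} {B : Rep.{u} k G}
    (φ : RepPairing A (Rep.res S.subtype B) C) (f : Rep.coind S.subtype A) (b : B) :
    (Cup.ev₁ S C).hom ((φ.coind S).toLin f b) = φ.toLin ((Cup.ev₁ S A).hom f) b := by
  show φ.toLin (f.1 1) (B.ρ 1 b) = φ.toLin (f.1 1) b
  rw [map_one, Module.End.one_apply]

namespace Cup

variable {S}

lemma coind_apply_mul (N : Rep.{u} k S) (f : Rep.coind S.subtype N) (s : S) (g : G) :
    f.1 ((s : G) * g) = N.ρ s (f.1 g) := f.2 s g

lemma coind_ρ_apply (N : Rep.{u} k S) (f : Rep.coind S.subtype N) (h g : G) :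
    ((Rep.coind S.subtype N).ρ h f).1 g = f.1 (g * h) := rfl

variable (S)

/-- The summand `c ↦ c • f (c⁻¹)` of the trace map, as a function on `G ⧸ S`. -/
noncomputable def trTerm (X : Rep.{u} k G) (f : Rep.coind S.subtype (Rep.res S.subtype X)) :
    G ⧸ S → X :=
  Quotient.lift (fun g : G => X.ρ g (f.1 g⁻¹)) (fun a b hab => by
    have h : a⁻¹ * b ∈ S := QuotientGroup.leftRel_apply.mp hab
    have hb : b = a * (a⁻¹ * b) := by group
    have h1 : f.1 b⁻¹ = X.ρ (a⁻¹ * b)⁻¹ (f.1 a⁻¹) := by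
      have := coind_apply_mul (Rep.res S.subtype X) f (⟨a⁻¹ * b, h⟩⁻¹ : S) a⁻¹
      have e : ((⟨a⁻¹ * b, h⟩⁻¹ : S) : G) * a⁻¹ = b⁻¹ := by
        show (a⁻¹ * b)⁻¹ * a⁻¹ = b⁻¹
        group
      rw [e] at this
      exact this
    show X.ρ a (f.1 a⁻¹) = X.ρ b (f.1 b⁻¹)
    rw [h1, ← Module.End.mul_apply, ← map_mul]
    congr 2
    group)

@[simp] lemma trTerm_mk (X : Rep.{u} k G) (f : Rep.coind S.subtype (Rep.res S.subtype X))
    (g : G) : trTerm S X f (QuotientGroup.mk g) = X.ρ g (f.1 g⁻¹) := rfl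

variable [S.FiniteIndex]

/-- The trace map `coind_S^G (res_S X) → X`, `f ↦ ∑_{c ∈ G/S} c • f (c⁻¹)`, as a linear map. -/
noncomputable def trLin (X : Rep.{u} k G) :
    Rep.coind S.subtype (Rep.res S.subtype X) →ₗ[k] X where
  toFun f := ∑ᶠ c : G ⧸ S, trTerm S X f c
  map_add' f f' := by
    have : Finite (G ⧸ S) := Subgroup.finite_quotient_of_finiteIndex
    rw [← finsum_add_distrib (Set.toFinite _) (Set.toFinite _)]
    refine finsum_congr fun c => ?_
    induction c using QuotientGroup.induction_on with | _ g =>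
    show X.ρ g ((f + f').1 g⁻¹) = X.ρ g (f.1 g⁻¹) + X.ρ g (f'.1 g⁻¹)
    rw [← map_add]; rfl
  map_smul' r f := by
    have : Finite (G ⧸ S) := Subgroup.finite_quotient_of_finiteIndex
    rw [RingHom.id_apply, smul_finsum' _ (Set.toFinite _)]
    refine finsum_congr fun c => ?_
    induction c using QuotientGroup.induction_on with | _ g =>
    show X.ρ g ((r • f).1 g⁻¹) = r • X.ρ g (f.1 g⁻¹)
    rw [← map_smul]; rfl

lemma trLin_apply (X : Rep.{u} k G) (f : Rep.coind S.subtype (Rep.res S.subtype X)) :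
    trLin S X f = ∑ᶠ c : G ⧸ S, trTerm S X f c := rfl

omit [S.FiniteIndex] in
lemma trTerm_ρ (X : Rep.{u} k G) (f : Rep.coind S.subtype (Rep.res S.subtype X)) (h : G)
    (c : G ⧸ S) :
    trTerm S X ((Rep.coind S.subtype (Rep.res S.subtype X)).ρ h f) c =
      X.ρ h (trTerm S X f (h⁻¹ • c)) := by
  induction c using QuotientGroup.induction_on with | _ g =>
  show X.ρ g (f.1 (g⁻¹ * h)) = X.ρ h (X.ρ (h⁻¹ * g) (f.1 (h⁻¹ * g)⁻¹))
  rw [← Module.End.mul_apply, ← map_mul]
  congr 2 <;> group

/-- The trace map `coind_S^G (res_S X) ⟶ X` of representations. -/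
noncomputable def tr (X : Rep.{u} k G) : Rep.coind S.subtype (Rep.res S.subtype X) ⟶ X :=
  Rep.ofHom ⟨trLin S X, fun h => by
    have : Finite (G ⧸ S) := Subgroup.finite_quotient_of_finiteIndex
    ext f
    show trLin S X ((Rep.coind S.subtype (Rep.res S.subtype X)).ρ h f) = X.ρ h (trLin S X f)
    rw [trLin_apply, trLin_apply, map_finsum _ (Set.toFinite _)]
    rw [← finsum_comp_equiv (MulAction.toPerm h⁻¹ : Equiv.Perm (G ⧸ S))
      (f := fun c => X.ρ h (trTerm S X f c))]
    exact finsum_congr fun c => trTerm_ρ S X f h c⟩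

@[simp] lemma tr_hom_apply (X : Rep.{u} k G) (f : Rep.coind S.subtype (Rep.res S.subtype X)) :
    (tr S X).hom f = ∑ᶠ c : G ⧸ S, trTerm S X f c := rfl

end Cup

/-- compatibility of the coinduced pairing with the trace map -/
lemma RepPairing.tr_coind [S.FiniteIndex] {X B Z : Rep.{u} k G} (Φ : RepPairing X B Z)
    (f : Rep.coind S.subtype (Rep.res S.subtype X)) (b : B) :
    (Cup.tr S Z).hom (((Φ.res S.subtype).coind S).toLin f b) = Φ.toLin ((Cup.tr S X).hom f) b := by
  have : Finite (G ⧸ S) := Subgroup.finite_quotient_of_finiteIndex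
  rw [Cup.tr_hom_apply, Cup.tr_hom_apply]
  have h := map_finsum (Φ.toLin.flip b) (f := fun c => Cup.trTerm S X f c) (Set.toFinite _)
  rw [LinearMap.flip_apply] at h
  rw [h]
  refine finsum_congr fun c => ?_
  induction c using QuotientGroup.induction_on with | _ g =>
  show Z.ρ g (Φ.toLin (f.1 g⁻¹) (B.ρ g⁻¹ b)) = Φ.toLin (X.ρ g (f.1 g⁻¹)) b
  rw [← Φ.map_ρ, ← Module.End.mul_apply, ← map_mul, mul_inv_cancel, map_one,
    Module.End.one_apply]

/-- The trace of `g ↦ g • x` is `[G : S] • x` (this is `cor ∘ res = index` on the module level). -/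
lemma Cup.tr_of_forall_eq [S.FiniteIndex] (X : Rep.{u} k G) (x : X)
    (f : Rep.coind S.subtype (Rep.res S.subtype X)) (hf : ∀ g, f.1 g = X.ρ g x) :
    (Cup.tr S X).hom f = S.index • x := by
  classical
  have : Finite (G ⧸ S) := Subgroup.finite_quotient_of_finiteIndex
  have : Fintype (G ⧸ S) := Fintype.ofFinite _
  rw [Cup.tr_hom_apply, finsum_eq_sum_of_fintype]
  have h : ∀ c : G ⧸ S, Cup.trTerm S X f c = x := by
    intro c
    induction c using QuotientGroup.induction_on with | _ g =>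
    rw [Cup.trTerm_mk, hf, ← Module.End.mul_apply, ← map_mul, mul_inv_cancel, map_one,
      Module.End.one_apply]
  rw [Finset.sum_congr rfl (fun c _ => h c), Finset.sum_const, Finset.card_univ,
    Subgroup.index_eq_card, Nat.card_eq_fintype_card]

end Fermat.Agent.CFT
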