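import Mathlib
import Fermat.Agent.CFT.CupLow

/-!
# Cup products in low degrees: naturality with respect to `groupCohomology.map`

For `f : G →* H`, pairings `ψ` of `H`-representations and `χ` of `G`-representations and
morphisms `φᵢ : res f Aᵢ ⟶ Bᵢ` compatible with the pairings, the cup products commute with
`groupCohomology.map f φᵢ` (restriction, inflation, change of coefficients).
-/

set_option autoImplicit false

universe u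

open CategoryTheory groupCohomology

namespace Fermat.Agent.CFT

variable {k G : Type u} [CommRing k] [Group G]

/-! ### Functoriality -/

section Functoriality

open Rep

variable {H : Type u} [Group H] (f : G →* H) {A₁ A₂ A₃ : Rep.{u} k H} {B₁ B₂ B₃ : Rep.{u} k G}
  (ψ : RepPairing A₁ A₂ A₃) (χ : RepPairing B₁ B₂ B₃)
  (φ₁ : res f A₁ ⟶ B₁) (φ₂ : res f A₂ ⟶ B₂) (φ₃ : res f A₃ ⟶ B₃)

open Cup

namespace Cup

lemma hom_res_ρ {A : Rep.{u} k H} {B : Rep.{u} k G} (φ : res f A ⟶ B) (g : G) (a : A) :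
    φ.hom (A.ρ (f g) a) = B.ρ g (φ.hom a) :=
  Rep.hom_comm_apply φ g a

end Cup

namespace RepPairing

/-- Naturality of the cup product `H¹ × H¹ → H²` in the group and the coefficients. -/
theorem map_cupH₁₁ (h : ∀ a b, χ.toLin (φ₁.hom a) (φ₂.hom b) = φ₃.hom (ψ.toLin a b))
    (α : H1 A₁) (β : H1 A₂) :
    map f φ₃ 2 (ψ.cupH₁₁ α β) = χ.cupH₁₁ (map f φ₁ 1 α) (map f φ₂ 1 β) := by
  induction α using H1_induction_on with | h a =>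
  induction β using H1_induction_on with | h b =>
  have e1 : ψ.cupH₁₁ (H1π A₁ a) (H1π A₂ b) = H2π A₃ (ψ.cupCocycles₁₁ a b) := ψ.cupH₁₁_π a b
  rw [e1, H1π_comp_map_apply, H1π_comp_map_apply, H2π_comp_map_apply]
  have e2 : χ.cupH₁₁ (H1π B₁ (mapCocycles₁ f φ₁ a)) (H1π B₂ (mapCocycles₁ f φ₂ b)) =
      H2π B₃ (χ.cupCocycles₁₁ (mapCocycles₁ f φ₁ a) (mapCocycles₁ f φ₂ b)) := χ.cupH₁₁_π _ _
  rw [e2]
  congr 1
  apply cocycles₂_ext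
  intro g g'
  show φ₃.hom (ψ.toLin (a (f g)) (A₂.ρ (f g) (b (f g')))) =
    χ.toLin (φ₁.hom (a (f g))) (B₂.ρ g (φ₂.hom (b (f g'))))
  rw [← h, hom_res_ρ]

end RepPairing

namespace Cup

/-- The map on invariants induced by `f : G →* H` and `φ : res f A ⟶ B`. -/
noncomputable def invMap {A : Rep.{u} k H} {B : Rep.{u} k G} (φ : res f A ⟶ B) :
    A.ρ.invariants →ₗ[k] B.ρ.invariants :=
  (φ.hom.toLinearMap ∘ₗ A.ρ.invariants.subtype).codRestrict _ (fun a g => by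
    show B.ρ g (φ.hom a.1) = φ.hom a.1
    rw [← hom_res_ρ, a.2 (f g)])

@[simp] lemma coe_invMap {A : Rep.{u} k H} {B : Rep.{u} k G} (φ : res f A ⟶ B)
    (a : A.ρ.invariants) : (invMap f φ a : B) = φ.hom a.1 := rfl

end Cup

namespace RepPairing

theorem map_cupH₀₂ (h : ∀ a b, χ.toLin (φ₁.hom a) (φ₂.hom b) = φ₃.hom (ψ.toLin a b))
    (a : A₁.ρ.invariants) (β : H2 A₂) :
    map f φ₃ 2 (ψ.cupH₀₂ a β) = χ.cupH₀₂ (invMap f φ₁ a) (map f φ₂ 2 β) := by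
  induction β using H2_induction_on with | h b =>
  have e1 : ψ.cupH₀₂ a (H2π A₂ b) = H2π A₃ (ψ.cupCocycles₀₂ a b) := ψ.cupH₀₂_π a b
  rw [e1, H2π_comp_map_apply, H2π_comp_map_apply]
  have e2 : χ.cupH₀₂ (invMap f φ₁ a) (H2π B₂ (mapCocycles₂ f φ₂ b)) =
      H2π B₃ (χ.cupCocycles₀₂ (invMap f φ₁ a) (mapCocycles₂ f φ₂ b)) := χ.cupH₀₂_π _ _
  rw [e2]
  congr 1
  apply cocycles₂_ext
  intro g g'
  show φ₃.hom (ψ.toLin a.1 (b (f g, f g'))) = χ.toLin (φ₁.hom a.1) (φ₂.hom (b (f g, f g')))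
  rw [← h]

theorem map_cupH₂₀ (h : ∀ a b, χ.toLin (φ₁.hom a) (φ₂.hom b) = φ₃.hom (ψ.toLin a b))
    (α : H2 A₁) (b : A₂.ρ.invariants) :
    map f φ₃ 2 (ψ.cupH₂₀ α b) = χ.cupH₂₀ (map f φ₁ 2 α) (invMap f φ₂ b) := by
  induction α using H2_induction_on with | h a =>
  have e1 : ψ.cupH₂₀ (H2π A₁ a) b = H2π A₃ (ψ.cupCocycles₂₀ a b) := ψ.cupH₂₀_π a b
  rw [e1, H2π_comp_map_apply, H2π_comp_map_apply]
  have e2 : χ.cupH₂₀ (H2π B₁ (mapCocycles₂ f φ₁ a)) (invMap f φ₂ b) =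
      H2π B₃ (χ.cupCocycles₂₀ (mapCocycles₂ f φ₁ a) (invMap f φ₂ b)) := χ.cupH₂₀_π _ _
  rw [e2]
  congr 1
  apply cocycles₂_ext
  intro g g'
  show φ₃.hom (ψ.toLin (a (f g, f g')) (A₂.ρ (f g * f g') b.1)) =
    χ.toLin (φ₁.hom (a (f g, f g'))) (B₂.ρ (g * g') (φ₂.hom b.1))
  rw [← h, ← map_mul, hom_res_ρ]

theorem map_cupH₀₁ (h : ∀ a b, χ.toLin (φ₁.hom a) (φ₂.hom b) = φ₃.hom (ψ.toLin a b))
    (a : A₁.ρ.invariants) (β : H1 A₂) :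
    map f φ₃ 1 (ψ.cupH₀₁ a β) = χ.cupH₀₁ (invMap f φ₁ a) (map f φ₂ 1 β) := by
  induction β using H1_induction_on with | h b =>
  have e1 : ψ.cupH₀₁ a (H1π A₂ b) = H1π A₃ (ψ.cupCocycles₀₁ a b) := ψ.cupH₀₁_π a b
  rw [e1, H1π_comp_map_apply, H1π_comp_map_apply]
  have e2 : χ.cupH₀₁ (invMap f φ₁ a) (H1π B₂ (mapCocycles₁ f φ₂ b)) =
      H1π B₃ (χ.cupCocycles₀₁ (invMap f φ₁ a) (mapCocycles₁ f φ₂ b)) := χ.cupH₀₁_π _ _
  rw [e2]
  congr 1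
  apply cocycles₁_ext
  intro g
  show φ₃.hom (ψ.toLin a.1 (b (f g))) = χ.toLin (φ₁.hom a.1) (φ₂.hom (b (f g)))
  rw [← h]

theorem map_cupH₁₀ (h : ∀ a b, χ.toLin (φ₁.hom a) (φ₂.hom b) = φ₃.hom (ψ.toLin a b))
    (α : H1 A₁) (b : A₂.ρ.invariants) :
    map f φ₃ 1 (ψ.cupH₁₀ α b) = χ.cupH₁₀ (map f φ₁ 1 α) (invMap f φ₂ b) := by
  induction α using H1_induction_on with | h a =>
  have e1 : ψ.cupH₁₀ (H1π A₁ a) b = H1π A₃ (ψ.cupCocycles₁₀ a b) := ψ.cupH₁₀_π a b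
  rw [e1, H1π_comp_map_apply, H1π_comp_map_apply]
  have e2 : χ.cupH₁₀ (H1π B₁ (mapCocycles₁ f φ₁ a)) (invMap f φ₂ b) =
      H1π B₃ (χ.cupCocycles₁₀ (mapCocycles₁ f φ₁ a) (invMap f φ₂ b)) := χ.cupH₁₀_π _ _
  rw [e2]
  congr 1
  apply cocycles₁_ext
  intro g
  show φ₃.hom (ψ.toLin (a (f g)) (A₂.ρ (f g) b.1)) =
    χ.toLin (φ₁.hom (a (f g))) (B₂.ρ g (φ₂.hom b.1))
  rw [← h, hom_res_ρ]

end RepPairing

end Functoriality

end Fermat.Agent.CFT
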