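import Mathlib
import Fermat.Agent.CFT.CoindPairing
import Fermat.Agent.CFT.CupLowFunct

/-!
# Explicit Shapiro lemma in low degrees

For a subgroup `S ≤ G` and `Y : Rep k S` the map
`groupCohomology.map S.subtype (Cup.ev₁ S Y) n : Hⁿ(G, coind Y) → Hⁿ(S, Y)` (restriction followed by
evaluation at `1`) is bijective for `n = 1, 2` (and on invariants for `n = 0`). Everything is done
with explicit formulas on inhomogeneous cochains (plain functions), so that the constructions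
restrict to any subcomplex (e.g. level-constant cochains):

* `Shap.h₁ h₂`: homogeneous forms `x₀ • f (x₀⁻¹ x₁)`, ... of inhomogeneous cochains, with the
  homogeneous cocycle identities `h₁_cocycle`, `h₂_cocycle` and `h₁_d₀₁`, `h₂_d₁₂`;
* `Shap.Retr S`: a left `S`-equivariant retraction `r : G → S` (`Retr.nonempty`);
* `Shap.e₁ e₂`: `Y`-valued homogeneous forms of `coind Y`-valued cochains; `Shap.mk₀ mk₁ mk₂`;
* `Shap.sh₁ sh₂` (= `mapCocycles` of `(S.subtype, ev₁)`), their sections `Shap.ι₀ ι₁ ι₂`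
  (`ι f (g)(x) = r(x) • f (r(x)⁻¹ r(x g))`, cochain maps: `ι₁_d₀₁`, `ι₂_d₁₂`; `sh₁_ι₁`, `sh₂_ι₂`),
  the prism homotopies `Shap.hty₁ hty₂` and the identities
  `eq_ι₁_sh₁_sub : f = ι₁ (sh₁ f) - d (hty₁ f)`, `eq_ι₂_sh₂_sub : F = ι₂ (sh₂ F) - d (hty₂ F)` for
  cocycles;
* `Shap.bijective_map₁`, `Shap.bijective_map₂`, `Shap.bijective_invMap`, and the linear
  equivalences `Shap.shapH₁`, `Shap.shapH₂`, `Shap.shapInv`.
-/

set_option autoImplicit false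

universe u

open CategoryTheory groupCohomology

namespace Fermat.Agent.CFT.Shap

section Hmg

variable {k Γ : Type u} [CommRing k] [Group Γ] {A : Rep.{u} k Γ}

/-- homogeneous form of an inhomogeneous `1`-cochain -/
def h₁ (f : Γ → A) (x₀ x₁ : Γ) : A := A.ρ x₀ (f (x₀⁻¹ * x₁))

/-- homogeneous form of an inhomogeneous `2`-cochain -/
def h₂ (F : Γ × Γ → A) (x₀ x₁ x₂ : Γ) : A := A.ρ x₀ (F (x₀⁻¹ * x₁, x₁⁻¹ * x₂))

lemma h₁_smul (f : Γ → A) (γ x₀ x₁ : Γ) :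
    h₁ f (γ * x₀) (γ * x₁) = A.ρ γ (h₁ f x₀ x₁) := by
  simp only [h₁, mul_inv_rev, map_mul, Module.End.mul_apply]
  congr 3
  group

lemma h₂_smul (F : Γ × Γ → A) (γ x₀ x₁ x₂ : Γ) :
    h₂ F (γ * x₀) (γ * x₁) (γ * x₂) = A.ρ γ (h₂ F x₀ x₁ x₂) := by
  simp only [h₂, map_mul, Module.End.mul_apply]
  congr 4 <;> group

@[simp] lemma h₁_one (f : Γ → A) (g : Γ) : h₁ f 1 g = f g := by
  simp [h₁]

@[simp] lemma h₂_one (F : Γ × Γ → A) (g h : Γ) : h₂ F 1 g (g * h) = F (g, h) := by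
  simp [h₂]

lemma h₁_cocycle {f : Γ → A} (hf : f ∈ cocycles₁ A) (x₀ x₁ x₂ : Γ) :
    h₁ f x₀ x₂ = h₁ f x₀ x₁ + h₁ f x₁ x₂ := by
  have h := (mem_cocycles₁_iff f).1 hf (x₀⁻¹ * x₁) (x₁⁻¹ * x₂)
  have e : x₀⁻¹ * x₁ * (x₁⁻¹ * x₂) = x₀⁻¹ * x₂ := by group
  rw [e] at h
  simp only [h₁, h, map_add, ← Module.End.mul_apply, ← map_mul, mul_inv_cancel_left]
  abel

lemma h₂_cocycle {F : Γ × Γ → A} (hF : F ∈ cocycles₂ A) (x₀ x₁ x₂ x₃ : Γ) :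
    h₂ F x₁ x₂ x₃ + h₂ F x₀ x₁ x₃ = h₂ F x₀ x₂ x₃ + h₂ F x₀ x₁ x₂ := by
  have h := (mem_cocycles₂_iff F).1 hF (x₀⁻¹ * x₁) (x₁⁻¹ * x₂) (x₂⁻¹ * x₃)
  have e : x₀⁻¹ * x₁ * (x₁⁻¹ * x₂) = x₀⁻¹ * x₂ := by group
  have e' : x₁⁻¹ * x₂ * (x₂⁻¹ * x₃) = x₁⁻¹ * x₃ := by group
  rw [e, e'] at h
  have h' := congrArg (A.ρ x₀) h
  simp only [map_add, ← Module.End.mul_apply, ← map_mul, mul_inv_cancel_left] at h'
  simp only [h₂]
  exact h'.symm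

lemma h₁_d₀₁ (a : A) (x₀ x₁ : Γ) : h₁ ((d₀₁ A).hom a) x₀ x₁ = A.ρ x₁ a - A.ρ x₀ a := by
  simp only [h₁, d₀₁_hom_apply, map_sub, ← Module.End.mul_apply, ← map_mul, mul_inv_cancel_left]

lemma h₂_d₁₂ (f : Γ → A) (x₀ x₁ x₂ : Γ) :
    h₂ ((d₁₂ A).hom f) x₀ x₁ x₂ = h₁ f x₁ x₂ - h₁ f x₀ x₂ + h₁ f x₀ x₁ := by
  have e : x₀⁻¹ * x₁ * (x₁⁻¹ * x₂) = x₀⁻¹ * x₂ := by group
  simp only [h₂, h₁, d₁₂_hom_apply, map_sub, map_add, ← Module.End.mul_apply, ← map_mul,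
    mul_inv_cancel_left, e]

end Hmg

section Coind

variable {k G : Type u} [CommRing k] [Group G] {S : Subgroup G}

/-- A left-`S`-equivariant retraction `G → S`. -/
structure Retr (S : Subgroup G) where
  /-- the retraction -/
  r : G → S
  r_mul : ∀ (s : S) (g : G), r ((s : G) * g) = s * r g
  r_one : r 1 = 1

namespace Retr

@[simp] lemma r_coe (R : Retr S) (s : S) : R.r (s : G) = s := by
  have := R.r_mul s 1
  rwa [mul_one, R.r_one, mul_one] at this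

lemma r0_mem (S : Subgroup G) (g : G) :
    g * (Quotient.mk (QuotientGroup.rightRel S) g).out⁻¹ ∈ S := by
  have h : (QuotientGroup.rightRel S) (Quotient.mk (QuotientGroup.rightRel S) g).out g :=
    Quotient.mk_out (s := QuotientGroup.rightRel S) g
  exact QuotientGroup.rightRel_apply.1 h

theorem nonempty (S : Subgroup G) : Nonempty (Retr S) := by
  classical
  let r0 : G → S := fun g => ⟨_, r0_mem S g⟩
  have h0 : ∀ (s : S) (g : G), r0 ((s : G) * g) = s * r0 g := by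
    intro s g
    have hq : Quotient.mk (QuotientGroup.rightRel S) ((s : G) * g) =
        Quotient.mk (QuotientGroup.rightRel S) g := by
      apply Quotient.sound
      show (QuotientGroup.rightRel S) ((s : G) * g) g
      rw [QuotientGroup.rightRel_apply]
      have : g * ((s : G) * g)⁻¹ = ((s⁻¹ : S) : G) := by
        rw [Subgroup.coe_inv]; group
      rw [this]
      exact (s⁻¹).2
    apply Subtype.ext
    show (s : G) * g * (Quotient.mk (QuotientGroup.rightRel S) ((s : G) * g)).out⁻¹ =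
      (s : G) * (g * (Quotient.mk (QuotientGroup.rightRel S) g).out⁻¹)
    rw [hq, mul_assoc]
  refine ⟨⟨fun g => r0 g * (r0 1)⁻¹, fun s g => ?_, ?_⟩⟩
  · show r0 ((s : G) * g) * (r0 1)⁻¹ = s * (r0 g * (r0 1)⁻¹)
    rw [h0, mul_assoc]
  · show r0 1 * (r0 1)⁻¹ = 1
    rw [mul_inv_cancel]

end Retr

variable {Y : Rep.{u} k S}

/-! ### `Y`-valued homogeneous forms of `coind Y`-valued cochains -/

/-- `Y`-valued homogeneous form of a `1`-cochain with values in `coind Y`. -/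
def e₁ (f : G → Rep.coind S.subtype Y) (x₀ x₁ : G) : Y := (f (x₀⁻¹ * x₁)).1 x₀

/-- `Y`-valued homogeneous form of a `2`-cochain with values in `coind Y`. -/
def e₂ (F : G × G → Rep.coind S.subtype Y) (x₀ x₁ x₂ : G) : Y :=
  (F (x₀⁻¹ * x₁, x₁⁻¹ * x₂)).1 x₀

lemma e₁_eq (f : G → Rep.coind S.subtype Y) (x₀ x₁ : G) : e₁ f x₀ x₁ = (h₁ f x₀ x₁).1 1 := by
  show _ = (f (x₀⁻¹ * x₁)).1 (1 * x₀)
  rw [one_mul]
  rfl

lemma e₂_eq (F : G × G → Rep.coind S.subtype Y) (x₀ x₁ x₂ : G) :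
    e₂ F x₀ x₁ x₂ = (h₂ F x₀ x₁ x₂).1 1 := by
  show _ = (F (x₀⁻¹ * x₁, x₁⁻¹ * x₂)).1 (1 * x₀)
  rw [one_mul]
  rfl

lemma e₁_mul (f : G → Rep.coind S.subtype Y) (x g : G) : e₁ f x (x * g) = (f g).1 x := by
  simp only [e₁, inv_mul_cancel_left]

lemma e₂_mul (F : G × G → Rep.coind S.subtype Y) (x g h : G) :
    e₂ F x (x * g) (x * g * h) = (F (g, h)).1 x := by
  simp only [e₂, inv_mul_cancel_left]

lemma e₁_one (f : G → Rep.coind S.subtype Y) (g : G) : e₁ f 1 g = (f g).1 1 := by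
  simp only [e₁, inv_one, one_mul]

lemma e₂_one (F : G × G → Rep.coind S.subtype Y) (g h : G) :
    e₂ F 1 g (g * h) = (F (g, h)).1 1 := by
  simp only [e₂, inv_one, one_mul, inv_mul_cancel_left]

lemma e₁_smul (f : G → Rep.coind S.subtype Y) (s : S) (x₀ x₁ : G) :
    e₁ f (s * x₀) (s * x₁) = Y.ρ s (e₁ f x₀ x₁) := by
  have e : ((s : G) * x₀)⁻¹ * ((s : G) * x₁) = x₀⁻¹ * x₁ := by group
  simp only [e₁, e, Cup.coind_apply_mul]

lemma e₂_smul (F : G × G → Rep.coind S.subtype Y) (s : S) (x₀ x₁ x₂ : G) :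
    e₂ F (s * x₀) (s * x₁) (s * x₂) = Y.ρ s (e₂ F x₀ x₁ x₂) := by
  have e : ((s : G) * x₀)⁻¹ * ((s : G) * x₁) = x₀⁻¹ * x₁ := by group
  have e' : ((s : G) * x₁)⁻¹ * ((s : G) * x₂) = x₁⁻¹ * x₂ := by group
  simp only [e₂, e, e', Cup.coind_apply_mul]

lemma ext₁ {f f' : G → Rep.coind S.subtype Y} (h : ∀ x₀ x₁, e₁ f x₀ x₁ = e₁ f' x₀ x₁) :
    f = f' := by
  funext g
  apply Subtype.ext
  funext x
  rw [← e₁_mul, ← e₁_mul, h]

lemma ext₂ {F F' : G × G → Rep.coind S.subtype Y}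
    (h : ∀ x₀ x₁ x₂, e₂ F x₀ x₁ x₂ = e₂ F' x₀ x₁ x₂) : F = F' := by
  funext ⟨g, g'⟩
  apply Subtype.ext
  funext x
  rw [← e₂_mul, ← e₂_mul, h]

lemma e₁_cocycle {f : G → Rep.coind S.subtype Y} (hf : f ∈ cocycles₁ (Rep.coind S.subtype Y))
    (x₀ x₁ x₂ : G) : e₁ f x₀ x₂ = e₁ f x₀ x₁ + e₁ f x₁ x₂ := by
  simp only [e₁_eq]
  rw [h₁_cocycle hf x₀ x₁ x₂]
  rfl

lemma e₂_cocycle {F : G × G → Rep.coind S.subtype Y}
    (hF : F ∈ cocycles₂ (Rep.coind S.subtype Y)) (x₀ x₁ x₂ x₃ : G) :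
    e₂ F x₁ x₂ x₃ + e₂ F x₀ x₁ x₃ = e₂ F x₀ x₂ x₃ + e₂ F x₀ x₁ x₂ := by
  simp only [e₂_eq]
  have := congrArg (fun c : Rep.coind S.subtype Y => c.1 1) (h₂_cocycle hF x₀ x₁ x₂ x₃)
  exact this

lemma e₁_d₀₁ (c : Rep.coind S.subtype Y) (x₀ x₁ : G) :
    e₁ ((d₀₁ (Rep.coind S.subtype Y)).hom c) x₀ x₁ = c.1 x₁ - c.1 x₀ := by
  rw [e₁_eq, h₁_d₀₁]
  show ((Rep.coind S.subtype Y).ρ x₁ c).1 1 - ((Rep.coind S.subtype Y).ρ x₀ c).1 1 = _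
  rw [Cup.coind_ρ_apply, Cup.coind_ρ_apply, one_mul, one_mul]

lemma e₂_d₁₂ (f : G → Rep.coind S.subtype Y) (x₀ x₁ x₂ : G) :
    e₂ ((d₁₂ (Rep.coind S.subtype Y)).hom f) x₀ x₁ x₂ =
      e₁ f x₁ x₂ - e₁ f x₀ x₂ + e₁ f x₀ x₁ := by
  rw [e₂_eq, h₂_d₁₂, e₁_eq, e₁_eq, e₁_eq]
  rfl

/-! ### cochains from homogeneous functions -/

/-- The element of `coind Y` given by an `S`-equivariant function. -/
def mk₀ (ψ : G → Y) (hψ : ∀ (s : S) (x : G), ψ (s * x) = Y.ρ s (ψ x)) :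
    Rep.coind S.subtype Y := ⟨ψ, fun s x => hψ s x⟩

/-- The `1`-cochain with values in `coind Y` given by an `S`-equivariant homogeneous function. -/
def mk₁ (ψ : G → G → Y) (hψ : ∀ (s : S) (x₀ x₁ : G), ψ (s * x₀) (s * x₁) = Y.ρ s (ψ x₀ x₁)) :
    G → Rep.coind S.subtype Y :=
  fun g => ⟨fun x => ψ x (x * g), fun s x => by
    show ψ ((s : G) * x) ((s : G) * x * g) = Y.ρ s (ψ x (x * g))
    rw [mul_assoc, hψ]⟩

/-- The `2`-cochain with values in `coind Y` given by an `S`-equivariant homogeneous function. -/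
def mk₂ (ψ : G → G → G → Y)
    (hψ : ∀ (s : S) (x₀ x₁ x₂ : G), ψ (s * x₀) (s * x₁) (s * x₂) = Y.ρ s (ψ x₀ x₁ x₂)) :
    G × G → Rep.coind S.subtype Y :=
  fun p => ⟨fun x => ψ x (x * p.1) (x * p.1 * p.2), fun s x => by
    show ψ ((s : G) * x) ((s : G) * x * p.1) ((s : G) * x * p.1 * p.2) =
      Y.ρ s (ψ x (x * p.1) (x * p.1 * p.2))
    rw [mul_assoc, mul_assoc, mul_assoc, ← mul_assoc x, hψ]⟩

@[simp] lemma mk₀_coe (ψ : G → Y) (hψ) (x : G) : (mk₀ (S := S) ψ hψ).1 x = ψ x := rfl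

@[simp] lemma e₁_mk₁ (ψ : G → G → Y) (hψ) (x₀ x₁ : G) :
    e₁ (mk₁ (S := S) ψ hψ) x₀ x₁ = ψ x₀ x₁ := by
  show ψ x₀ (x₀ * (x₀⁻¹ * x₁)) = ψ x₀ x₁
  rw [mul_inv_cancel_left]

@[simp] lemma e₂_mk₂ (ψ : G → G → G → Y) (hψ) (x₀ x₁ x₂ : G) :
    e₂ (mk₂ (S := S) ψ hψ) x₀ x₁ x₂ = ψ x₀ x₁ x₂ := by
  show ψ x₀ (x₀ * (x₀⁻¹ * x₁)) (x₀ * (x₀⁻¹ * x₁) * (x₁⁻¹ * x₂)) = ψ x₀ x₁ x₂
  rw [mul_inv_cancel_left, mul_inv_cancel_left]


/-! ### The Shapiro maps on cochains -/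

/-- Shapiro map on `1`-cochains: restrict to `S` and evaluate at `1`. -/
def sh₁ (f : G → Rep.coind S.subtype Y) : S → Y := fun s => (f s).1 1

/-- Shapiro map on `2`-cochains: restrict to `S` and evaluate at `1`. -/
def sh₂ (F : G × G → Rep.coind S.subtype Y) : S × S → Y := fun p => (F (p.1, p.2)).1 1

@[simp] lemma sh₁_apply (f : G → Rep.coind S.subtype Y) (s : S) : sh₁ f s = (f s).1 1 := rfl

@[simp] lemma sh₂_apply (F : G × G → Rep.coind S.subtype Y) (p : S × S) :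
    sh₂ F p = (F (p.1, p.2)).1 1 := rfl

lemma h₁_sh₁ (f : G → Rep.coind S.subtype Y) (s₀ s₁ : S) :
    h₁ (sh₁ f) s₀ s₁ = e₁ f s₀ s₁ := by
  show Y.ρ s₀ ((f ((s₀ : G)⁻¹ * s₁)).1 1) = (f ((s₀ : G)⁻¹ * s₁)).1 s₀
  rw [← Cup.coind_apply_mul, mul_one]

lemma h₂_sh₂ (F : G × G → Rep.coind S.subtype Y) (s₀ s₁ s₂ : S) :
    h₂ (sh₂ F) s₀ s₁ s₂ = e₂ F s₀ s₁ s₂ := by
  show Y.ρ s₀ ((F ((s₀ : G)⁻¹ * s₁, (s₁ : G)⁻¹ * s₂)).1 1) =
    (F ((s₀ : G)⁻¹ * s₁, (s₁ : G)⁻¹ * s₂)).1 s₀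
  rw [← Cup.coind_apply_mul, mul_one]

lemma sh₁_d₀₁ (c : Rep.coind S.subtype Y) :
    sh₁ ((d₀₁ (Rep.coind S.subtype Y)).hom c) = (d₀₁ Y).hom (c.1 1) := by
  funext s
  show ((Rep.coind S.subtype Y).ρ s c).1 1 - c.1 1 = Y.ρ s (c.1 1) - c.1 1
  rw [Cup.coind_ρ_apply, one_mul, ← Cup.coind_apply_mul, mul_one]

lemma sh₂_d₁₂ (f : G → Rep.coind S.subtype Y) :
    sh₂ ((d₁₂ (Rep.coind S.subtype Y)).hom f) = (d₁₂ Y).hom (sh₁ f) := by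
  funext ⟨s, t⟩
  show ((Rep.coind S.subtype Y).ρ s (f t)).1 1 - (f ((s : G) * t)).1 1 + (f s).1 1 =
    Y.ρ s ((f t).1 1) - (f ((s * t : S) : G)).1 1 + (f s).1 1
  rw [Cup.coind_ρ_apply, one_mul, ← Cup.coind_apply_mul, mul_one]
  rfl

/-! ### Sections of the Shapiro maps -/

variable (R : Retr S)

/-- the element `x ↦ r(x) • y` of `coind Y` -/
def ι₀ (y : Y) : Rep.coind S.subtype Y :=
  mk₀ (fun x => Y.ρ (R.r x) y) (fun s x => by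
    rw [R.r_mul, map_mul, Module.End.mul_apply])

/-- section of `sh₁` -/
def ι₁ (f : S → Y) : G → Rep.coind S.subtype Y :=
  mk₁ (fun x₀ x₁ => h₁ f (R.r x₀) (R.r x₁)) (fun s x₀ x₁ => by
    rw [R.r_mul, R.r_mul, h₁_smul])

/-- section of `sh₂` -/
def ι₂ (F : S × S → Y) : G × G → Rep.coind S.subtype Y :=
  mk₂ (fun x₀ x₁ x₂ => h₂ F (R.r x₀) (R.r x₁) (R.r x₂)) (fun s x₀ x₁ x₂ => by
    rw [R.r_mul, R.r_mul, R.r_mul, h₂_smul])

@[simp] lemma ι₀_coe (y : Y) (x : G) : (ι₀ R y).1 x = Y.ρ (R.r x) y := rfl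

@[simp] lemma e₁_ι₁ (f : S → Y) (x₀ x₁ : G) : e₁ (ι₁ R f) x₀ x₁ = h₁ f (R.r x₀) (R.r x₁) :=
  e₁_mk₁ _ _ _ _

@[simp] lemma e₂_ι₂ (F : S × S → Y) (x₀ x₁ x₂ : G) :
    e₂ (ι₂ R F) x₀ x₁ x₂ = h₂ F (R.r x₀) (R.r x₁) (R.r x₂) :=
  e₂_mk₂ _ _ _ _ _

lemma ι₀_one (y : Y) : (ι₀ R y).1 1 = y := by
  rw [ι₀_coe, R.r_one, map_one, Module.End.one_apply]

lemma sh₁_ι₁ (f : S → Y) : sh₁ (ι₁ R f) = f := by
  funext s
  rw [sh₁_apply, ← e₁_one, e₁_ι₁, R.r_one, R.r_coe, h₁_one]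

lemma sh₂_ι₂ (F : S × S → Y) : sh₂ (ι₂ R F) = F := by
  funext ⟨s, t⟩
  rw [sh₂_apply, ← e₂_one, e₂_ι₂, R.r_one, ← Subgroup.coe_mul, R.r_coe, R.r_coe, h₂_one]

/-- `ι` is a cochain map in degree `0 → 1` -/
lemma ι₁_d₀₁ (y : Y) : ι₁ R ((d₀₁ Y).hom y) = (d₀₁ (Rep.coind S.subtype Y)).hom (ι₀ R y) := by
  apply ext₁
  intro x₀ x₁
  rw [e₁_ι₁, h₁_d₀₁, e₁_d₀₁, ι₀_coe, ι₀_coe]

/-- `ι` is a cochain map in degree `1 → 2` -/
lemma ι₂_d₁₂ (f : S → Y) :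
    ι₂ R ((d₁₂ Y).hom f) = (d₁₂ (Rep.coind S.subtype Y)).hom (ι₁ R f) := by
  apply ext₂
  intro x₀ x₁ x₂
  rw [e₂_ι₂, h₂_d₁₂, e₂_d₁₂, e₁_ι₁, e₁_ι₁, e₁_ι₁]

lemma mem_cocycles₁_of_e₁ {f : G → Rep.coind S.subtype Y}
    (h : ∀ x₀ x₁ x₂, e₁ f x₀ x₂ = e₁ f x₀ x₁ + e₁ f x₁ x₂) :
    f ∈ cocycles₁ (Rep.coind S.subtype Y) := by
  rw [mem_cocycles₁_iff]
  intro g g'
  apply Subtype.ext
  funext x
  show (f (g * g')).1 x = ((Rep.coind S.subtype Y).ρ g (f g')).1 x + (f g).1 x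
  rw [Cup.coind_ρ_apply, ← e₁_mul, ← e₁_mul f x g, ← e₁_mul f (x * g) g', ← mul_assoc,
    h x (x * g) (x * g * g'), add_comm]

lemma mem_cocycles₂_of_e₂ {F : G × G → Rep.coind S.subtype Y}
    (h : ∀ x₀ x₁ x₂ x₃, e₂ F x₁ x₂ x₃ + e₂ F x₀ x₁ x₃ = e₂ F x₀ x₂ x₃ + e₂ F x₀ x₁ x₂) :
    F ∈ cocycles₂ (Rep.coind S.subtype Y) := by
  rw [mem_cocycles₂_iff]
  intro g g' g''
  apply Subtype.ext
  funext x
  show (F (g * g', g'')).1 x + (F (g, g')).1 x =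
    ((Rep.coind S.subtype Y).ρ g (F (g', g''))).1 x + (F (g, g' * g'')).1 x
  rw [Cup.coind_ρ_apply, ← e₂_mul, ← e₂_mul F x g g', ← e₂_mul F (x * g) g' g'',
    ← e₂_mul F x g (g' * g'')]
  simp only [← mul_assoc]
  exact (h x (x * g) (x * g * g') (x * g * g' * g'')).symm

lemma ι₁_mem_cocycles₁ {f : S → Y} (hf : f ∈ cocycles₁ Y) :
    ι₁ R f ∈ cocycles₁ (Rep.coind S.subtype Y) :=
  mem_cocycles₁_of_e₁ fun x₀ x₁ x₂ => by
    rw [e₁_ι₁, e₁_ι₁, e₁_ι₁]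
    exact h₁_cocycle hf _ _ _

lemma ι₂_mem_cocycles₂ {F : S × S → Y} (hF : F ∈ cocycles₂ Y) :
    ι₂ R F ∈ cocycles₂ (Rep.coind S.subtype Y) :=
  mem_cocycles₂_of_e₂ fun x₀ x₁ x₂ x₃ => by
    rw [e₂_ι₂, e₂_ι₂, e₂_ι₂, e₂_ι₂]
    exact h₂_cocycle hF _ _ _ _

/-! ### The prism homotopy -/

/-- homotopy `C¹ → C⁰` -/
def hty₁ (f : G → Rep.coind S.subtype Y) : Rep.coind S.subtype Y :=
  mk₀ (fun x => e₁ f x (R.r x)) (fun s x => by
    rw [R.r_mul, Subgroup.coe_mul, e₁_smul])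

/-- homotopy `C² → C¹` -/
def hty₂ (F : G × G → Rep.coind S.subtype Y) : G → Rep.coind S.subtype Y :=
  mk₁ (fun x₀ x₁ => e₂ F x₀ (R.r x₀) (R.r x₁) - e₂ F x₀ x₁ (R.r x₁)) (fun s x₀ x₁ => by
    rw [R.r_mul, R.r_mul, Subgroup.coe_mul, Subgroup.coe_mul, e₂_smul, e₂_smul, map_sub])

@[simp] lemma hty₁_coe (f : G → Rep.coind S.subtype Y) (x : G) :
    (hty₁ R f).1 x = e₁ f x (R.r x) := rfl

@[simp] lemma e₁_hty₂ (F : G × G → Rep.coind S.subtype Y) (x₀ x₁ : G) :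
    e₁ (hty₂ R F) x₀ x₁ = e₂ F x₀ (R.r x₀) (R.r x₁) - e₂ F x₀ x₁ (R.r x₁) :=
  e₁_mk₁ _ _ _ _

/-- A `1`-cocycle with values in `coind Y` is cohomologous to `ι₁ (sh₁ f)`. -/
theorem eq_ι₁_sh₁_sub {f : G → Rep.coind S.subtype Y}
    (hf : f ∈ cocycles₁ (Rep.coind S.subtype Y)) :
    f = ι₁ R (sh₁ f) - (d₀₁ (Rep.coind S.subtype Y)).hom (hty₁ R f) := by
  apply ext₁
  intro x₀ x₁
  have e : e₁ (ι₁ R (sh₁ f) - (d₀₁ (Rep.coind S.subtype Y)).hom (hty₁ R f)) x₀ x₁ =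
      e₁ (ι₁ R (sh₁ f)) x₀ x₁ - e₁ ((d₀₁ (Rep.coind S.subtype Y)).hom (hty₁ R f)) x₀ x₁ := rfl
  rw [e, e₁_ι₁, h₁_sh₁, e₁_d₀₁, hty₁_coe, hty₁_coe]
  have c1 := e₁_cocycle hf x₀ (R.r x₀) (R.r x₁)
  have c2 := e₁_cocycle hf x₀ x₁ (R.r x₁)
  linear_combination (norm := abel) c1 - c2

/-- A `2`-cocycle with values in `coind Y` is cohomologous to `ι₂ (sh₂ F)`. -/
theorem eq_ι₂_sh₂_sub {F : G × G → Rep.coind S.subtype Y}
    (hF : F ∈ cocycles₂ (Rep.coind S.subtype Y)) :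
    F = ι₂ R (sh₂ F) - (d₁₂ (Rep.coind S.subtype Y)).hom (hty₂ R F) := by
  apply ext₂
  intro x₀ x₁ x₂
  have e : e₂ (ι₂ R (sh₂ F) - (d₁₂ (Rep.coind S.subtype Y)).hom (hty₂ R F)) x₀ x₁ x₂ =
      e₂ (ι₂ R (sh₂ F)) x₀ x₁ x₂ -
        e₂ ((d₁₂ (Rep.coind S.subtype Y)).hom (hty₂ R F)) x₀ x₁ x₂ := rfl
  rw [e, e₂_ι₂, h₂_sh₂, e₂_d₁₂, e₁_hty₂, e₁_hty₂, e₁_hty₂]
  have c1 := e₂_cocycle hF x₀ (R.r x₀) (R.r x₁) (R.r x₂)
  have c2 := e₂_cocycle hF x₀ x₁ (R.r x₁) (R.r x₂)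
  have c3 := e₂_cocycle hF x₀ x₁ x₂ (R.r x₂)
  linear_combination (norm := abel) c2 - c1 - c3


/-! ### Shapiro's lemma in degrees `0, 1, 2` in explicit form -/

omit R in
lemma coe_mapCocycles₁ (f : cocycles₁ (Rep.coind S.subtype Y)) :
    ⇑(mapCocycles₁ S.subtype (Cup.ev₁ S Y) f) = sh₁ ⇑f := rfl

omit R in
lemma coe_mapCocycles₂ (F : cocycles₂ (Rep.coind S.subtype Y)) :
    ⇑(mapCocycles₂ S.subtype (Cup.ev₁ S Y) F) = sh₂ ⇑F := rfl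

omit R in
/-- Injectivity of the Shapiro map in degree `1`, cochain form. -/
theorem mem_coboundaries₁_of_sh₁ {f : G → Rep.coind S.subtype Y}
    (hf : f ∈ cocycles₁ (Rep.coind S.subtype Y)) (h : sh₁ f ∈ coboundaries₁ Y) :
    f ∈ coboundaries₁ (Rep.coind S.subtype Y) := by
  obtain ⟨R⟩ := Retr.nonempty S
  obtain ⟨y, hy⟩ := h
  refine ⟨ι₀ R y - hty₁ R f, ?_⟩
  rw [map_sub, ← ι₁_d₀₁, hy]
  exact (eq_ι₁_sh₁_sub R hf).symm

omit R in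
/-- Injectivity of the Shapiro map in degree `2`, cochain form. -/
theorem mem_coboundaries₂_of_sh₂ {F : G × G → Rep.coind S.subtype Y}
    (hF : F ∈ cocycles₂ (Rep.coind S.subtype Y)) (h : sh₂ F ∈ coboundaries₂ Y) :
    F ∈ coboundaries₂ (Rep.coind S.subtype Y) := by
  obtain ⟨R⟩ := Retr.nonempty S
  obtain ⟨y, hy⟩ := h
  refine ⟨ι₁ R y - hty₂ R F, ?_⟩
  rw [map_sub, ← ι₂_d₁₂, hy]
  exact (eq_ι₂_sh₂_sub R hF).symm

variable (S Y) in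
/-- Shapiro's lemma in degree `1`: `H¹(G, coind Y) → H¹(S, Y)` (restriction followed by evaluation
at `1`) is bijective. -/
theorem bijective_map₁ :
    Function.Bijective (groupCohomology.map S.subtype (Cup.ev₁ S Y) 1) := by
  obtain ⟨R⟩ := Retr.nonempty S
  constructor
  · rw [injective_iff_map_eq_zero]
    intro α hα
    induction α using H1_induction_on with | h f =>
    rw [H1π_comp_map_apply, H1π_eq_zero_iff, coe_mapCocycles₁] at hα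
    rw [H1π_eq_zero_iff]
    exact mem_coboundaries₁_of_sh₁ f.2 hα
  · intro β
    induction β using H1_induction_on with | h b =>
    refine ⟨H1π _ ⟨ι₁ R b, ι₁_mem_cocycles₁ R b.2⟩, ?_⟩
    rw [H1π_comp_map_apply]
    congr 1
    apply cocycles₁_ext
    intro s
    rw [coe_mapCocycles₁]
    exact congrFun (sh₁_ι₁ R b) s

variable (S Y) in
/-- Shapiro's lemma in degree `2`: `H²(G, coind Y) → H²(S, Y)` (restriction followed by evaluation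
at `1`) is bijective. -/
theorem bijective_map₂ :
    Function.Bijective (groupCohomology.map S.subtype (Cup.ev₁ S Y) 2) := by
  obtain ⟨R⟩ := Retr.nonempty S
  constructor
  · rw [injective_iff_map_eq_zero]
    intro α hα
    induction α using H2_induction_on with | h f =>
    rw [H2π_comp_map_apply, H2π_eq_zero_iff, coe_mapCocycles₂] at hα
    rw [H2π_eq_zero_iff]
    exact mem_coboundaries₂_of_sh₂ f.2 hα
  · intro β
    induction β using H2_induction_on with | h b =>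
    refine ⟨H2π _ ⟨ι₂ R b, ι₂_mem_cocycles₂ R b.2⟩, ?_⟩
    rw [H2π_comp_map_apply]
    congr 1
    apply cocycles₂_ext
    intro s t
    rw [coe_mapCocycles₂]
    exact congrFun (sh₂_ι₂ R b) (s, t)

variable (S Y) in
/-- Shapiro's lemma in degree `0` (invariants): evaluation at `1` is a bijection
`(coind Y)^G → Y^S`. -/
theorem bijective_invMap :
    Function.Bijective (Cup.invMap S.subtype (Cup.ev₁ S Y)) := by
  constructor
  · rw [injective_iff_map_eq_zero]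
    intro c hc
    have h1 : c.1.1 1 = 0 := congrArg Subtype.val hc
    apply Subtype.ext
    apply Subtype.ext
    funext x
    have h2 : ((Rep.coind S.subtype Y).ρ x c.1).1 1 = c.1.1 1 := by rw [c.2 x]
    rw [Cup.coind_ρ_apply, one_mul] at h2
    rw [h2, h1]
    rfl
  · intro y
    obtain ⟨R⟩ := Retr.nonempty S
    refine ⟨⟨ι₀ R y.1, fun g => ?_⟩, ?_⟩
    · apply Subtype.ext
      funext x
      show Y.ρ (R.r (x * g)) y.1 = Y.ρ (R.r x) y.1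
      rw [y.2, y.2]
    · apply Subtype.ext
      exact ι₀_one R y.1


variable (S Y) in
theorem isIso_map₁ : IsIso (groupCohomology.map S.subtype (Cup.ev₁ S Y) 1) :=
  (ConcreteCategory.isIso_iff_bijective _).2 (bijective_map₁ S Y)

variable (S Y) in
theorem isIso_map₂ : IsIso (groupCohomology.map S.subtype (Cup.ev₁ S Y) 2) :=
  (ConcreteCategory.isIso_iff_bijective _).2 (bijective_map₂ S Y)

variable (S Y) in
/-- Shapiro's isomorphism `H¹(G, coind Y) ≃ H¹(S, Y)`. -/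
noncomputable def shapH₁ : H1 (Rep.coind S.subtype Y) ≃ₗ[k] H1 Y :=
  LinearEquiv.ofBijective (groupCohomology.map S.subtype (Cup.ev₁ S Y) 1).hom (bijective_map₁ S Y)

variable (S Y) in
/-- Shapiro's isomorphism `H²(G, coind Y) ≃ H²(S, Y)`. -/
noncomputable def shapH₂ : H2 (Rep.coind S.subtype Y) ≃ₗ[k] H2 Y :=
  LinearEquiv.ofBijective (groupCohomology.map S.subtype (Cup.ev₁ S Y) 2).hom (bijective_map₂ S Y)

variable (S Y) in
/-- Shapiro's isomorphism `(coind Y)^G ≃ Y^S`. -/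
noncomputable def shapInv : (Rep.coind S.subtype Y).ρ.invariants ≃ₗ[k] Y.ρ.invariants :=
  LinearEquiv.ofBijective (Cup.invMap S.subtype (Cup.ev₁ S Y)) (bijective_invMap S Y)

omit R in
@[simp] lemma shapH₁_apply (α : H1 (Rep.coind S.subtype Y)) :
    shapH₁ S Y α = groupCohomology.map S.subtype (Cup.ev₁ S Y) 1 α := rfl

omit R in
@[simp] lemma shapH₂_apply (α : H2 (Rep.coind S.subtype Y)) :
    shapH₂ S Y α = groupCohomology.map S.subtype (Cup.ev₁ S Y) 2 α := rfl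

omit R in
@[simp] lemma shapInv_apply (c : (Rep.coind S.subtype Y).ρ.invariants) :
    shapInv S Y c = Cup.invMap S.subtype (Cup.ev₁ S Y) c := rfl

end Coind

end Fermat.Agent.CFT.Shap
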