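import Mathlib
import Fermat.Agent.CFT.ShapiroLow

/-!
# Cohomology of a finite product of coinduced modules (Shapiro–Mackey, abstract form)

* `CoindDecomp.map_id_add`, `map_id_sum`: `groupCohomology.map (MonoidHom.id G) · n` is additive;
* `CoindDecomp.bijective_pi_map`: if morphisms `θ i : A ⟶ B i` (finitely many) are jointly
  bijective `A → ∏ᵢ B i`, then `Hⁿ(G, A) → ∏ᵢ Hⁿ(G, B i)` is bijective (all `n`);
* `CoindDecomp.bijective_pi_map_locHom₁/₂`: if `θ i : A ⟶ coind_{S i}^G (Y i)` are jointly
  bijective then `x ↦ (res_{S i} then a ↦ (θ i a) 1)ᵢ : Hⁿ(G, A) → ∏ᵢ Hⁿ(S i, Y i)` is bijective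
  for `n = 1, 2` (explicit Shapiro of `ShapiroLow.lean`).
-/

set_option autoImplicit false
set_option linter.unusedSectionVars false

universe u

open CategoryTheory groupCohomology Rep

namespace Fermat.Agent.CFT.CoindDecomp

variable {k G : Type u} [CommRing k] [Group G]

/-- `groupCohomology.map` is additive in the coefficient morphism. -/
theorem map_id_add {A B : Rep.{u} k G} (φ ψ : A ⟶ B) (n : ℕ) :
    groupCohomology.map (MonoidHom.id G) (φ + ψ) n =
      groupCohomology.map (MonoidHom.id G) φ n + groupCohomology.map (MonoidHom.id G) ψ n := by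
  have h : cochainsMap (MonoidHom.id G) (φ + ψ) =
      cochainsMap (MonoidHom.id G) φ + cochainsMap (MonoidHom.id G) ψ :=
    (cochainsFunctor k G).map_add
  show HomologicalComplex.homologyMap (cochainsMap (MonoidHom.id G) (φ + ψ)) n = _
  rw [h, HomologicalComplex.homologyMap_add]
  rfl

theorem map_id_zero' {A B : Rep.{u} k G} (n : ℕ) :
    groupCohomology.map (MonoidHom.id G) (0 : A ⟶ B) n = 0 := by
  show HomologicalComplex.homologyMap (cochainsMap (MonoidHom.id G) (0 : A ⟶ B)) n = _
  rw [cochainsMap_zero, HomologicalComplex.homologyMap_zero]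
  rfl

theorem map_id_sum {A B : Rep.{u} k G} {ι : Type*} (s : Finset ι) (φ : ι → (A ⟶ B)) (n : ℕ) :
    groupCohomology.map (MonoidHom.id G) (∑ i ∈ s, φ i) n =
      ∑ i ∈ s, groupCohomology.map (MonoidHom.id G) (φ i) n := by
  classical
  induction s using Finset.induction_on with
  | empty => simp [map_id_zero']
  | insert a s ha ih => rw [Finset.sum_insert ha, Finset.sum_insert ha, map_id_add, ih]

section Decomp

variable {ι : Type} [Fintype ι] [DecidableEq ι] {A : Rep.{u} k G} {B : ι → Rep.{u} k G}
  (θ : ∀ i, A ⟶ B i)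

/-- The linear equivalence `A ≃ ∏ᵢ B i` attached to a jointly bijective family. -/
noncomputable def piEquiv (hθ : Function.Bijective fun (a : A) (i : ι) => (θ i).hom a) :
    A.V ≃ₗ[k] (∀ i, (B i).V) :=
  LinearEquiv.ofBijective (LinearMap.pi fun i => (θ i).hom.toLinearMap) hθ

theorem piEquiv_apply (hθ : Function.Bijective fun (a : A) (i : ι) => (θ i).hom a) (a : A)
    (i : ι) : piEquiv θ hθ a i = (θ i).hom a := rfl

theorem piEquiv_ρ (hθ : Function.Bijective fun (a : A) (i : ι) => (θ i).hom a) (g : G)
    (a : A) (i : ι) : piEquiv θ hθ (A.ρ g a) i = (B i).ρ g (piEquiv θ hθ a i) := by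
  rw [piEquiv_apply, piEquiv_apply]
  exact Rep.hom_comm_apply (θ i) g a

/-- The inclusions `B i ⟶ A` of the factors. -/
noncomputable def incl (hθ : Function.Bijective fun (a : A) (i : ι) => (θ i).hom a) (i : ι) :
    B i ⟶ A :=
  Rep.ofHom ⟨(piEquiv θ hθ).symm.toLinearMap ∘ₗ LinearMap.single k (fun j => (B j).V) i, fun g => by
    ext b
    apply (piEquiv θ hθ).injective
    funext j
    show piEquiv θ hθ ((piEquiv θ hθ).symm (Pi.single i ((B i).ρ g b))) j =
      piEquiv θ hθ (A.ρ g ((piEquiv θ hθ).symm (Pi.single i b))) j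
    rw [piEquiv_ρ, LinearEquiv.apply_symm_apply, LinearEquiv.apply_symm_apply]
    by_cases hij : j = i
    · subst hij
      simp
    · simp [Pi.single_eq_of_ne hij]⟩

theorem incl_hom_apply (hθ : Function.Bijective fun (a : A) (i : ι) => (θ i).hom a) (i : ι)
    (b : B i) : (incl θ hθ i).hom b = (piEquiv θ hθ).symm (Pi.single i b) := rfl

theorem incl_comp_same (hθ : Function.Bijective fun (a : A) (i : ι) => (θ i).hom a) (i : ι) :
    incl θ hθ i ≫ θ i = 𝟙 (B i) := by
  apply Rep.hom_ext
  ext b
  show (θ i).hom ((incl θ hθ i).hom b) = b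
  rw [incl_hom_apply, ← piEquiv_apply θ hθ, LinearEquiv.apply_symm_apply, Pi.single_eq_same]

theorem incl_comp_of_ne (hθ : Function.Bijective fun (a : A) (i : ι) => (θ i).hom a) {i j : ι}
    (hij : j ≠ i) : incl θ hθ i ≫ θ j = 0 := by
  apply Rep.hom_ext
  ext b
  show (θ j).hom ((incl θ hθ i).hom b) = 0
  rw [incl_hom_apply, ← piEquiv_apply θ hθ, LinearEquiv.apply_symm_apply,
    Pi.single_eq_of_ne hij]

theorem sum_comp_incl (hθ : Function.Bijective fun (a : A) (i : ι) => (θ i).hom a) :
    ∑ i, θ i ≫ incl θ hθ i = 𝟙 A := by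
  apply Rep.hom_ext
  ext a
  apply (piEquiv θ hθ).injective
  funext j
  show piEquiv θ hθ ((∑ i, θ i ≫ incl θ hθ i).hom a) j = piEquiv θ hθ a j
  rw [Rep.sum_hom, Representation.IntertwiningMap.sum_apply, map_sum, Finset.sum_apply]
  have h : ∀ i, piEquiv θ hθ ((θ i ≫ incl θ hθ i).hom a) j =
      (Pi.single i ((θ i).hom a) : ∀ j, (B j).V) j := by
    intro i
    show piEquiv θ hθ ((incl θ hθ i).hom ((θ i).hom a)) j = _
    rw [incl_hom_apply, LinearEquiv.apply_symm_apply]
  rw [Finset.sum_congr rfl fun i _ => h i, ← Finset.sum_apply, Finset.univ_sum_single]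
  rfl

/-- A family of morphisms `θ i : A ⟶ B i` exhibiting `A` as the product of the `B i` (jointly
bijective on the underlying types) induces a bijection on cohomology
`Hⁿ(G, A) → ∏ᵢ Hⁿ(G, B i)`. -/
theorem bijective_pi_map (hθ : Function.Bijective fun (a : A) (i : ι) => (θ i).hom a) (n : ℕ) :
    Function.Bijective fun (x : groupCohomology A n) (i : ι) =>
      groupCohomology.map (MonoidHom.id G) (θ i) n x := by
  have hcomp : ∀ i j, groupCohomology.map (MonoidHom.id G) (incl θ hθ i) n ≫
      groupCohomology.map (MonoidHom.id G) (θ j) n =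
        groupCohomology.map (MonoidHom.id G) (incl θ hθ i ≫ θ j) n := fun i j =>
    (groupCohomology.map_id_comp _ _ n).symm
  have hsum : ∑ i, groupCohomology.map (MonoidHom.id G) (θ i) n ≫
      groupCohomology.map (MonoidHom.id G) (incl θ hθ i) n = 𝟙 _ := by
    rw [← groupCohomology.map_id (k := k) (G := G) (B := A), ← sum_comp_incl θ hθ, map_id_sum]
    exact Finset.sum_congr rfl fun i _ => (groupCohomology.map_id_comp _ _ n).symm
  constructor
  · intro x y hxy
    have hx : ∀ z : groupCohomology A n, z = ∑ i, groupCohomology.map (MonoidHom.id G) (incl θ hθ i) n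
        (groupCohomology.map (MonoidHom.id G) (θ i) n z) := by
      intro z
      have := congrArg (fun f : groupCohomology A n ⟶ groupCohomology A n => f.hom z) hsum
      simp only [ModuleCat.hom_sum, LinearMap.sum_apply, ModuleCat.hom_comp,
        LinearMap.comp_apply, ModuleCat.hom_id, LinearMap.id_apply] at this
      exact this.symm
    rw [hx x, hx y]
    refine Finset.sum_congr rfl fun i _ => ?_
    have h := congrFun hxy i
    exact congrArg _ h
  · intro y
    refine ⟨∑ i, groupCohomology.map (MonoidHom.id G) (incl θ hθ i) n (y i), ?_⟩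
    funext j
    show groupCohomology.map (MonoidHom.id G) (θ j) n
      (∑ i, groupCohomology.map (MonoidHom.id G) (incl θ hθ i) n (y i)) = y j
    rw [map_sum]
    have h : ∀ i, groupCohomology.map (MonoidHom.id G) (θ j) n
        (groupCohomology.map (MonoidHom.id G) (incl θ hθ i) n (y i)) =
          if i = j then y j else 0 := by
      intro i
      have h1 := congrArg (fun f : groupCohomology (B i) n ⟶ groupCohomology (B j) n => f.hom (y i))
        (hcomp i j)
      simp only [ModuleCat.hom_comp, LinearMap.comp_apply] at h1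
      refine h1.trans ?_
      by_cases hij : i = j
      · subst hij
        rw [if_pos rfl, incl_comp_same, groupCohomology.map_id]
        rfl
      · rw [if_neg hij, incl_comp_of_ne θ hθ (Ne.symm hij), map_id_zero']
        rfl
    rw [Finset.sum_congr rfl fun i _ => h i, Finset.sum_ite_eq' Finset.univ j]
    simp

end Decomp

section Shapiro

variable {ι : Type} [Fintype ι] [DecidableEq ι] {A : Rep.{u} k G} (S : ι → Subgroup G)
  (Y : ∀ i, Rep.{u} k (S i)) (θ : ∀ i, A ⟶ Rep.coind (S i).subtype (Y i))

/-- The localisation morphism `res_{S i} A ⟶ Y i` attached to `θ i : A ⟶ coind (Y i)`: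
`a ↦ (θ i a) 1`. -/
noncomputable abbrev locHom (i : ι) : res (S i).subtype A ⟶ Y i :=
  (resFunctor (S i).subtype).map (θ i) ≫ Cup.ev₁ (S i) (Y i)

theorem map_locHom (i : ι) (n : ℕ) :
    groupCohomology.map (S i).subtype (locHom S Y θ i) n =
      groupCohomology.map (MonoidHom.id G) (θ i) n ≫
        groupCohomology.map (S i).subtype (Cup.ev₁ (S i) (Y i)) n :=
  groupCohomology.map_comp (MonoidHom.id G) (S i).subtype (θ i) (Cup.ev₁ (S i) (Y i)) n

/-- **Shapiro–Mackey**: if the `θ i` exhibit `A` as the product of the coinduced modules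
`coind_{S i}^G (Y i)`, then restriction-evaluation induces a bijection
`Hⁿ(G, A) → ∏ᵢ Hⁿ(S i, Y i)` in every degree in which Shapiro's lemma is available. -/
theorem bijective_pi_map_locHom
    (hθ : Function.Bijective fun (a : A) (i : ι) => (θ i).hom a) (n : ℕ)
    (hS : ∀ i, Function.Bijective
      (groupCohomology.map (S i).subtype (Cup.ev₁ (S i) (Y i)) n)) :
    Function.Bijective fun (x : groupCohomology A n) (i : ι) =>
      groupCohomology.map (S i).subtype (locHom S Y θ i) n x := by
  have h1 := bijective_pi_map θ hθ n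
  have h2 : Function.Bijective fun (y : ∀ i, groupCohomology (Rep.coind (S i).subtype (Y i)) n)
      (i : ι) => groupCohomology.map (S i).subtype (Cup.ev₁ (S i) (Y i)) n (y i) :=
    ⟨fun y y' h => funext fun i => (hS i).1 (congrFun h i),
      fun z => ⟨fun i => ((hS i).2 (z i)).choose, funext fun i => ((hS i).2 (z i)).choose_spec⟩⟩
  have h3 := h2.comp h1
  convert h3 using 2 with x
  funext i
  rw [map_locHom]
  rfl

theorem bijective_pi_map_locHom₁
    (hθ : Function.Bijective fun (a : A) (i : ι) => (θ i).hom a) :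
    Function.Bijective fun (x : groupCohomology A 1) (i : ι) =>
      groupCohomology.map (S i).subtype (locHom S Y θ i) 1 x :=
  bijective_pi_map_locHom S Y θ hθ 1 fun i => Shap.bijective_map₁ (S i) (Y i)

theorem bijective_pi_map_locHom₂
    (hθ : Function.Bijective fun (a : A) (i : ι) => (θ i).hom a) :
    Function.Bijective fun (x : groupCohomology A 2) (i : ι) =>
      groupCohomology.map (S i).subtype (locHom S Y θ i) 2 x :=
  bijective_pi_map_locHom S Y θ hθ 2 fun i => Shap.bijective_map₂ (S i) (Y i)

end Shapiro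

end Fermat.Agent.CFT.CoindDecomp
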