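import Mathlib

set_option autoImplicit false

/-!
# CFT, node A4: Herbrand quotients

Elementary theory of the Herbrand quotient in the generality of an abelian group `A` with two
endomorphisms `D`, `N` such that `D ∘ N = 0 = N ∘ D` (`DNPair A`).  For a finite cyclic group
`⟨σ⟩` of order `n` acting on `A` take `D = σ - 1`, `N = 1 + σ + ⋯ + σ^(n-1)` (`DNPair.ofAut`);
then `H0 = Ĥ⁰ = ker D / im N` and `H1 = Ĥ¹ = Ĥ⁻¹ = ker N / im D`.

Main results:
* the exact hexagon attached to a short exact sequence (`exact_H0_mid`, `exact_H0_right`,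
  `exact_H1_left` and their swapped versions);
* multiplicativity of the Herbrand quotient `herbrand = |H0| / |H1|` (`herbrand_mul`), with the
  "two out of three" finiteness statements;
* finite groups have Herbrand quotient `1` (`herbrand_of_finite`);
* invariance under maps with finite kernel and cokernel (`herbrand_eq_of_finite_ker_coker`);
* induced modules have trivial `H0`, `H1` (`subsingleton_H0_shift`, `subsingleton_H1_shift`);
* `ℤ` with trivial action has Herbrand quotient `n` (`herbrand_int`).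
-/

namespace Fermat.Agent.CFT

/-- An abelian group with two endomorphisms `D`, `N` with `D ∘ N = 0 = N ∘ D`. -/
structure DNPair (A : Type*) [AddCommGroup A] where
  /-- the "difference" endomorphism (`σ - 1` in the cyclic case) -/
  D : A →+ A
  /-- the "norm" endomorphism -/
  N : A →+ A
  D_N : ∀ a, D (N a) = 0
  N_D : ∀ a, N (D a) = 0

namespace DNPair

variable {A B C : Type*} [AddCommGroup A] [AddCommGroup B] [AddCommGroup C]

/-- Exchange the roles of `D` and `N`. -/
def swap (P : DNPair A) : DNPair A := ⟨P.N, P.D, P.N_D, P.D_N⟩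

@[simp] theorem swap_D (P : DNPair A) : P.swap.D = P.N := rfl
@[simp] theorem swap_N (P : DNPair A) : P.swap.N = P.D := rfl
@[simp] theorem swap_swap (P : DNPair A) : P.swap.swap = P := rfl

/-- `Ĥ⁰ = ker D / im N`. -/
abbrev H0 (P : DNPair A) : Type _ := P.D.ker ⧸ (P.N.range.addSubgroupOf P.D.ker)

/-- `Ĥ¹ = ker N / im D`. -/
abbrev H1 (P : DNPair A) : Type _ := P.swap.H0

/-- The class in `Ĥ⁰` of an element killed by `D`. -/
def mk0 (P : DNPair A) (a : A) (ha : P.D a = 0) : P.H0 :=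
  QuotientAddGroup.mk ⟨a, AddMonoidHom.mem_ker.mpr ha⟩

/-- The class in `Ĥ¹` of an element killed by `N`. -/
def mk1 (P : DNPair A) (a : A) (ha : P.N a = 0) : P.H1 := P.swap.mk0 a ha

theorem mk0_surjective (P : DNPair A) (x : P.H0) : ∃ a ha, P.mk0 a ha = x := by
  obtain ⟨⟨a, ha⟩, rfl⟩ := QuotientAddGroup.mk_surjective x
  exact ⟨a, AddMonoidHom.mem_ker.mp ha, rfl⟩

theorem mk1_surjective (P : DNPair A) (x : P.H1) : ∃ a ha, P.mk1 a ha = x :=
  P.swap.mk0_surjective x

theorem mk0_eq_zero_iff (P : DNPair A) {a : A} {ha : P.D a = 0} :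
    P.mk0 a ha = 0 ↔ ∃ b, P.N b = a := by
  rw [mk0, QuotientAddGroup.eq_zero_iff, AddSubgroup.mem_addSubgroupOf]
  exact AddMonoidHom.mem_range

theorem mk1_eq_zero_iff (P : DNPair A) {a : A} {ha : P.N a = 0} :
    P.mk1 a ha = 0 ↔ ∃ b, P.D b = a := P.swap.mk0_eq_zero_iff

theorem mk0_add (P : DNPair A) {a a' : A} (ha : P.D a = 0) (ha' : P.D a' = 0) :
    P.mk0 (a + a') (by rw [map_add, ha, ha', add_zero]) = P.mk0 a ha + P.mk0 a' ha' := rfl

theorem mk0_sub (P : DNPair A) {a a' : A} (ha : P.D a = 0) (ha' : P.D a' = 0) :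
    P.mk0 (a - a') (by rw [map_sub, ha, ha', sub_zero]) = P.mk0 a ha - P.mk0 a' ha' := rfl

theorem mk0_zero (P : DNPair A) : P.mk0 0 (map_zero _) = 0 := rfl

theorem mk0_congr (P : DNPair A) {a a' : A} (h : a = a') (ha : P.D a = 0) :
    P.mk0 a ha = P.mk0 a' (h ▸ ha) := by subst h; rfl

theorem mk0_eq_mk0_iff (P : DNPair A) {a a' : A} {ha : P.D a = 0} {ha' : P.D a' = 0} :
    P.mk0 a ha = P.mk0 a' ha' ↔ ∃ b, P.N b = a - a' := by
  rw [← sub_eq_zero, ← P.mk0_sub ha ha', mk0_eq_zero_iff]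

theorem mk1_add (P : DNPair A) {a a' : A} (ha : P.N a = 0) (ha' : P.N a' = 0) :
    P.mk1 (a + a') (by rw [map_add, ha, ha', add_zero]) = P.mk1 a ha + P.mk1 a' ha' := rfl

theorem mk1_eq_mk1_iff (P : DNPair A) {a a' : A} {ha : P.N a = 0} {ha' : P.N a' = 0} :
    P.mk1 a ha = P.mk1 a' ha' ↔ ∃ b, P.D b = a - a' := P.swap.mk0_eq_mk0_iff

/-! ## Morphisms -/

/-- A homomorphism compatible with `D` and `N`. -/
structure Hom (P : DNPair A) (Q : DNPair B) where
  /-- the underlying additive map -/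
  toFun : A →+ B
  map_D : ∀ a, toFun (P.D a) = Q.D (toFun a)
  map_N : ∀ a, toFun (P.N a) = Q.N (toFun a)

namespace Hom

variable {P : DNPair A} {Q : DNPair B} {R : DNPair C}

/-- The same map, between the swapped pairs. -/
def swap (f : Hom P Q) : Hom P.swap Q.swap := ⟨f.toFun, f.map_N, f.map_D⟩

@[simp] theorem swap_toFun (f : Hom P Q) : f.swap.toFun = f.toFun := rfl

/-- Composition. -/
def comp (g : Hom Q R) (f : Hom P Q) : Hom P R where
  toFun := g.toFun.comp f.toFun
  map_D a := by simp [f.map_D, g.map_D]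
  map_N a := by simp [f.map_N, g.map_N]

/-- The induced map on `ker D`. -/
def kerMap (f : Hom P Q) : P.D.ker →+ Q.D.ker :=
  (f.toFun.comp P.D.ker.subtype).codRestrict Q.D.ker fun x => by
    rw [AddMonoidHom.mem_ker, AddMonoidHom.comp_apply, AddSubgroup.coe_subtype, ← f.map_D,
      AddMonoidHom.mem_ker.mp x.2, map_zero]

/-- The induced map on `Ĥ⁰`. -/
def H0map (f : Hom P Q) : P.H0 →+ Q.H0 :=
  QuotientAddGroup.map _ _ f.kerMap (by
    rintro ⟨x, hx⟩ hxN
    rw [AddSubgroup.mem_addSubgroupOf] at hxN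
    obtain ⟨b, hb⟩ := AddMonoidHom.mem_range.mp hxN
    rw [AddSubgroup.mem_comap, AddSubgroup.mem_addSubgroupOf]
    refine AddMonoidHom.mem_range.mpr ⟨f.toFun b, ?_⟩
    rw [← f.map_N, hb]
    rfl)

/-- The induced map on `Ĥ¹`. -/
def H1map (f : Hom P Q) : P.H1 →+ Q.H1 := f.swap.H0map

theorem H0map_mk0 (f : Hom P Q) (a : A) (ha : P.D a = 0) :
    f.H0map (P.mk0 a ha) = Q.mk0 (f.toFun a) (by rw [← f.map_D, ha, map_zero]) := rfl

theorem H1map_mk1 (f : Hom P Q) (a : A) (ha : P.N a = 0) :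
    f.H1map (P.mk1 a ha) = Q.mk1 (f.toFun a) (by rw [← f.map_N, ha, map_zero]) := rfl

end Hom

/-! ## The exact hexagon -/

/-- A short exact sequence `0 → A → B → C → 0` of `DNPair`s. -/
structure ShortExact {P : DNPair A} {Q : DNPair B} {R : DNPair C} (f : Hom P Q) (g : Hom Q R) :
    Prop where
  inj : Function.Injective f.toFun
  surj : Function.Surjective g.toFun
  exact : ∀ b, g.toFun b = 0 ↔ ∃ a, f.toFun a = b

namespace ShortExact

variable {P : DNPair A} {Q : DNPair B} {R : DNPair C} {f : Hom P Q} {g : Hom Q R}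

theorem swap (h : ShortExact f g) : ShortExact f.swap g.swap := ⟨h.inj, h.surj, h.exact⟩

theorem comp_apply (h : ShortExact f g) (a : A) : g.toFun (f.toFun a) = 0 :=
  (h.exact _).mpr ⟨a, rfl⟩

/-- Exactness of `Ĥ⁰(A) → Ĥ⁰(B) → Ĥ⁰(C)` at the middle. -/
theorem exact_H0_mid (h : ShortExact f g) (x : Q.H0) :
    g.H0map x = 0 ↔ ∃ y, f.H0map y = x := by
  obtain ⟨b, hb, rfl⟩ := Q.mk0_surjective x
  constructor
  · intro hx
    rw [Hom.H0map_mk0, mk0_eq_zero_iff] at hx
    obtain ⟨c, hc⟩ := hx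
    obtain ⟨b', rfl⟩ := h.surj c
    have h1 : g.toFun (b - Q.N b') = 0 := by rw [map_sub, g.map_N, hc, sub_self]
    obtain ⟨a, ha⟩ := (h.exact _).mp h1
    have hDa : P.D a = 0 := by
      apply h.inj
      rw [f.map_D, ha, map_sub, hb, Q.D_N, sub_zero, map_zero]
    refine ⟨P.mk0 a hDa, ?_⟩
    rw [Hom.H0map_mk0, mk0_eq_mk0_iff]
    exact ⟨-b', by rw [map_neg, ha]; abel⟩
  · rintro ⟨y, hy⟩
    obtain ⟨a, ha, rfl⟩ := P.mk0_surjective y
    rw [← hy, Hom.H0map_mk0, Hom.H0map_mk0, mk0_eq_zero_iff]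
    exact ⟨0, by rw [map_zero, h.comp_apply]⟩

/-- Exactness of `Ĥ¹(A) → Ĥ¹(B) → Ĥ¹(C)` at the middle. -/
theorem exact_H1_mid (h : ShortExact f g) (x : Q.H1) :
    g.H1map x = 0 ↔ ∃ y, f.H1map y = x := h.swap.exact_H0_mid x

/-- The relation defining the connecting homomorphism `Ĥ⁰(C) → Ĥ¹(A)`: `x = [g b]`,
`f a = D b`, `y = [a]`. -/
def ConnRel (f : Hom P Q) (g : Hom Q R) (x : R.H0) (y : P.H1) : Prop :=
  ∃ (b : B) (a : A) (hb : R.D (g.toFun b) = 0) (ha : P.N a = 0),
    f.toFun a = Q.D b ∧ R.mk0 (g.toFun b) hb = x ∧ P.mk1 a ha = y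

theorem connRel_exists (h : ShortExact f g) (x : R.H0) : ∃ y, ConnRel f g x y := by
  obtain ⟨c, hc, rfl⟩ := R.mk0_surjective x
  obtain ⟨b, rfl⟩ := h.surj c
  have h1 : g.toFun (Q.D b) = 0 := by rw [g.map_D, hc]
  obtain ⟨a, ha⟩ := (h.exact _).mp h1
  have hNa : P.N a = 0 := by
    apply h.inj
    rw [f.map_N, ha, Q.N_D, map_zero]
  exact ⟨P.mk1 a hNa, b, a, hc, hNa, ha, rfl, rfl⟩

theorem connRel_unique (h : ShortExact f g) {x : R.H0} {y y' : P.H1}
    (hy : ConnRel f g x y) (hy' : ConnRel f g x y') : y = y' := by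
  obtain ⟨b, a, hb, ha, hab, hx, rfl⟩ := hy
  obtain ⟨b', a', hb', ha', hab', hx', rfl⟩ := hy'
  rw [← hx', mk0_eq_mk0_iff] at hx
  obtain ⟨c, hc⟩ := hx
  obtain ⟨b0, rfl⟩ := h.surj c
  have h1 : g.toFun (b - b' - Q.N b0) = 0 := by
    rw [map_sub, map_sub, g.map_N, hc, sub_self]
  obtain ⟨a0, ha0⟩ := (h.exact _).mp h1
  rw [mk1_eq_mk1_iff]
  refine ⟨a0, ?_⟩
  apply h.inj
  rw [f.map_D, ha0, map_sub, map_sub, map_sub, Q.D_N, sub_zero, hab, hab']

theorem connRel_add {x x' : R.H0} {y y' : P.H1}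
    (hy : ConnRel f g x y) (hy' : ConnRel f g x' y') : ConnRel f g (x + x') (y + y') := by
  obtain ⟨b, a, hb, ha, hab, rfl, rfl⟩ := hy
  obtain ⟨b', a', hb', ha', hab', rfl, rfl⟩ := hy'
  refine ⟨b + b', a + a', by rw [map_add, map_add, hb, hb', add_zero],
    by rw [map_add, ha, ha', add_zero], by rw [map_add, map_add, hab, hab'], ?_, ?_⟩
  · rw [← mk0_add]
    exact R.mk0_congr (map_add _ _ _) _
  · rw [← mk1_add]

/-- The connecting homomorphism `Ĥ⁰(C) → Ĥ¹(A)`. -/
noncomputable def conn (h : ShortExact f g) : R.H0 →+ P.H1 :=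
  AddMonoidHom.mk' (fun x => (h.connRel_exists x).choose) fun x x' =>
    h.connRel_unique (h.connRel_exists (x + x')).choose_spec
      (connRel_add (h.connRel_exists x).choose_spec (h.connRel_exists x').choose_spec)

theorem connRel_conn (h : ShortExact f g) (x : R.H0) : ConnRel f g x (h.conn x) :=
  (h.connRel_exists x).choose_spec

theorem conn_eq_iff (h : ShortExact f g) (x : R.H0) (y : P.H1) :
    h.conn x = y ↔ ConnRel f g x y :=
  ⟨fun e => e ▸ h.connRel_conn x, fun hy => h.connRel_unique (h.connRel_conn x) hy⟩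

/-- Exactness of `Ĥ⁰(B) → Ĥ⁰(C) → Ĥ¹(A)`. -/
theorem exact_H0_right (h : ShortExact f g) (x : R.H0) :
    h.conn x = 0 ↔ ∃ y, g.H0map y = x := by
  rw [conn_eq_iff]
  constructor
  · rintro ⟨b, a, hb, ha, hab, rfl, ha0⟩
    rw [mk1_eq_zero_iff] at ha0
    obtain ⟨a0, rfl⟩ := ha0
    have hD : Q.D (b - f.toFun a0) = 0 := by rw [map_sub, ← f.map_D, hab, sub_self]
    refine ⟨Q.mk0 (b - f.toFun a0) hD, ?_⟩
    rw [Hom.H0map_mk0]
    exact R.mk0_congr (by rw [map_sub, h.comp_apply, sub_zero]) _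
  · rintro ⟨y, rfl⟩
    obtain ⟨b, hb, rfl⟩ := Q.mk0_surjective y
    refine ⟨b, 0, by rw [← g.map_D, hb, map_zero], map_zero _, by rw [map_zero, hb], rfl, rfl⟩

/-- Exactness of `Ĥ⁰(C) → Ĥ¹(A) → Ĥ¹(B)`. -/
theorem exact_H1_left (h : ShortExact f g) (y : P.H1) :
    f.H1map y = 0 ↔ ∃ x, h.conn x = y := by
  obtain ⟨a, ha, rfl⟩ := P.mk1_surjective y
  constructor
  · intro hy
    rw [Hom.H1map_mk1, mk1_eq_zero_iff] at hy
    obtain ⟨b, hb⟩ := hy
    have hc : R.D (g.toFun b) = 0 := by rw [← g.map_D, hb, h.comp_apply]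
    refine ⟨R.mk0 (g.toFun b) hc, ?_⟩
    rw [conn_eq_iff]
    exact ⟨b, a, hc, ha, hb.symm, rfl, rfl⟩
  · rintro ⟨x, hx⟩
    rw [conn_eq_iff] at hx
    obtain ⟨b, a', hb, ha', hab, -, hy⟩ := hx
    rw [← hy, Hom.H1map_mk1, mk1_eq_zero_iff]
    exact ⟨b, hab.symm⟩

/-- The connecting homomorphism `Ĥ¹(C) → Ĥ⁰(A)`. -/
noncomputable def conn' (h : ShortExact f g) : R.H1 →+ P.H0 := h.swap.conn

/-- Exactness of `Ĥ¹(B) → Ĥ¹(C) → Ĥ⁰(A)`. -/
theorem exact_H1_right (h : ShortExact f g) (x : R.H1) :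
    h.conn' x = 0 ↔ ∃ y, g.H1map y = x := h.swap.exact_H0_right x

/-- Exactness of `Ĥ¹(C) → Ĥ⁰(A) → Ĥ⁰(B)`. -/
theorem exact_H0_left (h : ShortExact f g) (y : P.H0) :
    f.H0map y = 0 ↔ ∃ x, h.conn' x = y := h.swap.exact_H1_left y

end ShortExact

/-! ## Counting in exact sequences -/

section Counting

variable {X Y Z : Type*} [AddCommGroup X] [AddCommGroup Y] [AddCommGroup Z]

/-- In an exact sequence `X → Y → Z` with `X` and `Z` finite, `Y` is finite. -/
theorem finite_of_exact (φ : X →+ Y) (ψ : Y →+ Z) (hex : ∀ y, ψ y = 0 ↔ ∃ x, φ x = y)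
    [Finite X] [Finite Z] : Finite Y := by
  have hker : ψ.ker = φ.range := by
    ext y
    rw [AddMonoidHom.mem_ker, hex, AddMonoidHom.mem_range]
  have : Finite ψ.ker := by
    rw [hker]
    exact Finite.of_surjective φ.rangeRestrict φ.rangeRestrict_surjective
  have : Finite (Y ⧸ ψ.ker) :=
    Finite.of_injective (QuotientAddGroup.kerLift ψ) (QuotientAddGroup.kerLift_injective ψ)
  exact Finite.of_addSubgroup_quotient ψ.ker

/-- `|Y| = |im φ| * |im ψ|` in an exact sequence `X → Y → Z`. -/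
theorem card_eq_card_range_mul_card_range (φ : X →+ Y) (ψ : Y →+ Z)
    (hex : ∀ y, ψ y = 0 ↔ ∃ x, φ x = y) :
    Nat.card Y = Nat.card φ.range * Nat.card ψ.range := by
  have hker : ψ.ker = φ.range := by
    ext y
    rw [AddMonoidHom.mem_ker, hex, AddMonoidHom.mem_range]
  rw [AddSubgroup.card_eq_card_quotient_mul_card_addSubgroup ψ.ker,
    Nat.card_congr (QuotientAddGroup.quotientKerEquivRange ψ).toEquiv, hker, mul_comm]

/-- The alternating product of the orders in an exact hexagon is `1`. -/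
theorem card_hexagon {X0 X1 X2 X3 X4 X5 : Type*} [AddCommGroup X0] [AddCommGroup X1]
    [AddCommGroup X2] [AddCommGroup X3] [AddCommGroup X4] [AddCommGroup X5]
    (φ0 : X0 →+ X1) (φ1 : X1 →+ X2) (φ2 : X2 →+ X3) (φ3 : X3 →+ X4) (φ4 : X4 →+ X5)
    (φ5 : X5 →+ X0)
    (h1 : ∀ y, φ1 y = 0 ↔ ∃ x, φ0 x = y) (h2 : ∀ y, φ2 y = 0 ↔ ∃ x, φ1 x = y)
    (h3 : ∀ y, φ3 y = 0 ↔ ∃ x, φ2 x = y) (h4 : ∀ y, φ4 y = 0 ↔ ∃ x, φ3 x = y)
    (h5 : ∀ y, φ5 y = 0 ↔ ∃ x, φ4 x = y) (h0 : ∀ y, φ0 y = 0 ↔ ∃ x, φ5 x = y) :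
    Nat.card X0 * Nat.card X2 * Nat.card X4 = Nat.card X1 * Nat.card X3 * Nat.card X5 := by
  rw [card_eq_card_range_mul_card_range φ5 φ0 h0, card_eq_card_range_mul_card_range φ0 φ1 h1,
    card_eq_card_range_mul_card_range φ1 φ2 h2, card_eq_card_range_mul_card_range φ2 φ3 h3,
    card_eq_card_range_mul_card_range φ3 φ4 h4, card_eq_card_range_mul_card_range φ4 φ5 h5]
  ring

end Counting

/-! ## The Herbrand quotient -/

/-- Both `Ĥ⁰` and `Ĥ¹` are finite. -/
def IsHFinite (P : DNPair A) : Prop := Finite P.H0 ∧ Finite P.H1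

/-- The Herbrand quotient `|Ĥ⁰| / |Ĥ¹|` (meaningful when `P.IsHFinite`). -/
noncomputable def herbrand (P : DNPair A) : ℚ := (Nat.card P.H0 : ℚ) / (Nat.card P.H1 : ℚ)

theorem IsHFinite.swap {P : DNPair A} (h : P.IsHFinite) : P.swap.IsHFinite := ⟨h.2, h.1⟩

theorem IsHFinite.card_H0_pos {P : DNPair A} (h : P.IsHFinite) : 0 < Nat.card P.H0 :=
  have := h.1; Nat.card_pos

theorem IsHFinite.card_H1_pos {P : DNPair A} (h : P.IsHFinite) : 0 < Nat.card P.H1 :=
  have := h.2; Nat.card_pos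

theorem IsHFinite.herbrand_pos {P : DNPair A} (h : P.IsHFinite) : 0 < P.herbrand := by
  unfold herbrand
  have h0 := h.card_H0_pos
  have h1 := h.card_H1_pos
  positivity

theorem herbrand_swap (P : DNPair A) : P.swap.herbrand = P.herbrand⁻¹ := by
  unfold herbrand
  rw [inv_div]
  rfl

namespace ShortExact

variable {P : DNPair A} {Q : DNPair B} {R : DNPair C} {f : Hom P Q} {g : Hom Q R}

theorem isHFinite_mid (h : ShortExact f g) (hP : P.IsHFinite) (hR : R.IsHFinite) :
    Q.IsHFinite := by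
  have := hP.1; have := hP.2; have := hR.1; have := hR.2
  exact ⟨finite_of_exact f.H0map g.H0map h.exact_H0_mid,
    finite_of_exact f.H1map g.H1map h.exact_H1_mid⟩

theorem isHFinite_right (h : ShortExact f g) (hP : P.IsHFinite) (hQ : Q.IsHFinite) :
    R.IsHFinite := by
  have := hP.1; have := hP.2; have := hQ.1; have := hQ.2
  exact ⟨finite_of_exact g.H0map h.conn h.exact_H0_right,
    finite_of_exact g.H1map h.conn' h.exact_H1_right⟩

theorem isHFinite_left (h : ShortExact f g) (hQ : Q.IsHFinite) (hR : R.IsHFinite) :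
    P.IsHFinite := by
  have := hQ.1; have := hQ.2; have := hR.1; have := hR.2
  exact ⟨finite_of_exact h.conn' f.H0map h.exact_H0_left,
    finite_of_exact h.conn f.H1map h.exact_H1_left⟩

theorem card_mul (h : ShortExact f g) :
    Nat.card P.H0 * Nat.card R.H0 * Nat.card Q.H1 =
      Nat.card Q.H0 * Nat.card P.H1 * Nat.card R.H1 :=
  card_hexagon f.H0map g.H0map h.conn f.H1map g.H1map h.conn' h.exact_H0_mid h.exact_H0_right
    h.exact_H1_left h.exact_H1_mid h.exact_H1_right h.exact_H0_left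

/-- **Multiplicativity of the Herbrand quotient.** -/
theorem herbrand_mul (h : ShortExact f g) (hP : P.IsHFinite) (hR : R.IsHFinite) :
    Q.herbrand = P.herbrand * R.herbrand := by
  have hQ := h.isHFinite_mid hP hR
  have e := h.card_mul
  unfold herbrand
  have h1 : (Nat.card P.H1 : ℚ) ≠ 0 := by exact_mod_cast hP.card_H1_pos.ne'
  have h2 : (Nat.card Q.H1 : ℚ) ≠ 0 := by exact_mod_cast hQ.card_H1_pos.ne'
  have h3 : (Nat.card R.H1 : ℚ) ≠ 0 := by exact_mod_cast hR.card_H1_pos.ne'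
  have e' : (Nat.card P.H0 : ℚ) * Nat.card R.H0 * Nat.card Q.H1 =
      Nat.card Q.H0 * Nat.card P.H1 * Nat.card R.H1 := by exact_mod_cast e
  field_simp
  linarith

end ShortExact

/-! ## Finite groups have Herbrand quotient `1` -/

section FiniteCase

variable (P : DNPair A)

theorem range_N_le_ker_D : P.N.range ≤ P.D.ker := by
  rintro _ ⟨a, rfl⟩
  exact AddMonoidHom.mem_ker.mpr (P.D_N a)

/-- `|A| = |Ĥ⁰| * |im N| * |im D|`. -/
theorem card_eq_card_H0_mul : Nat.card A = Nat.card P.H0 * Nat.card P.N.range * Nat.card P.D.range := by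
  rw [AddSubgroup.card_eq_card_quotient_mul_card_addSubgroup P.D.ker,
    Nat.card_congr (QuotientAddGroup.quotientKerEquivRange P.D).toEquiv,
    AddSubgroup.card_eq_card_quotient_mul_card_addSubgroup (P.N.range.addSubgroupOf P.D.ker),
    Nat.card_congr (AddSubgroup.addSubgroupOfEquivOfLe P.range_N_le_ker_D).toEquiv]
  ring

theorem isHFinite_of_finite [Finite A] : P.IsHFinite := ⟨inferInstance, inferInstance⟩

theorem card_H0_eq_card_H1_of_finite [Finite A] : Nat.card P.H0 = Nat.card P.H1 := by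
  have h0 := P.card_eq_card_H0_mul
  have h1 := P.swap.card_eq_card_H0_mul
  simp only [swap_D, swap_N] at h1
  have hN : 0 < Nat.card P.N.range := Nat.card_pos
  have hD : 0 < Nat.card P.D.range := Nat.card_pos
  have : Nat.card P.H0 * (Nat.card P.N.range * Nat.card P.D.range) =
      Nat.card P.H1 * (Nat.card P.N.range * Nat.card P.D.range) := by
    rw [← mul_assoc, ← h0, h1]
    ring
  exact Nat.eq_of_mul_eq_mul_right (Nat.mul_pos hN hD) this

/-- A finite module has Herbrand quotient `1`. -/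
theorem herbrand_of_finite [Finite A] : P.herbrand = 1 := by
  unfold herbrand
  rw [P.card_H0_eq_card_H1_of_finite]
  have : (Nat.card P.H1 : ℚ) ≠ 0 := by
    exact_mod_cast (P.isHFinite_of_finite.card_H1_pos).ne'
  exact div_self this

/-- For a finite module, `Ĥ⁰ = 0` implies `Ĥ¹ = 0`. -/
theorem subsingleton_H1_of_subsingleton_H0 [Finite A] [Subsingleton P.H0] :
    Subsingleton P.H1 := by
  have h := P.card_H0_eq_card_H1_of_finite
  rw [Nat.card_unique] at h
  exact (Nat.card_eq_one_iff_unique.mp h.symm).1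

end FiniteCase

/-! ## Sub- and quotient pairs -/

section SubQuot

variable (P : DNPair A) (S : AddSubgroup A) (hD : ∀ a ∈ S, P.D a ∈ S) (hN : ∀ a ∈ S, P.N a ∈ S)

/-- The restriction of a pair to a stable subgroup. -/
def restrict : DNPair S where
  D := (P.D.comp S.subtype).codRestrict S fun a => hD a a.2
  N := (P.N.comp S.subtype).codRestrict S fun a => hN a a.2
  D_N a := Subtype.ext (P.D_N a)
  N_D a := Subtype.ext (P.N_D a)

/-- The pair induced on the quotient by a stable subgroup. -/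
def quotient : DNPair (A ⧸ S) where
  D := QuotientAddGroup.map S S P.D fun a ha => hD a ha
  N := QuotientAddGroup.map S S P.N fun a ha => hN a ha
  D_N x := by
    obtain ⟨a, rfl⟩ := QuotientAddGroup.mk_surjective x
    change ((P.D (P.N a) : A) : A ⧸ S) = 0
    rw [P.D_N]
    rfl
  N_D x := by
    obtain ⟨a, rfl⟩ := QuotientAddGroup.mk_surjective x
    change ((P.N (P.D a) : A) : A ⧸ S) = 0
    rw [P.N_D]
    rfl

/-- The inclusion of a stable subgroup. -/
def restrictHom : Hom (P.restrict S hD hN) P := ⟨S.subtype, fun _ => rfl, fun _ => rfl⟩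

/-- The projection to the quotient by a stable subgroup. -/
def quotientHom : Hom P (P.quotient S hD hN) :=
  ⟨QuotientAddGroup.mk' S, fun _ => rfl, fun _ => rfl⟩

theorem shortExact_restrict_quotient :
    ShortExact (P.restrictHom S hD hN) (P.quotientHom S hD hN) where
  inj := Subtype.val_injective
  surj := QuotientAddGroup.mk_surjective
  exact b := by
    change ((b : A) : A ⧸ S) = 0 ↔ _
    rw [QuotientAddGroup.eq_zero_iff]
    exact ⟨fun hb => ⟨⟨b, hb⟩, rfl⟩, fun ⟨a, ha⟩ => ha ▸ a.2⟩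

/-- A stable subgroup of finite index has the same Herbrand quotient. -/
theorem herbrand_restrict_of_finite_quotient [Finite (A ⧸ S)] (hP : P.IsHFinite) :
    (P.restrict S hD hN).IsHFinite ∧ (P.restrict S hD hN).herbrand = P.herbrand := by
  have hex := P.shortExact_restrict_quotient S hD hN
  have hQ := (P.quotient S hD hN).isHFinite_of_finite
  have hS := hex.isHFinite_left hP hQ
  refine ⟨hS, ?_⟩
  rw [hex.herbrand_mul hS hQ, (P.quotient S hD hN).herbrand_of_finite, mul_one]

theorem isHFinite_of_restrict_of_finite_quotient [Finite (A ⧸ S)]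
    (hS : (P.restrict S hD hN).IsHFinite) : P.IsHFinite :=
  (P.shortExact_restrict_quotient S hD hN).isHFinite_mid hS
    (P.quotient S hD hN).isHFinite_of_finite

/-- The quotient by a finite stable subgroup has the same Herbrand quotient. -/
theorem herbrand_quotient_of_finite [Finite S] (hP : P.IsHFinite) :
    (P.quotient S hD hN).IsHFinite ∧ (P.quotient S hD hN).herbrand = P.herbrand := by
  have hex := P.shortExact_restrict_quotient S hD hN
  have hS := (P.restrict S hD hN).isHFinite_of_finite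
  have hQ := hex.isHFinite_right hS hP
  refine ⟨hQ, ?_⟩
  rw [hex.herbrand_mul hS hQ, (P.restrict S hD hN).herbrand_of_finite, one_mul]

theorem isHFinite_of_quotient_of_finite [Finite S]
    (hQ : (P.quotient S hD hN).IsHFinite) : P.IsHFinite :=
  (P.shortExact_restrict_quotient S hD hN).isHFinite_mid
    (P.restrict S hD hN).isHFinite_of_finite hQ

end SubQuot

/-! ## Maps with finite kernel and cokernel -/

section FiniteKerCoker

variable {P : DNPair A} {Q : DNPair B} (f : Hom P Q)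

theorem Hom.D_mem_ker (a : A) (ha : a ∈ f.toFun.ker) : P.D a ∈ f.toFun.ker := by
  rw [AddMonoidHom.mem_ker] at ha ⊢
  rw [f.map_D, ha, map_zero]

theorem Hom.N_mem_ker (a : A) (ha : a ∈ f.toFun.ker) : P.N a ∈ f.toFun.ker := by
  rw [AddMonoidHom.mem_ker] at ha ⊢
  rw [f.map_N, ha, map_zero]

theorem Hom.D_mem_range (b : B) (hb : b ∈ f.toFun.range) : Q.D b ∈ f.toFun.range := by
  obtain ⟨a, rfl⟩ := hb
  exact ⟨P.D a, f.map_D a⟩

theorem Hom.N_mem_range (b : B) (hb : b ∈ f.toFun.range) : Q.N b ∈ f.toFun.range := by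
  obtain ⟨a, rfl⟩ := hb
  exact ⟨P.N a, f.map_N a⟩

/-- `f`, with codomain restricted to its range. -/
def Hom.rangeRestrict : Hom P (Q.restrict f.toFun.range f.D_mem_range f.N_mem_range) :=
  ⟨f.toFun.rangeRestrict, fun a => Subtype.ext (f.map_D a), fun a => Subtype.ext (f.map_N a)⟩

theorem shortExact_ker_range :
    ShortExact (P.restrictHom f.toFun.ker f.D_mem_ker f.N_mem_ker) f.rangeRestrict where
  inj := Subtype.val_injective
  surj := f.toFun.rangeRestrict_surjective
  exact a := by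
    change f.toFun.rangeRestrict a = 0 ↔ _
    rw [← AddMonoidHom.mem_ker, AddMonoidHom.ker_rangeRestrict]
    exact ⟨fun ha => ⟨⟨a, ha⟩, rfl⟩, fun ⟨a', ha'⟩ => ha' ▸ a'.2⟩

/-- **Invariance of the Herbrand quotient** under maps with finite kernel and cokernel. -/
theorem herbrand_eq_of_finite_ker_coker [Finite f.toFun.ker] [Finite (B ⧸ f.toFun.range)] :
    (P.IsHFinite ↔ Q.IsHFinite) ∧ (P.IsHFinite → P.herbrand = Q.herbrand) := by
  have hex1 := shortExact_ker_range f
  have hK := (P.restrict f.toFun.ker f.D_mem_ker f.N_mem_ker).isHFinite_of_finite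
  have key : ∀ hP : P.IsHFinite, Q.IsHFinite ∧ P.herbrand = Q.herbrand := by
    intro hP
    have hR := hex1.isHFinite_right hK hP
    have e1 := hex1.herbrand_mul hK hR
    rw [(P.restrict f.toFun.ker f.D_mem_ker f.N_mem_ker).herbrand_of_finite, one_mul] at e1
    have hQ := Q.isHFinite_of_restrict_of_finite_quotient f.toFun.range f.D_mem_range
      f.N_mem_range hR
    have e2 := Q.herbrand_restrict_of_finite_quotient f.toFun.range f.D_mem_range
      f.N_mem_range hQ
    exact ⟨hQ, by rw [e1, e2.2]⟩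
  refine ⟨⟨fun hP => (key hP).1, fun hQ => ?_⟩, fun hP => (key hP).2⟩
  have hR := (Q.herbrand_restrict_of_finite_quotient f.toFun.range f.D_mem_range
    f.N_mem_range hQ).1
  exact hex1.isHFinite_mid hK hR

end FiniteKerCoker

/-! ## Products -/

section Prod

variable (P : DNPair A) (Q : DNPair B)

/-- The product of two pairs. -/
def prod : DNPair (A × B) where
  D := P.D.prodMap Q.D
  N := P.N.prodMap Q.N
  D_N x := by
    ext
    · exact P.D_N x.1
    · exact Q.D_N x.2
  N_D x := by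
    ext
    · exact P.N_D x.1
    · exact Q.N_D x.2

/-- The first inclusion. -/
def prodInl : Hom P (P.prod Q) where
  toFun := AddMonoidHom.inl A B
  map_D a := by
    ext
    · rfl
    · exact (map_zero Q.D).symm
  map_N a := by
    ext
    · rfl
    · exact (map_zero Q.N).symm

/-- The second projection. -/
def prodSnd : Hom (P.prod Q) Q := ⟨AddMonoidHom.snd A B, fun _ => rfl, fun _ => rfl⟩

theorem shortExact_prod : ShortExact (P.prodInl Q) (P.prodSnd Q) where
  inj := fun a a' h => congrArg Prod.fst h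
  surj := fun b => ⟨(0, b), rfl⟩
  exact x := by
    constructor
    · intro hx
      exact ⟨x.1, Prod.ext rfl (Eq.symm hx)⟩
    · rintro ⟨a, rfl⟩
      rfl

theorem isHFinite_prod (hP : P.IsHFinite) (hQ : Q.IsHFinite) : (P.prod Q).IsHFinite :=
  (P.shortExact_prod Q).isHFinite_mid hP hQ

theorem herbrand_prod (hP : P.IsHFinite) (hQ : Q.IsHFinite) :
    (P.prod Q).herbrand = P.herbrand * Q.herbrand :=
  (P.shortExact_prod Q).herbrand_mul hP hQ

end Prod

/-! ## Isomorphisms -/

section Iso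

variable {P : DNPair A} {Q : DNPair B} (f : Hom P Q)

theorem herbrand_eq_of_bijective (hf : Function.Bijective f.toFun) :
    (P.IsHFinite ↔ Q.IsHFinite) ∧ (P.IsHFinite → P.herbrand = Q.herbrand) := by
  have : Finite f.toFun.ker := by
    have : f.toFun.ker = ⊥ := (AddMonoidHom.ker_eq_bot_iff _).mpr hf.1
    rw [this]
    infer_instance
  have : Finite (B ⧸ f.toFun.range) := by
    have : f.toFun.range = ⊤ := AddMonoidHom.range_eq_top.mpr hf.2
    rw [this]
    infer_instance
  exact herbrand_eq_of_finite_ker_coker f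

end Iso

/-! ## The cyclic case -/

section Cyclic

/-- The pair `(σ - 1, 1 + σ + ⋯ + σ^(n-1))` attached to an endomorphism `σ` with `σ ^ n = 1`:
Tate cohomology of the cyclic group `⟨σ⟩` of order `n`. -/
def ofEnd (σ : AddMonoid.End A) (n : ℕ) (hσ : σ ^ n = 1) : DNPair A where
  D := (σ - 1 : AddMonoid.End A)
  N := (∑ k ∈ Finset.range n, σ ^ k : AddMonoid.End A)
  D_N a := by
    have h : (σ - 1) * ∑ k ∈ Finset.range n, σ ^ k = 0 := by rw [mul_geom_sum, hσ, sub_self]
    exact DFunLike.congr_fun h a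
  N_D a := by
    have h : (∑ k ∈ Finset.range n, σ ^ k) * (σ - 1) = 0 := by rw [geom_sum_mul, hσ, sub_self]
    exact DFunLike.congr_fun h a

theorem ofEnd_D_apply (σ : AddMonoid.End A) (n : ℕ) (hσ : σ ^ n = 1) (a : A) :
    (ofEnd σ n hσ).D a = σ a - a := rfl

theorem end_sum_apply {ι : Type*} (t : Finset ι) (φ : ι → AddMonoid.End A) (a : A) :
    (∑ k ∈ t, φ k) a = ∑ k ∈ t, φ k a := by
  classical
  induction t using Finset.induction_on with
  | empty => simp
  | insert i t hi ih =>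
    rw [Finset.sum_insert hi, Finset.sum_insert hi, ← ih]
    rfl

theorem ofEnd_N_apply (σ : AddMonoid.End A) (n : ℕ) (hσ : σ ^ n = 1) (a : A) :
    (ofEnd σ n hσ).N a = ∑ k ∈ Finset.range n, (σ ^ k) a :=
  end_sum_apply _ _ a

/-- The pair for the trivial action of a cyclic group of order `n`: `D = 0`, `N = n`. -/
def ofTrivial (A : Type*) [AddCommGroup A] (n : ℕ) : DNPair A where
  D := 0
  N := nsmulAddMonoidHom n
  D_N _ := rfl
  N_D _ := by simp

theorem ofEnd_one (n : ℕ) : ofEnd (1 : AddMonoid.End A) n (one_pow n) = ofTrivial A n := by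
  have hD : (ofEnd (1 : AddMonoid.End A) n (one_pow n)).D = (ofTrivial A n).D := by
    ext a
    rw [ofEnd_D_apply]
    simp [ofTrivial]
  have hN : (ofEnd (1 : AddMonoid.End A) n (one_pow n)).N = (ofTrivial A n).N := by
    ext a
    rw [ofEnd_N_apply]
    simp [ofTrivial]
  cases h1 : ofEnd (1 : AddMonoid.End A) n (one_pow n)
  cases h2 : ofTrivial A n
  simp only [h1, h2] at hD hN
  subst hD hN
  rfl

/-- `ℤ` with trivial action of a cyclic group of order `n ≥ 1`: `Ĥ⁰ = ℤ/n`, `Ĥ¹ = 0`. -/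
theorem card_H0_ofTrivial_int (n : ℕ) : Nat.card (ofTrivial ℤ n).H0 = n := by
  have hker : (ofTrivial ℤ n).D.ker = ⊤ := by
    ext a
    simp [ofTrivial]
  have hrange : (ofTrivial ℤ n).N.range = AddSubgroup.zmultiples (n : ℤ) := by
    ext a
    rw [AddMonoidHom.mem_range, AddSubgroup.mem_zmultiples_iff]
    constructor
    · rintro ⟨b, rfl⟩
      exact ⟨b, by simp [ofTrivial, mul_comm]⟩
    · rintro ⟨b, rfl⟩
      exact ⟨b, by simp [ofTrivial, mul_comm]⟩
  change Nat.card ((ofTrivial ℤ n).D.ker ⧸ ((ofTrivial ℤ n).N.range.addSubgroupOf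
    (ofTrivial ℤ n).D.ker)) = n
  rw [← AddSubgroup.index_eq_card, ← AddSubgroup.relIndex, hker, AddSubgroup.relIndex_top_right,
    hrange, Int.index_zmultiples]
  simp

theorem subsingleton_H1_ofTrivial_int (n : ℕ) (hn : n ≠ 0) :
    Subsingleton (ofTrivial ℤ n).H1 := by
  have hker : (ofTrivial ℤ n).N.ker = ⊥ := by
    ext a
    simp [ofTrivial, hn]
  have : Subsingleton (ofTrivial ℤ n).swap.D.ker := by
    change Subsingleton (ofTrivial ℤ n).N.ker
    rw [hker]
    infer_instance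
  exact (QuotientAddGroup.mk_surjective (s := (ofTrivial ℤ n).swap.N.range.addSubgroupOf
    (ofTrivial ℤ n).swap.D.ker)).subsingleton

theorem isHFinite_ofTrivial_int (n : ℕ) (hn : n ≠ 0) : (ofTrivial ℤ n).IsHFinite := by
  have := subsingleton_H1_ofTrivial_int n hn
  refine ⟨?_, inferInstance⟩
  apply Nat.finite_of_card_ne_zero
  rw [card_H0_ofTrivial_int]
  exact hn

/-- The Herbrand quotient of `ℤ` with trivial action of a cyclic group of order `n`. -/
theorem herbrand_int (n : ℕ) (hn : n ≠ 0) : (ofTrivial ℤ n).herbrand = n := by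
  have := subsingleton_H1_ofTrivial_int n hn
  unfold herbrand
  rw [card_H0_ofTrivial_int, Nat.card_unique]
  simp

end Cyclic

/-! ## Transport of triviality along isomorphisms -/

section Transport

variable {P : DNPair A} {Q : DNPair B} (f : Hom P Q)

theorem H0map_injective_of_bijective (hf : Function.Bijective f.toFun) :
    Function.Injective f.H0map := by
  rw [injective_iff_map_eq_zero]
  intro x hx
  obtain ⟨a, ha, rfl⟩ := P.mk0_surjective x
  rw [Hom.H0map_mk0, mk0_eq_zero_iff] at hx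
  obtain ⟨b, hb⟩ := hx
  obtain ⟨a', rfl⟩ := hf.2 b
  rw [mk0_eq_zero_iff]
  exact ⟨a', hf.1 (by rw [f.map_N, hb])⟩

theorem subsingleton_H0_of_bijective (hf : Function.Bijective f.toFun) [Subsingleton Q.H0] :
    Subsingleton P.H0 :=
  (H0map_injective_of_bijective f hf).subsingleton

theorem subsingleton_H1_of_bijective (hf : Function.Bijective f.toFun) [Subsingleton Q.H1] :
    Subsingleton P.H1 :=
  (H0map_injective_of_bijective f.swap hf).subsingleton

end Transport

/-! ## Complete filtrations -/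

section Filtration

open Finset

/-- **Successive approximation.** Let `F` be a decreasing, `N`-stable, separated and complete
filtration of `A` by subgroups with `F 0 = ⊤`, such that every `D`-closed element of `F i` is a
norm from `F i` modulo `F (i+1)`.  Then `Ĥ⁰ = 0`. -/
theorem subsingleton_H0_of_filtration (P : DNPair A) (F : ℕ → AddSubgroup A) (hF0 : F 0 = ⊤)
    (hN : ∀ i, ∀ a ∈ F i, P.N a ∈ F i)
    (hsep : ∀ a, (∀ i, a ∈ F i) → a = 0)
    (hcomplete : ∀ y : ℕ → A, (∀ i, y i ∈ F i) → ∃ s, ∀ i, s - ∑ j ∈ range i, y j ∈ F i)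
    (hgr : ∀ i, ∀ x ∈ F i, P.D x = 0 → ∃ y ∈ F i, x - P.N y ∈ F (i + 1)) :
    Subsingleton P.H0 := by
  refine ⟨fun u v => ?_⟩
  suffices h : ∀ u : P.H0, u = 0 by rw [h u, h v]
  intro u
  obtain ⟨x, hx, rfl⟩ := P.mk0_surjective u
  rw [mk0_eq_zero_iff]
  -- choice of the approximating sequence
  choose! Y hY1 hY2 using hgr
  -- `X i` : the remainders
  let X : ℕ → A := fun i => Nat.rec x (fun i xi => xi - P.N (Y i xi)) i
  have hX0 : X 0 = x := rfl
  have hXs : ∀ i, X (i + 1) = X i - P.N (Y i (X i)) := fun i => rfl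
  have hXprop : ∀ i, X i ∈ F i ∧ P.D (X i) = 0 := by
    intro i
    induction i with
    | zero => exact ⟨by rw [hF0]; trivial, hx⟩
    | succ i ih =>
      refine ⟨?_, ?_⟩
      · rw [hXs]
        exact hY2 i (X i) ih.1 ih.2
      · rw [hXs, map_sub, ih.2, P.D_N, sub_zero]
  let y : ℕ → A := fun i => Y i (X i)
  have hy : ∀ i, y i ∈ F i := fun i => hY1 i (X i) (hXprop i).1 (hXprop i).2
  obtain ⟨s, hs⟩ := hcomplete y hy
  refine ⟨s, ?_⟩
  have hXsum : ∀ i, X i = x - P.N (∑ j ∈ range i, y j) := by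
    intro i
    induction i with
    | zero => simp [hX0]
    | succ i ih =>
      have e1 : X (i + 1) = X i - P.N (y i) := hXs i
      rw [e1, ih, sum_range_succ, map_add]
      abel
  have hdiff : ∀ i, x - P.N s ∈ F i := by
    intro i
    have e : x - P.N s = X i - P.N (s - ∑ j ∈ range i, y j) := by
      rw [hXsum i, map_sub]
      abel
    rw [e]
    exact (F i).sub_mem (hXprop i).1 (hN i _ (hs i))
  exact (sub_eq_zero.mp (hsep _ hdiff)).symm

/-- The same for `Ĥ¹`. -/
theorem subsingleton_H1_of_filtration (P : DNPair A) (F : ℕ → AddSubgroup A) (hF0 : F 0 = ⊤)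
    (hD : ∀ i, ∀ a ∈ F i, P.D a ∈ F i)
    (hsep : ∀ a, (∀ i, a ∈ F i) → a = 0)
    (hcomplete : ∀ y : ℕ → A, (∀ i, y i ∈ F i) → ∃ s, ∀ i, s - ∑ j ∈ range i, y j ∈ F i)
    (hgr : ∀ i, ∀ x ∈ F i, P.N x = 0 → ∃ y ∈ F i, x - P.D y ∈ F (i + 1)) :
    Subsingleton P.H1 :=
  subsingleton_H0_of_filtration P.swap F hF0 hD hsep hcomplete hgr

end Filtration

/-! ## Induced modules -/

section Shift

variable (n : ℕ) [NeZero n] (X : Type*) [AddCommGroup X]

/-- The shift `(σ f) i = f (i - 1)` on `ZMod n → X`: the module induced from the trivial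
subgroup of a cyclic group of order `n`. -/
def shiftEnd : AddMonoid.End (ZMod n → X) where
  toFun f i := f (i - 1)
  map_zero' := rfl
  map_add' _ _ := rfl

omit [NeZero n] in
theorem shiftEnd_apply (f : ZMod n → X) (i : ZMod n) : shiftEnd n X f i = f (i - 1) := rfl

omit [NeZero n] in
theorem shiftEnd_pow_apply (k : ℕ) (f : ZMod n → X) (i : ZMod n) :
    (shiftEnd n X ^ k) f i = f (i - k) := by
  induction k generalizing f with
  | zero => simp
  | succ k ih =>
    rw [pow_succ]
    change (shiftEnd n X ^ k) (shiftEnd n X f) i = _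
    rw [ih, shiftEnd_apply]
    congr 1
    push_cast
    ring

omit [NeZero n] in
theorem shiftEnd_pow_self : shiftEnd n X ^ n = 1 := by
  ext f i
  rw [shiftEnd_pow_apply]
  simp

/-- The induced module as a `DNPair`. -/
def shift : DNPair (ZMod n → X) := ofEnd (shiftEnd n X) n (shiftEnd_pow_self n X)

theorem shift_D_apply (f : ZMod n → X) (i : ZMod n) :
    (shift n X).D f i = f (i - 1) - f i := rfl

theorem shift_N_apply (f : ZMod n → X) (i : ZMod n) :
    (shift n X).N f i = ∑ j : ZMod n, f j := by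
  unfold shift
  rw [ofEnd_N_apply, Finset.sum_apply]
  simp only [shiftEnd_pow_apply]
  refine Finset.sum_nbij (fun k => i - (k : ZMod n)) (fun _ _ => Finset.mem_univ _) ?_ ?_
    (fun _ _ => rfl)
  · intro a ha b hb hab
    simp only [Finset.coe_range, Set.mem_Iio] at ha hb
    have h1 : (a : ZMod n) = b := by simpa using hab
    rw [ZMod.natCast_eq_natCast_iff'] at h1
    rwa [Nat.mod_eq_of_lt ha, Nat.mod_eq_of_lt hb] at h1
  · intro j _
    refine ⟨(i - j).val, ?_, ?_⟩
    · simp [ZMod.val_lt]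
    · simp

/-- Induced modules have trivial `Ĥ⁰`. -/
theorem subsingleton_H0_shift : Subsingleton (shift n X).H0 := by
  refine ⟨fun u v => ?_⟩
  suffices h : ∀ u : (shift n X).H0, u = 0 by rw [h u, h v]
  intro u
  obtain ⟨f, hf, rfl⟩ := (shift n X).mk0_surjective u
  rw [mk0_eq_zero_iff]
  have hf' : ∀ i, f (i - 1) = f i := by
    intro i
    have := congrFun hf i
    rw [shift_D_apply] at this
    exact sub_eq_zero.mp this
  have hconst : ∀ k : ℕ, f (k : ZMod n) = f 0 := by
    intro k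
    induction k with
    | zero => simp
    | succ k ih =>
      have := hf' ((k + 1 : ℕ) : ZMod n)
      rw [← ih, ← this]
      congr 1
      push_cast
      ring
  refine ⟨Pi.single 0 (f 0), ?_⟩
  ext i
  rw [shift_N_apply, Finset.sum_pi_single']
  simp only [Finset.mem_univ, if_true]
  rw [← hconst i.val, ZMod.natCast_zmod_val]

/-- Finite induced modules have trivial `Ĥ¹`. -/
theorem subsingleton_H1_shift_of_finite [Finite X] : Subsingleton (shift n X).H1 := by
  have := subsingleton_H0_shift n X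
  exact (shift n X).subsingleton_H1_of_subsingleton_H0

end Shift

end DNPair

end Fermat.Agent.CFT
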