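import Fermat.Agent.CFT.CoindDecomp
import Fermat.Agent.CFT.Global.RestrictedCohRep

/-!
# Shapiro–Mackey for sub-representations, and cocycle forms for stable subgroups

* `CoindDecomp.subTheta`, `CoindDecomp.subTheta_bijective`: if `θ i : A ⟶ coind_{S i}^G (Y i)` are
  jointly bijective and `W ≤ A`, `V i ≤ Y i` are stable submodules with
  `a ∈ W ↔ ∀ i g, (θ i a) g ∈ V i`, then the `θ i` restrict to jointly bijective morphisms
  `W ⟶ coind_{S i}^G (V i)`;
* `subRep S hS`: the sub-representation of `Rep.ofMulDistribMulAction G M` attached to a stable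
  subgroup `S ≤ M`;
* `h1TrivialOn_of_subsingleton_H1_subRep`, `h2TrivialOn_of_subsingleton_H2_subRep`: the cocycle
  statements `H1TrivialOn G S`, `H2TrivialOn G S` from the vanishing of `Hⁿ(G, S)`.
-/

set_option autoImplicit false
set_option linter.unusedSectionVars false

universe u

open CategoryTheory groupCohomology Rep

namespace Fermat.Agent.CFT.CoindDecomp

section Sub

variable {k G : Type u} [CommRing k] [Group G]
  {ι : Type} {A : Rep.{u} k G} (S : ι → Subgroup G)
  (Y : ∀ i, Rep.{u} k (S i)) (θ : ∀ i, A ⟶ Rep.coind (S i).subtype (Y i))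
  (W : Submodule k A) (hW : ∀ g, W ≤ W.comap (A.ρ g))
  (V : ∀ i, Submodule k (Y i)) (hV : ∀ (i : ι) (s : S i), V i ≤ (V i).comap ((Y i).ρ s))
  (hWV : ∀ a : A, a ∈ W → ∀ (i : ι) (g : G), ((θ i).hom a).1 g ∈ V i)

/-- The restriction of `θ i : A ⟶ coind (Y i)` to stable submodules `W ≤ A`, `V i ≤ Y i`. -/
noncomputable def subTheta (i : ι) :
    A.subrepresentation W hW ⟶
      Rep.coind (S i).subtype ((Y i).subrepresentation (V i) (hV i)) :=
  Rep.ofHom
    ⟨{ toFun := fun a => ⟨fun g => ⟨((θ i).hom a.1).1 g, hWV a.1 a.2 i g⟩, by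
          intro s g
          apply Subtype.ext
          exact ((θ i).hom a.1).2 s g⟩
       map_add' := fun a b => by
          apply Subtype.ext
          funext g
          apply Subtype.ext
          show ((θ i).hom (a.1 + b.1)).1 g = ((θ i).hom a.1).1 g + ((θ i).hom b.1).1 g
          rw [map_add]
          rfl
       map_smul' := fun c a => by
          apply Subtype.ext
          funext g
          apply Subtype.ext
          show ((θ i).hom (c • a.1)).1 g = c • ((θ i).hom a.1).1 g
          rw [map_smul]
          rfl },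
      fun g => by
        apply LinearMap.ext
        intro a
        apply Subtype.ext
        funext h
        apply Subtype.ext
        show ((θ i).hom (A.ρ g a.1)).1 h = ((θ i).hom a.1).1 (h * g)
        have := Rep.hom_comm_apply (θ i) g a.1
        rw [this]
        rfl⟩

theorem subTheta_hom_apply_coe (i : ι) (a : A.subrepresentation W hW) (g : G) :
    ((((subTheta S Y θ W hW V hV hWV i).hom a).1 g : (Y i).subrepresentation (V i) (hV i)) : Y i) =
      ((θ i).hom a.1).1 g := rfl

/-- The restricted morphisms are jointly bijective. -/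
theorem subTheta_bijective (hθ : Function.Bijective fun (a : A) (i : ι) => (θ i).hom a)
    (hVW : ∀ a : A, (∀ (i : ι) (g : G), ((θ i).hom a).1 g ∈ V i) → a ∈ W) :
    Function.Bijective fun (a : A.subrepresentation W hW) (i : ι) =>
      (subTheta S Y θ W hW V hV hWV i).hom a := by
  constructor
  · intro a b hab
    apply Subtype.ext
    apply hθ.1
    funext i
    apply Subtype.ext
    funext g
    have h1 := congrFun hab i
    have h2 := congrArg (fun F : Rep.coind (S i).subtype ((Y i).subrepresentation (V i) (hV i)) =>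
      ((F.1 g : (Y i).subrepresentation (V i) (hV i)) : Y i)) h1
    exact h2
  · intro F
    obtain ⟨a, ha⟩ := hθ.2 fun i =>
      (⟨fun g => (((F i).1 g : (Y i).subrepresentation (V i) (hV i)) : Y i), fun s g =>
        congrArg Subtype.val ((F i).2 s g)⟩ : Rep.coind (S i).subtype (Y i))
    have ha' : ∀ (i : ι) (g : G), ((θ i).hom a).1 g =
        (((F i).1 g : (Y i).subrepresentation (V i) (hV i)) : Y i) := fun i g => by
      have := congrFun ha i
      exact congrArg (fun F' : Rep.coind (S i).subtype (Y i) => F'.1 g) this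
    have haW : a ∈ W := hVW a fun i g => by
      rw [ha' i g]
      exact ((F i).1 g).2
    refine ⟨⟨a, haW⟩, ?_⟩
    funext i
    apply Subtype.ext
    funext g
    apply Subtype.ext
    exact ha' i g

end Sub

end Fermat.Agent.CFT.CoindDecomp

namespace Fermat.Agent.CFT

section SubRep

variable {G M : Type} [Group G] [CommGroup M] [MulDistribMulAction G M]

/-- The submodule of `Additive M` attached to a subgroup of `M`. -/
def subgroupIntSubmodule (S : Subgroup M) :
    Submodule ℤ (Rep.ofMulDistribMulAction G M) :=
  (AddSubgroup.toIntSubmodule (Subgroup.toAddSubgroup S : AddSubgroup (Additive M)) :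
    Submodule ℤ (Additive M))

theorem mem_subgroupIntSubmodule {S : Subgroup M} {x : Rep.ofMulDistribMulAction G M} :
    x ∈ subgroupIntSubmodule (G := G) S ↔ Additive.toMul (x : Additive M) ∈ S := Iff.rfl

theorem subgroupIntSubmodule_le_comap {S : Subgroup M} (hS : SmulStable G S) (g : G) :
    subgroupIntSubmodule (G := G) S ≤
      (subgroupIntSubmodule (G := G) S).comap ((Rep.ofMulDistribMulAction G M).ρ g) :=
  fun _ hx => hS g _ hx

/-- The sub-representation of `Rep.ofMulDistribMulAction G M` attached to a stable subgroup. -/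
noncomputable abbrev subRep (S : Subgroup M) (hS : SmulStable G S) : Rep ℤ G :=
  (Rep.ofMulDistribMulAction G M).subrepresentation (subgroupIntSubmodule S)
    (subgroupIntSubmodule_le_comap hS)

/-- `H1TrivialOn G S` from `H¹(G, S) = 0`. -/
theorem h1TrivialOn_of_subsingleton_H1_subRep (S : Subgroup M) (hS : SmulStable G S)
    (h : Subsingleton (groupCohomology.H1 (subRep S hS))) : H1TrivialOn G S := by
  intro f hfS hf
  let fB : G → subRep S hS := fun g => ⟨Additive.ofMul (f g), hfS g⟩
  have hfB : fB ∈ cocycles₁ (subRep S hS) := by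
    rw [mem_cocycles₁_iff]
    intro a b
    apply Subtype.ext
    exact congrArg Additive.ofMul (hf a b)
  have h0 : (H1π (subRep S hS)).hom ⟨fB, hfB⟩ = 0 := Subsingleton.elim _ _
  rw [H1π_eq_zero_iff] at h0
  obtain ⟨x, hx⟩ := h0
  refine ⟨Additive.toMul (x.1 : Additive M), x.2, fun g => ?_⟩
  have h1 := congrFun hx g
  rw [d₀₁_hom_apply] at h1
  have h2 := congrArg (fun y : subRep S hS => Additive.toMul (y.1 : Additive M)) h1
  exact h2

/-- `H2TrivialOn G S` from `H²(G, S) = 0`. -/
theorem h2TrivialOn_of_subsingleton_H2_subRep (S : Subgroup M) (hS : SmulStable G S)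
    (h : Subsingleton (groupCohomology.H2 (subRep S hS))) : H2TrivialOn G S := by
  intro f hfS hf
  let fB : G × G → subRep S hS := fun p => ⟨Additive.ofMul (f p), hfS p⟩
  have hfB : fB ∈ cocycles₂ (subRep S hS) := by
    rw [mem_cocycles₂_iff]
    intro a b c
    apply Subtype.ext
    exact congrArg Additive.ofMul (hf a b c)
  have h0 : (H2π (subRep S hS)).hom ⟨fB, hfB⟩ = 0 := Subsingleton.elim _ _
  rw [H2π_eq_zero_iff] at h0
  obtain ⟨x, hx⟩ := h0
  refine ⟨fun g => Additive.toMul ((x g).1 : Additive M), fun g => (x g).2, fun g h => ?_⟩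
  have h1 := congrFun hx (g, h)
  rw [d₁₂_hom_apply] at h1
  have h2 := congrArg (fun y : subRep S hS => Additive.toMul (y.1 : Additive M)) h1
  exact h2

end SubRep

end Fermat.Agent.CFT
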