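import Mathlib
import Fermat.Agent.CFT.CupLow

/-!
# Cup products in low degrees: compatibility with the connecting homomorphisms

For short exact sequences `X`, `Y` of representations and compatible pairings
`X.Xᵢ × B → Y.Xᵢ` (resp. `A × X.Xᵢ → Y.Xᵢ`) we prove, in total degree `≤ 2`,

* `δ(z ∪ β) = δ(z) ∪ β` (`δ_cupH₀₁_left`), `δ(ζ ∪ b) = δ(ζ) ∪ b` (`δ_cupH₁₀_left`),
* `δ(a ∪ ζ) = a ∪ δ(ζ)` (`δ_cupH₀₁_right`), `δ(α ∪ z) = - α ∪ δ(z)` (`δ_cupH₁₀_right`),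

where `δ` is Mathlib's connecting homomorphism `groupCohomology.δ`.
-/

set_option autoImplicit false

universe u

open CategoryTheory groupCohomology

namespace Fermat.Agent.CFT

variable {k G : Type u} [CommRing k] [Group G]

/-! ### Compatibility with the connecting homomorphisms -/

section Delta

open Cup

namespace Cup

lemma exists_of_g_eq_zero {X : ShortComplex (Rep.{u} k G)} (hX : X.ShortExact) (y : X.X₂)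
    (hy : X.g.hom y = 0) : ∃ x : X.X₁, X.f.hom x = y := by
  have h := (hX.exact.map (forget₂ (Rep k G) (ModuleCat k)))
  rw [ShortComplex.moduleCat_exact_iff] at h
  exact h y hy

lemma g_surjective_of_shortExact {X : ShortComplex (Rep.{u} k G)} (hX : X.ShortExact) :
    Function.Surjective X.g.hom := (Rep.epi_iff_surjective X.g).1 hX.3

end Cup

variable {X Y : ShortComplex (Rep.{u} k G)} (hX : X.ShortExact) (hY : Y.ShortExact)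

namespace RepPairing

section Left

variable {B : Rep.{u} k G} (φ₁ : RepPairing X.X₁ B Y.X₁) (φ₂ : RepPairing X.X₂ B Y.X₂)
  (φ₃ : RepPairing X.X₃ B Y.X₃)

include hX hY in
/-- `δ(z ∪ β) = δ(z) ∪ β` for `z ∈ H⁰(X₃)`, `β ∈ H¹(B)`. -/
theorem δ_cupH₀₁_left
    (h₁₂ : ∀ a b, φ₂.toLin (X.f.hom a) b = Y.f.hom (φ₁.toLin a b))
    (h₂₃ : ∀ a b, φ₃.toLin (X.g.hom a) b = Y.g.hom (φ₂.toLin a b))
    (z : X.X₃.ρ.invariants) (β : H1 B) :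
    δ hY 1 2 rfl (φ₃.cupH₀₁ z β) = φ₁.cupH₁₁ (δ hX 0 1 rfl ((H0Iso X.X₃).inv z)) β := by
  induction β using H1_induction_on with | h b =>
  obtain ⟨y, hy⟩ := g_surjective_of_shortExact hX z.1
  have hx : ∀ γ : G, ∃ x : X.X₁, X.f.hom x = X.X₂.ρ γ y - y := by
    intro γ
    apply exists_of_g_eq_zero hX
    rw [map_sub, Rep.hom_comm_apply, hy, z.2 γ, sub_self]
  choose x hx using hx
  have hx' : X.f.hom ∘ x = d₀₁ X.X₂ y := by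
    funext γ
    simp [hx γ]
  rw [δ₀_apply hX z y hy x hx']
  have e1 : φ₃.cupH₀₁ z (H1π B b) = H1π Y.X₃ (φ₃.cupCocycles₀₁ z b) := φ₃.cupH₀₁_π z b
  have e2 : φ₁.cupH₁₁ (H1π X.X₁ ⟨x, mem_cocycles₁_of_comp_eq_d₀₁ hX hx'⟩) (H1π B b) =
      H2π Y.X₁ (φ₁.cupCocycles₁₁ ⟨x, mem_cocycles₁_of_comp_eq_d₀₁ hX hx'⟩ b) :=
    φ₁.cupH₁₁_π _ b
  rw [e1, e2]
  have hy' : Y.g.hom ∘ (φ₂.cup₀₁ y b) = (φ₃.cupCocycles₀₁ z b : G → Y.X₃) := by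
    funext γ
    simp [← h₂₃, hy]
  have hxx : Y.f.hom ∘ (φ₁.cup₁₁ x b) = d₁₂ Y.X₂ (φ₂.cup₀₁ y b) := by
    have hb : (d₁₂ B).hom b = 0 := b.2
    have : (d₁₂ Y.X₂).hom (φ₂.cup₀₁ y b) = _ := φ₂.d₁₂_cup₀₁ y b
    rw [hb, map_zero, add_zero] at this
    refine Eq.trans ?_ this.symm
    funext p
    simp only [Function.comp_apply, cup₁₁_apply, ← h₁₂, hx, d₀₁_hom_apply]
  rw [δ₁_apply hY (φ₃.cupCocycles₀₁ z b) (φ₂.cup₀₁ y b) hy' (φ₁.cup₁₁ x b) hxx]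
  rfl

include hX hY in
/-- `δ(ζ ∪ b) = δ(ζ) ∪ b` for `ζ ∈ H¹(X₃)`, `b ∈ H⁰(B)`. -/
theorem δ_cupH₁₀_left
    (h₁₂ : ∀ a b, φ₂.toLin (X.f.hom a) b = Y.f.hom (φ₁.toLin a b))
    (h₂₃ : ∀ a b, φ₃.toLin (X.g.hom a) b = Y.g.hom (φ₂.toLin a b))
    (ζ : H1 X.X₃) (b : B.ρ.invariants) :
    δ hY 1 2 rfl (φ₃.cupH₁₀ ζ b) = φ₁.cupH₂₀ (δ hX 1 2 rfl ζ) b := by
  induction ζ using H1_induction_on with | h z =>
  have hy : ∀ γ : G, ∃ y : X.X₂, X.g.hom y = z γ := fun γ => g_surjective_of_shortExact hX _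
  choose y hy using hy
  have hy' : X.g.hom ∘ y = z := funext hy
  have hx : ∀ p : G × G, ∃ x : X.X₁, X.f.hom x = (d₁₂ X.X₂).hom y p := by
    intro p
    apply exists_of_g_eq_zero hX
    have hz := (mem_cocycles₁_def z).1 z.2 p.1 p.2
    simp only [d₁₂_hom_apply, map_add, map_sub, Rep.hom_comm_apply, hy]
    exact hz
  choose x hx using hx
  have hx' : X.f.hom ∘ x = d₁₂ X.X₂ y := funext hx
  rw [δ₁_apply hX z y hy' x hx']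
  have e1 : φ₃.cupH₁₀ (H1π X.X₃ z) b = H1π Y.X₃ (φ₃.cupCocycles₁₀ z b) := φ₃.cupH₁₀_π z b
  have e2 : φ₁.cupH₂₀ (H2π X.X₁ ⟨x, mem_cocycles₂_of_comp_eq_d₁₂ hX hx'⟩) b =
      H2π Y.X₁ (φ₁.cupCocycles₂₀ ⟨x, mem_cocycles₂_of_comp_eq_d₁₂ hX hx'⟩ b) :=
    φ₁.cupH₂₀_π _ b
  rw [e1, e2]
  have hyy : Y.g.hom ∘ (φ₂.cup₁₀ y b.1) = (φ₃.cupCocycles₁₀ z b : G → Y.X₃) := by
    funext γ
    simp [← h₂₃, hy]
  have hxx : Y.f.hom ∘ (φ₁.cup₂₀ x b.1) = d₁₂ Y.X₂ (φ₂.cup₁₀ y b.1) := by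
    have hb : (d₀₁ B).hom b.1 = 0 := by
      funext g
      simp only [d₀₁_hom_apply, b.2 g, sub_self]
      rfl
    have : (d₁₂ Y.X₂).hom (φ₂.cup₁₀ y b.1) = _ := φ₂.d₁₂_cup₁₀ y b.1
    rw [hb, map_zero, sub_zero] at this
    refine Eq.trans ?_ this.symm
    funext p
    simp only [Function.comp_apply, cup₂₀_apply, ← h₁₂, hx]
  rw [δ₁_apply hY (φ₃.cupCocycles₁₀ z b) (φ₂.cup₁₀ y b.1) hyy (φ₁.cup₂₀ x b.1) hxx]
  rfl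

end Left

section Right

variable {A : Rep.{u} k G} (φ₁ : RepPairing A X.X₁ Y.X₁) (φ₂ : RepPairing A X.X₂ Y.X₂)
  (φ₃ : RepPairing A X.X₃ Y.X₃)

include hX hY in
/-- `δ(a ∪ ζ) = a ∪ δ(ζ)` for `a ∈ H⁰(A)`, `ζ ∈ H¹(X₃)`. -/
theorem δ_cupH₀₁_right
    (h₁₂ : ∀ a b, φ₂.toLin a (X.f.hom b) = Y.f.hom (φ₁.toLin a b))
    (h₂₃ : ∀ a b, φ₃.toLin a (X.g.hom b) = Y.g.hom (φ₂.toLin a b))
    (a : A.ρ.invariants) (ζ : H1 X.X₃) :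
    δ hY 1 2 rfl (φ₃.cupH₀₁ a ζ) = φ₁.cupH₀₂ a (δ hX 1 2 rfl ζ) := by
  induction ζ using H1_induction_on with | h z =>
  have hy : ∀ γ : G, ∃ y : X.X₂, X.g.hom y = z γ := fun γ => g_surjective_of_shortExact hX _
  choose y hy using hy
  have hy' : X.g.hom ∘ y = z := funext hy
  have hx : ∀ p : G × G, ∃ x : X.X₁, X.f.hom x = (d₁₂ X.X₂).hom y p := by
    intro p
    apply exists_of_g_eq_zero hX
    have hz := (mem_cocycles₁_def z).1 z.2 p.1 p.2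
    simp only [d₁₂_hom_apply, map_add, map_sub, Rep.hom_comm_apply, hy]
    exact hz
  choose x hx using hx
  have hx' : X.f.hom ∘ x = d₁₂ X.X₂ y := funext hx
  rw [δ₁_apply hX z y hy' x hx']
  have e1 : φ₃.cupH₀₁ a (H1π X.X₃ z) = H1π Y.X₃ (φ₃.cupCocycles₀₁ a z) := φ₃.cupH₀₁_π a z
  have e2 : φ₁.cupH₀₂ a (H2π X.X₁ ⟨x, mem_cocycles₂_of_comp_eq_d₁₂ hX hx'⟩) =
      H2π Y.X₁ (φ₁.cupCocycles₀₂ a ⟨x, mem_cocycles₂_of_comp_eq_d₁₂ hX hx'⟩) :=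
    φ₁.cupH₀₂_π a _
  rw [e1, e2]
  have hyy : Y.g.hom ∘ (φ₂.cup₀₁ a.1 y) = (φ₃.cupCocycles₀₁ a z : G → Y.X₃) := by
    funext γ
    simp [← h₂₃, hy]
  have hxx : Y.f.hom ∘ (φ₁.cup₀₂ a.1 x) = d₁₂ Y.X₂ (φ₂.cup₀₁ a.1 y) := by
    have ha : (d₀₁ A).hom a.1 = 0 := by
      funext g
      simp only [d₀₁_hom_apply, a.2 g, sub_self]
      rfl
    have : (d₁₂ Y.X₂).hom (φ₂.cup₀₁ a.1 y) = _ := φ₂.d₁₂_cup₀₁ a.1 y
    rw [ha, map_zero, LinearMap.zero_apply, zero_add] at this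
    refine Eq.trans ?_ this.symm
    funext p
    simp only [Function.comp_apply, cup₀₂_apply, ← h₁₂, hx]
  rw [δ₁_apply hY (φ₃.cupCocycles₀₁ a z) (φ₂.cup₀₁ a.1 y) hyy (φ₁.cup₀₂ a.1 x) hxx]
  rfl

include hX hY in
/-- `δ(α ∪ z) = - α ∪ δ(z)` for `α ∈ H¹(A)`, `z ∈ H⁰(X₃)`. -/
theorem δ_cupH₁₀_right
    (h₁₂ : ∀ a b, φ₂.toLin a (X.f.hom b) = Y.f.hom (φ₁.toLin a b))
    (h₂₃ : ∀ a b, φ₃.toLin a (X.g.hom b) = Y.g.hom (φ₂.toLin a b))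
    (α : H1 A) (z : X.X₃.ρ.invariants) :
    δ hY 1 2 rfl (φ₃.cupH₁₀ α z) = - φ₁.cupH₁₁ α (δ hX 0 1 rfl ((H0Iso X.X₃).inv z)) := by
  induction α using H1_induction_on with | h a =>
  obtain ⟨y, hy⟩ := g_surjective_of_shortExact hX z.1
  have hx : ∀ γ : G, ∃ x : X.X₁, X.f.hom x = X.X₂.ρ γ y - y := by
    intro γ
    apply exists_of_g_eq_zero hX
    rw [map_sub, Rep.hom_comm_apply, hy, z.2 γ, sub_self]
  choose x hx using hx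
  have hx' : X.f.hom ∘ x = d₀₁ X.X₂ y := by
    funext γ
    simp [hx γ]
  rw [δ₀_apply hX z y hy x hx']
  have e1 : φ₃.cupH₁₀ (H1π A a) z = H1π Y.X₃ (φ₃.cupCocycles₁₀ a z) := φ₃.cupH₁₀_π a z
  have e2 : φ₁.cupH₁₁ (H1π A a) (H1π X.X₁ ⟨x, mem_cocycles₁_of_comp_eq_d₀₁ hX hx'⟩) =
      H2π Y.X₁ (φ₁.cupCocycles₁₁ a ⟨x, mem_cocycles₁_of_comp_eq_d₀₁ hX hx'⟩) :=
    φ₁.cupH₁₁_π a _
  rw [e1, e2]
  have hyy : Y.g.hom ∘ (φ₂.cup₁₀ a y) = (φ₃.cupCocycles₁₀ a z : G → Y.X₃) := by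
    funext γ
    simp only [Function.comp_apply, cup₁₀_apply, ← h₂₃, coe_cupCocycles₁₀, Rep.hom_comm_apply, hy]
  have hxx : Y.f.hom ∘ (-(φ₁.cup₁₁ a x)) = d₁₂ Y.X₂ (φ₂.cup₁₀ a y) := by
    have ha : (d₁₂ A).hom a = 0 := a.2
    have : (d₁₂ Y.X₂).hom (φ₂.cup₁₀ a y) = _ := φ₂.d₁₂_cup₁₀ a y
    rw [ha, map_zero, LinearMap.zero_apply, zero_sub] at this
    refine Eq.trans ?_ this.symm
    funext p
    simp only [Function.comp_apply, Pi.neg_apply, cup₁₁_apply, map_neg, ← h₁₂, hx,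
      d₀₁_hom_apply, Rep.hom_comm_apply]
  rw [δ₁_apply hY (φ₃.cupCocycles₁₀ a z) (φ₂.cup₁₀ a y) hyy (-(φ₁.cup₁₁ a x)) hxx]
  have e3 : (⟨-(φ₁.cup₁₁ a x), mem_cocycles₂_of_comp_eq_d₁₂ hY hxx⟩ : cocycles₂ Y.X₁) =
      -(φ₁.cupCocycles₁₁ a ⟨x, mem_cocycles₁_of_comp_eq_d₀₁ hX hx'⟩) := rfl
  rw [e3, map_neg]

end Right

end RepPairing

end Delta

end Fermat.Agent.CFT
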