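import Mathlib
import Fermat.Agent.CFT.CupLow
import Fermat.Agent.CFT.CupLowDelta

/-!
# Cup products in low degrees: adjointness properties

* `cupH₁₁_adjoint` etc.: if `ψ : A × B → C`, `χ : A' × B' → C` are pairings and `u : A' ⟶ A`,
  `v : B ⟶ B'` satisfy `ψ (u a') b = χ a' (v b)` then `ψ (u_* α') ∪ β = χ α' ∪ (v_* β)`.
* `δ_cupH₁₁_adj`, `δ_cupH₂₀_adj`: for two short exact sequences `X`, `Y` and pairings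
  `X₁ × Y₃ → D`, `X₂ × Y₂ → D`, `X₃ × Y₁ → D` which are adjoint with respect to the maps of the
  sequences (the situation of `Hom(-, D)` applied to a short exact sequence), the connecting
  homomorphisms are adjoint up to sign:
  `δ(a) ∪ β = - a ∪ δ(β)` for `a ∈ H⁰(X₃)`, `β ∈ H¹(Y₃)` and
  `δ(α) ∪ b = α ∪ δ(b)` for `α ∈ H¹(X₃)`, `b ∈ H⁰(Y₃)`.
-/

set_option autoImplicit false

universe u

open CategoryTheory groupCohomology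

namespace Fermat.Agent.CFT

variable {k G : Type u} [CommRing k] [Group G]

open Cup

namespace RepPairing

section Adjoint

variable {A A' B B' C : Rep.{u} k G} (ψ : RepPairing A B C) (χ : RepPairing A' B' C)
  (u : A' ⟶ A) (v : B ⟶ B')

theorem cupH₁₁_adjoint (h : ∀ a' b, ψ.toLin (u.hom a') b = χ.toLin a' (v.hom b))
    (α' : H1 A') (β : H1 B) :
    ψ.cupH₁₁ (map (MonoidHom.id G) u 1 α') β = χ.cupH₁₁ α' (map (MonoidHom.id G) v 1 β) := by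
  induction α' using H1_induction_on with | h a =>
  induction β using H1_induction_on with | h b =>
  rw [H1π_comp_map_apply, H1π_comp_map_apply]
  have e1 : ψ.cupH₁₁ (H1π A (mapCocycles₁ (MonoidHom.id G) u a)) (H1π B b) =
      H2π C (ψ.cupCocycles₁₁ (mapCocycles₁ (MonoidHom.id G) u a) b) := ψ.cupH₁₁_π _ _
  have e2 : χ.cupH₁₁ (H1π A' a) (H1π B' (mapCocycles₁ (MonoidHom.id G) v b)) =
      H2π C (χ.cupCocycles₁₁ a (mapCocycles₁ (MonoidHom.id G) v b)) := χ.cupH₁₁_π _ _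
  rw [e1, e2]
  congr 1
  apply cocycles₂_ext
  intro g g'
  show ψ.toLin (u.hom (a g)) (B.ρ g (b g')) = χ.toLin (a g) (B'.ρ g (v.hom (b g')))
  rw [h, Rep.hom_comm_apply]

end Adjoint

section DeltaAdj

variable {X Y : ShortComplex (Rep.{u} k G)} (hX : X.ShortExact) (hY : Y.ShortExact)
  {D : Rep.{u} k G} (φ₁₃ : RepPairing X.X₁ Y.X₃ D) (φ₂₂ : RepPairing X.X₂ Y.X₂ D)
  (φ₃₁ : RepPairing X.X₃ Y.X₁ D)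

include hX hY in
/-- `δ(a) ∪ β = - a ∪ δ(β)` for `a ∈ H⁰(X₃)`, `β ∈ H¹(Y₃)`. -/
theorem δ_cupH₁₁_adj
    (h₁ : ∀ x₁ y₂, φ₂₂.toLin (X.f.hom x₁) y₂ = φ₁₃.toLin x₁ (Y.g.hom y₂))
    (h₂ : ∀ x₂ y₁, φ₃₁.toLin (X.g.hom x₂) y₁ = φ₂₂.toLin x₂ (Y.f.hom y₁))
    (a : X.X₃.ρ.invariants) (β : H1 Y.X₃) :
    φ₁₃.cupH₁₁ (δ hX 0 1 rfl ((H0Iso X.X₃).inv a)) β = - φ₃₁.cupH₀₂ a (δ hY 1 2 rfl β) := by
  induction β using H1_induction_on with | h b =>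
  -- lift `a`
  obtain ⟨x₂, hx₂⟩ := g_surjective_of_shortExact hX a.1
  have hx : ∀ γ : G, ∃ x : X.X₁, X.f.hom x = X.X₂.ρ γ x₂ - x₂ := by
    intro γ
    apply exists_of_g_eq_zero hX
    rw [map_sub, Rep.hom_comm_apply, hx₂, a.2 γ, sub_self]
  choose x₁ hx₁ using hx
  have hx₁' : X.f.hom ∘ x₁ = d₀₁ X.X₂ x₂ := by
    funext γ
    simp [hx₁ γ]
  -- lift `b`
  have hy : ∀ γ : G, ∃ y : Y.X₂, Y.g.hom y = b γ := fun γ => g_surjective_of_shortExact hY _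
  choose y₂ hy₂ using hy
  have hy₂' : Y.g.hom ∘ y₂ = b := funext hy₂
  have hy : ∀ p : G × G, ∃ y : Y.X₁, Y.f.hom y = (d₁₂ Y.X₂).hom y₂ p := by
    intro p
    apply exists_of_g_eq_zero hY
    have hz := (mem_cocycles₁_def b).1 b.2 p.1 p.2
    simp only [d₁₂_hom_apply, map_add, map_sub, Rep.hom_comm_apply, hy₂]
    exact hz
  choose y₁ hy₁ using hy
  have hy₁' : Y.f.hom ∘ y₁ = d₁₂ Y.X₂ y₂ := funext hy₁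
  rw [δ₀_apply hX a x₂ hx₂ x₁ hx₁', δ₁_apply hY b y₂ hy₂' y₁ hy₁']
  have e1 : φ₁₃.cupH₁₁ (H1π X.X₁ ⟨x₁, mem_cocycles₁_of_comp_eq_d₀₁ hX hx₁'⟩) (H1π Y.X₃ b) =
      H2π D (φ₁₃.cupCocycles₁₁ ⟨x₁, mem_cocycles₁_of_comp_eq_d₀₁ hX hx₁'⟩ b) :=
    φ₁₃.cupH₁₁_π _ b
  have e2 : φ₃₁.cupH₀₂ a (H2π Y.X₁ ⟨y₁, mem_cocycles₂_of_comp_eq_d₁₂ hY hy₁'⟩) =
      H2π D (φ₃₁.cupCocycles₀₂ a ⟨y₁, mem_cocycles₂_of_comp_eq_d₁₂ hY hy₁'⟩) :=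
    φ₃₁.cupH₀₂_π a _
  rw [e1, e2, ← map_neg, H2π_eq_iff]
  -- the difference is `d (x₂ ∪ y₂)`
  refine ⟨φ₂₂.cup₀₁ x₂ y₂, ?_⟩
  have key : (d₁₂ D).hom (φ₂₂.cup₀₁ x₂ y₂) = _ := φ₂₂.d₁₂_cup₀₁ x₂ y₂
  rw [key]
  funext p
  have hx₁p : (d₀₁ X.X₂).hom x₂ = X.f.hom ∘ x₁ := hx₁'.symm
  have hy₁p : (d₁₂ Y.X₂).hom y₂ = Y.f.hom ∘ y₁ := hy₁'.symm
  rw [hx₁p, hy₁p]
  simp only [Pi.add_apply, cup₁₁_apply, cup₀₂_apply, Function.comp_apply, h₁, ← h₂, hx₂,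
    Rep.hom_comm_apply, hy₂]
  show _ = φ₁₃.toLin (x₁ p.1) (Y.X₃.ρ p.1 (b p.2)) - -(φ₃₁.toLin a.1 (y₁ p))
  rw [sub_neg_eq_add]

include hX hY in
/-- `δ(α) ∪ b = α ∪ δ(b)` for `α ∈ H¹(X₃)`, `b ∈ H⁰(Y₃)`. -/
theorem δ_cupH₂₀_adj
    (h₁ : ∀ x₁ y₂, φ₂₂.toLin (X.f.hom x₁) y₂ = φ₁₃.toLin x₁ (Y.g.hom y₂))
    (h₂ : ∀ x₂ y₁, φ₃₁.toLin (X.g.hom x₂) y₁ = φ₂₂.toLin x₂ (Y.f.hom y₁))
    (α : H1 X.X₃) (b : Y.X₃.ρ.invariants) :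
    φ₁₃.cupH₂₀ (δ hX 1 2 rfl α) b = φ₃₁.cupH₁₁ α (δ hY 0 1 rfl ((H0Iso Y.X₃).inv b)) := by
  induction α using H1_induction_on with | h a =>
  -- lift `b`
  obtain ⟨y₂, hy₂⟩ := g_surjective_of_shortExact hY b.1
  have hy : ∀ γ : G, ∃ y : Y.X₁, Y.f.hom y = Y.X₂.ρ γ y₂ - y₂ := by
    intro γ
    apply exists_of_g_eq_zero hY
    rw [map_sub, Rep.hom_comm_apply, hy₂, b.2 γ, sub_self]
  choose y₁ hy₁ using hy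
  have hy₁' : Y.f.hom ∘ y₁ = d₀₁ Y.X₂ y₂ := by
    funext γ
    simp [hy₁ γ]
  -- lift `a`
  have hx : ∀ γ : G, ∃ x : X.X₂, X.g.hom x = a γ := fun γ => g_surjective_of_shortExact hX _
  choose x₂ hx₂ using hx
  have hx₂' : X.g.hom ∘ x₂ = a := funext hx₂
  have hx : ∀ p : G × G, ∃ x : X.X₁, X.f.hom x = (d₁₂ X.X₂).hom x₂ p := by
    intro p
    apply exists_of_g_eq_zero hX
    have hz := (mem_cocycles₁_def a).1 a.2 p.1 p.2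
    simp only [d₁₂_hom_apply, map_add, map_sub, Rep.hom_comm_apply, hx₂]
    exact hz
  choose x₁ hx₁ using hx
  have hx₁' : X.f.hom ∘ x₁ = d₁₂ X.X₂ x₂ := funext hx₁
  rw [δ₁_apply hX a x₂ hx₂' x₁ hx₁', δ₀_apply hY b y₂ hy₂ y₁ hy₁']
  have e1 : φ₁₃.cupH₂₀ (H2π X.X₁ ⟨x₁, mem_cocycles₂_of_comp_eq_d₁₂ hX hx₁'⟩) b =
      H2π D (φ₁₃.cupCocycles₂₀ ⟨x₁, mem_cocycles₂_of_comp_eq_d₁₂ hX hx₁'⟩ b) :=
    φ₁₃.cupH₂₀_π _ b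
  have e2 : φ₃₁.cupH₁₁ (H1π X.X₃ a) (H1π Y.X₁ ⟨y₁, mem_cocycles₁_of_comp_eq_d₀₁ hY hy₁'⟩) =
      H2π D (φ₃₁.cupCocycles₁₁ a ⟨y₁, mem_cocycles₁_of_comp_eq_d₀₁ hY hy₁'⟩) :=
    φ₃₁.cupH₁₁_π a _
  rw [e1, e2, H2π_eq_iff]
  refine ⟨φ₂₂.cup₁₀ x₂ y₂, ?_⟩
  have key : (d₁₂ D).hom (φ₂₂.cup₁₀ x₂ y₂) = _ := φ₂₂.d₁₂_cup₁₀ x₂ y₂
  rw [key]
  funext p
  have hx₁p : (d₁₂ X.X₂).hom x₂ = X.f.hom ∘ x₁ := hx₁'.symm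
  have hy₁p : (d₀₁ Y.X₂).hom y₂ = Y.f.hom ∘ y₁ := hy₁'.symm
  rw [hx₁p, hy₁p]
  show φ₂₂.toLin (X.f.hom (x₁ p)) (Y.X₂.ρ (p.1 * p.2) y₂) -
      φ₂₂.toLin (x₂ p.1) (Y.X₂.ρ p.1 (Y.f.hom (y₁ p.2))) =
    φ₁₃.toLin (x₁ p) (Y.X₃.ρ (p.1 * p.2) b.1) - φ₃₁.toLin (a p.1) (Y.X₁.ρ p.1 (y₁ p.2))
  rw [h₁, Rep.hom_comm_apply, hy₂, ← Rep.hom_comm_apply, ← h₂, hx₂]

end DeltaAdj

end RepPairing

end Fermat.Agent.CFT
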