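import Mathlib
import Fermat.Agent.CFT.CupLow
import Fermat.Agent.CFT.CupLowDelta
import Fermat.Agent.CFT.CupLowAdj
import Fermat.Agent.CFT.CupLowFunct

/-!
# Cup products in low degrees: the evaluation pairing `Hom_k(M, D) × M → D`

* `RepPairing.eval M D : RepPairing ((Rep.ihom M).obj D) M D`.
* `Cup.precomp u D : ihom(I, D) ⟶ ihom(M, D)` for `u : M ⟶ I`.
* Over a field: `Cup.homSeq Y D` (apply `Hom(-, D)` to a short complex) and
  `Cup.homSeq_shortExact`.
* `RepPairing.δ_eval_adj₁₀`, `RepPairing.δ_eval_adj₀₁`: adjointness (up to sign) of the connecting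
  homomorphisms of `0 → M → I → Q → 0` and `0 → Hom(Q,D) → Hom(I,D) → Hom(M,D) → 0`.
* `cupH₀₂_adjoint`, `cupH₂₀_adjoint`, `cupH₀₁_adjoint`, `cupH₁₀_adjoint` and their specialisations
  `eval_cupH₁₁_precomp`, `eval_cupH₀₂_precomp`, `eval_cupH₂₀_precomp` to the evaluation pairing.
-/

set_option autoImplicit false

universe u

open CategoryTheory groupCohomology

namespace Fermat.Agent.CFT

variable {k G : Type u} [CommRing k] [Group G]

open Cup

/-- The evaluation pairing `Hom_k(M, D) × M → D`. -/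
noncomputable def RepPairing.eval (M D : Rep.{u} k G) : RepPairing ((Rep.ihom M).obj D) M D where
  toLin := LinearMap.id
  map_ρ g f m := by
    have key : ∀ f' : M →ₗ[k] D, (D.ρ g ∘ₗ f' ∘ₗ M.ρ g⁻¹) (M.ρ g m) = D.ρ g (f' m) := by
      intro f'
      simp only [LinearMap.comp_apply]
      rw [← Module.End.mul_apply, ← map_mul, inv_mul_cancel, map_one, Module.End.one_apply]
    exact key f

@[simp] lemma RepPairing.eval_toLin_apply (M D : Rep.{u} k G) (f : M →ₗ[k] D) (m : M) :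
    (RepPairing.eval M D).toLin f m = f m := rfl

namespace Cup

/-- Precomposition with `u : M ⟶ I`, as a morphism `ihom(I, D) ⟶ ihom(M, D)`. -/
noncomputable def precomp {M I : Rep.{u} k G} (u : M ⟶ I) (D : Rep.{u} k G) :
    (Rep.ihom I).obj D ⟶ (Rep.ihom M).obj D :=
  Rep.ofHom ⟨LinearMap.lcomp k D u.hom.toLinearMap, fun g => by
    ext f m
    show ((D.ρ g ∘ₗ f ∘ₗ I.ρ g⁻¹) ∘ₗ u.hom.toLinearMap) m =
      (D.ρ g ∘ₗ (f ∘ₗ u.hom.toLinearMap) ∘ₗ M.ρ g⁻¹) m
    simp only [LinearMap.comp_apply]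
    congr 2
    exact (Rep.hom_comm_apply u g⁻¹ m).symm⟩

lemma precomp_hom_apply {M I : Rep.{u} k G} (u : M ⟶ I) (D : Rep.{u} k G)
    (f : I →ₗ[k] D) (m : M) :
    (RepPairing.eval M D).toLin ((precomp u D).hom f) m = f (u.hom m) := rfl

end Cup

namespace Cup

lemma hom_ext_ihom {A M D : Rep.{u} k G} (φ ψ : A ⟶ (Rep.ihom M).obj D)
    (h : ∀ a m, (RepPairing.eval M D).toLin (φ.hom a) m = (RepPairing.eval M D).toLin (ψ.hom a) m) :
    φ = ψ := by
  apply Rep.hom_ext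
  ext a
  exact LinearMap.ext (h a)

lemma ihom_ext {M D : Rep.{u} k G} (f f' : (Rep.ihom M).obj D)
    (h : ∀ m, (RepPairing.eval M D).toLin f m = (RepPairing.eval M D).toLin f' m) : f = f' :=
  LinearMap.ext h

end Cup

section Field

variable {K : Type u} [Field K] {G : Type u} [Group G]

namespace Cup

lemma g_f_apply (Y : ShortComplex (Rep.{u} K G)) (m : Y.X₁) : Y.g.hom (Y.f.hom m) = 0 := by
  have := congrArg (fun φ => φ.hom m) Y.zero
  exact this

/-- `Hom_K(-, D)` applied to a short complex of representations. -/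
noncomputable def homSeq (Y : ShortComplex (Rep.{u} K G)) (D : Rep.{u} K G) :
    ShortComplex (Rep.{u} K G) :=
  ShortComplex.mk (precomp Y.g D) (precomp Y.f D) (by
    apply hom_ext_ihom
    intro f m
    show (RepPairing.eval Y.X₃ D).toLin f (Y.g.hom (Y.f.hom m)) = 0
    rw [g_f_apply, map_zero])

theorem homSeq_shortExact {Y : ShortComplex (Rep.{u} K G)} (hY : Y.ShortExact) (D : Rep.{u} K G) :
    (homSeq Y D).ShortExact := by
  have hg : Function.Surjective Y.g.hom := g_surjective_of_shortExact hY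
  have hf : Function.Injective Y.f.hom := (Rep.mono_iff_injective Y.f).1 hY.2
  refine ShortComplex.ShortExact.mk' ?_ ?_ ?_
  · -- exactness
    rw [← ShortComplex.exact_map_iff_of_faithful _ (forget₂ (Rep K G) (ModuleCat K)),
      ShortComplex.moduleCat_exact_iff]
    intro f hf0
    -- `f : Y.X₂ →ₗ D` with `f ∘ Y.f = 0`
    have hf0' : ∀ m, (RepPairing.eval Y.X₂ D).toLin f (Y.f.hom m) = 0 := by
      intro m
      have := congrArg (fun φ => (RepPairing.eval Y.X₁ D).toLin φ m) hf0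
      exact this
    have hker : LinearMap.ker Y.g.hom.toLinearMap ≤
        LinearMap.ker ((RepPairing.eval Y.X₂ D).toLin f) := by
      intro y hy
      obtain ⟨x, rfl⟩ := exists_of_g_eq_zero hY y hy
      exact hf0' x
    refine ⟨descSurj Y.g.hom.toLinearMap hg ((RepPairing.eval Y.X₂ D).toLin f) hker, ?_⟩
    apply ihom_ext
    intro y
    exact descSurj_apply Y.g.hom.toLinearMap hg _ hker y
  · -- mono
    rw [Rep.mono_iff_injective]
    intro f f' h
    apply ihom_ext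
    intro q
    obtain ⟨y, rfl⟩ := hg q
    have := congrArg (fun φ => (RepPairing.eval Y.X₂ D).toLin φ y) h
    exact this
  · -- epi
    rw [Rep.epi_iff_surjective]
    intro h
    obtain ⟨r, hr⟩ := LinearMap.exists_leftInverse_of_injective Y.f.hom.toLinearMap
      (LinearMap.ker_eq_bot.2 hf)
    refine ⟨((RepPairing.eval Y.X₁ D).toLin h) ∘ₗ r, ?_⟩
    apply ihom_ext
    intro m
    show (RepPairing.eval Y.X₁ D).toLin h (r (Y.f.hom m)) = _
    have : r (Y.f.hom m) = m := LinearMap.congr_fun hr m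
    rw [this]

end Cup

namespace RepPairing

variable {Y : ShortComplex (Rep.{u} K G)} (hY : Y.ShortExact) (D : Rep.{u} K G)

/-- Adjointness of the connecting homomorphisms of `0 → M → I → Q → 0` and of
`0 → Hom(Q,D) → Hom(I,D) → Hom(M,D) → 0` for the evaluation pairings, degree `(1,0)`:
`δ(α) ∪ b = α ∪ δ(b)` for `α ∈ H¹(Hom(M,D))`, `b ∈ H⁰(Q)`. -/
theorem δ_eval_adj₁₀ (α : H1 ((Rep.ihom Y.X₁).obj D)) (b : Y.X₃.ρ.invariants) :
    (RepPairing.eval Y.X₃ D).cupH₂₀ (δ (homSeq_shortExact hY D) 1 2 rfl α) b =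
      (RepPairing.eval Y.X₁ D).cupH₁₁ α (δ hY 0 1 rfl ((H0Iso Y.X₃).inv b)) :=
  δ_cupH₂₀_adj (X := homSeq Y D) (homSeq_shortExact hY D) hY (RepPairing.eval Y.X₃ D)
    (RepPairing.eval Y.X₂ D) (RepPairing.eval Y.X₁ D) (fun _ _ => rfl) (fun _ _ => rfl) α b

/-- Degree `(0,1)`: `δ(a) ∪ β = - a ∪ δ(β)` for `a ∈ H⁰(Hom(M,D))`, `β ∈ H¹(Q)`. -/
theorem δ_eval_adj₀₁ (a : ((Rep.ihom Y.X₁).obj D).ρ.invariants) (β : H1 Y.X₃) :
    (RepPairing.eval Y.X₃ D).cupH₁₁
        (δ (homSeq_shortExact hY D) 0 1 rfl ((H0Iso ((Rep.ihom Y.X₁).obj D)).inv a)) β =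
      - (RepPairing.eval Y.X₁ D).cupH₀₂ a (δ hY 1 2 rfl β) :=
  δ_cupH₁₁_adj (X := homSeq Y D) (homSeq_shortExact hY D) hY (RepPairing.eval Y.X₃ D)
    (RepPairing.eval Y.X₂ D) (RepPairing.eval Y.X₁ D) (fun _ _ => rfl) (fun _ _ => rfl) a β

end RepPairing

end Field

/-! ### More adjointness (change of coefficients on opposite sides) -/

namespace RepPairing

variable {A A' B B' C : Rep.{u} k G} (ψ : RepPairing A B C) (χ : RepPairing A' B' C)
  (u : A' ⟶ A) (v : B ⟶ B')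

theorem cupH₀₂_adjoint (h : ∀ a' b, ψ.toLin (u.hom a') b = χ.toLin a' (v.hom b))
    (a' : A'.ρ.invariants) (β : H2 B) :
    ψ.cupH₀₂ (invMap (MonoidHom.id G) u a') β = χ.cupH₀₂ a' (map (MonoidHom.id G) v 2 β) := by
  induction β using H2_induction_on with | h b =>
  rw [H2π_comp_map_apply]
  have e1 : ψ.cupH₀₂ (invMap (MonoidHom.id G) u a') (H2π B b) =
      H2π C (ψ.cupCocycles₀₂ (invMap (MonoidHom.id G) u a') b) := ψ.cupH₀₂_π _ _
  have e2 : χ.cupH₀₂ a' (H2π B' (mapCocycles₂ (MonoidHom.id G) v b)) =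
      H2π C (χ.cupCocycles₀₂ a' (mapCocycles₂ (MonoidHom.id G) v b)) := χ.cupH₀₂_π _ _
  rw [e1, e2]
  congr 1
  apply cocycles₂_ext
  intro g g'
  show ψ.toLin (u.hom a'.1) (b (g, g')) = χ.toLin a'.1 (v.hom (b (g, g')))
  rw [h]

theorem cupH₂₀_adjoint (h : ∀ a' b, ψ.toLin (u.hom a') b = χ.toLin a' (v.hom b))
    (α' : H2 A') (b : B.ρ.invariants) :
    ψ.cupH₂₀ (map (MonoidHom.id G) u 2 α') b = χ.cupH₂₀ α' (invMap (MonoidHom.id G) v b) := by
  induction α' using H2_induction_on with | h a =>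
  rw [H2π_comp_map_apply]
  have e1 : ψ.cupH₂₀ (H2π A (mapCocycles₂ (MonoidHom.id G) u a)) b =
      H2π C (ψ.cupCocycles₂₀ (mapCocycles₂ (MonoidHom.id G) u a) b) := ψ.cupH₂₀_π _ _
  have e2 : χ.cupH₂₀ (H2π A' a) (invMap (MonoidHom.id G) v b) =
      H2π C (χ.cupCocycles₂₀ a (invMap (MonoidHom.id G) v b)) := χ.cupH₂₀_π _ _
  rw [e1, e2]
  congr 1
  apply cocycles₂_ext
  intro g g'
  show ψ.toLin (u.hom (a (g, g'))) (B.ρ (g * g') b.1) =
    χ.toLin (a (g, g')) (B'.ρ (g * g') (v.hom b.1))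
  rw [h, Rep.hom_comm_apply]

theorem cupH₀₁_adjoint (h : ∀ a' b, ψ.toLin (u.hom a') b = χ.toLin a' (v.hom b))
    (a' : A'.ρ.invariants) (β : H1 B) :
    ψ.cupH₀₁ (invMap (MonoidHom.id G) u a') β = χ.cupH₀₁ a' (map (MonoidHom.id G) v 1 β) := by
  induction β using H1_induction_on with | h b =>
  rw [H1π_comp_map_apply]
  have e1 : ψ.cupH₀₁ (invMap (MonoidHom.id G) u a') (H1π B b) =
      H1π C (ψ.cupCocycles₀₁ (invMap (MonoidHom.id G) u a') b) := ψ.cupH₀₁_π _ _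
  have e2 : χ.cupH₀₁ a' (H1π B' (mapCocycles₁ (MonoidHom.id G) v b)) =
      H1π C (χ.cupCocycles₀₁ a' (mapCocycles₁ (MonoidHom.id G) v b)) := χ.cupH₀₁_π _ _
  rw [e1, e2]
  congr 1
  apply cocycles₁_ext
  intro g
  show ψ.toLin (u.hom a'.1) (b g) = χ.toLin a'.1 (v.hom (b g))
  rw [h]

theorem cupH₁₀_adjoint (h : ∀ a' b, ψ.toLin (u.hom a') b = χ.toLin a' (v.hom b))
    (α' : H1 A') (b : B.ρ.invariants) :
    ψ.cupH₁₀ (map (MonoidHom.id G) u 1 α') b = χ.cupH₁₀ α' (invMap (MonoidHom.id G) v b) := by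
  induction α' using H1_induction_on with | h a =>
  rw [H1π_comp_map_apply]
  have e1 : ψ.cupH₁₀ (H1π A (mapCocycles₁ (MonoidHom.id G) u a)) b =
      H1π C (ψ.cupCocycles₁₀ (mapCocycles₁ (MonoidHom.id G) u a) b) := ψ.cupH₁₀_π _ _
  have e2 : χ.cupH₁₀ (H1π A' a) (invMap (MonoidHom.id G) v b) =
      H1π C (χ.cupCocycles₁₀ a (invMap (MonoidHom.id G) v b)) := χ.cupH₁₀_π _ _
  rw [e1, e2]
  congr 1
  apply cocycles₁_ext
  intro g
  show ψ.toLin (u.hom (a g)) (B.ρ g b.1) = χ.toLin (a g) (B'.ρ g (v.hom b.1))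
  rw [h, Rep.hom_comm_apply]

end RepPairing

/-! ### Naturality of the evaluation pairings in `M` -/

namespace RepPairing

variable {M M' : Rep.{u} k G} (u : M ⟶ M') (D : Rep.{u} k G)

theorem eval_cupH₁₁_precomp (α' : H1 ((Rep.ihom M').obj D)) (β : H1 M) :
    (RepPairing.eval M D).cupH₁₁ (map (MonoidHom.id G) (precomp u D) 1 α') β =
      (RepPairing.eval M' D).cupH₁₁ α' (map (MonoidHom.id G) u 1 β) :=
  cupH₁₁_adjoint (RepPairing.eval M D) (RepPairing.eval M' D) (precomp u D) u (fun _ _ => rfl) α' β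

theorem eval_cupH₀₂_precomp (a' : ((Rep.ihom M').obj D).ρ.invariants) (β : H2 M) :
    (RepPairing.eval M D).cupH₀₂ (invMap (MonoidHom.id G) (precomp u D) a') β =
      (RepPairing.eval M' D).cupH₀₂ a' (map (MonoidHom.id G) u 2 β) :=
  cupH₀₂_adjoint (RepPairing.eval M D) (RepPairing.eval M' D) (precomp u D) u (fun _ _ => rfl) a' β

theorem eval_cupH₂₀_precomp (α' : H2 ((Rep.ihom M').obj D)) (b : M.ρ.invariants) :
    (RepPairing.eval M D).cupH₂₀ (map (MonoidHom.id G) (precomp u D) 2 α') b =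
      (RepPairing.eval M' D).cupH₂₀ α' (invMap (MonoidHom.id G) u b) :=
  cupH₂₀_adjoint (RepPairing.eval M D) (RepPairing.eval M' D) (precomp u D) u (fun _ _ => rfl) α' b

end RepPairing

end Fermat.Agent.CFT
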