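import Mathlib
import Fermat.Agent.CFT.CupLow
import Fermat.Agent.CFT.CupLowEval
import Fermat.Agent.CFT.CoindPairing

/-!
# Coinduction from a subgroup: the canonical resolution and `coind Hom(N, D) ≅ Hom(coind N, D)`

For a subgroup `S ≤ G` (Mathlib's `Rep.coind S.subtype`, i.e. functions `f : G → A` with
`f (s * g) = s • f g`, `G` acting by right translation), on top of `CoindPairing.lean`
(`Cup.ev₁`, `Cup.tr`, `RepPairing.coind`):

* `coindUnit S M : M ⟶ coind (res M)`, `m ↦ (g ↦ g • m)` (injective), the short exact sequence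
  `coindSeq S M : 0 → M → coind (res M) → Q → 0` and finiteness of its terms;
* `RepPairing.postcomp`, `RepPairing.precompRight`;
* for `S` of finite index, `N : Rep k S`, `D : Rep k G`: the `G`-pairing
  `coindHomPairing S N D : coind (Hom(N, res D)) × coind N → D`,
  `Θ(F, f) = tr (g ↦ F g (f g)) = ∑_{c ∈ G ⧸ S} c • F(c⁻¹) (f c⁻¹)`, and the isomorphism
  `coindHomHom S N D : coind (Hom(N, res D)) ≅ Hom(coind N, D)` obtained by currying
  (`coindHomHom_bijective`, `isIso_coindHomHom`), with `eval (θ F) f = Θ(F, f)`.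

These are the module-level inputs of the "induced case" of the abstract duality theorem.
-/

set_option autoImplicit false

universe u

open CategoryTheory

namespace Fermat.Agent.CFT

variable {k G : Type u} [CommRing k] [Group G] (S : Subgroup G)

/-! ### The unit -/

/-- The unit `M ⟶ coind_S^G (res M)`, `m ↦ (g ↦ g • m)`. -/
noncomputable def coindUnit (M : Rep.{u} k G) :
    M ⟶ Rep.coind S.subtype (Rep.res S.subtype M) :=
  Rep.resCoindToHom S.subtype M (Rep.res S.subtype M) (𝟙 _)

@[simp] lemma coindUnit_apply (M : Rep.{u} k G) (m : M) (g : G) :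
    ((coindUnit S M).hom m).1 g = M.ρ g m := rfl

lemma coindUnit_injective (M : Rep.{u} k G) : Function.Injective (coindUnit S M).hom := by
  intro m m' h
  have := congrArg (fun f => f.1 1) h
  change M.ρ 1 m = M.ρ 1 m' at this
  simpa using this

/-- `tr ∘ unit = [G : S]`. -/
lemma tr_coindUnit [S.FiniteIndex] (M : Rep.{u} k G) (m : M) :
    (Cup.tr S M).hom ((coindUnit S M).hom m) = S.index • m :=
  Cup.tr_of_forall_eq S M m _ (fun _ => rfl)

/-! ### The canonical resolution `0 → M → coind (res M) → Q → 0` -/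

section Resolution

open Limits

variable (M : Rep.{u} k G)

instance mono_coindUnit : Mono (coindUnit S M) :=
  (Rep.mono_iff_injective _).2 (coindUnit_injective S M)

/-- The short complex `0 → M → coind_S^G (res M) → Q → 0`, `Q` the cokernel. -/
noncomputable def coindSeq : ShortComplex (Rep.{u} k G) :=
  ShortComplex.mk (coindUnit S M) (cokernel.π (coindUnit S M)) (cokernel.condition _)

lemma coindSeq_shortExact : (coindSeq S M).ShortExact where
  exact := ShortComplex.exact_cokernel (coindUnit S M)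
  mono_f := mono_coindUnit S M
  epi_g := by
    change Epi (cokernel.π (coindUnit S M))
    infer_instance

/-- Right cosets `S \\ G`. -/
abbrev RCosets : Type u := Quotient (QuotientGroup.rightRel S)

instance finite_rCosets [S.FiniteIndex] : Finite (RCosets S) :=
  Finite.of_equiv _ (QuotientGroup.quotientRightRelEquivQuotientLeftRel S).symm

/-- An element of `coind A` is determined by its values on a set of representatives of the
right cosets. -/
lemma coind_ext_of_rCosets {A : Rep.{u} k S} (f f' : Rep.coind S.subtype A)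
    (h : ∀ c : RCosets S, f.1 c.out = f'.1 c.out) : f = f' := by
  apply Subtype.ext
  funext g
  obtain ⟨s, hs⟩ : ∃ s : S, g = s.1 * (Quotient.mk (QuotientGroup.rightRel S) g).out := by
    have h1 : (QuotientGroup.rightRel S) (Quotient.mk (QuotientGroup.rightRel S) g).out g :=
      Quotient.exact (Quotient.out_eq _)
    have h2 := QuotientGroup.rightRel_apply.1 h1
    exact ⟨⟨_, h2⟩, by simp⟩
  have e1 := f.2 s (Quotient.mk (QuotientGroup.rightRel S) g).out
  have e2 := f'.2 s (Quotient.mk (QuotientGroup.rightRel S) g).out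
  change f.1 (s.1 * _) = A.ρ s (f.1 _) at e1
  change f'.1 (s.1 * _) = A.ρ s (f'.1 _) at e2
  rw [hs, e1, e2, h]

instance finite_coind [S.FiniteIndex] (A : Rep.{u} k S) [Finite A] :
    Finite (Rep.coind S.subtype A) := by
  have : Function.Injective (fun (f : Rep.coind S.subtype A) (c : RCosets S) => f.1 c.out) := by
    intro f f' h
    exact coind_ext_of_rCosets S f f' (fun c => congrFun h c)
  exact Finite.of_injective _ this

instance finite_coindSeq_X₂ [S.FiniteIndex] [Finite M] : Finite (coindSeq S M).X₂ :=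
  finite_coind S (Rep.res S.subtype M)

lemma coindSeq_g_surjective : Function.Surjective (coindSeq S M).g.hom :=
  (Rep.epi_iff_surjective _).1 (coindSeq_shortExact S M).epi_g

instance finite_coindSeq_X₃ [S.FiniteIndex] [Finite M] : Finite (coindSeq S M).X₃ :=
  Finite.of_surjective _ (coindSeq_g_surjective S M)

end Resolution

/-! ### Composing pairings with morphisms -/

/-- Post-composition of a pairing with a morphism of the target. -/
def RepPairing.postcomp {A B C C' : Rep.{u} k G} (φ : RepPairing A B C) (u : C ⟶ C') :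
    RepPairing A B C' where
  toLin := φ.toLin.compr₂ u.hom.toLinearMap
  map_ρ g a b := by
    change u.hom (φ.toLin (A.ρ g a) (B.ρ g b)) = C'.ρ g (u.hom (φ.toLin a b))
    rw [φ.map_ρ, Rep.hom_comm_apply]

@[simp] lemma RepPairing.postcomp_toLin {A B C C' : Rep.{u} k G} (φ : RepPairing A B C)
    (u : C ⟶ C') (a : A) (b : B) : (φ.postcomp u).toLin a b = u.hom (φ.toLin a b) := rfl

/-- Pre-composition of a pairing with a morphism in the second variable. -/
def RepPairing.precompRight {A B B' C : Rep.{u} k G} (φ : RepPairing A B C) (v : B' ⟶ B) :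
    RepPairing A B' C where
  toLin := φ.toLin.compl₂ v.hom.toLinearMap
  map_ρ g a b := by
    change φ.toLin (A.ρ g a) (v.hom (B'.ρ g b)) = C.ρ g (φ.toLin a (v.hom b))
    rw [Rep.hom_comm_apply, φ.map_ρ]

@[simp] lemma RepPairing.precompRight_toLin {A B B' C : Rep.{u} k G} (φ : RepPairing A B C)
    (v : B' ⟶ B) (a : A) (b : B') : (φ.precompRight v).toLin a b = φ.toLin a (v.hom b) := rfl

/-! ### `coind (Hom(N, res D)) ≅ Hom(coind N, D)` for a subgroup of finite index -/

section HomIso

variable (N : Rep.{u} k S) (D : Rep.{u} k G)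

/-- The `S`-pairing `Hom(N, res D) × res (coind N) → res D`, `(h, f) ↦ h (f 1)`. -/
noncomputable def evCoindPairing :
    RepPairing ((Rep.ihom N).obj (Rep.res S.subtype D))
      (Rep.res S.subtype (Rep.coind S.subtype N)) (Rep.res S.subtype D) :=
  (RepPairing.eval N (Rep.res S.subtype D)).precompRight (Cup.ev₁ S N)

@[simp] lemma evCoindPairing_toLin (h : N →ₗ[k] D) (f : Rep.coind S.subtype N) :
    (evCoindPairing S N D).toLin h f = h (f.1 1) := rfl

/-- The `G`-pairing `Θ : coind (Hom(N, res D)) × coind N → D`,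
`(F, f) ↦ ∑_{c ∈ G ⧸ S} c • (F c⁻¹) (f c⁻¹)`. -/
noncomputable def coindHomPairing [S.FiniteIndex] :
    RepPairing (Rep.coind.{u, u, u, u} S.subtype ((Rep.ihom N).obj (Rep.res S.subtype D)))
      (Rep.coind S.subtype N) D :=
  ((evCoindPairing S N D).coind S).postcomp (Cup.tr S D)

lemma coindHomPairing_apply [S.FiniteIndex]
    (F : Rep.coind.{u, u, u, u} S.subtype ((Rep.ihom N).obj (Rep.res S.subtype D)))
    (f : Rep.coind S.subtype N) :
    (coindHomPairing S N D).toLin F f =
      ∑ᶠ c : G ⧸ S, Cup.trTerm S D (((evCoindPairing S N D).coind S).toLin F f) c :=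
  rfl

lemma trTerm_coind_evCoindPairing
    (F : Rep.coind.{u, u, u, u} S.subtype ((Rep.ihom N).obj (Rep.res S.subtype D)))
    (f : Rep.coind S.subtype N) (g : G) :
    Cup.trTerm S D (((evCoindPairing S N D).coind S).toLin F f) (QuotientGroup.mk g) =
      D.ρ g ((RepPairing.eval N (Rep.res S.subtype D)).toLin (F.1 g⁻¹) (f.1 g⁻¹)) := by
  rw [Cup.trTerm_mk]
  change D.ρ g ((RepPairing.eval N (Rep.res S.subtype D)).toLin (F.1 g⁻¹) (f.1 (1 * g⁻¹))) = _
  rw [one_mul]

open Classical in
/-- The function supported on the coset `S g` with value `n` at `g`, as an element of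
`coind N`. -/
noncomputable def coindDelta (g : G) : N →ₗ[k] Rep.coind S.subtype N :=
  LinearMap.codRestrict _ (Rep.indToCoindAux N g) (fun n s g₁ => by
    exact Rep.indToCoindAux_mul_snd g g₁ n s)

open Classical in
lemma coindDelta_apply (g : G) (n : N) (g₁ : G) :
    (coindDelta S N g n).1 g₁ = Rep.indToCoindAux N g n g₁ := rfl

lemma coindDelta_self (g : G) (n : N) : (coindDelta S N g n).1 g = n := by
  classical
  rw [coindDelta_apply, Rep.indToCoindAux_self]

lemma coindDelta_of_not_mem (g g₁ : G) (n : N) (h : g₁ * g⁻¹ ∉ S) :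
    (coindDelta S N g n).1 g₁ = 0 := by
  classical
  rw [coindDelta_apply, Rep.indToCoindAux_of_not_rel]
  intro h'
  apply h
  have := QuotientGroup.rightRel_apply.1 h'
  have h2 : g₁ * g⁻¹ = (g * g₁⁻¹)⁻¹ := by group
  rw [h2]
  exact S.inv_mem this

lemma coindDelta_mul (g : G) (n : N) (s : S) :
    coindDelta S N (s.1 * g) (N.ρ s n) = coindDelta S N g n := by
  classical
  apply Subtype.ext
  funext g₂
  rw [coindDelta_apply, coindDelta_apply]
  exact Rep.indToCoindAux_mul_fst g g₂ n s

/-- `Θ(F, δ_{g,n}) = g⁻¹ • F(g)(n)`. -/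
lemma coindHomPairing_coindDelta [S.FiniteIndex]
    (F : Rep.coind.{u, u, u, u} S.subtype ((Rep.ihom N).obj (Rep.res S.subtype D)))
    (g : G) (n : N) :
    (coindHomPairing S N D).toLin F (coindDelta S N g n) =
      D.ρ g⁻¹ ((RepPairing.eval N (Rep.res S.subtype D)).toLin (F.1 g) n) := by
  rw [coindHomPairing_apply, finsum_eq_single _ (QuotientGroup.mk g⁻¹)]
  · rw [trTerm_coind_evCoindPairing, inv_inv, coindDelta_self]
  · intro c hc
    induction c using QuotientGroup.induction_on with | _ g₁ =>
    rw [trTerm_coind_evCoindPairing, coindDelta_of_not_mem S N g g₁⁻¹ n, map_zero, map_zero]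
    intro h
    apply hc
    rw [QuotientGroup.eq]
    have h2 : g₁⁻¹ * g⁻¹ = (g * g₁)⁻¹ := by group
    rw [h2] at h
    have h3 := S.inv_mem h
    rw [inv_inv] at h3
    have h4 : g₁⁻¹ * g⁻¹ ∈ S := by rw [h2]; exact S.inv_mem h3
    simpa using h4

/-- The summand `c ↦ δ_{c⁻¹, f c⁻¹}` of the decomposition of `f ∈ coind N` along cosets. -/
noncomputable def coindDeltaFun (f : Rep.coind S.subtype N) : G ⧸ S → Rep.coind S.subtype N :=
  Quotient.lift (fun g : G => coindDelta S N g⁻¹ (f.1 g⁻¹)) (by
    intro a b hab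
    have h : a⁻¹ * b ∈ S := QuotientGroup.leftRel_apply.mp hab
    have hb : b⁻¹ = ((⟨a⁻¹ * b, h⟩ : S)⁻¹ : S).1 * a⁻¹ := by
      change b⁻¹ = (a⁻¹ * b)⁻¹ * a⁻¹
      group
    have h1 := f.2 ((⟨a⁻¹ * b, h⟩ : S)⁻¹) a⁻¹
    change f.1 (((⟨a⁻¹ * b, h⟩ : S)⁻¹ : S).1 * a⁻¹) = N.ρ ((⟨a⁻¹ * b, h⟩ : S)⁻¹) (f.1 a⁻¹) at h1
    change coindDelta S N a⁻¹ (f.1 a⁻¹) = coindDelta S N b⁻¹ (f.1 b⁻¹)
    rw [hb, h1, coindDelta_mul])

@[simp] lemma coindDeltaFun_mk (f : Rep.coind S.subtype N) (g : G) :
    coindDeltaFun S N f (QuotientGroup.mk g) = coindDelta S N g⁻¹ (f.1 g⁻¹) := rfl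

/-- Evaluation at `g` as a linear map on `coind N`. -/
noncomputable def coindEvalAt (g : G) : Rep.coind S.subtype N →ₗ[k] N :=
  LinearMap.proj g ∘ₗ (Representation.coindV S.subtype N.ρ).subtype

@[simp] lemma coindEvalAt_apply (g : G) (f : Rep.coind S.subtype N) :
    coindEvalAt S N g f = f.1 g := rfl

/-- `f = ∑_{c ∈ G ⧸ S} δ_{c⁻¹, f c⁻¹}`. -/
lemma finsum_coindDeltaFun [S.FiniteIndex] (f : Rep.coind S.subtype N) :
    ∑ᶠ c : G ⧸ S, coindDeltaFun S N f c = f := by
  have : Finite (G ⧸ S) := Subgroup.finite_quotient_of_finiteIndex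
  apply Subtype.ext
  funext g
  have h := map_finsum (coindEvalAt S N g) (f := coindDeltaFun S N f) (Set.toFinite _)
  rw [coindEvalAt_apply] at h
  rw [h, finsum_eq_single _ (QuotientGroup.mk g⁻¹)]
  · rw [coindDeltaFun_mk, coindEvalAt_apply, inv_inv, coindDelta_self]
  · intro c hc
    induction c using QuotientGroup.induction_on with | _ g₁ =>
    rw [coindDeltaFun_mk, coindEvalAt_apply]
    apply coindDelta_of_not_mem
    intro h'
    apply hc
    rw [QuotientGroup.eq]
    have h'' := S.inv_mem h'
    simpa using h''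

/-- The curried form `θ : coind (Hom(N, res D)) → Hom(coind N, D)` of `Θ` is bijective. -/
theorem coindHomPairing_bijective [S.FiniteIndex] :
    Function.Bijective (coindHomPairing S N D).toLin := by
  have : Finite (G ⧸ S) := Subgroup.finite_quotient_of_finiteIndex
  constructor
  · rw [injective_iff_map_eq_zero]
    intro F hF
    apply Subtype.ext
    funext g
    apply LinearMap.ext
    intro n
    have h1 := coindHomPairing_coindDelta S N D F g n
    rw [hF, LinearMap.zero_apply] at h1
    have h2 : D.ρ g (D.ρ g⁻¹ ((RepPairing.eval N (Rep.res S.subtype D)).toLin (F.1 g) n)) = 0 := by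
      rw [← h1, map_zero]
    rw [← Module.End.mul_apply, ← map_mul, mul_inv_cancel, map_one, Module.End.one_apply] at h2
    exact h2
  · intro h
    let F : Rep.coind.{u, u, u, u} S.subtype ((Rep.ihom N).obj (Rep.res S.subtype D)) :=
      ⟨fun g => D.ρ g ∘ₗ h ∘ₗ coindDelta S N g, by
        intro s g
        apply LinearMap.ext
        intro n
        change D.ρ (s.1 * g) (h (coindDelta S N (s.1 * g) n)) =
          D.ρ s.1 (D.ρ g (h (coindDelta S N g (N.ρ s⁻¹ n))))
        have h1 := coindDelta_mul S N g (N.ρ s⁻¹ n) s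
        rw [← Module.End.mul_apply, ← map_mul, mul_inv_cancel, map_one,
          Module.End.one_apply] at h1
        rw [h1, map_mul, Module.End.mul_apply]⟩
    refine ⟨F, ?_⟩
    apply LinearMap.ext
    intro f
    conv_lhs => rw [← finsum_coindDeltaFun S N f]
    conv_rhs => rw [← finsum_coindDeltaFun S N f]
    rw [map_finsum _ (Set.toFinite _), map_finsum _ (Set.toFinite _)]
    refine finsum_congr fun c => ?_
    induction c using QuotientGroup.induction_on with | _ g =>
    rw [coindDeltaFun_mk, coindHomPairing_coindDelta]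
    change D.ρ g⁻¹⁻¹ (D.ρ g⁻¹ (h (coindDelta S N g⁻¹ (f.1 g⁻¹)))) = _
    rw [← Module.End.mul_apply, ← map_mul, inv_mul_cancel, map_one, Module.End.one_apply]

/-- The morphism of `G`-representations `θ : coind (Hom(N, res D)) ⟶ Hom(coind N, D)`. -/
noncomputable def coindHomHom [S.FiniteIndex] :
    Rep.coind.{u, u, u, u} S.subtype ((Rep.ihom N).obj (Rep.res S.subtype D)) ⟶
      (Rep.ihom (Rep.coind S.subtype N)).obj D :=
  Rep.ofHom ⟨(coindHomPairing S N D).toLin, fun x => by
    apply LinearMap.ext
    intro F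
    apply LinearMap.ext
    intro f
    change (coindHomPairing S N D).toLin ((Rep.coind.{u, u, u, u} S.subtype
        ((Rep.ihom N).obj (Rep.res S.subtype D))).ρ x F) f =
      D.ρ x ((coindHomPairing S N D).toLin F ((Rep.coind S.subtype N).ρ x⁻¹ f))
    rw [← (coindHomPairing S N D).map_ρ x F, ← Module.End.mul_apply, ← map_mul,
      mul_inv_cancel, map_one, Module.End.one_apply]⟩

/-- `eval (θ F) f = Θ(F, f)`. -/
lemma eval_coindHomHom [S.FiniteIndex]
    (F : Rep.coind.{u, u, u, u} S.subtype ((Rep.ihom N).obj (Rep.res S.subtype D)))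
    (f : Rep.coind S.subtype N) :
    (RepPairing.eval (Rep.coind S.subtype N) D).toLin ((coindHomHom S N D).hom F) f =
      (coindHomPairing S N D).toLin F f := rfl

lemma coindHomHom_bijective [S.FiniteIndex] : Function.Bijective (coindHomHom S N D).hom :=
  coindHomPairing_bijective S N D

instance isIso_coindHomHom [S.FiniteIndex] : IsIso (coindHomHom S N D) := by
  have : IsIso ((forget (Rep.{u} k G)).map (coindHomHom S N D)) := by
    rw [isIso_iff_bijective]
    exact coindHomHom_bijective S N D
  exact isIso_of_reflects_iso _ (forget (Rep.{u} k G))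

end HomIso

end Fermat.Agent.CFT
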