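import Mathlib
import Fermat.Agent.CFT.CupLow

/-!
# Cup products in low degrees: level-constant cochains

A cochain `f : G → X` (resp. `F : G × G → X`) is *right invariant* under a subgroup `N` if
`f (g * s) = f g` for `s ∈ N` (resp. in both variables). This is the shape of the "level-constant"
cochains used for continuous cohomology of a profinite-like group with respect to a directed
family of finite-index normal subgroups. We show that the differentials and the cup products of
`CupLow.lean` preserve right invariance, provided `N` fixes the values involved.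
-/

set_option autoImplicit false

universe u

open CategoryTheory groupCohomology

namespace Fermat.Agent.CFT

variable {k G : Type u} [CommRing k] [Group G]

namespace Cup

variable {X : Type*}

/-- `f : G → X` is right invariant under `N`. -/
def RightInv₁ (N : Subgroup G) (f : G → X) : Prop := ∀ g : G, ∀ s ∈ N, f (g * s) = f g

/-- `F : G × G → X` is right invariant under `N` in both variables. -/
def RightInv₂ (N : Subgroup G) (F : G × G → X) : Prop :=
  ∀ g h : G, ∀ s ∈ N, ∀ t ∈ N, F (g * s, h * t) = F (g, h)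

/-- `F : G × G × G → X` is right invariant under `N` in all variables. -/
def RightInv₃ (N : Subgroup G) (F : G × G × G → X) : Prop :=
  ∀ g h j : G, ∀ s ∈ N, ∀ t ∈ N, ∀ r ∈ N, F (g * s, h * t, j * r) = F (g, h, j)

/-- `a` is fixed by `N`. -/
def FixedBy (A : Rep.{u} k G) (N : Subgroup G) (a : A) : Prop := ∀ s ∈ N, A.ρ s a = a

lemma RightInv₁.mono {N N' : Subgroup G} (h : N' ≤ N) {f : G → X} (hf : RightInv₁ N f) :
    RightInv₁ N' f := fun g s hs => hf g s (h hs)

lemma RightInv₂.mono {N N' : Subgroup G} (h : N' ≤ N) {F : G × G → X} (hF : RightInv₂ N F) :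
    RightInv₂ N' F := fun g g' s hs t ht => hF g g' s (h hs) t (h ht)

lemma RightInv₃.mono {N N' : Subgroup G} (h : N' ≤ N) {F : G × G × G → X}
    (hF : RightInv₃ N F) : RightInv₃ N' F :=
  fun g g' g'' s hs t ht r hr => hF g g' g'' s (h hs) t (h ht) r (h hr)

lemma FixedBy.mono {A : Rep.{u} k G} {N N' : Subgroup G} (h : N' ≤ N) {a : A}
    (ha : FixedBy A N a) : FixedBy A N' a := fun s hs => ha s (h hs)

lemma FixedBy.of_mem_invariants {A : Rep.{u} k G} {a : A} (ha : a ∈ A.ρ.invariants)
    (N : Subgroup G) : FixedBy A N a := fun s _ => ha s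

lemma FixedBy.add {A : Rep.{u} k G} {N : Subgroup G} {a b : A} (ha : FixedBy A N a)
    (hb : FixedBy A N b) : FixedBy A N (a + b) := fun s hs => by
  rw [map_add, ha s hs, hb s hs]

lemma FixedBy.sub {A : Rep.{u} k G} {N : Subgroup G} {a b : A} (ha : FixedBy A N a)
    (hb : FixedBy A N b) : FixedBy A N (a - b) := fun s hs => by
  rw [map_sub, ha s hs, hb s hs]

/-- If `N` is normal and fixes `a` then it fixes `g • a`. -/
lemma FixedBy.ρ {A : Rep.{u} k G} {N : Subgroup G} [N.Normal] {a : A} (ha : FixedBy A N a)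
    (g : G) : FixedBy A N (A.ρ g a) := fun s hs => by
  have h1 : g⁻¹ * s * g ∈ N := by
    have := (inferInstance : N.Normal).conj_mem s hs g⁻¹
    simpa using this
  have h2 : s * g = g * (g⁻¹ * s * g) := by group
  rw [← Module.End.mul_apply, ← map_mul, h2, map_mul, Module.End.mul_apply, ha _ h1]

/-- A right invariant function for a finite index subgroup has finitely many values. -/
lemma RightInv₁.finite_range {N : Subgroup G} [N.FiniteIndex] {f : G → X} (hf : RightInv₁ N f) :
    (Set.range f).Finite := by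
  classical
  have : Finite (G ⧸ N) := Subgroup.finite_quotient_of_finiteIndex
  let F : G ⧸ N → X := Quotient.lift f (fun a b hab => by
    have hab' : a⁻¹ * b ∈ N := QuotientGroup.leftRel_apply.mp hab
    have := hf a (a⁻¹ * b) hab'
    rw [mul_inv_cancel_left] at this
    exact this.symm)
  have hF : Set.range f ⊆ Set.range F := by
    rintro _ ⟨g, rfl⟩
    exact ⟨QuotientGroup.mk g, rfl⟩
  exact (Set.finite_range F).subset hF

/-! ### differentials -/

lemma rightInv₁_d₀₁ {A : Rep.{u} k G} {N : Subgroup G} {a : A} (ha : FixedBy A N a) :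
    RightInv₁ N ((d₀₁ A).hom a) := fun g s hs => by
  simp only [d₀₁_hom_apply, map_mul, Module.End.mul_apply, ha s hs]

lemma rightInv₂_d₁₂ {A : Rep.{u} k G} {N : Subgroup G} [N.Normal] {f : G → A}
    (hf : RightInv₁ N f) (hv : ∀ h, FixedBy A N (f h)) : RightInv₂ N ((d₁₂ A).hom f) :=
  fun g h s hs t ht => by
  have h1 : h⁻¹ * s * h ∈ N := by
    have := (inferInstance : N.Normal).conj_mem s hs h⁻¹
    simpa using this
  have h2 : g * s * (h * t) = g * h * (h⁻¹ * s * h * t) := by group
  simp only [d₁₂_hom_apply, map_mul, Module.End.mul_apply, hf h t ht, hv h s hs, hf g s hs]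
  rw [h2, hf (g * h) _ (N.mul_mem h1 ht)]

lemma rightInv₃_d₂₃ {A : Rep.{u} k G} {N : Subgroup G} [N.Normal] {F : G × G → A}
    (hF : RightInv₂ N F) (hv : ∀ p, FixedBy A N (F p)) : RightInv₃ N ((d₂₃ A).hom F) :=
  fun g h j s hs t ht r hr => by
  have h1 : h⁻¹ * s * h ∈ N := by
    have := (inferInstance : N.Normal).conj_mem s hs h⁻¹
    simpa using this
  have h2 : g * s * (h * t) = g * h * (h⁻¹ * s * h * t) := by group
  have h3 : j⁻¹ * t * j ∈ N := by
    have := (inferInstance : N.Normal).conj_mem t ht j⁻¹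
    simpa using this
  have h4 : h * t * (j * r) = h * j * (j⁻¹ * t * j * r) := by group
  simp only [d₂₃_hom_apply, map_mul, Module.End.mul_apply, hF h j t ht r hr, hv (h, j) s hs,
    hF g h s hs t ht]
  rw [h2, hF (g * h) j _ (N.mul_mem h1 ht) r hr, h4, hF g (h * j) s hs _ (N.mul_mem h3 hr)]

end Cup

open Cup

namespace RepPairing

variable {A B C : Rep.{u} k G} (φ : RepPairing A B C) {N : Subgroup G}

lemma fixedBy_toLin {a : A} {b : B} (ha : FixedBy A N a) (hb : FixedBy B N b) :
    FixedBy C N (φ.toLin a b) := fun s hs => by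
  rw [φ.map_ρ', ha s hs, hb s hs]

lemma rightInv₁_cup₀₁ (a : A) {f : G → B} (hf : RightInv₁ N f) :
    RightInv₁ N (φ.cup₀₁ a f) := fun g s hs => by
  simp only [cup₀₁_apply, hf g s hs]

lemma rightInv₁_cup₁₀ {f : G → A} (hf : RightInv₁ N f) {b : B} (hb : FixedBy B N b) :
    RightInv₁ N (φ.cup₁₀ f b) := fun g s hs => by
  simp only [cup₁₀_apply, hf g s hs, map_mul, Module.End.mul_apply, hb s hs]

lemma rightInv₂_cup₁₁ {f : G → A} (hf : RightInv₁ N f) {f' : G → B} (hf' : RightInv₁ N f')
    (hv : ∀ h, FixedBy B N (f' h)) : RightInv₂ N (φ.cup₁₁ f f') := fun g h s hs t ht => by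
  simp only [cup₁₁_apply, hf g s hs, hf' h t ht, map_mul, Module.End.mul_apply, hv h s hs]

lemma rightInv₂_cup₀₂ (a : A) {F : G × G → B} (hF : RightInv₂ N F) :
    RightInv₂ N (φ.cup₀₂ a F) := fun g h s hs t ht => by
  simp only [cup₀₂_apply, hF g h s hs t ht]

lemma rightInv₂_cup₂₀ [N.Normal] {F : G × G → A} (hF : RightInv₂ N F) {b : B}
    (hb : FixedBy B N b) : RightInv₂ N (φ.cup₂₀ F b) := fun g h s hs t ht => by
  have h1 : h⁻¹ * s * h ∈ N := by
    have := (inferInstance : N.Normal).conj_mem s hs h⁻¹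
    simpa using this
  have h2 : g * s * (h * t) = g * h * (h⁻¹ * s * h * t) := by group
  simp only [cup₂₀_apply, hF g h s hs t ht]
  rw [h2, map_mul (B.ρ) (g * h), Module.End.mul_apply, hb _ (N.mul_mem h1 ht)]

/-- values of the cups are fixed by `N` when the values of the factors are -/
lemma fixedBy_cup₁₁ [N.Normal] {f : G → A} {f' : G → B} (hv : ∀ g, FixedBy A N (f g))
    (hv' : ∀ h, FixedBy B N (f' h)) (p : G × G) : FixedBy C N (φ.cup₁₁ f f' p) :=
  φ.fixedBy_toLin (hv p.1) ((hv' p.2).ρ p.1)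

lemma fixedBy_cup₀₁ {a : A} (ha : FixedBy A N a) {f : G → B} (hv : ∀ g, FixedBy B N (f g))
    (g : G) : FixedBy C N (φ.cup₀₁ a f g) :=
  φ.fixedBy_toLin ha (hv g)

lemma fixedBy_cup₁₀ [N.Normal] {f : G → A} (hv : ∀ g, FixedBy A N (f g)) {b : B}
    (hb : FixedBy B N b) (g : G) : FixedBy C N (φ.cup₁₀ f b g) :=
  φ.fixedBy_toLin (hv g) (hb.ρ g)

lemma fixedBy_cup₀₂ {a : A} (ha : FixedBy A N a) {F : G × G → B}
    (hv : ∀ p, FixedBy B N (F p)) (p : G × G) : FixedBy C N (φ.cup₀₂ a F p) :=
  φ.fixedBy_toLin ha (hv p)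

lemma fixedBy_cup₂₀ [N.Normal] {F : G × G → A} (hv : ∀ p, FixedBy A N (F p)) {b : B}
    (hb : FixedBy B N b) (p : G × G) : FixedBy C N (φ.cup₂₀ F b p) :=
  φ.fixedBy_toLin (hv p) (hb.ρ _)

end RepPairing

end Fermat.Agent.CFT
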