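import Mathlib
import Fermat.Agent.CFT.CupLow
import Fermat.Agent.CFT.CupLowLevel

/-!
# Cup products landing in degree `3` and the general Leibniz rules for `d₂₃`

Cochain-level cup products `C¹ × C² → C³`, `C² × C¹ → C³`, `C⁰ × C³ → C³`, `C³ × C⁰ → C³` on
inhomogeneous cochains (plain functions `G × G × G → C`), and the Leibniz rules
`d (a ∪ b) = d a ∪ b + (-1)^i a ∪ d b` for `(i, j) = (1,1), (0,2), (2,0)` without any cocycle
hypothesis, plus level-constancy of the new cups.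
-/

set_option autoImplicit false

universe u

open CategoryTheory groupCohomology

namespace Fermat.Agent.CFT

variable {k G : Type u} [CommRing k] [Group G]

namespace RepPairing

variable {A B C : Rep.{u} k G} (φ : RepPairing A B C)

/-- `f ∪ F` for `f ∈ C¹`, `F ∈ C²`. -/
def cup₁₂ : (G → A) →ₗ[k] (G × G → B) →ₗ[k] (G × G × G → C) :=
  LinearMap.mk₂ k (fun f F p => φ.toLin (f p.1) (B.ρ p.1 (F (p.2.1, p.2.2))))
    (fun f₁ f₂ F => by funext p; simp)
    (fun c f F => by funext p; simp)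
    (fun f F₁ F₂ => by funext p; simp)
    (fun c f F => by funext p; simp)

@[simp] lemma cup₁₂_apply (f : G → A) (F : G × G → B) (p : G × G × G) :
    φ.cup₁₂ f F p = φ.toLin (f p.1) (B.ρ p.1 (F (p.2.1, p.2.2))) := rfl

/-- `F ∪ f` for `F ∈ C²`, `f ∈ C¹`. -/
def cup₂₁ : (G × G → A) →ₗ[k] (G → B) →ₗ[k] (G × G × G → C) :=
  LinearMap.mk₂ k (fun F f p => φ.toLin (F (p.1, p.2.1)) (B.ρ (p.1 * p.2.1) (f p.2.2)))
    (fun F₁ F₂ f => by funext p; simp)
    (fun c F f => by funext p; simp)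
    (fun F f₁ f₂ => by funext p; simp)
    (fun c F f => by funext p; simp)

@[simp] lemma cup₂₁_apply (F : G × G → A) (f : G → B) (p : G × G × G) :
    φ.cup₂₁ F f p = φ.toLin (F (p.1, p.2.1)) (B.ρ (p.1 * p.2.1) (f p.2.2)) := rfl

/-- `a ∪ T` for `a ∈ C⁰`, `T ∈ C³`. -/
def cup₀₃ : A →ₗ[k] (G × G × G → B) →ₗ[k] (G × G × G → C) :=
  LinearMap.mk₂ k (fun a T p => φ.toLin a (T p))
    (fun a a' T => by funext p; simp)
    (fun c a T => by funext p; simp)
    (fun a T T' => by funext p; simp)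
    (fun c a T => by funext p; simp)

@[simp] lemma cup₀₃_apply (a : A) (T : G × G × G → B) (p : G × G × G) :
    φ.cup₀₃ a T p = φ.toLin a (T p) := rfl

/-- `T ∪ b` for `T ∈ C³`, `b ∈ C⁰`. -/
def cup₃₀ : (G × G × G → A) →ₗ[k] B →ₗ[k] (G × G × G → C) :=
  LinearMap.mk₂ k (fun T b p => φ.toLin (T p) (B.ρ (p.1 * p.2.1 * p.2.2) b))
    (fun T T' b => by funext p; simp)
    (fun c T b => by funext p; simp)
    (fun T b b' => by funext p; simp)
    (fun c T b => by funext p; simp)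

@[simp] lemma cup₃₀_apply (T : G × G × G → A) (b : B) (p : G × G × G) :
    φ.cup₃₀ T b p = φ.toLin (T p) (B.ρ (p.1 * p.2.1 * p.2.2) b) := rfl

/-! ### Leibniz rules for `d₂₃` -/

/-- `d(f ∪ f') = df ∪ f' - f ∪ df'` in degree `(1,1)`. -/
lemma d₂₃_cup₁₁ (f : G → A) (f' : G → B) :
    (d₂₃ C).hom (φ.cup₁₁ f f') = φ.cup₂₁ ((d₁₂ A).hom f) f' - φ.cup₁₂ f ((d₁₂ B).hom f') := by
  funext p
  obtain ⟨g, h, j⟩ := p
  simp only [d₂₃_hom_apply, d₁₂_hom_apply, Pi.sub_apply, cup₁₁_apply, cup₁₂_apply, cup₂₁_apply,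
    map_sub, map_add, LinearMap.sub_apply, LinearMap.add_apply, φ.map_ρ', map_mul,
    Module.End.mul_apply]
  abel

/-- `d(a ∪ F) = da ∪ F + a ∪ dF` in degree `(0,2)`. -/
lemma d₂₃_cup₀₂ (a : A) (F : G × G → B) :
    (d₂₃ C).hom (φ.cup₀₂ a F) = φ.cup₁₂ ((d₀₁ A).hom a) F + φ.cup₀₃ a ((d₂₃ B).hom F) := by
  funext p
  obtain ⟨g, h, j⟩ := p
  simp only [d₂₃_hom_apply, d₀₁_hom_apply, Pi.add_apply, cup₀₂_apply, cup₁₂_apply, cup₀₃_apply,
    map_sub, map_add, LinearMap.sub_apply, φ.map_ρ']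
  abel

/-- `d(F ∪ b) = dF ∪ b + F ∪ db` in degree `(2,0)`. -/
lemma d₂₃_cup₂₀ (F : G × G → A) (b : B) :
    (d₂₃ C).hom (φ.cup₂₀ F b) = φ.cup₃₀ ((d₂₃ A).hom F) b + φ.cup₂₁ F ((d₀₁ B).hom b) := by
  funext p
  obtain ⟨g, h, j⟩ := p
  simp only [d₂₃_hom_apply, d₀₁_hom_apply, Pi.add_apply, cup₂₀_apply, cup₃₀_apply, cup₂₁_apply,
    map_sub, map_add, LinearMap.sub_apply, LinearMap.add_apply, φ.map_ρ', map_mul,
    Module.End.mul_apply, mul_assoc]
  abel


/-! ### level-constancy -/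

open Cup

variable {N : Subgroup G}

lemma rightInv₃_cup₁₂ {f : G → A} (hf : RightInv₁ N f) {F : G × G → B} (hF : RightInv₂ N F)
    (hv : ∀ p, FixedBy B N (F p)) : RightInv₃ N (φ.cup₁₂ f F) := fun g h j s hs t ht r hr => by
  simp only [cup₁₂_apply, hf g s hs, hF h j t ht r hr, map_mul, Module.End.mul_apply,
    hv (h, j) s hs]

lemma rightInv₃_cup₂₁ [N.Normal] {F : G × G → A} (hF : RightInv₂ N F) {f : G → B}
    (hf : RightInv₁ N f) (hv : ∀ g, FixedBy B N (f g)) : RightInv₃ N (φ.cup₂₁ F f) :=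
  fun g h j s hs t ht r hr => by
  have h1 : h⁻¹ * s * h ∈ N := by
    have := (inferInstance : N.Normal).conj_mem s hs h⁻¹
    simpa using this
  have h2 : g * s * (h * t) = g * h * (h⁻¹ * s * h * t) := by group
  simp only [cup₂₁_apply, hF g h s hs t ht, hf j r hr]
  rw [h2, map_mul (B.ρ) (g * h), Module.End.mul_apply, hv j _ (N.mul_mem h1 ht)]

lemma rightInv₃_cup₀₃ (a : A) {T : G × G × G → B} (hT : RightInv₃ N T) :
    RightInv₃ N (φ.cup₀₃ a T) := fun g h j s hs t ht r hr => by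
  simp only [cup₀₃_apply, hT g h j s hs t ht r hr]

lemma rightInv₃_cup₃₀ [N.Normal] {T : G × G × G → A} (hT : RightInv₃ N T) {b : B}
    (hb : FixedBy B N b) : RightInv₃ N (φ.cup₃₀ T b) := fun g h j s hs t ht r hr => by
  have h1 : h⁻¹ * s * h ∈ N := by
    have := (inferInstance : N.Normal).conj_mem s hs h⁻¹
    simpa using this
  have h3 : j⁻¹ * (h⁻¹ * s * h * t) * j ∈ N := by
    have := (inferInstance : N.Normal).conj_mem _ (N.mul_mem h1 ht) j⁻¹
    simpa using this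
  have h2 : g * s * (h * t) * (j * r) = g * h * j * (j⁻¹ * (h⁻¹ * s * h * t) * j * r) := by
    group
  simp only [cup₃₀_apply, hT g h j s hs t ht r hr]
  rw [h2, map_mul (B.ρ) (g * h * j), Module.End.mul_apply, hb _ (N.mul_mem h3 hr)]

lemma fixedBy_cup₁₂ [N.Normal] {f : G → A} (hv : ∀ g, FixedBy A N (f g)) {F : G × G → B}
    (hv' : ∀ p, FixedBy B N (F p)) (p : G × G × G) : FixedBy C N (φ.cup₁₂ f F p) :=
  φ.fixedBy_toLin (hv p.1) ((hv' _).ρ p.1)

lemma fixedBy_cup₂₁ [N.Normal] {F : G × G → A} (hv : ∀ p, FixedBy A N (F p)) {f : G → B}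
    (hv' : ∀ g, FixedBy B N (f g)) (p : G × G × G) : FixedBy C N (φ.cup₂₁ F f p) :=
  φ.fixedBy_toLin (hv _) ((hv' _).ρ _)

lemma fixedBy_cup₀₃ {a : A} (ha : FixedBy A N a) {T : G × G × G → B}
    (hv : ∀ p, FixedBy B N (T p)) (p : G × G × G) : FixedBy C N (φ.cup₀₃ a T p) :=
  φ.fixedBy_toLin ha (hv p)

lemma fixedBy_cup₃₀ [N.Normal] {T : G × G × G → A} (hv : ∀ p, FixedBy A N (T p)) {b : B}
    (hb : FixedBy B N b) (p : G × G × G) : FixedBy C N (φ.cup₃₀ T b p) :=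
  φ.fixedBy_toLin (hv p) (hb.ρ _)

end RepPairing

end Fermat.Agent.CFT
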