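import Mathlib
import Fermat.Agent.CFT.CupLow
import Fermat.Agent.CFT.Tate.CyclicH2

/-!
# Node A7 (CC4, CC5): the carry cocycle as a Bockstein and as a cup product

On top of `Tate/CyclicH2.lean` (helper6: `bockFun`, `carryCocycle`, explicit `H²` of a cyclic
group) and `CupLow.lean` (helper29: cup products in low degrees).  Everything is stated for a
general commutative coefficient ring `k` (take `k = ℤ` for the classical statements; working with
general `k` avoids the `Module ℤ` instance diamond on `Rep ℤ G`).

* `smulPairing A : RepPairing A (Rep.trivial k G k) A`, `(a, r) ↦ r • a`;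
* `carryK hι : cocycles₂ (Rep.trivial k G k)` is the carry cocycle
  `(g, h) ↦ ((ι g + ι h - ι (g h)) / n) • 1`;
* `d₁₂_index` (CC4, cochain level): `d (g ↦ ι g) = n • carryK`, i.e. `[carryK] = δ(χ_σ)` for
  `0 → k --n--> k → k/n → 0` and `χ_σ (σ ^ i) = i`;
* `cupCocycles₀₂_carryK` (CC5): the cup product of an invariant `a` with `carryK` is
  `carryCocycle A hι a`; `cupH₀₂_carryK`: the same in `H²`.
-/

set_option autoImplicit false

open CategoryTheory groupCohomology Rep

namespace Fermat.Agent.CFT

universe u

variable {k G : Type u} [CommRing k] [Group G]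

/-- The pairing `A × k → A`, `(a, r) ↦ r • a`, for the trivial representation `k`. -/
def smulPairing (A : Rep.{u} k G) : RepPairing A (Rep.trivial k G k) A where
  toLin := (LinearMap.lsmul k A).flip
  map_ρ g a r := by
    show ((Rep.trivial k G k).ρ g r) • (A.ρ g a) = A.ρ g (r • a)
    rw [map_smul]
    rfl

@[simp]
theorem smulPairing_apply (A : Rep.{u} k G) (a : A) (r : k) :
    (smulPairing A).toLin a r = r • a := rfl

section Carry

variable {σ : G} {ι : G → ℕ} (hι : ∀ g, σ ^ ι g = g)

/-- The carry cocycle `(g, h) ↦ ((ι g + ι h - ι (g h)) / n) • 1` on a cyclic group `⟨σ⟩` of order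
`n`, as a 2-cocycle of the trivial representation `k`. -/
noncomputable def carryK : cocycles₂ (Rep.trivial k G k) :=
  carryCocycle (Rep.trivial k G k) hι (1 : k) (fun g => by simp)

theorem carryK_apply (g h : G) :
    (carryK (k := k) hι) (g, h) = ((((ι g : ℤ) + ι h - ι (g * h)) / orderOf σ : ℤ) : k) := by
  show ((((ι g : ℤ) + ι h - ι (g * h)) / orderOf σ : ℤ)) • (1 : k) = _
  exact zsmul_one _

theorem orderOf_mul_carryK (g h : G) :
    (orderOf σ : k) * (carryK (k := k) hι) (g, h) = (ι g : k) + ι h - ι (g * h) := by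
  rw [carryK_apply]
  have h1 := Int.mul_ediv_cancel' (index_dvd hι g h)
  have h2 := congrArg (Int.cast : ℤ → k) h1
  push_cast at h2
  exact h2

/-- **CC4 (cochain level)**: the coboundary of the index function is `n` times the carry
cocycle, i.e. the carry cocycle represents the Bockstein `δ(χ_σ)`. -/
theorem d₁₂_index :
    (d₁₂ (Rep.trivial k G k)).hom (fun g => (ι g : k)) =
      fun p => (orderOf σ : k) * (carryK (k := k) hι) p := by
  funext p
  obtain ⟨g, h⟩ := p
  rw [orderOf_mul_carryK]
  simp only [d₁₂_hom_apply]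
  show (ι h : k) - ι (g * h) + ι g = _
  ring

/-- **CC5**: `a ∪ carryK = carryCocycle a` for the pairing `A × k → A`. -/
theorem cupCocycles₀₂_carryK (A : Rep.{u} k G) (a : A.ρ.invariants) :
    (smulPairing A).cupCocycles₀₂ a (carryK hι) =
      carryCocycle A hι (a : A) (fun g => a.2 g) := by
  apply Subtype.ext
  funext p
  obtain ⟨g, h⟩ := p
  show (smulPairing A).toLin (a : A) ((carryK (k := k) hι) (g, h)) =
    ((((ι g : ℤ) + ι h - ι (g * h)) / orderOf σ : ℤ)) • (a : A)
  rw [carryK_apply, smulPairing_apply]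
  exact Int.cast_smul_eq_zsmul k _ _

/-- **CC5 in cohomology**: `a ∪ [carryK] = [carryCocycle a]` in `H²(G, A)`. -/
theorem cupH₀₂_carryK (A : Rep.{u} k G) (a : A.ρ.invariants) :
    (smulPairing A).cupH₀₂ a (H2π _ (carryK hι)) =
      H2π A (carryCocycle A hι (a : A) (fun g => a.2 g)) := by
  rw [RepPairing.cupH₀₂_π, cupCocycles₀₂_carryK]

end Carry

end Fermat.Agent.CFT
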