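import Mathlib
import Fermat.Agent.CFT.CyclicCup

/-!
# Node A7 (CC4, δ-form): `[carry cocycle] = δ(χ_σ)` for Mathlib's connecting homomorphism

For a cyclic group `G = ⟨σ⟩` of order `n` with index function `ι` (`σ ^ ι g = g`) we consider the
short exact sequence of trivial `G`-representations over `ℤ`
`0 → ℤ --n--> ℤ → ZMod n → 0` (`bockSeq`, `bockSeq_shortExact`) and the character
`χ_σ : G → ZMod n`, `χ_σ g = ι g` (`idxCocycle`).  Then `δ [χ_σ] = [carryK]` in `H²(G, ℤ)`
(`δ_idxCocycle`), where `δ` is Mathlib's connecting homomorphism `groupCohomology.δ`.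

`rep_shortExact_of_elementwise` is an elementwise criterion for short exactness in `Rep k G`,
stated for general `k` so that it can be used for `k = ℤ`.
-/

set_option autoImplicit false

universe u

open CategoryTheory groupCohomology Rep

namespace Fermat.Agent.CFT

/-- Elementwise criterion for short exactness in `Rep k G` (general `k`; stated so that it can be
specialised to `k = ℤ`, where `forget₂ (Rep ℤ G) (ModuleCat ℤ)` does not elaborate because of the
`ℤ`-module diamond). -/
theorem rep_shortExact_of_elementwise {k G : Type u} [CommRing k] [Group G]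
    (S : ShortComplex (Rep.{u} k G))
    (hex : ∀ x₂ : S.X₂, S.g.hom x₂ = 0 → ∃ x₁ : S.X₁, S.f.hom x₁ = x₂)
    (hinj : Function.Injective S.f.hom) (hsurj : Function.Surjective S.g.hom) :
    S.ShortExact := by
  refine ShortComplex.ShortExact.mk' ?_ ?_ ?_
  · rw [← ShortComplex.exact_map_iff_of_faithful _ (forget₂ (Rep.{u} k G) (ModuleCat.{u} k)),
      ShortComplex.moduleCat_exact_iff]
    exact hex
  · rw [Rep.mono_iff_injective]
    exact hinj
  · rw [Rep.epi_iff_surjective]
    exact hsurj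

variable {G : Type} [Group G]

section Seq

variable (G) (n : ℕ)

/-- Multiplication by `n` on the trivial representation `ℤ`. -/
noncomputable def bockMul : Rep.trivial ℤ G ℤ ⟶ Rep.trivial ℤ G ℤ :=
  (Rep.trivialFunctor ℤ G).map (ModuleCat.ofHom (LinearMap.lsmul ℤ ℤ (n : ℤ)))

/-- Reduction mod `n` from the trivial representation `ℤ` to the trivial representation
`ZMod n`. -/
noncomputable def bockRed : Rep.trivial ℤ G ℤ ⟶ Rep.trivial ℤ G (ZMod n) :=
  (Rep.trivialFunctor ℤ G).map (ModuleCat.ofHom (Int.castAddHom (ZMod n)).toIntLinearMap)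

@[simp]
theorem bockMul_hom_apply (m : ℤ) : (bockMul G n).hom m = (n : ℤ) * m := rfl

@[simp]
theorem bockRed_hom_apply (m : ℤ) : (bockRed G n).hom m = (m : ZMod n) := rfl

/-- The short complex `ℤ --n--> ℤ → ZMod n` of trivial representations. -/
noncomputable def bockSeq : ShortComplex (Rep.{0} ℤ G) :=
  ShortComplex.mk (bockMul G n) (bockRed G n) (by
    apply Rep.hom_ext
    refine DFunLike.ext _ _ fun m => ?_
    show (((n : ℤ) * m : ℤ) : ZMod n) = (0 : ZMod n)
    simp)

theorem bockSeq_shortExact [NeZero n] : (bockSeq G n).ShortExact := by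
  have hex : ∀ m : ℤ, (bockRed G n).hom m = 0 → ∃ c : ℤ, (bockMul G n).hom c = m := by
    intro m hm
    rw [bockRed_hom_apply, ZMod.intCast_zmod_eq_zero_iff_dvd] at hm
    obtain ⟨c, hc⟩ := hm
    exact ⟨c, hc.symm⟩
  have hinj : ∀ a b : ℤ, (bockMul G n).hom a = (bockMul G n).hom b → a = b := by
    intro a b h
    rw [bockMul_hom_apply, bockMul_hom_apply] at h
    have hn : (n : ℤ) ≠ 0 := by exact_mod_cast NeZero.ne n
    exact mul_left_cancel₀ hn h
  have hsurj : ∀ c : ZMod n, ∃ m : ℤ, (bockRed G n).hom m = c := by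
    intro c
    exact ⟨((c.val : ℕ) : ℤ), by rw [bockRed_hom_apply]; simp⟩
  exact rep_shortExact_of_elementwise (bockSeq G n) hex hinj hsurj

end Seq

section Delta

variable {σ : G} {ι : G → ℕ} (hι : ∀ g, σ ^ ι g = g)

include hι in
/-- The order of the generator is non-zero (to feed the `NeZero` argument of `δ_idxCocycle`). -/
theorem neZero_orderOf_of_index : NeZero (orderOf σ) := ⟨(orderOf_pos_of_index hι).ne'⟩

/-- The character `χ_σ : G → ZMod n`, `σ ^ i ↦ i`, as a 1-cocycle of the trivial representation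
`ZMod n` (`n = orderOf σ`). -/
noncomputable def idxCocycle : cocycles₁ (Rep.trivial ℤ G (ZMod (orderOf σ))) :=
  ⟨fun g => (ι g : ZMod (orderOf σ)), by
    rw [mem_cocycles₁_iff]
    intro g h
    show ((ι (g * h) : ℕ) : ZMod (orderOf σ)) = (ι h : ZMod (orderOf σ)) + ι g
    have h1 := index_dvd hι g h
    have h2 : (((ι g : ℤ) + ι h - ι (g * h) : ℤ) : ZMod (orderOf σ)) = 0 := by
      rw [ZMod.intCast_zmod_eq_zero_iff_dvd]
      exact h1
    push_cast at h2
    rw [sub_eq_zero] at h2
    rw [← h2, add_comm]⟩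

@[simp]
theorem idxCocycle_apply (g : G) : (idxCocycle hι) g = (ι g : ZMod (orderOf σ)) := rfl

/-- **CC4, δ-form**: `δ [χ_σ] = [carryK]` for the Bockstein sequence `0 → ℤ → ℤ → ZMod n → 0`. -/
theorem δ_idxCocycle [NeZero (orderOf σ)] :
    δ (bockSeq_shortExact G (orderOf σ)) 1 2 rfl (H1π _ (idxCocycle hι)) =
      H2π (Rep.trivial ℤ G ℤ) (carryK (k := ℤ) hι) := by
  have hx : (bockSeq G (orderOf σ)).f.hom ∘ (carryK (k := ℤ) hι : G × G → ℤ) =
      d₁₂ (bockSeq G (orderOf σ)).X₂ (fun g => (ι g : ℤ)) := by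
    have h := d₁₂_index (k := ℤ) hι
    funext p
    have hp := congrFun h p
    show ((orderOf σ : ℕ) : ℤ) * (carryK (k := ℤ) hι) p = _
    exact hp.symm
  have hy : (bockSeq G (orderOf σ)).g.hom ∘ (fun g => (ι g : ℤ)) = (idxCocycle hι : G → _) := by
    funext g
    show (((ι g : ℕ) : ℤ) : ZMod (orderOf σ)) = (ι g : ZMod (orderOf σ))
    simp
  rw [δ₁_apply (bockSeq_shortExact G (orderOf σ)) (idxCocycle hι) (fun g => (ι g : ℤ)) hy
    (carryK (k := ℤ) hι) hx]
  rfl

end Delta

end Fermat.Agent.CFT
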