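import Mathlib
import Fermat.Agent.CFT.Tate.CyclicH2
import Fermat.Agent.CFT.Global.IdeleHerbrand
import Fermat.Agent.CFT.Global.RestrictedCohRep
import Fermat.Agent.CFT.Global.CyclicBridge

/-!
# Cyclic groups: from the Herbrand pair `(σ - 1, N)` to Mathlib's group cohomology

For a finite cyclic group `G = ⟨σ⟩` of order `n` acting on a commutative group `M` and
`P = smulPair σ n` (`D = σ - 1`, `N = 1 + σ + ⋯ + σ^(n-1)` on `Additive M`):

* `isZero_H1_of_subsingleton_H1_smulPair`: `Ĥ¹ = ker N / im D = 0` implies `H¹(G, M) = 0`;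
* `smulPairH0EquivH2 : P.H0 ≃+ H²(G, M)` (through the carry cocycles of `Tate/CyclicH2.lean`),
  hence `natCard_H2_eq_natCard_H0_smulPair`, `finite_H2_iff_finite_H0_smulPair`.
-/

set_option autoImplicit false

open CategoryTheory Limits groupCohomology Rep

namespace Fermat.Agent.CFT

section Bridge

variable {G M : Type} [Group G] [CommGroup M] [MulDistribMulAction G M]

/-- For a 1-cocycle `f` and `y` with `σ • y / y = f σ`: `f (σ ^ k) = σ ^ k • y / y`. -/
theorem isMulCocycle₁_pow_eq {f : G → M} (hf : IsMulCocycle₁ f) (σ : G) (y : M)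
    (hy : σ • y / y = f σ) (k : ℕ) : f (σ ^ k) = σ ^ k • y / y := by
  induction k with
  | zero =>
    rw [pow_zero, one_smul, div_self']
    have h := hf 1 1
    rw [mul_one, one_smul] at h
    exact (mul_eq_left.1 h.symm)
  | succ k ih =>
    rw [pow_succ, hf (σ ^ k) σ, ih, ← hy, smul_div', ← mul_smul, ← pow_succ]
    rw [div_mul_div_cancel]

/-- The values of a 1-cocycle on the powers of `σ` are the partial norms of `f σ`. -/
theorem isMulCocycle₁_pow_eq_prod {f : G → M} (hf : IsMulCocycle₁ f) (σ : G) (k : ℕ) :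
    f (σ ^ k) = ∏ j ∈ Finset.range k, σ ^ j • f σ := by
  induction k with
  | zero =>
    rw [pow_zero, Finset.range_zero, Finset.prod_empty]
    have h := hf 1 1
    rw [mul_one, one_smul] at h
    exact (mul_eq_left.1 h.symm)
  | succ k ih =>
    rw [pow_succ, hf (σ ^ k) σ, ih, Finset.prod_range_succ, mul_comm]

variable {σ : G} {n : ℕ} (hσn : σ ^ n = 1)

include hσn in
/-- **`Ĥ¹ = 0 ⟹ H¹ = 0`** for a finite cyclic group, cocycle form. -/
theorem h1TrivialOn_top_of_subsingleton_H1_smulPair [Finite G]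
    (hgen : ∀ g : G, g ∈ Subgroup.zpowers σ)
    (h : Subsingleton (smulPair (M := M) σ n hσn).H1) : H1TrivialOn G (⊤ : Subgroup M) := by
  intro f _ hf
  have hN : (smulPair (M := M) σ n hσn).N (Additive.ofMul (f σ)) = 0 := by
    rw [smulPair_N_apply]
    show Additive.ofMul (∏ k ∈ Finset.range n, σ ^ k • f σ) = 0
    rw [← isMulCocycle₁_pow_eq_prod hf σ n, hσn]
    have h1 := hf 1 1
    rw [mul_one, one_smul] at h1
    rw [mul_eq_left.1 h1.symm]
    rfl
  have h0 : (smulPair (M := M) σ n hσn).mk1 (Additive.ofMul (f σ)) hN = 0 :=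
    Subsingleton.elim _ _
  obtain ⟨b, hb⟩ := (DNPair.mk1_eq_zero_iff _).1 h0
  rw [smulPair_D_apply] at hb
  have hy : σ • b.toMul / b.toMul = f σ := Additive.ofMul.injective hb
  refine ⟨b.toMul, Subgroup.mem_top _, fun g => ?_⟩
  obtain ⟨k, rfl⟩ := exists_pow_eq_of_mem_zpowers hgen g
  exact (isMulCocycle₁_pow_eq hf σ b.toMul hy k).symm

include hσn in
/-- **`Ĥ¹ = 0 ⟹ H¹ = 0`** for a finite cyclic group. -/
theorem isZero_H1_of_subsingleton_H1_smulPair [Finite G]
    (hgen : ∀ g : G, g ∈ Subgroup.zpowers σ)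
    (h : Subsingleton (smulPair (M := M) σ n hσn).H1) :
    IsZero (groupCohomology (Rep.ofMulDistribMulAction G M) 1) := by
  have hs : Subsingleton (groupCohomology.H1 (Rep.ofMulDistribMulAction G M)) :=
    subsingleton_H1_of_h1TrivialOn
      (h1TrivialOn_top_of_subsingleton_H1_smulPair hσn hgen h)
  exact ModuleCat.isZero_of_subsingleton _

end Bridge

section H2

variable {G M : Type} [Group G] [CommGroup M] [MulDistribMulAction G M] {σ : G} {n : ℕ}
  (hσn : σ ^ n = 1)

/-- An element fixed by a generator is fixed by the whole group. -/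
theorem smul_eq_of_generator_smul_eq (hgen : ∀ g : G, g ∈ Subgroup.zpowers σ) (m : M)
    (hm : σ • m = m) (g : G) : g • m = m := by
  have h1 : Subgroup.zpowers σ ≤ MulAction.stabilizer G m :=
    (Subgroup.zpowers_le).2 (MulAction.mem_stabilizer_iff.2 hm)
  exact MulAction.mem_stabilizer_iff.1 (h1 (hgen g))

include hσn in
/-- The elements of `ker D` are invariant. -/
theorem ρ_eq_of_smulPair_D_eq_zero (hgen : ∀ g : G, g ∈ Subgroup.zpowers σ) (x : Additive M)
    (hx : (smulPair (M := M) σ n hσn).D x = 0) (g : G) :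
    (Rep.ofMulDistribMulAction G M).ρ g x = x := by
  rw [smulPair_D_apply] at hx
  have h1 : σ • x.toMul / x.toMul = 1 := Additive.ofMul.injective hx
  exact congrArg Additive.ofMul
    (smul_eq_of_generator_smul_eq hgen x.toMul (div_eq_one.1 h1) g)

include hσn in
/-- The invariant elements lie in `ker D`. -/
theorem smulPair_D_eq_zero_of_ρ_eq (x : Additive M)
    (hx : ∀ g : G, (Rep.ofMulDistribMulAction G M).ρ g x = x) :
    (smulPair (M := M) σ n hσn).D x = 0 := by
  rw [smulPair_D_apply]
  have h1 : σ • x.toMul = x.toMul := Additive.ofMul.injective (hx σ)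
  rw [h1, div_self']
  rfl

include hσn in
/-- The norm of the cyclic group is the `N` of the Herbrand pair. -/
theorem cycNorm_eq_smulPair_N (hord : orderOf σ = n) (b : Additive M) :
    cycNorm (Rep.ofMulDistribMulAction G M) σ b = (smulPair (M := M) σ n hσn).N b := by
  refine (cycNorm_apply (Rep.ofMulDistribMulAction G M) σ b).trans ?_
  rw [smulPair_N_apply, hord, ofMul_prod]
  rfl

variable [Finite G] (hgen : ∀ g : G, g ∈ Subgroup.zpowers σ)

/-- The inclusion of `ker D` into the invariants. -/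
noncomputable def smulPairKerToInvariants :
    (smulPair (M := M) σ n hσn).D.ker →+ (Rep.ofMulDistribMulAction G M).ρ.invariants where
  toFun x := ⟨x.1, fun g => ρ_eq_of_smulPair_D_eq_zero hσn hgen x.1 x.2 g⟩
  map_zero' := rfl
  map_add' _ _ := rfl

/-- The map `ker D → H²(G, M)`, `x ↦` class of the carry cocycle of `x`. -/
noncomputable def smulPairKerToH2 :
    (smulPair (M := M) σ n hσn).D.ker →+ groupCohomology.H2 (Rep.ofMulDistribMulAction G M) :=
  (carryH2 (Rep.ofMulDistribMulAction G M)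
    (pow_cycIdx_of_zpowers hgen)).toAddMonoidHom.comp (smulPairKerToInvariants hσn hgen)

theorem smulPairKerToH2_surjective : Function.Surjective (smulPairKerToH2 (M := M) hσn hgen) := by
  intro c
  obtain ⟨a, rfl⟩ := carryH2_surjective (Rep.ofMulDistribMulAction G M)
    (pow_cycIdx_of_zpowers hgen) c
  exact ⟨⟨a.1, smulPair_D_eq_zero_of_ρ_eq (M := M) hσn a.1 (fun g => a.2 g)⟩, rfl⟩

theorem ker_smulPairKerToH2 (hord : orderOf σ = n) :
    (smulPairKerToH2 (M := M) hσn hgen).ker =
      (smulPair (M := M) σ n hσn).N.range.addSubgroupOf (smulPair (M := M) σ n hσn).D.ker := by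
  ext x
  rw [AddMonoidHom.mem_ker, AddSubgroup.mem_addSubgroupOf, AddMonoidHom.mem_range]
  have h1 : smulPairKerToH2 (M := M) hσn hgen x = 0 ↔
      smulPairKerToInvariants hσn hgen x ∈
        LinearMap.ker (carryH2 (Rep.ofMulDistribMulAction G M) (pow_cycIdx_of_zpowers hgen)) :=
    Iff.rfl
  rw [h1, ker_carryH2, Submodule.mem_comap, LinearMap.mem_range]
  constructor
  · rintro ⟨b, hb⟩
    exact ⟨b, (cycNorm_eq_smulPair_N (M := M) hσn hord b).symm.trans hb⟩
  · rintro ⟨b, hb⟩
    exact ⟨b, (cycNorm_eq_smulPair_N (M := M) hσn hord b).trans hb⟩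

/-- **`Ĥ⁰(G, M) ≃ H²(G, M)`** for a finite cyclic group `G = ⟨σ⟩` of order `n`. -/
noncomputable def smulPairH0EquivH2 (hord : orderOf σ = n) :
    (smulPair (M := M) σ n hσn).H0 ≃+ groupCohomology.H2 (Rep.ofMulDistribMulAction G M) :=
  (QuotientAddGroup.quotientAddEquivOfEq (ker_smulPairKerToH2 hσn hgen hord).symm).trans
    (QuotientAddGroup.quotientKerEquivOfSurjective _ (smulPairKerToH2_surjective hσn hgen))

include hgen in
theorem natCard_H2_eq_natCard_H0_smulPair (hord : orderOf σ = n) :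
    Nat.card (groupCohomology (Rep.ofMulDistribMulAction G M) 2) =
      Nat.card (smulPair (M := M) σ n hσn).H0 :=
  (Nat.card_congr (smulPairH0EquivH2 hσn hgen hord).toEquiv).symm

include hgen in
theorem finite_H2_iff_finite_H0_smulPair (hord : orderOf σ = n) :
    Finite (groupCohomology (Rep.ofMulDistribMulAction G M) 2) ↔
      Finite (smulPair (M := M) σ n hσn).H0 :=
  (smulPairH0EquivH2 hσn hgen hord).toEquiv.finite_iff.symm

end H2

end Fermat.Agent.CFT
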