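import Mathlib

/-!
# The abstract duality chase (node A6′ of the S55 programme, pure linear algebra)

Setting: a field `k`, a type `Obj` of "coefficient modules", and for every `M : Obj` four
`k`-vector spaces `T1 M`, `T2 M`, `H0 M`, `H1 M` (think `T^r(M) = H^r(G, Hom(M, D))`,
`H^s(M) = H^s(G, M)`) together with pairings `p1 M : T1 M × H1 M → k`, `p2 M : T2 M × H0 M → k`.

A `DualityStep` for `M` is a "resolution" `0 → M → I → Q → 0` with the two long exact rows
(contravariant in the `T`'s, covariant in the `H`'s), adjointness of all the maps with respect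
to the pairings (the connecting maps up to a non-zero scalar), and perfectness of the two pairings
for `I`.

`duality_chase`: if every `M` admits a `DualityStep`, then `p1 M` and `p2 M` are perfect (i.e.
`T^r(M) → (H^{2-r}(M))^*` is bijective) for every `M`.

We also provide the two transport lemmas used to establish perfectness for the induced modules:
`perfect_of_shapiro` (transport along a pair of adjoint bijections) and `perfect_of_biprod`
(additivity).
-/

set_option autoImplicit false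

universe u v₁ v₂ v₃ v₄ w

namespace Fermat.Agent.CFT

open Function

namespace Chase

section DualExact

variable {k : Type*} [Field k] {V₁ V₂ V₃ : Type*} [AddCommGroup V₁] [Module k V₁]
  [AddCommGroup V₂] [Module k V₂] [AddCommGroup V₃] [Module k V₃]

/-- Over a field, dualising an exact sequence gives an exact sequence. -/
lemma exact_dualMap {f : V₁ →ₗ[k] V₂} {g : V₂ →ₗ[k] V₃} (h : Function.Exact f g) :
    Function.Exact g.dualMap f.dualMap := by
  rw [LinearMap.exact_iff] at h ⊢
  rw [LinearMap.ker_dualMap_eq_dualAnnihilator_range,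
    LinearMap.range_dualMap_eq_dualAnnihilator_ker, h]

/-- Scaling the first map of an exact pair by a unit keeps exactness. -/
lemma exact_smul_left {f : V₁ →ₗ[k] V₂} {g : V₂ →ₗ[k] V₃} (h : Function.Exact f g) {ε : k}
    (hε : ε ≠ 0) : Function.Exact (ε • f) g := by
  intro y
  rw [h y]
  constructor
  · rintro ⟨x, rfl⟩
    exact ⟨ε⁻¹ • x, by simp [smul_smul, hε]⟩
  · rintro ⟨x, rfl⟩
    exact ⟨ε • x, by simp⟩

/-- Scaling the second map of an exact pair by a unit keeps exactness. -/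
lemma exact_smul_right {f : V₁ →ₗ[k] V₂} {g : V₂ →ₗ[k] V₃} (h : Function.Exact f g) {ε : k}
    (hε : ε ≠ 0) : Function.Exact f (ε • g) := by
  intro y
  rw [← h y]
  simp [hε]

end DualExact

end Chase

section Step

variable {k : Type u} [Field k] {Obj : Type w}
  (T1 : Obj → Type v₁) (T2 : Obj → Type v₂) (H0 : Obj → Type v₃) (H1 : Obj → Type v₄)
  [∀ M, AddCommGroup (T1 M)] [∀ M, Module k (T1 M)]
  [∀ M, AddCommGroup (T2 M)] [∀ M, Module k (T2 M)]
  [∀ M, AddCommGroup (H0 M)] [∀ M, Module k (H0 M)]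
  [∀ M, AddCommGroup (H1 M)] [∀ M, Module k (H1 M)]
  (p1 : ∀ M, T1 M →ₗ[k] H1 M →ₗ[k] k) (p2 : ∀ M, T2 M →ₗ[k] H0 M →ₗ[k] k)

/-- One step of the duality chase: a resolution `0 → M → I → Q → 0` with the exact rows
`T¹(Q) → T¹(I) → T¹(M) → T²(Q) → T²(I) → T²(M) → 0` and
`0 → H⁰(M) → H⁰(I) → H⁰(Q) → H¹(M) → H¹(I) → H¹(Q)`, adjointness of the maps w.r.t. the
pairings and perfectness for `I`. -/
structure DualityStep (M : Obj) where
  /-- the induced module -/
  I : Obj
  /-- the quotient -/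
  Q : Obj
  /-- `T¹(Q) → T¹(I)` -/
  a1 : T1 Q →ₗ[k] T1 I
  /-- `T¹(I) → T¹(M)` -/
  b1 : T1 I →ₗ[k] T1 M
  /-- the connecting map `T¹(M) → T²(Q)` -/
  dT : T1 M →ₗ[k] T2 Q
  /-- `T²(Q) → T²(I)` -/
  a2 : T2 Q →ₗ[k] T2 I
  /-- `T²(I) → T²(M)` -/
  b2 : T2 I →ₗ[k] T2 M
  /-- `H⁰(M) → H⁰(I)` -/
  i0 : H0 M →ₗ[k] H0 I
  /-- `H⁰(I) → H⁰(Q)` -/
  q0 : H0 I →ₗ[k] H0 Q
  /-- the connecting map `H⁰(Q) → H¹(M)` -/
  dH : H0 Q →ₗ[k] H1 M
  /-- `H¹(M) → H¹(I)` -/
  i1 : H1 M →ₗ[k] H1 I
  /-- `H¹(I) → H¹(Q)` -/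
  q1 : H1 I →ₗ[k] H1 Q
  exact_a1_b1 : Function.Exact a1 b1
  exact_b1_dT : Function.Exact b1 dT
  exact_dT_a2 : Function.Exact dT a2
  exact_a2_b2 : Function.Exact a2 b2
  surj_b2 : Function.Surjective b2
  inj_i0 : Function.Injective i0
  exact_i0_q0 : Function.Exact i0 q0
  exact_q0_dH : Function.Exact q0 dH
  exact_dH_i1 : Function.Exact dH i1
  exact_i1_q1 : Function.Exact i1 q1
  adj_a1 : ∀ a b, p1 I (a1 a) b = p1 Q a (q1 b)
  adj_b1 : ∀ a b, p1 M (b1 a) b = p1 I a (i1 b)
  /-- the sign (or any non-zero scalar) in the compatibility of the connecting maps -/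
  ε : k
  ε_ne : ε ≠ 0
  adj_d : ∀ a b, p2 Q (dT a) b = ε * p1 M a (dH b)
  adj_a2 : ∀ a b, p2 I (a2 a) b = p2 Q a (q0 b)
  adj_b2 : ∀ a b, p2 M (b2 a) b = p2 I a (i0 b)
  perfect1 : Function.Bijective (p1 I)
  perfect2 : Function.Bijective (p2 I)

variable {T1 T2 H0 H1 p1 p2}

namespace DualityStep

variable {M : Obj} (s : DualityStep T1 T2 H0 H1 p1 p2 M)

include s in
/-- Step 1: `𝒜²(M)` is surjective. -/
lemma surjective_p2 : Function.Surjective (p2 M) := by
  intro l
  obtain ⟨l', rfl⟩ := LinearMap.dualMap_surjective_of_injective s.inj_i0 l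
  obtain ⟨t, rfl⟩ := s.perfect2.2 l'
  refine ⟨s.b2 t, ?_⟩
  ext b
  simp [s.adj_b2]

include s in
/-- Step 2: `𝒜²(M)` is injective provided `𝒜²(Q)` is surjective. -/
lemma injective_p2 (hQ : Function.Surjective (p2 s.Q)) : Function.Injective (p2 M) := by
  refine LinearMap.injective_of_surjective_of_injective_of_right_exact s.a2 s.b2
    s.q0.dualMap s.i0.dualMap (p2 s.Q) (p2 s.I) (p2 M) ?_ ?_ s.exact_a2_b2
    (Chase.exact_dualMap s.exact_i0_q0) hQ s.perfect2.1 s.surj_b2
  · ext a b
    simp [s.adj_a2]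
  · ext a b
    simp [s.adj_b2]

include s in
/-- Step 3: `𝒜¹(M)` is surjective provided `𝒜²(Q)` is surjective. -/
lemma surjective_p1 (hQ : Function.Surjective (p2 s.Q)) : Function.Surjective (p1 M) := by
  refine LinearMap.surjective_of_surjective_of_surjective_of_injective s.b1 s.dT s.a2
    s.i1.dualMap (s.ε • s.dH.dualMap) s.q0.dualMap (p1 s.I) (p1 M) (p2 s.Q) (p2 s.I) ?_ ?_ ?_
    s.exact_dT_a2 ?_ ?_ s.perfect1.2 hQ s.perfect2.1
  · ext a b
    simp [s.adj_b1]
  · ext a b
    simp [s.adj_d]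
  · ext a b
    simp [s.adj_a2]
  · exact Chase.exact_smul_right (Chase.exact_dualMap s.exact_dH_i1) s.ε_ne
  · exact Chase.exact_smul_left (Chase.exact_dualMap s.exact_q0_dH) s.ε_ne

include s in
/-- Step 4: `𝒜¹(M)` is injective provided `𝒜¹(Q)` is surjective and `𝒜²(Q)` is injective. -/
lemma injective_p1 (hQ1 : Function.Surjective (p1 s.Q)) (hQ2 : Function.Injective (p2 s.Q)) :
    Function.Injective (p1 M) := by
  refine LinearMap.injective_of_surjective_of_injective_of_injective s.a1 s.b1 s.dT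
    s.q1.dualMap s.i1.dualMap (s.ε • s.dH.dualMap) (p1 s.Q) (p1 s.I) (p1 M) (p2 s.Q) ?_ ?_ ?_
    s.exact_a1_b1 s.exact_b1_dT (Chase.exact_dualMap s.exact_i1_q1) hQ1 s.perfect1.1 hQ2
  · ext a b
    simp [s.adj_a1]
  · ext a b
    simp [s.adj_b1]
  · ext a b
    simp [s.adj_d]

end DualityStep

/-- **The abstract duality chase.** If every object admits a `DualityStep`, both pairings are
perfect for every object. -/
theorem duality_chase (step : ∀ M : Obj, Nonempty (DualityStep T1 T2 H0 H1 p1 p2 M)) (M : Obj) :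
    Function.Bijective (p1 M) ∧ Function.Bijective (p2 M) := by
  have h2s : ∀ M : Obj, Function.Surjective (p2 M) := fun M => (step M).some.surjective_p2
  have h2i : ∀ M : Obj, Function.Injective (p2 M) := fun M => (step M).some.injective_p2 (h2s _)
  have h1s : ∀ M : Obj, Function.Surjective (p1 M) := fun M => (step M).some.surjective_p1 (h2s _)
  have h1i : ∀ M : Obj, Function.Injective (p1 M) :=
    fun M => (step M).some.injective_p1 (h1s _) (h2i _)
  exact ⟨⟨h1i M, h1s M⟩, ⟨h2i M, h2s M⟩⟩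

end Step

section Transport

variable {k : Type*} [Field k]

/-- Transport of perfectness along a pair of adjoint bijections (Shapiro's lemma on both sides). -/
lemma perfect_of_shapiro {TG HG TU HU : Type*} [AddCommGroup TG] [Module k TG]
    [AddCommGroup HG] [Module k HG] [AddCommGroup TU] [Module k TU] [AddCommGroup HU] [Module k HU]
    (pG : TG →ₗ[k] HG →ₗ[k] k) (pU : TU →ₗ[k] HU →ₗ[k] k)
    (σT : TU →ₗ[k] TG) (σH : HG →ₗ[k] HU) (hT : Function.Bijective σT)
    (hH : Function.Bijective σH) (adj : ∀ a b, pG (σT a) b = pU a (σH b))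
    (hU : Function.Bijective pU) : Function.Bijective pG := by
  have h1 : pG ∘ₗ σT = σH.dualMap ∘ₗ pU := by
    ext a b
    simp [adj]
  have h2 : Function.Bijective σH.dualMap :=
    ⟨LinearMap.dualMap_injective_of_surjective hH.2, LinearMap.dualMap_surjective_of_injective hH.1⟩
  have h3 : Function.Bijective (pG ∘ σT) := by
    have : (pG ∘ σT) = (σH.dualMap ∘ pU) := by
      funext a
      exact congrArg (fun f => f a) h1
    rw [this]
    exact h2.comp hU
  exact (Function.Bijective.of_comp_iff pG hT).1 h3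

/-- Additivity of perfectness: if `T(C) ≃ T(A) × T(B)` and `H(A) ⊕ H(B) → H(C)` is surjective,
compatibly with the pairings, then perfectness for `A` and `B` implies perfectness for `C`. -/
lemma perfect_of_biprod {TA TB TC HA HB HC : Type*} [AddCommGroup TA] [Module k TA]
    [AddCommGroup TB] [Module k TB] [AddCommGroup TC] [Module k TC] [AddCommGroup HA] [Module k HA]
    [AddCommGroup HB] [Module k HB] [AddCommGroup HC] [Module k HC]
    (pA : TA →ₗ[k] HA →ₗ[k] k) (pB : TB →ₗ[k] HB →ₗ[k] k) (pC : TC →ₗ[k] HC →ₗ[k] k)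
    (rA : TC →ₗ[k] TA) (rB : TC →ₗ[k] TB) (jA : HA →ₗ[k] HC) (jB : HB →ₗ[k] HC)
    (hr : Function.Bijective (rA.prod rB)) (hj : Function.Surjective (jA.coprod jB))
    (adjA : ∀ t h, pC t (jA h) = pA (rA t) h) (adjB : ∀ t h, pC t (jB h) = pB (rB t) h)
    (hA : Function.Bijective pA) (hB : Function.Bijective pB) : Function.Bijective pC := by
  constructor
  · rw [injective_iff_map_eq_zero]
    intro t ht
    have hA0 : rA t = 0 := by
      apply hA.1
      rw [map_zero]
      ext h
      rw [← adjA, ht]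
      rfl
    have hB0 : rB t = 0 := by
      apply hB.1
      rw [map_zero]
      ext h
      rw [← adjB, ht]
      rfl
    apply hr.1
    simp [hA0, hB0]
  · intro l
    obtain ⟨tA, htA⟩ := hA.2 (l ∘ₗ jA)
    obtain ⟨tB, htB⟩ := hB.2 (l ∘ₗ jB)
    obtain ⟨t, ht⟩ := hr.2 (tA, tB)
    have hrA : rA t = tA := congrArg Prod.fst ht
    have hrB : rB t = tB := congrArg Prod.snd ht
    refine ⟨t, ?_⟩
    ext c
    obtain ⟨⟨a, b⟩, rfl⟩ := hj c
    simp only [LinearMap.coprod_apply, map_add, adjA, adjB, hrA, hrB, htA, htB,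
      LinearMap.comp_apply]

end Transport

end Fermat.Agent.CFT
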