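import Mathlib
import Fermat.Agent.CFT.DualityChase

/-!
# The abstract duality chase, second version (no `H³`-vanishing hypothesis)

Variant of `DualityChase.lean` following `CFT-stage0c`: the hypothesis "`T²(I) → T²(M)` is
surjective" (i.e. `T³(Q) = 0`) is dropped; instead injectivity of `𝒜²(M) : T²(M) → H⁰(M)^*` is an
input of the chase, and is obtained separately by

* `injective_p2_of_lineStep` (b1): a filtration step `0 → N₁ → N → N' → 0` with `N₁` a line
  (four lemma on `T¹(N₁) → T²(N') → T²(N) → T²(N₁)`), and its iteration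
  `injective_p2_of_lineSteps` (induction on a dimension function);
* `injective_of_retract` (b2): `𝒜²(N)` is injective if `N` is a retract of `I` and `𝒜²(I)` is;
* `injective_of_shapiro`: transport of injectivity along a pair of adjoint maps.
-/

set_option autoImplicit false

universe u v₁ v₂ v₃ v₄ w

namespace Fermat.Agent.CFT

open Function

section Step

variable {k : Type u} [Field k] {Obj : Type w}
  (T1 : Obj → Type v₁) (T2 : Obj → Type v₂) (H0 : Obj → Type v₃) (H1 : Obj → Type v₄)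
  [∀ M, AddCommGroup (T1 M)] [∀ M, Module k (T1 M)]
  [∀ M, AddCommGroup (T2 M)] [∀ M, Module k (T2 M)]
  [∀ M, AddCommGroup (H0 M)] [∀ M, Module k (H0 M)]
  [∀ M, AddCommGroup (H1 M)] [∀ M, Module k (H1 M)]
  (p1 : ∀ M, T1 M →ₗ[k] H1 M →ₗ[k] k) (p2 : ∀ M, T2 M →ₗ[k] H0 M →ₗ[k] k)

/-- One step of the duality chase without the `T³ = 0` hypothesis: a resolution
`0 → M → I → Q → 0` with the exact rows `T¹(Q) → T¹(I) → T¹(M) → T²(Q) → T²(I)` (and the map
`T²(I) → T²(M)`) and `0 → H⁰(M) → H⁰(I) → H⁰(Q) → H¹(M) → H¹(I) → H¹(Q)`, adjointness of the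
maps w.r.t. the pairings and perfectness for `I`. -/
structure DualityStep₂ (M : Obj) where
  /-- the induced module -/
  I : Obj
  /-- the quotient -/
  Q : Obj
  /-- `T¹(Q) → T¹(I)` -/
  a1 : T1 Q →ₗ[k] T1 I
  /-- `T¹(I) → T¹(M)` -/
  b1 : T1 I →ₗ[k] T1 M
  /-- the connecting map `T¹(M) → T²(Q)` -/
  dT : T1 M →ₗ[k] T2 Q
  /-- `T²(Q) → T²(I)` -/
  a2 : T2 Q →ₗ[k] T2 I
  /-- `T²(I) → T²(M)` -/
  b2 : T2 I →ₗ[k] T2 M
  /-- `H⁰(M) → H⁰(I)` -/
  i0 : H0 M →ₗ[k] H0 I
  /-- `H⁰(I) → H⁰(Q)` -/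
  q0 : H0 I →ₗ[k] H0 Q
  /-- the connecting map `H⁰(Q) → H¹(M)` -/
  dH : H0 Q →ₗ[k] H1 M
  /-- `H¹(M) → H¹(I)` -/
  i1 : H1 M →ₗ[k] H1 I
  /-- `H¹(I) → H¹(Q)` -/
  q1 : H1 I →ₗ[k] H1 Q
  exact_a1_b1 : Function.Exact a1 b1
  exact_b1_dT : Function.Exact b1 dT
  exact_dT_a2 : Function.Exact dT a2
  inj_i0 : Function.Injective i0
  exact_q0_dH : Function.Exact q0 dH
  exact_dH_i1 : Function.Exact dH i1
  exact_i1_q1 : Function.Exact i1 q1
  adj_a1 : ∀ a b, p1 I (a1 a) b = p1 Q a (q1 b)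
  adj_b1 : ∀ a b, p1 M (b1 a) b = p1 I a (i1 b)
  /-- the sign (or any non-zero scalar) in the compatibility of the connecting maps -/
  ε : k
  ε_ne : ε ≠ 0
  adj_d : ∀ a b, p2 Q (dT a) b = ε * p1 M a (dH b)
  adj_a2 : ∀ a b, p2 I (a2 a) b = p2 Q a (q0 b)
  adj_b2 : ∀ a b, p2 M (b2 a) b = p2 I a (i0 b)
  perfect1 : Function.Bijective (p1 I)
  perfect2 : Function.Bijective (p2 I)

variable {T1 T2 H0 H1 p1 p2}

namespace DualityStep₂

variable {M : Obj} (s : DualityStep₂ T1 T2 H0 H1 p1 p2 M)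

include s in
/-- Step (a): `𝒜²(M)` is surjective. -/
lemma surjective_p2 : Function.Surjective (p2 M) := by
  intro l
  obtain ⟨l', rfl⟩ := LinearMap.dualMap_surjective_of_injective s.inj_i0 l
  obtain ⟨t, rfl⟩ := s.perfect2.2 l'
  refine ⟨s.b2 t, ?_⟩
  ext b
  simp [s.adj_b2]

include s in
/-- Step (c): `𝒜¹(M)` is surjective provided `𝒜²(Q)` is surjective. -/
lemma surjective_p1 (hQ : Function.Surjective (p2 s.Q)) : Function.Surjective (p1 M) := by
  refine LinearMap.surjective_of_surjective_of_surjective_of_injective s.b1 s.dT s.a2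
    s.i1.dualMap (s.ε • s.dH.dualMap) s.q0.dualMap (p1 s.I) (p1 M) (p2 s.Q) (p2 s.I) ?_ ?_ ?_
    s.exact_dT_a2 ?_ ?_ s.perfect1.2 hQ s.perfect2.1
  · ext a b
    simp [s.adj_b1]
  · ext a b
    simp [s.adj_d]
  · ext a b
    simp [s.adj_a2]
  · exact Chase.exact_smul_right (Chase.exact_dualMap s.exact_dH_i1) s.ε_ne
  · exact Chase.exact_smul_left (Chase.exact_dualMap s.exact_q0_dH) s.ε_ne

include s in
/-- Step (d): `𝒜¹(M)` is injective provided `𝒜¹(Q)` is surjective and `𝒜²(Q)` is injective. -/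
lemma injective_p1 (hQ1 : Function.Surjective (p1 s.Q)) (hQ2 : Function.Injective (p2 s.Q)) :
    Function.Injective (p1 M) := by
  refine LinearMap.injective_of_surjective_of_injective_of_injective s.a1 s.b1 s.dT
    s.q1.dualMap s.i1.dualMap (s.ε • s.dH.dualMap) (p1 s.Q) (p1 s.I) (p1 M) (p2 s.Q) ?_ ?_ ?_
    s.exact_a1_b1 s.exact_b1_dT (Chase.exact_dualMap s.exact_i1_q1) hQ1 s.perfect1.1 hQ2
  · ext a b
    simp [s.adj_a1]
  · ext a b
    simp [s.adj_b1]
  · ext a b
    simp [s.adj_d]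

end DualityStep₂

/-- **The abstract duality chase, second version.** If every object admits a `DualityStep₂` and
`𝒜²` is injective for every object, both pairings are perfect for every object. -/
theorem duality_chase₂ (step : ∀ M : Obj, Nonempty (DualityStep₂ T1 T2 H0 H1 p1 p2 M))
    (h2i : ∀ M : Obj, Function.Injective (p2 M)) (M : Obj) :
    Function.Bijective (p1 M) ∧ Function.Bijective (p2 M) := by
  have h2s : ∀ M : Obj, Function.Surjective (p2 M) := fun M => (step M).some.surjective_p2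
  have h1s : ∀ M : Obj, Function.Surjective (p1 M) := fun M => (step M).some.surjective_p1 (h2s _)
  have h1i : ∀ M : Obj, Function.Injective (p1 M) :=
    fun M => (step M).some.injective_p1 (h1s _) (h2i _)
  exact ⟨⟨h1i M, h1s M⟩, ⟨h2i M, h2s M⟩⟩

/-! ### (b1) the filtration step -/

variable (T1 T2 H0 H1 p1 p2)

/-- A filtration step `0 → N₁ → N → N' → 0`: the exact rows `T¹(N₁) → T²(N') → T²(N) → T²(N₁)`
and `H⁰(N₁) → H⁰(N) → H⁰(N') → H¹(N₁)` with adjointness of the maps. -/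
structure LineStep (N : Obj) where
  /-- the sub-object (a line) -/
  N₁ : Obj
  /-- the quotient -/
  N' : Obj
  /-- the connecting map `T¹(N₁) → T²(N')` -/
  dT : T1 N₁ →ₗ[k] T2 N'
  /-- `T²(N') → T²(N)` -/
  a : T2 N' →ₗ[k] T2 N
  /-- `T²(N) → T²(N₁)` -/
  b : T2 N →ₗ[k] T2 N₁
  /-- `H⁰(N₁) → H⁰(N)` -/
  i0 : H0 N₁ →ₗ[k] H0 N
  /-- `H⁰(N) → H⁰(N')` -/
  q0 : H0 N →ₗ[k] H0 N'
  /-- the connecting map `H⁰(N') → H¹(N₁)` -/
  dH : H0 N' →ₗ[k] H1 N₁
  exact_dT_a : Function.Exact dT a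
  exact_a_b : Function.Exact a b
  exact_q0_dH : Function.Exact q0 dH
  /-- the sign (or any non-zero scalar) in the compatibility of the connecting maps -/
  ε : k
  ε_ne : ε ≠ 0
  adj_d : ∀ t h, p2 N' (dT t) h = ε * p1 N₁ t (dH h)
  adj_a : ∀ t h, p2 N (a t) h = p2 N' t (q0 h)
  adj_b : ∀ t h, p2 N₁ (b t) h = p2 N t (i0 h)

variable {T1 T2 H0 H1 p1 p2}

/-- (b1): `𝒜²(N)` is injective if `𝒜¹(N₁)` is surjective and `𝒜²(N')`, `𝒜²(N₁)` are injective. -/
lemma LineStep.injective_p2 {N : Obj} (s : LineStep T1 T2 H0 H1 p1 p2 N)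
    (h1 : Function.Surjective (p1 s.N₁)) (h2' : Function.Injective (p2 s.N'))
    (h2₁ : Function.Injective (p2 s.N₁)) : Function.Injective (p2 N) := by
  refine LinearMap.injective_of_surjective_of_injective_of_injective s.dT s.a s.b
    (s.ε • s.dH.dualMap) s.q0.dualMap s.i0.dualMap (p1 s.N₁) (p2 s.N') (p2 N) (p2 s.N₁) ?_ ?_ ?_
    s.exact_dT_a s.exact_a_b ?_ h1 h2' h2₁
  · ext t h
    simp [s.adj_d]
  · ext t h
    simp [s.adj_a]
  · ext t h
    simp [s.adj_b]
  · exact Chase.exact_smul_left (Chase.exact_dualMap s.exact_q0_dH) s.ε_ne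

/-- Iteration of (b1): if objects of dimension `0` have injective `𝒜²` and every object of
positive dimension has a `LineStep` with a quotient of smaller dimension and a "good" line, then
`𝒜²` is injective for all objects (in a class `P` closed under the quotients). -/
theorem injective_p2_of_lineSteps (P : Obj → Prop) (dim : Obj → ℕ)
    (base : ∀ N, P N → dim N = 0 → Function.Injective (p2 N))
    (step : ∀ N, P N → dim N ≠ 0 → ∃ s : LineStep T1 T2 H0 H1 p1 p2 N,
      P s.N' ∧ dim s.N' < dim N ∧ Function.Surjective (p1 s.N₁) ∧ Function.Injective (p2 s.N₁))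
    (N : Obj) (hN : P N) : Function.Injective (p2 N) := by
  induction h : dim N using Nat.strong_induction_on generalizing N with
  | _ n ih =>
    by_cases h0 : dim N = 0
    · exact base N hN h0
    · obtain ⟨s, hP, hlt, hs1, hi1⟩ := step N hN h0
      exact s.injective_p2 hs1 (ih (dim s.N') (h ▸ hlt) s.N' hP rfl) hi1

end Step

section Transport

variable {k : Type*} [Field k]

/-- (b2): injectivity passes to retracts. `s : T(N) → T(I)` is induced by the retraction
`π : I → N`, `πH : H(I) → H(N)`. -/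
lemma injective_of_retract {TN TI HN HI : Type*} [AddCommGroup TN] [Module k TN]
    [AddCommGroup TI] [Module k TI] [AddCommGroup HN] [Module k HN] [AddCommGroup HI] [Module k HI]
    (pN : TN →ₗ[k] HN →ₗ[k] k) (pI : TI →ₗ[k] HI →ₗ[k] k)
    (s : TN →ₗ[k] TI) (πH : HI →ₗ[k] HN) (hs : Function.Injective s)
    (adj : ∀ t h, pI (s t) h = pN t (πH h)) (hI : Function.Injective pI) :
    Function.Injective pN := by
  rw [injective_iff_map_eq_zero]
  intro t ht
  apply hs
  rw [map_zero]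
  apply hI
  rw [map_zero]
  ext h
  rw [adj, ht]
  rfl

/-- Transport of injectivity along adjoint maps `σT : T_U → T_G` (surjective), `σH : H_G → H_U`
(surjective). -/
lemma injective_of_shapiro {TG HG TU HU : Type*} [AddCommGroup TG] [Module k TG]
    [AddCommGroup HG] [Module k HG] [AddCommGroup TU] [Module k TU] [AddCommGroup HU] [Module k HU]
    (pG : TG →ₗ[k] HG →ₗ[k] k) (pU : TU →ₗ[k] HU →ₗ[k] k)
    (σT : TU →ₗ[k] TG) (σH : HG →ₗ[k] HU) (hT : Function.Surjective σT)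
    (hH : Function.Surjective σH) (adj : ∀ a b, pG (σT a) b = pU a (σH b))
    (hU : Function.Injective pU) : Function.Injective pG := by
  rw [injective_iff_map_eq_zero]
  intro t ht
  obtain ⟨a, rfl⟩ := hT t
  have h0 : pU a = 0 := by
    ext b
    obtain ⟨b', rfl⟩ := hH b
    rw [← adj, ht]
    rfl
  rw [hU (h0.trans (map_zero pU).symm), map_zero]

/-- Transport of surjectivity along adjoint maps `σT : T_U → T_G`, `σH : H_G → H_U`
(injective). -/
lemma surjective_of_shapiro {TG HG TU HU : Type*} [AddCommGroup TG] [Module k TG]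
    [AddCommGroup HG] [Module k HG] [AddCommGroup TU] [Module k TU] [AddCommGroup HU] [Module k HU]
    (pG : TG →ₗ[k] HG →ₗ[k] k) (pU : TU →ₗ[k] HU →ₗ[k] k)
    (σT : TU →ₗ[k] TG) (σH : HG →ₗ[k] HU) (hH : Function.Bijective σH)
    (adj : ∀ a b, pG (σT a) b = pU a (σH b))
    (hU : Function.Surjective pU) : Function.Surjective pG := by
  intro l
  obtain ⟨e, he⟩ : ∃ e : HU ≃ₗ[k] HG, ∀ x, σH (e x) = x :=
    ⟨(LinearEquiv.ofBijective σH hH).symm, fun x => (LinearEquiv.ofBijective σH hH).apply_symm_apply x⟩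
  obtain ⟨a, ha⟩ := hU (l ∘ₗ e.toLinearMap)
  refine ⟨σT a, ?_⟩
  ext b
  rw [adj, ha]
  simp only [LinearMap.comp_apply, LinearEquiv.coe_coe]
  congr 1
  apply hH.1
  rw [he]

end Transport

end Fermat.Agent.CFT
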