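import Mathlib
import Fermat.Agent.CFT.DualityChase2

/-!
# The abstract duality chase: packaging a short exact sequence

`SESData A B C` packages, for a "short exact sequence `0 → A → B → C → 0` of objects", the two
six-term rows
`T¹(C) → T¹(B) → T¹(A) → T²(C) → T²(B) → T²(A)` and
`H⁰(A) → H⁰(B) → H⁰(C) → H¹(A) → H¹(B) → H¹(C)` with exactness and the adjointness of all maps
with respect to the pairings.  From it we get

* `SESData.toDualityStep₂` (with `A = M`, `B = I`, `C = Q`),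
* `SESData.toLineStep` (with `A = N₁`, `B = N`, `C = N'`),
* `SESData.bijective_of_split`: additivity of perfectness along a *split* sequence.
-/

set_option autoImplicit false

universe u v₁ v₂ v₃ v₄ w

namespace Fermat.Agent.CFT

open Function

section

variable {k : Type u} [Field k] {Obj : Type w}
  (T1 : Obj → Type v₁) (T2 : Obj → Type v₂) (H0 : Obj → Type v₃) (H1 : Obj → Type v₄)
  [∀ M, AddCommGroup (T1 M)] [∀ M, Module k (T1 M)]
  [∀ M, AddCommGroup (T2 M)] [∀ M, Module k (T2 M)]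
  [∀ M, AddCommGroup (H0 M)] [∀ M, Module k (H0 M)]
  [∀ M, AddCommGroup (H1 M)] [∀ M, Module k (H1 M)]
  (p1 : ∀ M, T1 M →ₗ[k] H1 M →ₗ[k] k) (p2 : ∀ M, T2 M →ₗ[k] H0 M →ₗ[k] k)

/-- The rows attached to a short exact sequence `0 → A → B → C → 0`. -/
structure SESData (A B C : Obj) where
  /-- `T¹(C) → T¹(B)` -/
  tC1 : T1 C →ₗ[k] T1 B
  /-- `T¹(B) → T¹(A)` -/
  tB1 : T1 B →ₗ[k] T1 A
  /-- the connecting map `T¹(A) → T²(C)` -/
  dT : T1 A →ₗ[k] T2 C
  /-- `T²(C) → T²(B)` -/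
  tC2 : T2 C →ₗ[k] T2 B
  /-- `T²(B) → T²(A)` -/
  tB2 : T2 B →ₗ[k] T2 A
  /-- `H⁰(A) → H⁰(B)` -/
  hA0 : H0 A →ₗ[k] H0 B
  /-- `H⁰(B) → H⁰(C)` -/
  hB0 : H0 B →ₗ[k] H0 C
  /-- the connecting map `H⁰(C) → H¹(A)` -/
  dH : H0 C →ₗ[k] H1 A
  /-- `H¹(A) → H¹(B)` -/
  hA1 : H1 A →ₗ[k] H1 B
  /-- `H¹(B) → H¹(C)` -/
  hB1 : H1 B →ₗ[k] H1 C
  exact_T1B : Function.Exact tC1 tB1
  exact_T1A : Function.Exact tB1 dT
  exact_T2C : Function.Exact dT tC2
  exact_T2B : Function.Exact tC2 tB2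
  inj_hA0 : Function.Injective hA0
  exact_H0B : Function.Exact hA0 hB0
  exact_H0C : Function.Exact hB0 dH
  exact_H1A : Function.Exact dH hA1
  exact_H1B : Function.Exact hA1 hB1
  adj_C1 : ∀ t h, p1 B (tC1 t) h = p1 C t (hB1 h)
  adj_B1 : ∀ t h, p1 A (tB1 t) h = p1 B t (hA1 h)
  /-- the sign in the compatibility of the connecting maps -/
  ε : k
  ε_ne : ε ≠ 0
  adj_d : ∀ t h, p2 C (dT t) h = ε * p1 A t (dH h)
  adj_C2 : ∀ t h, p2 B (tC2 t) h = p2 C t (hB0 h)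
  adj_B2 : ∀ t h, p2 A (tB2 t) h = p2 B t (hA0 h)

variable {T1 T2 H0 H1 p1 p2}

namespace SESData

variable {A B C : Obj} (s : SESData T1 T2 H0 H1 p1 p2 A B C)

/-- The duality step for `M = A` with `I = B`, `Q = C`. -/
def toDualityStep₂ (h1 : Function.Bijective (p1 B)) (h2 : Function.Bijective (p2 B)) :
    DualityStep₂ T1 T2 H0 H1 p1 p2 A where
  I := B
  Q := C
  a1 := s.tC1
  b1 := s.tB1
  dT := s.dT
  a2 := s.tC2
  b2 := s.tB2
  i0 := s.hA0
  q0 := s.hB0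
  dH := s.dH
  i1 := s.hA1
  q1 := s.hB1
  exact_a1_b1 := s.exact_T1B
  exact_b1_dT := s.exact_T1A
  exact_dT_a2 := s.exact_T2C
  inj_i0 := s.inj_hA0
  exact_q0_dH := s.exact_H0C
  exact_dH_i1 := s.exact_H1A
  exact_i1_q1 := s.exact_H1B
  adj_a1 := s.adj_C1
  adj_b1 := s.adj_B1
  ε := s.ε
  ε_ne := s.ε_ne
  adj_d := s.adj_d
  adj_a2 := s.adj_C2
  adj_b2 := s.adj_B2
  perfect1 := h1
  perfect2 := h2

/-- The line step for `N = B` with `N₁ = A`, `N' = C`. -/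
def toLineStep : LineStep T1 T2 H0 H1 p1 p2 B where
  N₁ := A
  N' := C
  dT := s.dT
  a := s.tC2
  b := s.tB2
  i0 := s.hA0
  q0 := s.hB0
  dH := s.dH
  exact_dT_a := s.exact_T2C
  exact_a_b := s.exact_T2B
  exact_q0_dH := s.exact_H0C
  ε := s.ε
  ε_ne := s.ε_ne
  adj_d := s.adj_d
  adj_a := s.adj_C2
  adj_b := s.adj_B2

end SESData

end

/-! ### Additivity along split sequences -/

section Split

variable {k : Type*} [Field k] {TA TB TC HA HB HC : Type*}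
  [AddCommGroup TA] [Module k TA] [AddCommGroup TB] [Module k TB] [AddCommGroup TC] [Module k TC]
  [AddCommGroup HA] [Module k HA] [AddCommGroup HB] [Module k HB] [AddCommGroup HC] [Module k HC]

/-- The short five lemma for pairings: rows `T(C) → T(B) → T(A)` and `H(A) → H(B) → H(C)` exact
in the middle, `T(B) → T(A)` split surjective, `H(B) → H(C)` split surjective. -/
lemma bijective_of_split (pA : TA →ₗ[k] HA →ₗ[k] k) (pB : TB →ₗ[k] HB →ₗ[k] k)
    (pC : TC →ₗ[k] HC →ₗ[k] k) (tC : TC →ₗ[k] TB) (tB : TB →ₗ[k] TA) (hA : HA →ₗ[k] HB)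
    (hB : HB →ₗ[k] HC) (exT : Function.Exact tC tB) (exH : Function.Exact hA hB)
    (adjC : ∀ t h, pB (tC t) h = pC t (hB h)) (adjB : ∀ t h, pA (tB t) h = pB t (hA h))
    (rT : TA →ₗ[k] TB) (hrT : ∀ t, tB (rT t) = t) (sH : HC →ₗ[k] HB) (hsH : ∀ h, hB (sH h) = h)
    (bA : Function.Bijective pA) (bC : Function.Bijective pC) : Function.Bijective pB := by
  constructor
  · rw [injective_iff_map_eq_zero]
    intro t ht
    have h1 : tB t = 0 := by
      apply bA.1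
      rw [map_zero]
      ext h
      rw [adjB, ht]
      rfl
    obtain ⟨t', rfl⟩ := (exT t).1 h1
    have h2 : t' = 0 := by
      apply bC.1
      rw [map_zero]
      ext h
      rw [← hsH h, ← adjC, ht]
      rfl
    rw [h2, map_zero]
  · intro l
    obtain ⟨tA, htA⟩ := bA.2 (l ∘ₗ hA)
    set l' : HB →ₗ[k] k := l - pB (rT tA) with hl'
    have hker : ∀ h, hB h = 0 → l' h = 0 := by
      intro h hh
      obtain ⟨a, rfl⟩ := (exH h).1 hh
      rw [hl', LinearMap.sub_apply, ← adjB, hrT, htA, LinearMap.comp_apply, sub_self]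
    obtain ⟨tC', htC'⟩ := bC.2 (l' ∘ₗ sH)
    refine ⟨rT tA + tC tC', ?_⟩
    ext h
    rw [map_add, LinearMap.add_apply, adjC, htC', LinearMap.comp_apply]
    have h3 : l' (sH (hB h)) = l' h := by
      have : l' (sH (hB h) - h) = 0 := hker _ (by rw [map_sub, hsH, sub_self])
      rwa [map_sub, sub_eq_zero] at this
    rw [h3, hl', LinearMap.sub_apply]
    ring

end Split

section SplitSES

variable {k : Type u} [Field k] {Obj : Type w}
  {T1 : Obj → Type v₁} {T2 : Obj → Type v₂} {H0 : Obj → Type v₃} {H1 : Obj → Type v₄}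
  [∀ M, AddCommGroup (T1 M)] [∀ M, Module k (T1 M)]
  [∀ M, AddCommGroup (T2 M)] [∀ M, Module k (T2 M)]
  [∀ M, AddCommGroup (H0 M)] [∀ M, Module k (H0 M)]
  [∀ M, AddCommGroup (H1 M)] [∀ M, Module k (H1 M)]
  {p1 : ∀ M, T1 M →ₗ[k] H1 M →ₗ[k] k} {p2 : ∀ M, T2 M →ₗ[k] H0 M →ₗ[k] k}

/-- Additivity: for a split sequence `0 → A → B → C → 0` (sections on the `T`- and `H`-rows),
perfectness for `A` and `C` implies perfectness for `B`. -/
theorem SESData.bijective_of_split {A B C : Obj} (s : SESData T1 T2 H0 H1 p1 p2 A B C)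
    (r1 : T1 A →ₗ[k] T1 B) (hr1 : ∀ t, s.tB1 (r1 t) = t)
    (r2 : T2 A →ₗ[k] T2 B) (hr2 : ∀ t, s.tB2 (r2 t) = t)
    (s0 : H0 C →ₗ[k] H0 B) (hs0 : ∀ h, s.hB0 (s0 h) = h)
    (s1 : H1 C →ₗ[k] H1 B) (hs1 : ∀ h, s.hB1 (s1 h) = h)
    (hA : Function.Bijective (p1 A) ∧ Function.Bijective (p2 A))
    (hC : Function.Bijective (p1 C) ∧ Function.Bijective (p2 C)) :
    Function.Bijective (p1 B) ∧ Function.Bijective (p2 B) :=
  ⟨Fermat.Agent.CFT.bijective_of_split (p1 A) (p1 B) (p1 C) s.tC1 s.tB1 s.hA1 s.hB1 s.exact_T1B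
      s.exact_H1B s.adj_C1 s.adj_B1 r1 hr1 s1 hs1 hA.1 hC.1,
    Fermat.Agent.CFT.bijective_of_split (p2 A) (p2 B) (p2 C) s.tC2 s.tB2 s.hA0 s.hB0 s.exact_T2B
      s.exact_H0B s.adj_C2 s.adj_B2 r2 hr2 s0 hs0 hA.2 hC.2⟩

end SplitSES

end Fermat.Agent.CFT
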