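import Mathlib

/-!
# Galois functoriality of `H^n(Gal(L/K), Lˣ)`

For a commutative square of fields

```
K₁ → L₁
↓    ↓
K₂ → L₂
```

with `L₁/K₁` normal, we define the restriction homomorphism
`galRes : (L₂ ≃ₐ[K₂] L₂) →* (L₁ ≃ₐ[K₁] L₁)`, the equivariant map `L₁ˣ → L₂ˣ` (`galUnitsHom`) and
`galMap n : H^n(Gal(L₁/K₁), L₁ˣ) ⟶ H^n(Gal(L₂/K₂), L₂ˣ)`, with `galMap_id`, `galMap_comp` and the
cocycle formula in degree two.  Special cases: inflation `galInfl` and restriction `galRest`.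
-/

open CategoryTheory groupCohomology Rep

namespace Fermat.Agent.CFT

section Square

variable (K₁ L₁ K₂ L₂ : Type) [Field K₁] [Field L₁] [Field K₂] [Field L₂]
  [Algebra K₁ L₁] [Algebra K₂ L₂] [Algebra K₁ K₂] [Algebra L₁ L₂] [Algebra K₁ L₂]
  [IsScalarTower K₁ K₂ L₂] [IsScalarTower K₁ L₁ L₂] [Normal K₁ L₁]

/-- The restriction homomorphism `Gal(L₂/K₂) → Gal(L₁/K₁)` of a commutative square of fields. -/
noncomputable def galRes : (L₂ ≃ₐ[K₂] L₂) →* (L₁ ≃ₐ[K₁] L₁) :=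
  (AlgEquiv.restrictNormalHom L₁).comp (AlgEquiv.restrictScalarsHom K₁)

variable {K₁ L₁ K₂ L₂}

theorem galRes_commutes (σ : L₂ ≃ₐ[K₂] L₂) (x : L₁) :
    algebraMap L₁ L₂ (galRes K₁ L₁ K₂ L₂ σ x) = σ (algebraMap L₁ L₂ x) :=
  AlgEquiv.restrictNormal_commutes (σ.restrictScalars K₁) L₁ x

/-- `galRes` is characterised by its compatibility with `algebraMap L₁ L₂`. -/
theorem galRes_eq_iff (σ : L₂ ≃ₐ[K₂] L₂) (τ : L₁ ≃ₐ[K₁] L₁) :
    galRes K₁ L₁ K₂ L₂ σ = τ ↔ ∀ x : L₁, algebraMap L₁ L₂ (τ x) = σ (algebraMap L₁ L₂ x) := by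
  constructor
  · rintro rfl x
    exact galRes_commutes σ x
  · intro h
    ext x
    apply (algebraMap L₁ L₂).injective
    rw [galRes_commutes, h]

variable (K₁ L₁ K₂ L₂)

/-- The map `L₁ˣ → L₂ˣ` as a morphism of representations of `Gal(L₂/K₂)`. -/
noncomputable def galUnitsHom :
    res (galRes K₁ L₁ K₂ L₂) (Rep.ofAlgebraAutOnUnits K₁ L₁) ⟶ Rep.ofAlgebraAutOnUnits K₂ L₂ :=
  ofHom ⟨(Units.map (algebraMap L₁ L₂ : L₁ →* L₂)).toAdditive.toIntLinearMap, fun σ => by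
    refine LinearMap.ext fun x => ?_
    apply Additive.toMul.injective
    apply Units.ext
    exact galRes_commutes (K₁ := K₁) (K₂ := K₂) σ ((Additive.toMul x : L₁ˣ) : L₁)⟩

@[simp]
theorem galUnitsHom_apply (x : Additive L₁ˣ) :
    ((galUnitsHom K₁ L₁ K₂ L₂).hom x : Additive L₂ˣ) =
      Additive.ofMul (Units.map (algebraMap L₁ L₂ : L₁ →* L₂) (Additive.toMul x)) := rfl

/-- **Galois functoriality** of `H^n(Gal(L/K), Lˣ)` for a commutative square of fields. -/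
noncomputable def galMap (n : ℕ) :
    groupCohomology (Rep.ofAlgebraAutOnUnits K₁ L₁) n ⟶
      groupCohomology (Rep.ofAlgebraAutOnUnits K₂ L₂) n :=
  groupCohomology.map (galRes K₁ L₁ K₂ L₂) (galUnitsHom K₁ L₁ K₂ L₂) n

/-- Cocycle-level description of `galMap` in degree two. -/
theorem galMap_H2π (f : cocycles₂ (Rep.ofAlgebraAutOnUnits K₁ L₁)) :
    (galMap K₁ L₁ K₂ L₂ 2).hom (H2π _ f) =
      H2π _ ((mapCocycles₂ (galRes K₁ L₁ K₂ L₂) (galUnitsHom K₁ L₁ K₂ L₂)).hom f) :=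
  H2π_comp_map_apply (galRes K₁ L₁ K₂ L₂) (galUnitsHom K₁ L₁ K₂ L₂) f

/-- The values of the image cocycle: `(σ, τ) ↦ f (σ|L₁, τ|L₁)` mapped to `L₂ˣ`. -/
theorem mapCocycles₂_galRes_apply (f : cocycles₂ (Rep.ofAlgebraAutOnUnits K₁ L₁))
    (σ τ : L₂ ≃ₐ[K₂] L₂) :
    ((mapCocycles₂ (galRes K₁ L₁ K₂ L₂) (galUnitsHom K₁ L₁ K₂ L₂)).hom f :
        cocycles₂ (Rep.ofAlgebraAutOnUnits K₂ L₂)) (σ, τ) =
      Additive.ofMul (Units.map (algebraMap L₁ L₂ : L₁ →* L₂)
        (Additive.toMul (f (galRes K₁ L₁ K₂ L₂ σ, galRes K₁ L₁ K₂ L₂ τ)))) := rfl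

/-- Cocycle-level description of `galMap` in degree one. -/
theorem galMap_H1π (f : cocycles₁ (Rep.ofAlgebraAutOnUnits K₁ L₁)) :
    (galMap K₁ L₁ K₂ L₂ 1).hom (H1π _ f) =
      H1π _ ((mapCocycles₁ (galRes K₁ L₁ K₂ L₂) (galUnitsHom K₁ L₁ K₂ L₂)).hom f) :=
  H1π_comp_map_apply (galRes K₁ L₁ K₂ L₂) (galUnitsHom K₁ L₁ K₂ L₂) f

end Square

section Id

variable (K L : Type) [Field K] [Field L] [Algebra K L] [Normal K L]

theorem galRes_self : galRes K L K L = MonoidHom.id _ := by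
  ext σ x
  have := galRes_commutes (K₁ := K) (L₁ := L) (K₂ := K) (L₂ := L) σ x
  simpa using this

theorem galMap_id (n : ℕ) : galMap K L K L n = 𝟙 _ := by
  rw [galMap, ← groupCohomology.map_id]
  exact groupCohomology.map_congr (galRes_self K L) rfl n

end Id

section Comp

variable (K₁ L₁ K₂ L₂ K₃ L₃ : Type) [Field K₁] [Field L₁] [Field K₂] [Field L₂] [Field K₃]
  [Field L₃] [Algebra K₁ L₁] [Algebra K₂ L₂] [Algebra K₃ L₃]
  [Algebra K₁ K₂] [Algebra L₁ L₂] [Algebra K₁ L₂] [IsScalarTower K₁ K₂ L₂]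
  [IsScalarTower K₁ L₁ L₂] [Normal K₁ L₁]
  [Algebra K₂ K₃] [Algebra L₂ L₃] [Algebra K₂ L₃] [IsScalarTower K₂ K₃ L₃]
  [IsScalarTower K₂ L₂ L₃] [Normal K₂ L₂]
  [Algebra K₁ K₃] [Algebra L₁ L₃] [Algebra K₁ L₃] [IsScalarTower K₁ K₃ L₃]
  [IsScalarTower K₁ L₁ L₃] [IsScalarTower L₁ L₂ L₃]

theorem galRes_comp :
    (galRes K₁ L₁ K₂ L₂).comp (galRes K₂ L₂ K₃ L₃) = galRes K₁ L₁ K₃ L₃ := by
  ext σ : 1
  symm
  rw [galRes_eq_iff]
  intro x
  rw [MonoidHom.comp_apply, IsScalarTower.algebraMap_apply L₁ L₂ L₃, galRes_commutes,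
    galRes_commutes, ← IsScalarTower.algebraMap_apply L₁ L₂ L₃]

/-- Functoriality of `galMap` for a composable pair of squares. -/
theorem galMap_comp (n : ℕ) :
    galMap K₁ L₁ K₂ L₂ n ≫ galMap K₂ L₂ K₃ L₃ n = galMap K₁ L₁ K₃ L₃ n := by
  rw [galMap, galMap, galMap, ← groupCohomology.map_comp]
  refine groupCohomology.map_congr (galRes_comp K₁ L₁ K₂ L₂ K₃ L₃) ?_ n
  refine LinearMap.ext fun x => ?_
  apply Additive.toMul.injective
  apply Units.ext
  exact (IsScalarTower.algebraMap_apply L₁ L₂ L₃ ((Additive.toMul x : L₁ˣ) : L₁)).symm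

end Comp

section Special

/-- Inflation `H^n(Gal(L'/K), L'ˣ) ⟶ H^n(Gal(L/K), Lˣ)` for `K ⊆ L' ⊆ L` with `L'/K` normal. -/
noncomputable abbrev galInfl (K L' L : Type) [Field K] [Field L'] [Field L] [Algebra K L']
    [Algebra K L] [Algebra L' L] [IsScalarTower K L' L] [Normal K L'] (n : ℕ) :
    groupCohomology (Rep.ofAlgebraAutOnUnits K L') n ⟶
      groupCohomology (Rep.ofAlgebraAutOnUnits K L) n :=
  galMap K L' K L n

/-- Restriction `H^n(Gal(L/K), Lˣ) ⟶ H^n(Gal(L/E), Lˣ)` for `K ⊆ E ⊆ L` with `L/K` normal. -/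
noncomputable abbrev galRest (K E L : Type) [Field K] [Field E] [Field L] [Algebra K E]
    [Algebra K L] [Algebra E L] [IsScalarTower K E L] [Normal K L] (n : ℕ) :
    groupCohomology (Rep.ofAlgebraAutOnUnits K L) n ⟶
      groupCohomology (Rep.ofAlgebraAutOnUnits E L) n :=
  galMap K L E L n

/-- For restriction, `galRes` is `AlgEquiv.restrictScalars`. -/
theorem galRes_rest_apply (K E L : Type) [Field K] [Field E] [Field L] [Algebra K E]
    [Algebra K L] [Algebra E L] [IsScalarTower K E L] [Normal K L] (σ : L ≃ₐ[E] L) :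
    galRes K L E L σ = σ.restrictScalars K := by
  rw [galRes_eq_iff]
  intro x
  rfl

theorem galRes_rest_injective (K E L : Type) [Field K] [Field E] [Field L] [Algebra K E]
    [Algebra K L] [Algebra E L] [IsScalarTower K E L] [Normal K L] :
    Function.Injective (galRes K L E L) := by
  intro σ τ h
  rw [galRes_rest_apply, galRes_rest_apply] at h
  exact AlgEquiv.restrictScalars_injective K h

/-- For inflation, `galRes` is `AlgEquiv.restrictNormalHom`. -/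
theorem galRes_infl_apply (K L' L : Type) [Field K] [Field L'] [Field L] [Algebra K L']
    [Algebra K L] [Algebra L' L] [IsScalarTower K L' L] [Normal K L'] (σ : L ≃ₐ[K] L) :
    galRes K L' K L σ = AlgEquiv.restrictNormalHom L' σ := by
  rw [galRes_eq_iff]
  intro x
  exact AlgEquiv.restrictNormal_commutes σ L' x

theorem galRes_infl_surjective (K L' L : Type) [Field K] [Field L'] [Field L] [Algebra K L']
    [Algebra K L] [Algebra L' L] [IsScalarTower K L' L] [Normal K L'] [Normal K L] :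
    Function.Surjective (galRes K L' K L) := by
  intro τ
  obtain ⟨σ, hσ⟩ := AlgEquiv.restrictNormalHom_surjective (F := K) (K₁ := L') L τ
  exact ⟨σ, by rw [galRes_infl_apply, hσ]⟩

end Special

end Fermat.Agent.CFT
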