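import Mathlib
import Fermat.Agent.CFT.GalMap
import Fermat.Agent.CFT.Tate.InnerTrivial

/-!
# Commutative squares of fields given by explicit ring homomorphisms

`GalMap.lean` defines `galMap K₁ L₁ K₂ L₂ n : Hⁿ(Gal(L₁/K₁), L₁ˣ) ⟶ Hⁿ(Gal(L₂/K₂), L₂ˣ)` for a
commutative square of fields whose vertical maps are given by `Algebra` instances.  Here the
vertical maps are explicit ring homomorphisms (`FieldSquare`), which allows one to compare the maps
attached to different embeddings:

* `FieldSquare.map`, `FieldSquare.map_eq_galMap`, `FieldSquare.map_comp`, `FieldSquare.map_id`;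
* `FieldSquare.map_twist` : precomposing the top map with an automorphism `σ ∈ Gal(L₁/K₁)` does not
  change the map on `H²` (inner automorphisms act trivially);
* `FieldSquare.map_bijective` : squares with bijective vertical maps induce bijections.
-/

set_option autoImplicit false
set_option linter.unusedSectionVars false
set_option linter.style.haveILetI false

open CategoryTheory groupCohomology Rep

namespace Fermat.Agent.CFT

/-- A commutative square of fields `K₁ → L₁`, `K₂ → L₂` with vertical maps `base`, `top`. -/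
structure FieldSquare (K₁ L₁ K₂ L₂ : Type) [Field K₁] [Field L₁] [Field K₂] [Field L₂]
    [Algebra K₁ L₁] [Algebra K₂ L₂] where
  /-- the map of base fields -/
  base : K₁ →+* K₂
  /-- the map of top fields -/
  top : L₁ →+* L₂
  comm : ∀ x : K₁, top (algebraMap K₁ L₁ x) = algebraMap K₂ L₂ (base x)

namespace FieldSquare

variable {K₁ L₁ K₂ L₂ K₃ L₃ : Type} [Field K₁] [Field L₁] [Field K₂] [Field L₂] [Field K₃]
  [Field L₃] [Algebra K₁ L₁] [Algebra K₂ L₂] [Algebra K₃ L₃]

section Basic

variable (sq : FieldSquare K₁ L₁ K₂ L₂) [Normal K₁ L₁]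

/-- The restriction homomorphism `Gal(L₂/K₂) → Gal(L₁/K₁)` of a square. -/
noncomputable def res : (L₂ ≃ₐ[K₂] L₂) →* (L₁ ≃ₐ[K₁] L₁) :=
  letI : Algebra K₁ K₂ := sq.base.toAlgebra
  letI : Algebra L₁ L₂ := sq.top.toAlgebra
  letI : Algebra K₁ L₂ := ((algebraMap K₂ L₂).comp sq.base).toAlgebra
  haveI : IsScalarTower K₁ K₂ L₂ := IsScalarTower.of_algebraMap_eq fun _ => rfl
  haveI : IsScalarTower K₁ L₁ L₂ := IsScalarTower.of_algebraMap_eq fun x => (sq.comm x).symm
  galRes K₁ L₁ K₂ L₂

theorem res_commutes (σ : L₂ ≃ₐ[K₂] L₂) (x : L₁) : sq.top (sq.res σ x) = σ (sq.top x) := by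
  letI : Algebra K₁ K₂ := sq.base.toAlgebra
  letI : Algebra L₁ L₂ := sq.top.toAlgebra
  letI : Algebra K₁ L₂ := ((algebraMap K₂ L₂).comp sq.base).toAlgebra
  haveI : IsScalarTower K₁ K₂ L₂ := IsScalarTower.of_algebraMap_eq fun _ => rfl
  haveI : IsScalarTower K₁ L₁ L₂ := IsScalarTower.of_algebraMap_eq fun x => (sq.comm x).symm
  exact galRes_commutes (K₁ := K₁) (L₁ := L₁) (K₂ := K₂) (L₂ := L₂) σ x

theorem res_eq_iff (σ : L₂ ≃ₐ[K₂] L₂) (ρ : L₁ ≃ₐ[K₁] L₁) :
    sq.res σ = ρ ↔ ∀ x : L₁, sq.top (ρ x) = σ (sq.top x) := by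
  constructor
  · rintro rfl x
    exact sq.res_commutes σ x
  · intro h
    ext x
    apply sq.top.injective
    rw [res_commutes, h]

/-- The map `L₁ˣ → L₂ˣ` as a morphism of representations of `Gal(L₂/K₂)`. -/
noncomputable def unitsHom :
    Rep.res sq.res (Rep.ofAlgebraAutOnUnits K₁ L₁) ⟶ Rep.ofAlgebraAutOnUnits K₂ L₂ :=
  ofHom ⟨(Units.map (sq.top : L₁ →* L₂)).toAdditive.toIntLinearMap, fun σ => by
    refine LinearMap.ext fun x => ?_
    apply Additive.toMul.injective
    apply Units.ext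
    exact sq.res_commutes σ ((Additive.toMul x : L₁ˣ) : L₁)⟩

@[simp]
theorem unitsHom_apply (x : Additive L₁ˣ) :
    (sq.unitsHom.hom x : Additive L₂ˣ) =
      Additive.ofMul (Units.map (sq.top : L₁ →* L₂) (Additive.toMul x)) := rfl

/-- The map on cohomology attached to a square. -/
noncomputable def map (n : ℕ) :
    groupCohomology (Rep.ofAlgebraAutOnUnits K₁ L₁) n ⟶
      groupCohomology (Rep.ofAlgebraAutOnUnits K₂ L₂) n :=
  groupCohomology.map sq.res sq.unitsHom n

end Basic

@[ext]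
theorem ext' {sq sq' : FieldSquare K₁ L₁ K₂ L₂} (hb : sq.base = sq'.base) (ht : sq.top = sq'.top) :
    sq = sq' := by
  cases sq; cases sq'
  simp only at hb ht
  subst hb; subst ht
  rfl

section Galmap

variable [Algebra K₁ K₂] [Algebra L₁ L₂] [Algebra K₁ L₂]
  [IsScalarTower K₁ K₂ L₂] [IsScalarTower K₁ L₁ L₂] [Normal K₁ L₁]

/-- The square attached to `Algebra` instances. -/
def ofAlgebra (K₁ L₁ K₂ L₂ : Type) [Field K₁] [Field L₁] [Field K₂] [Field L₂]
    [Algebra K₁ L₁] [Algebra K₂ L₂] [Algebra K₁ K₂] [Algebra L₁ L₂] [Algebra K₁ L₂]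
    [IsScalarTower K₁ K₂ L₂] [IsScalarTower K₁ L₁ L₂] : FieldSquare K₁ L₁ K₂ L₂ where
  base := algebraMap K₁ K₂
  top := algebraMap L₁ L₂
  comm x := by
    rw [← IsScalarTower.algebraMap_apply, ← IsScalarTower.algebraMap_apply]

theorem res_eq_galRes (sq : FieldSquare K₁ L₁ K₂ L₂) (ht : sq.top = algebraMap L₁ L₂) :
    sq.res = galRes K₁ L₁ K₂ L₂ := by
  ext σ : 1
  rw [res_eq_iff]
  intro x
  rw [ht]
  exact galRes_commutes σ x

/-- `FieldSquare.map` agrees with `galMap` when the vertical maps are the algebra maps. -/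
theorem map_eq_galMap (sq : FieldSquare K₁ L₁ K₂ L₂) (ht : sq.top = algebraMap L₁ L₂) (n : ℕ) :
    sq.map n = galMap K₁ L₁ K₂ L₂ n := by
  rw [map, galMap]
  refine groupCohomology.map_congr (sq.res_eq_galRes ht) ?_ n
  refine LinearMap.ext fun x => ?_
  apply Additive.toMul.injective
  apply Units.ext
  show sq.top ((Additive.toMul x : L₁ˣ) : L₁) = algebraMap L₁ L₂ ((Additive.toMul x : L₁ˣ) : L₁)
  rw [ht]

theorem ofAlgebra_map (n : ℕ) : (ofAlgebra K₁ L₁ K₂ L₂).map n = galMap K₁ L₁ K₂ L₂ n :=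
  map_eq_galMap _ rfl n

end Galmap

section Comp

/-- Composition of squares. -/
def comp (sq₁ : FieldSquare K₁ L₁ K₂ L₂) (sq₂ : FieldSquare K₂ L₂ K₃ L₃) :
    FieldSquare K₁ L₁ K₃ L₃ where
  base := sq₂.base.comp sq₁.base
  top := sq₂.top.comp sq₁.top
  comm x := by
    rw [RingHom.comp_apply, RingHom.comp_apply, sq₁.comm, sq₂.comm]

variable [Normal K₁ L₁] [Normal K₂ L₂]

theorem res_comp (sq₁ : FieldSquare K₁ L₁ K₂ L₂) (sq₂ : FieldSquare K₂ L₂ K₃ L₃) :
    sq₁.res.comp sq₂.res = (sq₁.comp sq₂).res := by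
  ext σ : 1
  symm
  rw [res_eq_iff]
  intro x
  show sq₂.top (sq₁.top (sq₁.res (sq₂.res σ) x)) = σ (sq₂.top (sq₁.top x))
  rw [res_commutes, res_commutes]

/-- Functoriality. -/
theorem map_comp (sq₁ : FieldSquare K₁ L₁ K₂ L₂) (sq₂ : FieldSquare K₂ L₂ K₃ L₃) (n : ℕ) :
    sq₁.map n ≫ sq₂.map n = (sq₁.comp sq₂).map n := by
  rw [map, map, map, ← groupCohomology.map_comp]
  refine groupCohomology.map_congr (res_comp sq₁ sq₂) ?_ n
  refine LinearMap.ext fun x => ?_
  rfl

theorem map_comp_apply (sq₁ : FieldSquare K₁ L₁ K₂ L₂) (sq₂ : FieldSquare K₂ L₂ K₃ L₃) (n : ℕ)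
    (x : groupCohomology (Rep.ofAlgebraAutOnUnits K₁ L₁) n) :
    (sq₂.map n).hom ((sq₁.map n).hom x) = ((sq₁.comp sq₂).map n).hom x := by
  rw [← map_comp]
  rfl

end Comp

section Id

variable (K L : Type) [Field K] [Field L] [Algebra K L] [Normal K L]

/-- The identity square. -/
def id : FieldSquare K L K L where
  base := RingHom.id K
  top := RingHom.id L
  comm _ := rfl

theorem res_id : (FieldSquare.id K L).res = MonoidHom.id _ := by
  ext σ : 1
  rw [res_eq_iff]
  intro x
  rfl

theorem map_id (n : ℕ) : (FieldSquare.id K L).map n = 𝟙 _ := by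
  have h : (FieldSquare.id K L).map n =
      groupCohomology.map (MonoidHom.id (L ≃ₐ[K] L)) (𝟙 (Rep.ofAlgebraAutOnUnits K L)) n :=
    groupCohomology.map_congr (res_id K L) rfl n
  rw [h, groupCohomology.map_id]

end Id

section Twist

variable [Normal K₁ L₁]

/-- Precomposition of the top map with an automorphism of `L₁/K₁`. -/
def twist (sq : FieldSquare K₁ L₁ K₂ L₂) (σ : L₁ ≃ₐ[K₁] L₁) : FieldSquare K₁ L₁ K₂ L₂ where
  base := sq.base
  top := sq.top.comp (σ : L₁ →+* L₁)
  comm x := by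
    rw [RingHom.comp_apply]
    show sq.top (σ (algebraMap K₁ L₁ x)) = _
    rw [σ.commutes, sq.comm]

@[simp] theorem twist_top (sq : FieldSquare K₁ L₁ K₂ L₂) (σ : L₁ ≃ₐ[K₁] L₁) (x : L₁) :
    (sq.twist σ).top x = sq.top (σ x) := rfl

theorem res_twist (sq : FieldSquare K₁ L₁ K₂ L₂) (σ : L₁ ≃ₐ[K₁] L₁) :
    (sq.twist σ).res = (conjInvHom σ).comp sq.res := by
  ext δ : 1
  rw [res_eq_iff]
  intro x
  rw [MonoidHom.comp_apply, conjInvHom_apply, twist_top, twist_top]
  show sq.top (σ (σ⁻¹ ((sq.res δ) (σ x)))) = δ (sq.top (σ x))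
  rw [← AlgEquiv.mul_apply, mul_inv_cancel, AlgEquiv.one_apply, res_commutes]

/-- **Twisting the embedding by an automorphism does not change the map on `H²`.** -/
theorem map_twist (sq : FieldSquare K₁ L₁ K₂ L₂) (σ : L₁ ≃ₐ[K₁] L₁) :
    (sq.twist σ).map 2 = sq.map 2 := by
  have h1 : (sq.twist σ).map 2 =
      groupCohomology.map ((conjInvHom σ).comp sq.res)
        ((resFunctor sq.res).map (conjRepHom (Rep.ofAlgebraAutOnUnits K₁ L₁) σ) ≫ sq.unitsHom) 2 := by
    rw [map]
    refine groupCohomology.map_congr (res_twist sq σ) ?_ 2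
    refine LinearMap.ext fun x => ?_
    rfl
  rw [h1, groupCohomology.map_comp, map_conj_H2, Category.id_comp, map]

end Twist

section Bijective

variable [Normal K₁ L₁] [Normal K₂ L₂]

/-- The inverse of a square with bijective vertical maps. -/
noncomputable def symm (sq : FieldSquare K₁ L₁ K₂ L₂) (hb : Function.Bijective sq.base)
    (ht : Function.Bijective sq.top) : FieldSquare K₂ L₂ K₁ L₁ where
  base := ((RingEquiv.ofBijective sq.base hb).symm : K₂ →+* K₁)
  top := ((RingEquiv.ofBijective sq.top ht).symm : L₂ →+* L₁)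
  comm x := by
    apply ht.1
    show sq.top ((RingEquiv.ofBijective sq.top ht).symm (algebraMap K₂ L₂ x)) =
      sq.top (algebraMap K₁ L₁ ((RingEquiv.ofBijective sq.base hb).symm x))
    rw [sq.comm]
    have h1 : sq.top ((RingEquiv.ofBijective sq.top ht).symm (algebraMap K₂ L₂ x)) =
        algebraMap K₂ L₂ x := (RingEquiv.ofBijective sq.top ht).apply_symm_apply _
    have h2 : sq.base ((RingEquiv.ofBijective sq.base hb).symm x) = x :=
      (RingEquiv.ofBijective sq.base hb).apply_symm_apply _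
    rw [h1, h2]

theorem comp_symm (sq : FieldSquare K₁ L₁ K₂ L₂) (hb : Function.Bijective sq.base)
    (ht : Function.Bijective sq.top) : sq.comp (sq.symm hb ht) = FieldSquare.id K₁ L₁ := by
  apply ext'
  · ext x
    exact (RingEquiv.ofBijective sq.base hb).symm_apply_apply x
  · ext x
    exact (RingEquiv.ofBijective sq.top ht).symm_apply_apply x

theorem symm_comp (sq : FieldSquare K₁ L₁ K₂ L₂) (hb : Function.Bijective sq.base)
    (ht : Function.Bijective sq.top) : (sq.symm hb ht).comp sq = FieldSquare.id K₂ L₂ := by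
  apply ext'
  · ext x
    exact (RingEquiv.ofBijective sq.base hb).apply_symm_apply x
  · ext x
    exact (RingEquiv.ofBijective sq.top ht).apply_symm_apply x

/-- A square with bijective vertical maps induces bijections on cohomology. -/
theorem map_bijective (sq : FieldSquare K₁ L₁ K₂ L₂) (hb : Function.Bijective sq.base)
    (ht : Function.Bijective sq.top) (n : ℕ) : Function.Bijective (sq.map n).hom := by
  have h1 : ∀ x, ((sq.symm hb ht).map n).hom ((sq.map n).hom x) = x := by
    intro x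
    rw [map_comp_apply, comp_symm, map_id]
    rfl
  have h2 : ∀ y, (sq.map n).hom (((sq.symm hb ht).map n).hom y) = y := by
    intro y
    rw [map_comp_apply, symm_comp, map_id]
    rfl
  exact ⟨Function.LeftInverse.injective h1, Function.RightInverse.surjective h2⟩

end Bijective

end FieldSquare

end Fermat.Agent.CFT
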