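/-
S55 / CFT, node B4b-GM5 (cyclic count).  For a finite cyclic Galois extension `L/K` (Type 0):
`H²(Gal(L/K), Lˣ) ≃ Kˣ / N_{L/K} Lˣ` (periodicity of the cohomology of finite cyclic groups,
Mathlib `Rep.FiniteCyclicGroup.groupCohomologyπEven`), hence
`Nat.card H²(Gal(L/K), Lˣ) = Nat.card (Kˣ ⧸ N Lˣ)`.
-/
import Mathlib

set_option autoImplicit false
set_option linter.unusedSimpArgs false
set_option linter.unusedSectionVars false

namespace Fermat.Agent.CFT

open CategoryTheory groupCohomology Rep Additive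

variable (K L : Type) [Field K] [Field L] [Algebra K L] [FiniteDimensional K L] [IsGalois K L]

/-- The subgroup of norms `N_{L/K}(Lˣ) ≤ Kˣ`. -/
noncomputable def normUnits : Subgroup Kˣ := MonoidHom.range (Units.map (Algebra.norm K : L →* K))

/-- `Lˣ` as a `Gal(L/K)`-module (unfolded form of `Rep.ofAlgebraAutOnUnits K L`). -/
noncomputable abbrev galUnits : Rep ℤ (L ≃ₐ[K] L) := Rep.ofMulDistribMulAction (L ≃ₐ[K] L) Lˣ

variable [IsCyclic (L ≃ₐ[K] L)]

attribute [local instance] IsCyclic.commGroup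

variable {K L} in
theorem galUnits_mem_ker_iff (g : L ≃ₐ[K] L) (u : Lˣ) :
    toAdditive.symm (ofMul u) ∈
      LinearMap.ker (applyAsHom (galUnits K L) g - 𝟙 _).hom.toLinearMap ↔
      g • u = u := by
  rw [LinearMap.mem_ker]
  simp only [sub_hom, Rep.hom_id,
    Representation.IntertwiningMap.sub_toLinearMap, Representation.IntertwiningMap.toLinearMap_id,
    LinearMap.sub_apply, Representation.IntertwiningMap.coe_toLinearMap, applyAsHom_apply,
    LinearMap.id_coe, id_eq, sub_eq_zero]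
  exact Iff.rfl

variable {K L} in
/-- the invariant attached to a unit of `K`. -/
noncomputable def unitInv (g : L ≃ₐ[K] L) (x : Kˣ) :
    LinearMap.ker (applyAsHom (galUnits K L) g - 𝟙 _).hom.toLinearMap :=
  ⟨toAdditive.symm (ofMul (Units.map (algebraMap K L : K →* L) x)),
    (galUnits_mem_ker_iff g _).mpr (by ext; simp)⟩

variable {K L} in
theorem unitInv_mul (g : L ≃ₐ[K] L) (x y : Kˣ) : unitInv g (x * y) = unitInv g x + unitInv g y := by
  apply Subtype.ext
  show toAdditive.symm (ofMul (Units.map (algebraMap K L : K →* L) (x * y))) = _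
  rw [map_mul]
  rfl

variable {K L} in
/-- every `g`-invariant unit (g a generator) comes from `K`. -/
theorem exists_unitInv_eq (g : L ≃ₐ[K] L) (hg : ∀ x, x ∈ Subgroup.zpowers g)
    (v : LinearMap.ker (applyAsHom (galUnits K L) g - 𝟙 _).hom.toLinearMap) :
    ∃ x : Kˣ, unitInv g x = v := by
  obtain ⟨v, hv⟩ := v
  obtain ⟨u, rfl⟩ : ∃ u : Lˣ, toAdditive.symm (ofMul u) = v := ⟨toMul (toAdditive v), rfl⟩
  rw [galUnits_mem_ker_iff] at hv
  -- u is fixed by all of G
  have hfix : ∀ σ : L ≃ₐ[K] L, σ • u = u := by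
    intro σ
    have h1 : Subgroup.zpowers g ≤ MulAction.stabilizer (L ≃ₐ[K] L) u :=
      (Subgroup.zpowers_le).mpr (MulAction.mem_stabilizer_iff.mpr hv)
    exact MulAction.mem_stabilizer_iff.mp (h1 (hg σ))
  have hmem : (u : L) ∈ (⊥ : IntermediateField K L) := by
    rw [IsGalois.mem_bot_iff_fixed]
    intro σ
    exact congrArg Units.val (hfix σ)
  obtain ⟨x, hx⟩ := IntermediateField.mem_bot.mp hmem
  have hx0 : x ≠ 0 := by
    rintro rfl
    rw [map_zero] at hx
    exact u.ne_zero hx.symm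
  refine ⟨Units.mk0 x hx0, ?_⟩
  apply Subtype.ext
  simp only [unitInv]
  congr 2
  ext
  simpa using hx


variable {K L} in
/-- The map `Kˣ → H²(Gal(L/K), Lˣ)` attached to a generator `g` (periodicity). -/
noncomputable def cyclicH2Map (g : L ≃ₐ[K] L) (hg : ∀ x, x ∈ Subgroup.zpowers g) :
    Additive Kˣ →+ groupCohomology (galUnits K L) 2 where
  toFun x := FiniteCyclicGroup.groupCohomologyπEven (galUnits K L) g hg 2 (by decide)
    (unitInv g x.toMul)
  map_zero' := by
    have : unitInv (K := K) (L := L) g (toMul 0) = 0 := by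
      apply Subtype.ext
      show toAdditive.symm (ofMul (Units.map (algebraMap K L : K →* L) 1)) = _
      rw [map_one]
      rfl
    rw [this, map_zero]
  map_add' x y := by
    rw [toMul_add, unitInv_mul, map_add]

variable {K L} in
theorem norm_galUnits_eq (u : Lˣ) :
    ((toMul (toAdditive ((galUnits K L).norm.hom (toAdditive.symm (ofMul u)))) : Lˣ) : L) =
      algebraMap K L (Algebra.norm K (u : L)) :=
  norm_ofAlgebraAutOnUnits_eq (K := K) (L := L) u


variable {K L} in
theorem galUnits_epi_πEven (g : L ≃ₐ[K] L) (hg : ∀ x, x ∈ Subgroup.zpowers g) :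
    Epi (FiniteCyclicGroup.groupCohomologyπEven (galUnits K L) g hg 2 (by decide)) := by
  unfold FiniteCyclicGroup.groupCohomologyπEven
  have e0 : IsIso (FiniteCyclicGroup.normHomCompSub (galUnits K L) g).moduleCatCyclesIso.inv :=
    Iso.isIso_inv _
  have e1 : Epi (FiniteCyclicGroup.normHomCompSub (galUnits K L) g).homologyπ := inferInstance
  have e2 : Epi ((FiniteCyclicGroup.normHomCompSub (galUnits K L) g).homologyπ ≫
      (FiniteCyclicGroup.groupCohomologyIsoEven (galUnits K L) g hg 2 (by decide)).inv) :=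
    epi_comp _ _
  have e3 : Epi (FiniteCyclicGroup.normHomCompSub (galUnits K L) g).moduleCatCyclesIso.inv :=
    IsIso.epi_of_iso _
  exact @epi_comp _ _ _ _ _ _ e3 _ e2

variable {K L} in
theorem cyclicH2Map_surjective (g : L ≃ₐ[K] L) (hg : ∀ x, x ∈ Subgroup.zpowers g) :
    Function.Surjective (cyclicH2Map g hg) := by
  intro c
  have hs : Function.Surjective
      (FiniteCyclicGroup.groupCohomologyπEven (galUnits K L) g hg 2 (by decide)) := by
    rw [← ModuleCat.epi_iff_surjective]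
    exact galUnits_epi_πEven g hg
  obtain ⟨v, rfl⟩ := hs c
  obtain ⟨x, rfl⟩ := exists_unitInv_eq g hg v
  exact ⟨ofMul x, rfl⟩

variable {K L} in
theorem cyclicH2Map_eq_zero_iff (g : L ≃ₐ[K] L) (hg : ∀ x, x ∈ Subgroup.zpowers g) (x : Kˣ) :
    cyclicH2Map g hg (ofMul x) = 0 ↔ x ∈ normUnits K L := by
  show FiniteCyclicGroup.groupCohomologyπEven (galUnits K L) g hg 2 (by decide)
    (unitInv g x) = 0 ↔ _
  rw [FiniteCyclicGroup.groupCohomologyπEven_eq_zero_iff]
  constructor
  · rintro ⟨w, hw⟩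
    obtain ⟨u, rfl⟩ : ∃ u : Lˣ, toAdditive.symm (ofMul u) = w := ⟨toMul (toAdditive w), rfl⟩
    have h1 := norm_galUnits_eq (K := K) (L := L) u
    refine ⟨u, ?_⟩
    apply Units.ext
    apply (algebraMap K L).injective
    simp only [Units.coe_map, MonoidHom.coe_coe]
    rw [← h1]
    exact congrArg (fun z => ((toMul (toAdditive z) : Lˣ) : L)) hw
  · rintro ⟨u, rfl⟩
    refine ⟨toAdditive.symm (ofMul u), ?_⟩
    have h1 := norm_galUnits_eq (K := K) (L := L) u
    have h2 : toMul (toAdditive ((galUnits K L).norm.hom (toAdditive.symm (ofMul u)))) =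
        Units.map (algebraMap K L : K →* L) (Units.map (Algebra.norm K : L →* K) u) := by
      apply Units.ext
      rw [h1]
      simp
    exact congrArg (fun z : Lˣ => toAdditive.symm (ofMul z)) h2

variable {K L} in
/-- The multiplicative version of `cyclicH2Map`. -/
noncomputable def cyclicH2MonoidHom (g : L ≃ₐ[K] L) (hg : ∀ x, x ∈ Subgroup.zpowers g) :
    Kˣ →* Multiplicative (groupCohomology (galUnits K L) 2) :=
  AddMonoidHom.toMultiplicativeRight (cyclicH2Map g hg)

variable {K L} in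
theorem ker_cyclicH2MonoidHom (g : L ≃ₐ[K] L) (hg : ∀ x, x ∈ Subgroup.zpowers g) :
    (cyclicH2MonoidHom g hg).ker = normUnits K L := by
  ext x
  rw [MonoidHom.mem_ker, ← cyclicH2Map_eq_zero_iff g hg x]
  rfl

variable {K L} in
theorem cyclicH2MonoidHom_surjective (g : L ≃ₐ[K] L) (hg : ∀ x, x ∈ Subgroup.zpowers g) :
    Function.Surjective (cyclicH2MonoidHom g hg) := by
  intro c
  obtain ⟨x, hx⟩ := cyclicH2Map_surjective g hg c.toAdd
  exact ⟨x.toMul, congrArg Multiplicative.ofAdd hx⟩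

variable {K L} in
/-- **Periodicity for cyclic `L/K`** (depends on the generator `g`):
`Kˣ / N_{L/K} Lˣ ≃ H²(Gal(L/K), Lˣ)`. -/
noncomputable def cyclicH2Equiv (g : L ≃ₐ[K] L) (hg : ∀ x, x ∈ Subgroup.zpowers g) :
    Kˣ ⧸ normUnits K L ≃* Multiplicative (groupCohomology (galUnits K L) 2) :=
  (QuotientGroup.quotientMulEquivOfEq (ker_cyclicH2MonoidHom g hg).symm).trans
    (QuotientGroup.quotientKerEquivOfSurjective _ (cyclicH2MonoidHom_surjective g hg))

variable {K L} in
theorem cyclicH2Equiv_mk (g : L ≃ₐ[K] L) (hg : ∀ x, x ∈ Subgroup.zpowers g) (x : Kˣ) :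
    cyclicH2Equiv g hg (QuotientGroup.mk x) = Multiplicative.ofAdd (cyclicH2Map g hg (ofMul x)) :=
  rfl

/-- **GM5 (cyclic count)**: for a finite cyclic Galois extension `L/K`,
`|H²(Gal(L/K), Lˣ)| = [Kˣ : N_{L/K} Lˣ]` (both possibly infinite, i.e. `0`). -/
theorem card_H2_of_isCyclic :
    Nat.card (groupCohomology (Rep.ofAlgebraAutOnUnits K L) 2) =
      Nat.card (Kˣ ⧸ MonoidHom.range (Units.map (Algebra.norm K : L →* K))) := by
  obtain ⟨g, hg⟩ := IsCyclic.exists_generator (α := L ≃ₐ[K] L)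
  have e := cyclicH2Equiv g hg
  show Nat.card (groupCohomology (galUnits K L) 2) = Nat.card (Kˣ ⧸ normUnits K L)
  rw [Nat.card_congr e.toEquiv]
  exact Nat.card_congr Multiplicative.toAdd

/-- Finiteness version. -/
theorem finite_H2_iff_of_isCyclic :
    Finite (groupCohomology (Rep.ofAlgebraAutOnUnits K L) 2) ↔
      Finite (Kˣ ⧸ MonoidHom.range (Units.map (Algebra.norm K : L →* K))) := by
  obtain ⟨g, hg⟩ := IsCyclic.exists_generator (α := L ≃ₐ[K] L)
  have e := cyclicH2Equiv g hg
  show Finite (groupCohomology (galUnits K L) 2) ↔ Finite (Kˣ ⧸ normUnits K L)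
  rw [e.toEquiv.finite_iff]
  exact (Multiplicative.toAdd.finite_iff)

end Fermat.Agent.CFT
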