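/-
S55 / CFT, node B4b-GM5 (cyclic count), quotient layer.

* Abstract part: for a finite cyclic group `G` with generator `g`, `B : Rep k G` and an additive map
  `ι : M → B` onto the `g`-invariants: `cycH2Map : M →+ H²(G, B)` is surjective with kernel
  `ι⁻¹(range norm)` (Mathlib periodicity `groupCohomologyπEven`).
* For `L/K` finite Galois, `N` normal in `Gal(L/K)` with cyclic quotient, `L' = fixedField N`:
  `Kˣ / N_{L'/K} L'ˣ ≃ H²(Gal(L/K)/N, (Lˣ)^N)` and the count
  `card_H2_quotientToInvariants_of_isCyclic` (the shape of hypothesis `h_cyc` of B4a).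
-/
import Mathlib
import Fermat.Agent.CFT.GalCyclicH2

set_option autoImplicit false
set_option linter.unusedSimpArgs false
set_option linter.unusedSectionVars false

namespace Fermat.Agent.CFT

open CategoryTheory groupCohomology Rep Additive

section Abstract

variable {k G : Type} [CommRing k] [CommGroup G] [Fintype G] (B : Rep k G) (g : G)
  (hg : ∀ x, x ∈ Subgroup.zpowers g)
variable {M : Type*} [AddCommGroup M] (ι : M →+ B)
  (hι_inv : ∀ m, B.ρ g (ι m) = ι m)

/-- The element of `ker (ρ g - 1)` attached to `m`. -/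
noncomputable def cycInv (m : M) :
    LinearMap.ker (applyAsHom B g - 𝟙 _).hom.toLinearMap :=
  ⟨ι m, by
    rw [LinearMap.mem_ker]
    simp only [sub_hom, Rep.hom_id,
      Representation.IntertwiningMap.sub_toLinearMap, Representation.IntertwiningMap.toLinearMap_id,
      LinearMap.sub_apply, Representation.IntertwiningMap.coe_toLinearMap, applyAsHom_apply,
      LinearMap.id_coe, id_eq, sub_eq_zero]
    exact hι_inv m⟩

theorem cycInv_add (m m' : M) :
    cycInv B g ι hι_inv (m + m') = cycInv B g ι hι_inv m + cycInv B g ι hι_inv m' := by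
  apply Subtype.ext
  simp [cycInv]

theorem cycInv_zero : cycInv B g ι hι_inv 0 = 0 := by
  apply Subtype.ext
  simp [cycInv]

/-- The periodicity map `M → H²(G, B)` for a finite cyclic group `G` with generator `g`, along a
map `ι : M → B` with values in the `g`-invariants. -/
noncomputable def cycH2Map : M →+ groupCohomology B 2 where
  toFun m := FiniteCyclicGroup.groupCohomologyπEven B g hg 2 (by decide) (cycInv B g ι hι_inv m)
  map_zero' := by rw [cycInv_zero, map_zero]
  map_add' x y := by rw [cycInv_add, map_add]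

theorem epi_πEven_two : Epi (FiniteCyclicGroup.groupCohomologyπEven B g hg 2 (by decide)) := by
  unfold FiniteCyclicGroup.groupCohomologyπEven
  have e1 : Epi (FiniteCyclicGroup.normHomCompSub B g).homologyπ := inferInstance
  have e2 : Epi ((FiniteCyclicGroup.normHomCompSub B g).homologyπ ≫
      (FiniteCyclicGroup.groupCohomologyIsoEven B g hg 2 (by decide)).inv) :=
    epi_comp _ _
  have e3 : Epi (FiniteCyclicGroup.normHomCompSub B g).moduleCatCyclesIso.inv :=
    IsIso.epi_of_iso _
  exact @epi_comp _ _ _ _ _ _ e3 _ e2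

theorem cycH2Map_surjective (hι_surj : ∀ v : B, B.ρ g v = v → ∃ m, ι m = v) :
    Function.Surjective (cycH2Map B g hg ι hι_inv) := by
  intro c
  have hs : Function.Surjective (FiniteCyclicGroup.groupCohomologyπEven B g hg 2 (by decide)) := by
    rw [← ModuleCat.epi_iff_surjective]
    exact epi_πEven_two B g hg
  obtain ⟨⟨v, hv⟩, rfl⟩ := hs c
  have hv' : B.ρ g v = v := by
    rw [LinearMap.mem_ker] at hv
    simpa only [sub_hom, Rep.hom_id,
      Representation.IntertwiningMap.sub_toLinearMap, Representation.IntertwiningMap.toLinearMap_id,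
      LinearMap.sub_apply, Representation.IntertwiningMap.coe_toLinearMap, applyAsHom_apply,
      LinearMap.id_coe, id_eq, sub_eq_zero] using hv
  obtain ⟨m, rfl⟩ := hι_surj v hv'
  exact ⟨m, rfl⟩

theorem cycH2Map_eq_zero_iff (m : M) :
    cycH2Map B g hg ι hι_inv m = 0 ↔ ι m ∈ LinearMap.range B.norm.hom.toLinearMap := by
  show FiniteCyclicGroup.groupCohomologyπEven B g hg 2 (by decide) (cycInv B g ι hι_inv m) = 0 ↔ _
  rw [FiniteCyclicGroup.groupCohomologyπEven_eq_zero_iff]
  rfl

end Abstract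


section Quot

variable (K L : Type) [Field K] [Field L] [Algebra K L] [FiniteDimensional K L] [IsGalois K L]
variable (N : Subgroup (L ≃ₐ[K] L)) [N.Normal]

/-- `(Lˣ)^N` as a `Gal(L/K)/N`-module. -/
noncomputable abbrev galUnitsQuot : Rep ℤ ((L ≃ₐ[K] L) ⧸ N) :=
  (galUnits K L).quotientToInvariants N

variable {K L N} in
theorem galUnitsQuot_ρ_mk_val (σ : L ≃ₐ[K] L) (v : galUnitsQuot K L N) :
    (((galUnitsQuot K L N).ρ (QuotientGroup.mk σ) v : galUnitsQuot K L N) : galUnits K L) =
      (galUnits K L).ρ σ (v : galUnits K L) := rfl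

variable {K L N} in
theorem mem_galUnitsQuot_iff (u : Lˣ) :
    (toAdditive.symm (ofMul u) : galUnits K L) ∈
      Representation.invariants ((galUnits K L).ρ.comp N.subtype) ↔ ∀ s ∈ N, s • u = u := by
  rw [Representation.mem_invariants]
  constructor
  · intro h s hs
    exact h ⟨s, hs⟩
  · intro h s
    exact h s.1 s.2

end Quot

section Quot2

variable {K L : Type} [Field K] [Field L] [Algebra K L] [FiniteDimensional K L] [IsGalois K L]
variable {N : Subgroup (L ≃ₐ[K] L)} [N.Normal]

/-- The inclusion `Kˣ → (Lˣ)^N`. -/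
noncomputable def quotIota : Additive Kˣ →+ galUnitsQuot K L N where
  toFun x := ⟨toAdditive.symm (ofMul (Units.map (algebraMap K L : K →* L) x.toMul)),
    (mem_galUnitsQuot_iff _).mpr (fun s _ => by ext; simp)⟩
  map_zero' := by
    apply Subtype.ext
    show toAdditive.symm (ofMul (Units.map (algebraMap K L : K →* L) 1)) = _
    rw [map_one]
    rfl
  map_add' x y := by
    apply Subtype.ext
    show toAdditive.symm (ofMul (Units.map (algebraMap K L : K →* L) (x.toMul * y.toMul))) = _
    rw [map_mul]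
    rfl

theorem quotIota_val (x : Additive Kˣ) :
    ((quotIota (N := N) x : galUnitsQuot K L N) : galUnits K L) =
      toAdditive.symm (ofMul (Units.map (algebraMap K L : K →* L) x.toMul)) := rfl

theorem quotIota_inv (c : (L ≃ₐ[K] L) ⧸ N) (x : Additive Kˣ) :
    (galUnitsQuot K L N).ρ c (quotIota x) = quotIota x := by
  obtain ⟨σ, rfl⟩ := QuotientGroup.mk_surjective c
  apply Subtype.ext
  rw [galUnitsQuot_ρ_mk_val, quotIota_val]
  show toAdditive.symm (ofMul (σ • Units.map (algebraMap K L : K →* L) x.toMul)) = _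
  congr 2
  ext
  simp

theorem quotIota_surj (c : (L ≃ₐ[K] L) ⧸ N) (hc : ∀ x, x ∈ Subgroup.zpowers c)
    (v : galUnitsQuot K L N) (hv : (galUnitsQuot K L N).ρ c v = v) :
    ∃ x : Additive Kˣ, quotIota x = v := by
  obtain ⟨σ₀, rfl⟩ := QuotientGroup.mk_surjective c
  obtain ⟨v, hvN⟩ := v
  obtain ⟨u, rfl⟩ : ∃ u : Lˣ, toAdditive.symm (ofMul u) = v := ⟨toMul (toAdditive v), rfl⟩
  have hN : ∀ s ∈ N, s • u = u := (mem_galUnitsQuot_iff u).mp hvN
  have hσ₀ : σ₀ • u = u := by
    have := congrArg Subtype.val hv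
    rw [galUnitsQuot_ρ_mk_val] at this
    exact this
  -- the stabilizer of `u` is everything
  set S : Subgroup (L ≃ₐ[K] L) := MulAction.stabilizer (L ≃ₐ[K] L) u with hS
  have hNS : N ≤ S := fun s hs => MulAction.mem_stabilizer_iff.mpr (hN s hs)
  have hmap : S.map (QuotientGroup.mk' N) = ⊤ := by
    rw [eq_top_iff]
    intro c _
    have h1 : Subgroup.zpowers (QuotientGroup.mk σ₀ : (L ≃ₐ[K] L) ⧸ N) ≤
        S.map (QuotientGroup.mk' N) := by
      rw [Subgroup.zpowers_le]
      exact ⟨σ₀, MulAction.mem_stabilizer_iff.mpr hσ₀, rfl⟩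
    exact h1 (hc c)
  have hStop : S = ⊤ := by
    have h2 := QuotientGroup.comap_map_mk' N S
    rw [hmap, Subgroup.comap_top, sup_eq_right.mpr hNS] at h2
    exact h2.symm
  have hfix : ∀ σ : L ≃ₐ[K] L, σ • u = u := fun σ => by
    have h3 : σ ∈ S := by rw [hStop]; exact Subgroup.mem_top σ
    exact MulAction.mem_stabilizer_iff.mp h3
  have hmem : (u : L) ∈ (⊥ : IntermediateField K L) := by
    rw [IsGalois.mem_bot_iff_fixed]
    intro σ
    exact congrArg Units.val (hfix σ)
  obtain ⟨x, hx⟩ := IntermediateField.mem_bot.mp hmem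
  have hx0 : x ≠ 0 := by
    rintro rfl
    rw [map_zero] at hx
    exact u.ne_zero hx.symm
  refine ⟨ofMul (Units.mk0 x hx0), ?_⟩
  apply Subtype.ext
  rw [quotIota_val]
  congr 2
  ext
  simpa using hx

end Quot2

section Quot3

open IntermediateField

variable {K L : Type} [Field K] [Field L] [Algebra K L] [FiniteDimensional K L] [IsGalois K L]
variable {N : Subgroup (L ≃ₐ[K] L)} [N.Normal]

/-- The value in `L` of an element of `(Lˣ)^N`, as an additive map to `Additive L`. -/
noncomputable def quotValL : galUnitsQuot K L N →+ Additive L where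
  toFun v := ofMul ((toMul (toAdditive (v : galUnits K L)) : Lˣ) : L)
  map_zero' := rfl
  map_add' _ _ := rfl

theorem quotValL_injective : Function.Injective (quotValL (K := K) (L := L) (N := N)) := by
  intro v w h
  apply Subtype.ext
  have h1 : ((toMul (toAdditive (v : galUnits K L)) : Lˣ) : L) =
      ((toMul (toAdditive (w : galUnits K L)) : Lˣ) : L) := h
  have h2 := Units.ext h1
  exact h2

theorem quotValL_ρ_mk (σ : L ≃ₐ[K] L) (v : galUnitsQuot K L N) :
    quotValL ((galUnitsQuot K L N).ρ (QuotientGroup.mk σ) v) =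
      ofMul (σ (toMul (quotValL v))) := rfl

/-- The map `L'ˣ → (Lˣ)^N` for `L' = fixedField N`. -/
noncomputable def fixedUnitsToQuot (u' : (fixedField N)ˣ) : galUnitsQuot K L N :=
  ⟨toAdditive.symm (ofMul (Units.map (algebraMap (fixedField N) L : fixedField N →* L) u')),
    (mem_galUnitsQuot_iff _).mpr (fun s hs => by
      ext
      have := (IntermediateField.mem_fixedField_iff N ((u' : fixedField N) : L)).mp
        (u' : fixedField N).2 s hs
      simpa using this)⟩

theorem quotValL_fixedUnitsToQuot (u' : (fixedField N)ˣ) :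
    quotValL (fixedUnitsToQuot u') = ofMul (((u' : fixedField N) : L)) := rfl

theorem exists_fixedUnitsToQuot_eq (v : galUnitsQuot K L N) :
    ∃ u' : (fixedField N)ˣ, fixedUnitsToQuot u' = v := by
  obtain ⟨v, hvN⟩ := v
  obtain ⟨u, rfl⟩ : ∃ u : Lˣ, toAdditive.symm (ofMul u) = v := ⟨toMul (toAdditive v), rfl⟩
  have hN : ∀ s ∈ N, s • u = u := (mem_galUnitsQuot_iff u).mp hvN
  have hmem : (u : L) ∈ fixedField N := by
    rw [IntermediateField.mem_fixedField_iff]
    intro s hs
    exact congrArg Units.val (hN s hs)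
  have h0 : (⟨(u : L), hmem⟩ : fixedField N) ≠ 0 := by
    intro h
    exact u.ne_zero (congrArg Subtype.val h)
  refine ⟨Units.mk0 ⟨(u : L), hmem⟩ h0, ?_⟩
  apply quotValL_injective
  rfl

end Quot3

section Quot4

open IntermediateField

variable {K L : Type} [Field K] [Field L] [Algebra K L] [FiniteDimensional K L] [IsGalois K L]
variable {N : Subgroup (L ≃ₐ[K] L)} [N.Normal]

/-- A `Fintype` structure on the quotient (classical). -/
noncomputable local instance quotFintypeAux : Fintype ((L ≃ₐ[K] L) ⧸ N) := Fintype.ofFinite _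

theorem quotValL_norm (u' : (fixedField N)ˣ) :
    quotValL ((galUnitsQuot K L N).norm.hom (fixedUnitsToQuot u')) =
      ofMul (algebraMap K L (Algebra.norm K ((u' : fixedField N)))) := by
  have h1 : (galUnitsQuot K L N).norm.hom (fixedUnitsToQuot u') =
      ∑ c : (L ≃ₐ[K] L) ⧸ N, (galUnitsQuot K L N).ρ c (fixedUnitsToQuot u') := by
    simp [Rep.norm, Representation.norm]
  rw [h1, map_sum]
  have h2 : ∀ c : (L ≃ₐ[K] L) ⧸ N, quotValL ((galUnitsQuot K L N).ρ c (fixedUnitsToQuot u')) =
      ofMul (((IsGalois.normalAutEquivQuotient N c) (u' : fixedField N) : fixedField N) : L) := by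
    intro c
    obtain ⟨σ, rfl⟩ := QuotientGroup.mk_surjective c
    rw [quotValL_ρ_mk, quotValL_fixedUnitsToQuot]
    congr 1
    exact (AlgEquiv.restrictNormal_commutes σ (fixedField N) (u' : fixedField N)).symm
  simp_rw [h2]
  rw [← ofMul_prod]
  congr 1
  have h3 : ∏ c : (L ≃ₐ[K] L) ⧸ N,
      (((IsGalois.normalAutEquivQuotient N c) (u' : fixedField N) : fixedField N) : L) =
      algebraMap (fixedField N) L
        (∏ c : (L ≃ₐ[K] L) ⧸ N, (IsGalois.normalAutEquivQuotient N c) (u' : fixedField N)) := by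
    rw [map_prod]
    rfl
  have h4 : ∏ c : (L ≃ₐ[K] L) ⧸ N, (IsGalois.normalAutEquivQuotient N c) (u' : fixedField N) =
      ∏ τ : (fixedField N) ≃ₐ[K] (fixedField N), τ (u' : fixedField N) :=
    Equiv.prod_comp (IsGalois.normalAutEquivQuotient N).toEquiv
      (fun τ : (fixedField N) ≃ₐ[K] (fixedField N) => τ (u' : fixedField N))
  rw [h3, h4, ← Algebra.norm_eq_prod_automorphisms, ← IsScalarTower.algebraMap_apply]

end Quot4

section QuotFinal

open IntermediateField

variable (K L : Type) [Field K] [Field L] [Algebra K L] [FiniteDimensional K L] [IsGalois K L]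
variable (N : Subgroup (L ≃ₐ[K] L)) [N.Normal]

/-- The subgroup of norms `N_{L'/K}(L'ˣ) ≤ Kˣ`, `L' = fixedField N`. -/
noncomputable def normUnitsFixed : Subgroup Kˣ :=
  MonoidHom.range (Units.map (Algebra.norm K : fixedField N →* K))

noncomputable local instance quotFintypeAux' : Fintype ((L ≃ₐ[K] L) ⧸ N) := Fintype.ofFinite _

variable {K L N} in
theorem quotIota_mem_range_norm_iff (x : Kˣ) :
    (quotIota (ofMul x) : galUnitsQuot K L N) ∈
      LinearMap.range (galUnitsQuot K L N).norm.hom.toLinearMap ↔ x ∈ normUnitsFixed K L N := by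
  constructor
  · rintro ⟨v, hv⟩
    obtain ⟨u', rfl⟩ := exists_fixedUnitsToQuot_eq v
    have h1 := congrArg quotValL hv
    have h2 : quotValL ((galUnitsQuot K L N).norm.hom (fixedUnitsToQuot u')) =
        ofMul (algebraMap K L (x : K)) := h1
    rw [quotValL_norm] at h2
    refine ⟨u', ?_⟩
    apply Units.ext
    exact (algebraMap K L).injective (ofMul.injective h2)
  · rintro ⟨u', rfl⟩
    refine ⟨fixedUnitsToQuot u', ?_⟩
    apply quotValL_injective
    have h2 : quotValL ((galUnitsQuot K L N).norm.hom (fixedUnitsToQuot u')) = _ :=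
      quotValL_norm u'
    exact h2

variable [IsCyclic ((L ≃ₐ[K] L) ⧸ N)]

attribute [local instance] IsCyclic.commGroup

variable {K L N} in
/-- The periodicity map `Kˣ → H²(Gal(L/K)/N, (Lˣ)^N)` attached to a generator `c`. -/
noncomputable def cyclicQuotH2Map (c : (L ≃ₐ[K] L) ⧸ N) (hc : ∀ x, x ∈ Subgroup.zpowers c) :
    Additive Kˣ →+ groupCohomology (galUnitsQuot K L N) 2 :=
  cycH2Map (galUnitsQuot K L N) c hc quotIota (quotIota_inv c)

variable {K L N} in
theorem cyclicQuotH2Map_surjective (c : (L ≃ₐ[K] L) ⧸ N) (hc : ∀ x, x ∈ Subgroup.zpowers c) :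
    Function.Surjective (cyclicQuotH2Map c hc) :=
  cycH2Map_surjective _ c hc _ _ (quotIota_surj c hc)

variable {K L N} in
theorem cyclicQuotH2Map_eq_zero_iff (c : (L ≃ₐ[K] L) ⧸ N) (hc : ∀ x, x ∈ Subgroup.zpowers c)
    (x : Kˣ) : cyclicQuotH2Map c hc (ofMul x) = 0 ↔ x ∈ normUnitsFixed K L N := by
  rw [cyclicQuotH2Map, cycH2Map_eq_zero_iff]
  exact quotIota_mem_range_norm_iff x

variable {K L N} in
/-- Multiplicative version. -/
noncomputable def cyclicQuotH2MonoidHom (c : (L ≃ₐ[K] L) ⧸ N)
    (hc : ∀ x, x ∈ Subgroup.zpowers c) :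
    Kˣ →* Multiplicative (groupCohomology (galUnitsQuot K L N) 2) :=
  AddMonoidHom.toMultiplicativeRight (cyclicQuotH2Map c hc)

variable {K L N} in
theorem ker_cyclicQuotH2MonoidHom (c : (L ≃ₐ[K] L) ⧸ N) (hc : ∀ x, x ∈ Subgroup.zpowers c) :
    (cyclicQuotH2MonoidHom c hc).ker = normUnitsFixed K L N := by
  ext x
  rw [MonoidHom.mem_ker, ← cyclicQuotH2Map_eq_zero_iff c hc x]
  rfl

variable {K L N} in
theorem cyclicQuotH2MonoidHom_surjective (c : (L ≃ₐ[K] L) ⧸ N)
    (hc : ∀ x, x ∈ Subgroup.zpowers c) : Function.Surjective (cyclicQuotH2MonoidHom c hc) := by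
  intro z
  obtain ⟨x, hx⟩ := cyclicQuotH2Map_surjective c hc z.toAdd
  exact ⟨x.toMul, congrArg Multiplicative.ofAdd hx⟩

variable {K L N} in
/-- **Periodicity for a cyclic quotient layer** (depends on the generator `c`):
`Kˣ / N_{L'/K} L'ˣ ≃ H²(Gal(L/K)/N, (Lˣ)^N)`, `L' = fixedField N`. -/
noncomputable def cyclicQuotH2Equiv (c : (L ≃ₐ[K] L) ⧸ N) (hc : ∀ x, x ∈ Subgroup.zpowers c) :
    Kˣ ⧸ normUnitsFixed K L N ≃* Multiplicative (groupCohomology (galUnitsQuot K L N) 2) :=
  (QuotientGroup.quotientMulEquivOfEq (ker_cyclicQuotH2MonoidHom c hc).symm).trans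
    (QuotientGroup.quotientKerEquivOfSurjective _ (cyclicQuotH2MonoidHom_surjective c hc))

/-- **GM5, quotient layer (count)**: for `N` normal in `Gal(L/K)` with cyclic quotient and
`L' = fixedField N`: `|H²(Gal(L/K)/N, (Lˣ)^N)| = [Kˣ : N_{L'/K} L'ˣ]`. -/
theorem card_H2_quotientToInvariants_of_isCyclic :
    Nat.card (groupCohomology ((Rep.ofAlgebraAutOnUnits K L).quotientToInvariants N) 2) =
      Nat.card (Kˣ ⧸ MonoidHom.range (Units.map (Algebra.norm K : fixedField N →* K))) := by
  obtain ⟨c, hc⟩ := IsCyclic.exists_generator (α := (L ≃ₐ[K] L) ⧸ N)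
  have e := cyclicQuotH2Equiv c hc
  show Nat.card (groupCohomology (galUnitsQuot K L N) 2) = Nat.card (Kˣ ⧸ normUnitsFixed K L N)
  rw [Nat.card_congr e.toEquiv]
  exact Nat.card_congr Multiplicative.toAdd

/-- Finiteness version. -/
theorem finite_H2_quotientToInvariants_iff_of_isCyclic :
    Finite (groupCohomology ((Rep.ofAlgebraAutOnUnits K L).quotientToInvariants N) 2) ↔
      Finite (Kˣ ⧸ MonoidHom.range (Units.map (Algebra.norm K : fixedField N →* K))) := by
  obtain ⟨c, hc⟩ := IsCyclic.exists_generator (α := (L ≃ₐ[K] L) ⧸ N)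
  have e := cyclicQuotH2Equiv c hc
  show Finite (groupCohomology (galUnitsQuot K L N) 2) ↔ Finite (Kˣ ⧸ normUnitsFixed K L N)
  rw [e.toEquiv.finite_iff]
  exact (Multiplicative.toAdd.finite_iff)

end QuotFinal
end Fermat.Agent.CFT
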