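/-
S55 / B4b (GM4): **Galois transports** for `H^n(Gal(L/K), Lˣ)` (on top of `GalMap.lean`).

* `galSubIso K E L n : H^n(galSub K E L, Lˣ) ≅ H^n(Gal(L/E), Lˣ)` for a tower `K ⊆ E ⊆ L`
  (`galSub` = image of `Gal(L/E)` in `Gal(L/K)`), with `res_comp_galSubIso_hom : res ≫ iso = galRest`.
* `galQuotIso K L' L n : H^n(Gal(L/K) ⧸ galKer, (Lˣ)^galKer) ≅ H^n(Gal(L'/K), L'ˣ)` for `K ⊆ L' ⊆ L`,
  `L'/K` normal, `L/K` finite Galois, with `galQuotIso_inv_comp_inf : iso⁻¹ ≫ inf = galInfl`.
* fixed-field forms `galFixedIso K L H n`, `galFixedQuotIso K L N n` (+ linear equivalences) for a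
  subgroup `H` / normal subgroup `N` of `Gal(L/K)`, with the same compatibilities.
* Rep-level forms: `galFixedEquiv K L H : H ≃* Gal(L/L^H)`,
  `galFixedRepIso K L H : res H.subtype (Lˣ) ≅ res (galFixedEquiv K L H) (Lˣ)`,
  `galFixedQuotEquiv K L N : Gal(L/K) ⧸ N ≃* Gal(L^N/K)`,
  `galFixedQuotRepIso K L N : (Lˣ)^N ≅ res (galFixedQuotEquiv K L N) ((L^N)ˣ)`, and the general
  `cohIsoOfRepIso` (group iso + Rep iso gives an iso on cohomology).
-/
import Mathlib
import Fermat.Agent.CFT.GalMap

open CategoryTheory groupCohomology Rep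

namespace Fermat.Agent.CFT

section General

/-- General transport: a group iso `e : G ≃* H` and an iso of representations
`B ≅ res e A` induce an iso on group cohomology. -/
noncomputable def cohIsoOfRepIso {k G H : Type} [CommRing k] [Group G] [Group H]
    (A : Rep k H) (B : Rep k G) (e : G ≃* H) (i : B ≅ res e.toMonoidHom A) (n : ℕ) :
    groupCohomology B n ≅ groupCohomology A n :=
  groupCohomology.mapIso e (Representation.equivOfIso i).toLinearEquiv
    (fun g => by
      refine LinearMap.ext fun x => ?_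
      exact Rep.hom_comm_apply i.hom g x) n

/-- Linear-equivalence form of `cohIsoOfRepIso`. -/
noncomputable def cohLinearEquivOfRepIso {k G H : Type} [CommRing k] [Group G] [Group H]
    (A : Rep k H) (B : Rep k G) (e : G ≃* H) (i : B ≅ res e.toMonoidHom A) (n : ℕ) :
    groupCohomology B n ≃ₗ[k] groupCohomology A n :=
  (cohIsoOfRepIso A B e i n).toLinearEquiv

end General

section SubTransport

variable (K E L : Type) [Field K] [Field E] [Field L] [Algebra K E] [Algebra K L] [Algebra E L]
  [IsScalarTower K E L] [Normal K L]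

/-- The image of `Gal(L/E)` in `Gal(L/K)`. -/
noncomputable abbrev galSub : Subgroup (L ≃ₐ[K] L) := (galRes K L E L).range

/-- `Gal(L/E) ≃* galSub K E L`. -/
noncomputable def galSubEquiv : (L ≃ₐ[E] L) ≃* galSub K E L :=
  MonoidHom.ofInjective (galRes_rest_injective K E L)

theorem coe_galSubEquiv (σ : L ≃ₐ[E] L) : ((galSubEquiv K E L σ : galSub K E L) : L ≃ₐ[K] L) =
    galRes K L E L σ := rfl

theorem galSubEquiv_symm_apply (g : galSub K E L) (x : L) :
    (galSubEquiv K E L).symm g x = (g : L ≃ₐ[K] L) x := by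
  obtain ⟨σ, rfl⟩ := (galSubEquiv K E L).surjective g
  rw [MulEquiv.symm_apply_apply, coe_galSubEquiv, galRes_rest_apply]
  rfl

/-- **Subgroup transport**: `H^n(galSub, Lˣ) ≅ H^n(Gal(L/E), Lˣ)`. -/
noncomputable def galSubIso (n : ℕ) :
    groupCohomology (res (galSub K E L).subtype (Rep.ofAlgebraAutOnUnits K L)) n ≅
      groupCohomology (Rep.ofAlgebraAutOnUnits E L) n :=
  groupCohomology.mapIso (galSubEquiv K E L).symm (LinearEquiv.refl ℤ (Additive Lˣ))
    (fun g => by
      refine LinearMap.ext fun x => ?_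
      apply Additive.toMul.injective
      apply Units.ext
      exact (galSubEquiv_symm_apply K E L g _).symm) n


/-- The subgroup transport identifies restriction to `galSub` with `galRest`. -/
theorem res_comp_galSubIso_hom (n : ℕ) :
    groupCohomology.map (galSub K E L).subtype (𝟙 _) n ≫ (galSubIso K E L n).hom =
      galRest K E L n := by
  rw [galSubIso, groupCohomology.mapIso_hom, ← groupCohomology.map_comp]
  change _ = groupCohomology.map (galRes K L E L) (galUnitsHom K L E L) n
  refine groupCohomology.map_congr ?_ ?_ n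
  · rfl
  · refine LinearMap.ext fun x => ?_
    apply Additive.toMul.injective
    apply Units.ext
    rfl


theorem mem_galSub_iff (σ : L ≃ₐ[K] L) :
    σ ∈ galSub K E L ↔ ∀ x : E, σ (algebraMap E L x) = algebraMap E L x := by
  constructor
  · rintro ⟨τ, rfl⟩ x
    rw [galRes_rest_apply]
    exact τ.commutes x
  · intro hσ
    refine ⟨{ σ.toRingEquiv with commutes' := hσ }, ?_⟩
    rw [galRes_rest_apply]
    rfl

/-- Transport of the subgroup iso along an equality of subgroups. -/
noncomputable def galSubIsoOfEq (S : Subgroup (L ≃ₐ[K] L)) (hS : S = galSub K E L) (n : ℕ) :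
    groupCohomology (res S.subtype (Rep.ofAlgebraAutOnUnits K L)) n ≅
      groupCohomology (Rep.ofAlgebraAutOnUnits E L) n :=
  groupCohomology.mapIso ((MulEquiv.subgroupCongr hS).trans (galSubEquiv K E L).symm)
    (LinearEquiv.refl ℤ (Additive Lˣ))
    (fun g => by
      refine LinearMap.ext fun x => ?_
      apply Additive.toMul.injective
      apply Units.ext
      exact (galSubEquiv_symm_apply K E L (MulEquiv.subgroupCongr hS g) _).symm) n

theorem res_comp_galSubIsoOfEq_hom (S : Subgroup (L ≃ₐ[K] L)) (hS : S = galSub K E L) (n : ℕ) :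
    groupCohomology.map S.subtype (𝟙 _) n ≫ (galSubIsoOfEq K E L S hS n).hom =
      galRest K E L n := by
  subst hS
  rw [galSubIsoOfEq, groupCohomology.mapIso_hom, ← groupCohomology.map_comp]
  change _ = groupCohomology.map (galRes K L E L) (galUnitsHom K L E L) n
  refine groupCohomology.map_congr ?_ ?_ n
  · rfl
  · refine LinearMap.ext fun x => ?_
    apply Additive.toMul.injective
    apply Units.ext
    rfl

end SubTransport

section QuotTransport

variable (K L' L : Type) [Field K] [Field L'] [Field L] [Algebra K L'] [Algebra K L] [Algebra L' L]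
  [IsScalarTower K L' L] [Normal K L'] [IsGalois K L] [FiniteDimensional K L]

/-- The kernel of `Gal(L/K) → Gal(L'/K)`. -/
noncomputable abbrev galKer : Subgroup (L ≃ₐ[K] L) := (galRes K L' K L).ker

/-- `Gal(L/K) ⧸ galKer ≃* Gal(L'/K)`. -/
noncomputable def galQuotEquiv : (L ≃ₐ[K] L) ⧸ galKer K L' L ≃* (L' ≃ₐ[K] L') :=
  QuotientGroup.quotientKerEquivOfSurjective (galRes K L' K L) (galRes_infl_surjective K L' L)

theorem galQuotEquiv_mk (σ : L ≃ₐ[K] L) :
    galQuotEquiv K L' L (QuotientGroup.mk σ) = galRes K L' K L σ := rfl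

theorem mem_galKer_iff (σ : L ≃ₐ[K] L) :
    σ ∈ galKer K L' L ↔ ∀ x : L', σ (algebraMap L' L x) = algebraMap L' L x := by
  rw [MonoidHom.mem_ker, galRes_eq_iff]
  simp only [AlgEquiv.one_apply]
  exact ⟨fun h x => (h x).symm, fun h x => (h x).symm⟩

theorem galRes_mem_galKer (τ : L ≃ₐ[L'] L) : galRes K L L' L τ ∈ galKer K L' L := by
  rw [mem_galKer_iff]
  intro x
  rw [galRes_rest_apply]
  exact τ.commutes x

/-- The kernel of `Gal(L/K) → Gal(L'/K)` is the image of `Gal(L/L')`. -/
theorem galKer_eq_galSub : galKer K L' L = galSub K L' L := by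
  ext σ
  constructor
  · intro hσ
    rw [mem_galKer_iff] at hσ
    refine ⟨{ σ.toRingEquiv with commutes' := hσ }, ?_⟩
    rw [galRes_rest_apply]
    rfl
  · rintro ⟨τ, rfl⟩
    exact galRes_mem_galKer K L' L τ

/-- The map `L'ˣ → (Lˣ)^{galKer}`. -/
noncomputable def unitsToInvariants :
    Additive L'ˣ →ₗ[ℤ] Representation.invariants
      ((Rep.ofAlgebraAutOnUnits K L).ρ.comp (galKer K L' L).subtype) :=
  LinearMap.codRestrict _ ((Units.map (algebraMap L' L : L' →* L)).toAdditive.toIntLinearMap)
    (fun x => by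
      intro s
      apply Additive.toMul.injective
      apply Units.ext
      exact (mem_galKer_iff K L' L s.1).mp s.2 _)

theorem coe_unitsToInvariants (x : Additive L'ˣ) :
    ((unitsToInvariants K L' L x).1 : Additive Lˣ) =
      Additive.ofMul (Units.map (algebraMap L' L : L' →* L) (Additive.toMul x)) := rfl

theorem unitsToInvariants_bijective : Function.Bijective (unitsToInvariants K L' L) := by
  constructor
  · intro a b hab
    have h1 : (algebraMap L' L) ((Additive.toMul a : L'ˣ) : L') =
        (algebraMap L' L) ((Additive.toMul b : L'ˣ) : L') :=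
      congrArg (fun z : Representation.invariants
        ((Rep.ofAlgebraAutOnUnits K L).ρ.comp (galKer K L' L).subtype) =>
          ((Additive.toMul (z.1 : Additive Lˣ) : Lˣ) : L)) hab
    apply Additive.toMul.injective
    apply Units.ext
    exact (algebraMap L' L).injective h1
  · rintro ⟨y, hy⟩
    have hfix : ∀ τ : L ≃ₐ[L'] L, τ ((Additive.toMul y : Lˣ) : L) = ((Additive.toMul y : Lˣ) : L) := by
      intro τ
      have h1 := hy ⟨galRes K L L' L τ, galRes_mem_galKer K L' L τ⟩
      have h2 : (galRes K L L' L τ) ((Additive.toMul y : Lˣ) : L) = ((Additive.toMul y : Lˣ) : L) :=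
        congrArg (fun z : Additive Lˣ => ((Additive.toMul z : Lˣ) : L)) h1
      rwa [galRes_rest_apply] at h2
    have : IsGalois L' L := IsGalois.tower_top_of_isGalois K L' L
    have : FiniteDimensional L' L := FiniteDimensional.right K L' L
    have hbot : ((Additive.toMul y : Lˣ) : L) ∈ (⊥ : IntermediateField L' L) :=
      (IsGalois.mem_bot_iff_fixed _).mpr hfix
    obtain ⟨z, hz⟩ := IntermediateField.mem_bot.mp hbot
    have hz0 : z ≠ 0 := by
      rintro rfl
      rw [map_zero] at hz
      exact (Additive.toMul y : Lˣ).ne_zero hz.symm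
    refine ⟨Additive.ofMul (Units.mk0 z hz0), ?_⟩
    apply Subtype.ext
    apply Additive.toMul.injective
    apply Units.ext
    exact hz

/-- `(Lˣ)^{galKer} ≃ L'ˣ`. -/
noncomputable def invariantsEquivUnits :
    Representation.invariants
      ((Rep.ofAlgebraAutOnUnits K L).ρ.comp (galKer K L' L).subtype) ≃ₗ[ℤ] Additive L'ˣ :=
  (LinearEquiv.ofBijective (unitsToInvariants K L' L) (unitsToInvariants_bijective K L' L)).symm

theorem invariantsEquivUnits_symm_apply (x : Additive L'ˣ) :
    (invariantsEquivUnits K L' L).symm x = unitsToInvariants K L' L x := rfl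

theorem invariantsEquivUnits_unitsToInvariants (x : Additive L'ˣ) :
    invariantsEquivUnits K L' L (unitsToInvariants K L' L x) = x :=
  (LinearEquiv.ofBijective (unitsToInvariants K L' L)
    (unitsToInvariants_bijective K L' L)).symm_apply_apply x

theorem quotientToInvariants_unitsToInvariants (σ : L ≃ₐ[K] L) (x : Additive L'ˣ) :
    ((Rep.ofAlgebraAutOnUnits K L).ρ.quotientToInvariants (galKer K L' L))
      (QuotientGroup.mk σ) (unitsToInvariants K L' L x) =
    unitsToInvariants K L' L ((Rep.ofAlgebraAutOnUnits K L').ρ (galRes K L' K L σ) x) := by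
  apply Subtype.ext
  apply Additive.toMul.injective
  apply Units.ext
  exact (galRes_commutes (K₁ := K) (L₁ := L') (K₂ := K) (L₂ := L) σ
    ((Additive.toMul x : L'ˣ) : L')).symm

/-- **Quotient transport**: `H^n(Gal(L/K)/galKer, (Lˣ)^galKer) ≅ H^n(Gal(L'/K), L'ˣ)`. -/
noncomputable def galQuotIso (n : ℕ) :
    groupCohomology ((Rep.ofAlgebraAutOnUnits K L).quotientToInvariants (galKer K L' L)) n ≅
      groupCohomology (Rep.ofAlgebraAutOnUnits K L') n :=
  groupCohomology.mapIso (galQuotEquiv K L' L) (invariantsEquivUnits K L' L)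
    (fun g => by
      obtain ⟨σ, rfl⟩ := QuotientGroup.mk_surjective g
      refine LinearMap.ext fun y => ?_
      obtain ⟨x, rfl⟩ := (unitsToInvariants_bijective K L' L).2 y
      refine (congrArg (invariantsEquivUnits K L' L)
        (quotientToInvariants_unitsToInvariants K L' L σ x)).trans ?_
      refine (invariantsEquivUnits_unitsToInvariants K L' L _).trans ?_
      exact congrArg ((Rep.ofAlgebraAutOnUnits K L').ρ (galRes K L' K L σ))
        (invariantsEquivUnits_unitsToInvariants K L' L x).symm) n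

/-- The quotient transport identifies inflation from `Gal(L/K) ⧸ galKer` with `galInfl`. -/
theorem galQuotIso_inv_comp_inf (n : ℕ) :
    (galQuotIso K L' L n).inv ≫
      groupCohomology.map (QuotientGroup.mk' (galKer K L' L))
        (ofHom <| (Rep.ofAlgebraAutOnUnits K L).ρ.quotientToInvariants_lift (galKer K L' L)) n =
      galInfl K L' L n := by
  rw [galQuotIso, groupCohomology.mapIso_inv, ← groupCohomology.map_comp]
  change _ = groupCohomology.map (galRes K L' K L) (galUnitsHom K L' K L) n
  refine groupCohomology.map_congr ?_ ?_ n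
  · rfl
  · refine LinearMap.ext fun x => ?_
    rfl


/-- `Gal(L/K) ⧸ N ≃* Gal(L'/K)` when `N` is the kernel of the restriction. -/
noncomputable def galQuotEquivOfEq (N : Subgroup (L ≃ₐ[K] L)) [N.Normal]
    (hN : N = galKer K L' L) : (L ≃ₐ[K] L) ⧸ N ≃* (L' ≃ₐ[K] L') :=
  (QuotientGroup.quotientMulEquivOfEq hN).trans (galQuotEquiv K L' L)

omit [FiniteDimensional K L] in
theorem galQuotEquivOfEq_mk (N : Subgroup (L ≃ₐ[K] L)) [N.Normal]
    (hN : N = galKer K L' L) (σ : L ≃ₐ[K] L) :
    galQuotEquivOfEq K L' L N hN (QuotientGroup.mk σ) = galRes K L' K L σ := rfl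

omit [IsGalois K L] [FiniteDimensional K L] in
theorem invariants_eq_of_eq (N : Subgroup (L ≃ₐ[K] L)) (hN : N = galKer K L' L) :
    Representation.invariants ((Rep.ofAlgebraAutOnUnits K L).ρ.comp N.subtype) =
      Representation.invariants
        ((Rep.ofAlgebraAutOnUnits K L).ρ.comp (galKer K L' L).subtype) := by
  subst hN
  rfl

/-- `(Lˣ)^N ≃ L'ˣ` when `N` is the kernel of the restriction. -/
noncomputable def invariantsEquivUnitsOfEq (N : Subgroup (L ≃ₐ[K] L))
    (hN : N = galKer K L' L) :
    Representation.invariants ((Rep.ofAlgebraAutOnUnits K L).ρ.comp N.subtype) ≃ₗ[ℤ]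
      Additive L'ˣ :=
  (LinearEquiv.ofEq _ _ (invariants_eq_of_eq K L' L N hN)).trans (invariantsEquivUnits K L' L)

/-- `invariantsEquivUnitsOfEq` is inverse to the inclusion `L'ˣ → Lˣ`. -/
theorem coe_invariantsEquivUnitsOfEq_symm (N : Subgroup (L ≃ₐ[K] L))
    (hN : N = galKer K L' L) (x : Additive L'ˣ) :
    (((invariantsEquivUnitsOfEq K L' L N hN).symm x).1 : Additive Lˣ) =
      Additive.ofMul (Units.map (algebraMap L' L : L' →* L) (Additive.toMul x)) := rfl

/-- **GM4b, Rep level**: `(Lˣ)^N` as a `Gal(L/K) ⧸ N`-rep is `L'ˣ` as a `Gal(L'/K)`-rep. -/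
noncomputable def galQuotRepIsoOfEq (N : Subgroup (L ≃ₐ[K] L)) [N.Normal]
    (hN : N = galKer K L' L) :
    (Rep.ofAlgebraAutOnUnits K L).quotientToInvariants N ≅
      res (galQuotEquivOfEq K L' L N hN).toMonoidHom (Rep.ofAlgebraAutOnUnits K L') :=
  Rep.mkIso (Representation.Equiv.mk (invariantsEquivUnitsOfEq K L' L N hN) (fun g => by
    subst hN
    obtain ⟨σ, rfl⟩ := QuotientGroup.mk_surjective g
    refine LinearMap.ext fun y => ?_
    obtain ⟨x, rfl⟩ := (unitsToInvariants_bijective K L' L).2 y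
    refine (congrArg (invariantsEquivUnits K L' L)
      (quotientToInvariants_unitsToInvariants K L' L σ x)).trans ?_
    refine (invariantsEquivUnits_unitsToInvariants K L' L _).trans ?_
    exact congrArg ((Rep.ofAlgebraAutOnUnits K L').ρ (galRes K L' K L σ))
      (invariantsEquivUnits_unitsToInvariants K L' L x).symm))

/-- Transport of the quotient iso along an equality of subgroups. -/
noncomputable def galQuotIsoOfEq (N : Subgroup (L ≃ₐ[K] L)) [N.Normal]
    (hN : N = galKer K L' L) (n : ℕ) :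
    groupCohomology ((Rep.ofAlgebraAutOnUnits K L).quotientToInvariants N) n ≅
      groupCohomology (Rep.ofAlgebraAutOnUnits K L') n :=
  cohIsoOfRepIso _ _ (galQuotEquivOfEq K L' L N hN) (galQuotRepIsoOfEq K L' L N hN) n

theorem galQuotIsoOfEq_inv_comp_inf (N : Subgroup (L ≃ₐ[K] L)) [N.Normal]
    (hN : N = galKer K L' L) (n : ℕ) :
    (galQuotIsoOfEq K L' L N hN n).inv ≫
      groupCohomology.map (QuotientGroup.mk' N)
        (ofHom <| (Rep.ofAlgebraAutOnUnits K L).ρ.quotientToInvariants_lift N) n =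
      galInfl K L' L n := by
  rw [galQuotIsoOfEq, cohIsoOfRepIso, groupCohomology.mapIso_inv, ← groupCohomology.map_comp]
  change _ = groupCohomology.map (galRes K L' K L) (galUnitsHom K L' K L) n
  refine groupCohomology.map_congr ?_ ?_ n
  · rfl
  · refine LinearMap.ext fun x => ?_
    rfl

end QuotTransport



section FixedField

open IntermediateField

variable (K L : Type) [Field K] [Field L] [Algebra K L] [IsGalois K L] [FiniteDimensional K L]

theorem galSub_fixedField (H : Subgroup (L ≃ₐ[K] L)) : galSub K (fixedField H) L = H := by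
  ext σ
  rw [mem_galSub_iff]
  conv_rhs => rw [← fixingSubgroup_fixedField H]
  rw [IntermediateField.mem_fixingSubgroup_iff]
  exact ⟨fun h x hx => h ⟨x, hx⟩, fun h x => h x.1 x.2⟩

/-- **GM4, subgroup transport**: `H^n(H, Lˣ) ≅ H^n(Gal(L/L^H), Lˣ)` for a subgroup
`H ≤ Gal(L/K)`. -/
noncomputable def galFixedIso (H : Subgroup (L ≃ₐ[K] L)) (n : ℕ) :
    groupCohomology (res H.subtype (Rep.ofAlgebraAutOnUnits K L)) n ≅
      groupCohomology (Rep.ofAlgebraAutOnUnits (fixedField H) L) n :=
  galSubIsoOfEq K (fixedField H) L H (galSub_fixedField K L H).symm n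

/-- The subgroup transport identifies restriction to `H` with `galRest`. -/
theorem res_comp_galFixedIso_hom (H : Subgroup (L ≃ₐ[K] L)) (n : ℕ) :
    groupCohomology.map H.subtype (𝟙 _) n ≫ (galFixedIso K L H n).hom =
      galRest K (fixedField H) L n :=
  res_comp_galSubIsoOfEq_hom K (fixedField H) L H (galSub_fixedField K L H).symm n

/-- Linear-equivalence form of `galFixedIso`. -/
noncomputable def galFixedLinearEquiv (H : Subgroup (L ≃ₐ[K] L)) (n : ℕ) :
    groupCohomology (res H.subtype (Rep.ofAlgebraAutOnUnits K L)) n ≃ₗ[ℤ]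
      groupCohomology (Rep.ofAlgebraAutOnUnits (fixedField H) L) n :=
  (galFixedIso K L H n).toLinearEquiv

theorem galKer_fixedField (N : Subgroup (L ≃ₐ[K] L)) [N.Normal] :
    galKer K (fixedField N) L = N := by
  rw [galKer_eq_galSub, galSub_fixedField]


/-- **GM4, quotient transport**: `H^n(Gal(L/K) ⧸ N, (Lˣ)^N) ≅ H^n(Gal(L^N/K), (L^N)ˣ)` for a
normal subgroup `N` of `Gal(L/K)`. -/
noncomputable def galFixedQuotIso (N : Subgroup (L ≃ₐ[K] L)) [N.Normal] (n : ℕ) :
    groupCohomology ((Rep.ofAlgebraAutOnUnits K L).quotientToInvariants N) n ≅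
      groupCohomology (Rep.ofAlgebraAutOnUnits K (fixedField N)) n :=
  galQuotIsoOfEq K (fixedField N) L N (galKer_fixedField K L N).symm n

/-- The quotient transport identifies inflation from `Gal(L/K) ⧸ N` with `galInfl`. -/
theorem galFixedQuotIso_inv_comp_inf (N : Subgroup (L ≃ₐ[K] L)) [N.Normal] (n : ℕ) :
    (galFixedQuotIso K L N n).inv ≫
      groupCohomology.map (QuotientGroup.mk' N)
        (ofHom <| (Rep.ofAlgebraAutOnUnits K L).ρ.quotientToInvariants_lift N) n =
      galInfl K (fixedField N) L n :=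
  galQuotIsoOfEq_inv_comp_inf K (fixedField N) L N (galKer_fixedField K L N).symm n

/-- Linear-equivalence form of `galFixedQuotIso`. -/
noncomputable def galFixedQuotLinearEquiv (N : Subgroup (L ≃ₐ[K] L)) [N.Normal] (n : ℕ) :
    groupCohomology ((Rep.ofAlgebraAutOnUnits K L).quotientToInvariants N) n ≃ₗ[ℤ]
      groupCohomology (Rep.ofAlgebraAutOnUnits K (fixedField N)) n :=
  (galFixedQuotIso K L N n).toLinearEquiv

end FixedField

section RepLevelFixed

open IntermediateField

variable (K L : Type) [Field K] [Field L] [Algebra K L] [IsGalois K L] [FiniteDimensional K L]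

/-- `H ≃* Gal(L/L^H)` for a subgroup `H ≤ Gal(L/K)`. -/
noncomputable def galFixedEquiv (H : Subgroup (L ≃ₐ[K] L)) : H ≃* (L ≃ₐ[fixedField H] L) :=
  (MulEquiv.subgroupCongr (galSub_fixedField K L H).symm).trans
    (galSubEquiv K (fixedField H) L).symm

theorem galFixedEquiv_apply (H : Subgroup (L ≃ₐ[K] L)) (g : H) (x : L) :
    galFixedEquiv K L H g x = (g : L ≃ₐ[K] L) x :=
  galSubEquiv_symm_apply K (fixedField H) L _ x

/-- **GM4a, Rep level**: `res_H (Lˣ as Gal(L/K)-rep) ≅ res_{e_H} (Lˣ as Gal(L/L^H)-rep)`, the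
identity on the underlying `Additive Lˣ`. -/
noncomputable def galFixedRepIso (H : Subgroup (L ≃ₐ[K] L)) :
    res H.subtype (Rep.ofAlgebraAutOnUnits K L) ≅
      res (galFixedEquiv K L H).toMonoidHom (Rep.ofAlgebraAutOnUnits (fixedField H) L) :=
  Rep.mkIso (Representation.Equiv.mk (LinearEquiv.refl ℤ (Additive Lˣ)) (fun g => by
    refine LinearMap.ext fun x => ?_
    apply Additive.toMul.injective
    apply Units.ext
    exact (galFixedEquiv_apply K L H g _).symm))

theorem galFixedRepIso_hom_apply (H : Subgroup (L ≃ₐ[K] L)) (x : Additive Lˣ) :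
    (galFixedRepIso K L H).hom.hom x = x := rfl

theorem galFixedRepIso_inv_apply (H : Subgroup (L ≃ₐ[K] L)) (x : Additive Lˣ) :
    (galFixedRepIso K L H).inv.hom x = x := rfl

/-- `galFixedIso` is the cohomology iso induced by `(galFixedEquiv, galFixedRepIso)`. -/
theorem galFixedIso_eq (H : Subgroup (L ≃ₐ[K] L)) (n : ℕ) :
    galFixedIso K L H n = cohIsoOfRepIso _ _ (galFixedEquiv K L H) (galFixedRepIso K L H) n := by
  apply Iso.ext
  rfl

/-- **GM4a** (consumer name): `H^n(H, Lˣ) ≃ₗ[ℤ] H^n(Gal(L/L^H), Lˣ)`. -/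
noncomputable abbrev resFixedEquiv (H : Subgroup (L ≃ₐ[K] L)) (n : ℕ) :
    groupCohomology (res H.subtype (Rep.ofAlgebraAutOnUnits K L)) n ≃ₗ[ℤ]
      groupCohomology (Rep.ofAlgebraAutOnUnits (fixedField H) L) n :=
  galFixedLinearEquiv K L H n

theorem resFixedEquiv_res_apply (H : Subgroup (L ≃ₐ[K] L)) (n : ℕ)
    (x : groupCohomology (Rep.ofAlgebraAutOnUnits K L) n) :
    resFixedEquiv K L H n ((groupCohomology.map H.subtype (𝟙 _) n).hom x) =
      (galRest K (fixedField H) L n).hom x := by
  rw [← res_comp_galFixedIso_hom K L H n]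
  rfl

theorem natCard_res_eq (H : Subgroup (L ≃ₐ[K] L)) (n : ℕ) :
    Nat.card (groupCohomology (res H.subtype (Rep.ofAlgebraAutOnUnits K L)) n) =
      Nat.card (groupCohomology (Rep.ofAlgebraAutOnUnits (fixedField H) L) n) :=
  Nat.card_congr (resFixedEquiv K L H n).toEquiv

theorem finite_res_iff (H : Subgroup (L ≃ₐ[K] L)) (n : ℕ) :
    Finite (groupCohomology (res H.subtype (Rep.ofAlgebraAutOnUnits K L)) n) ↔
      Finite (groupCohomology (Rep.ofAlgebraAutOnUnits (fixedField H) L) n) :=
  (galFixedLinearEquiv K L H n).toEquiv.finite_iff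

/-- `Gal(L/K) ⧸ N ≃* Gal(L^N/K)` for a normal subgroup `N` of `Gal(L/K)`. -/
noncomputable def galFixedQuotEquiv (N : Subgroup (L ≃ₐ[K] L)) [N.Normal] :
    (L ≃ₐ[K] L) ⧸ N ≃* (fixedField N ≃ₐ[K] fixedField N) :=
  galQuotEquivOfEq K (fixedField N) L N (galKer_fixedField K L N).symm

theorem galFixedQuotEquiv_mk (N : Subgroup (L ≃ₐ[K] L)) [N.Normal] (σ : L ≃ₐ[K] L) :
    galFixedQuotEquiv K L N (QuotientGroup.mk σ) = galRes K (fixedField N) K L σ := rfl

/-- **GM4b, Rep level, fixed-field form**: `(Lˣ)^N ≅ res_{e_N} ((L^N)ˣ)`. -/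
noncomputable def galFixedQuotRepIso (N : Subgroup (L ≃ₐ[K] L)) [N.Normal] :
    (Rep.ofAlgebraAutOnUnits K L).quotientToInvariants N ≅
      res (galFixedQuotEquiv K L N).toMonoidHom (Rep.ofAlgebraAutOnUnits K (fixedField N)) :=
  galQuotRepIsoOfEq K (fixedField N) L N (galKer_fixedField K L N).symm

/-- `galFixedQuotIso` is the cohomology iso induced by `(galFixedQuotEquiv, galFixedQuotRepIso)`. -/
theorem galFixedQuotIso_eq (N : Subgroup (L ≃ₐ[K] L)) [N.Normal] (n : ℕ) :
    galFixedQuotIso K L N n =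
      cohIsoOfRepIso _ _ (galFixedQuotEquiv K L N) (galFixedQuotRepIso K L N) n := rfl

theorem natCard_quotientToInvariants_eq (N : Subgroup (L ≃ₐ[K] L)) [N.Normal] (n : ℕ) :
    Nat.card (groupCohomology ((Rep.ofAlgebraAutOnUnits K L).quotientToInvariants N) n) =
      Nat.card (groupCohomology (Rep.ofAlgebraAutOnUnits K (fixedField N)) n) :=
  Nat.card_congr (galFixedQuotLinearEquiv K L N n).toEquiv

theorem finite_quotientToInvariants_iff (N : Subgroup (L ≃ₐ[K] L)) [N.Normal] (n : ℕ) :
    Finite (groupCohomology ((Rep.ofAlgebraAutOnUnits K L).quotientToInvariants N) n) ↔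
      Finite (groupCohomology (Rep.ofAlgebraAutOnUnits K (fixedField N)) n) :=
  (galFixedQuotLinearEquiv K L N n).toEquiv.finite_iff

end RepLevelFixed

end Fermat.Agent.CFT
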