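/-
S55 / B4b (GM3): **inflation-restriction in degree two for `Lˣ`**.
For `K ⊆ L' ⊆ L` with `L/K` finite Galois and `L'/K` normal:
`0 → H²(Gal(L'/K), L'ˣ) → H²(Gal(L/K), Lˣ) → H²(Gal(L/L'), Lˣ)` is exact
(`galInfl_two_injective`, `exists_galInfl_eq_of_galRest_eq_zero`, `galInfl_comp_galRest_succ`),
from helper20's `H2InfRes` + Hilbert 90 for `L/L'` + the transports of `GalMapTransport.lean`.
-/
import Mathlib
import Fermat.Agent.CFT.GalMapTransport
import Fermat.Agent.CFT.Tate.InfResHigher

open CategoryTheory groupCohomology Rep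

namespace Fermat.Agent.CFT

section InfRes

variable (K L' L : Type) [Field K] [Field L'] [Field L] [Algebra K L'] [Algebra K L] [Algebra L' L]
  [IsScalarTower K L' L] [Normal K L'] [IsGalois K L] [FiniteDimensional K L]

/-- Hilbert 90 for `L/L'`, transported to a subgroup of `Gal(L/K)`. -/
theorem isZero_H1_res_of_eq_galSub (S : Subgroup (L ≃ₐ[K] L)) (hS : S = galSub K L' L) :
    Limits.IsZero (groupCohomology (res S.subtype (Rep.ofAlgebraAutOnUnits K L)) 1) := by
  subst hS
  have : FiniteDimensional L' L := FiniteDimensional.right K L' L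
  have h0 : Limits.IsZero (groupCohomology (Rep.ofAlgebraAutOnUnits L' L) 1) := by
    have : Subsingleton (groupCohomology (Rep.ofAlgebraAutOnUnits L' L) 1) :=
      (groupCohomology.H1ofAutOnUnitsUnique L' L).instSubsingleton
    exact ModuleCat.isZero_of_subsingleton _
  exact h0.of_iso (galSubIso K L' L 1)

theorem res_eq_zero_of_galRest_eq_zero (S : Subgroup (L ≃ₐ[K] L)) (hS : S = galSub K L' L)
    (n : ℕ) (x : groupCohomology (Rep.ofAlgebraAutOnUnits K L) n)
    (hx : (galRest K L' L n).hom x = 0) :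
    (groupCohomology.map S.subtype (𝟙 (res S.subtype (Rep.ofAlgebraAutOnUnits K L))) n).hom x =
      0 := by
  subst hS
  rw [← res_comp_galSubIso_hom, ModuleCat.comp_apply] at hx
  have hinj : Function.Injective (galSubIso K L' L n).hom.hom :=
    (ConcreteCategory.bijective_of_isIso (galSubIso K L' L n).hom).1
  apply hinj
  rw [hx, map_zero]

theorem isZero_H1_res_galKer :
    Limits.IsZero (groupCohomology (res (galKer K L' L).subtype
      (Rep.ofAlgebraAutOnUnits K L)) 1) :=
  isZero_H1_res_of_eq_galSub K L' L _ (galKer_eq_galSub K L' L)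

/-- **GM3 (a)**: inflation `H²(Gal(L'/K), L'ˣ) → H²(Gal(L/K), Lˣ)` is injective. -/
theorem galInfl_two_injective : Function.Injective (galInfl K L' L 2).hom := by
  have h := H2Inf_injective (Rep.ofAlgebraAutOnUnits K L) (galKer K L' L)
    (isZero_H1_res_galKer K L' L)
  have hc := galQuotIso_inv_comp_inf K L' L 2
  have hbij : Function.Bijective (galQuotIso K L' L 2).inv.hom :=
    ConcreteCategory.bijective_of_isIso (galQuotIso K L' L 2).inv
  rw [← hc]
  intro a b hab
  rw [ModuleCat.comp_apply, ModuleCat.comp_apply] at hab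
  exact hbij.1 (h hab)

/-- **GM3 (a)**, consumer name. -/
theorem galInfl_injective : Function.Injective (galInfl K L' L 2).hom :=
  galInfl_two_injective K L' L

/-- **GM3 (b)**: a class in `H²(Gal(L/K), Lˣ)` which restricts to zero in `H²(Gal(L/L'), Lˣ)` is
inflated from `H²(Gal(L'/K), L'ˣ)`. -/
theorem exists_galInfl_eq_of_galRest_eq_zero
    (x : groupCohomology (Rep.ofAlgebraAutOnUnits K L) 2)
    (hx : (galRest K L' L 2).hom x = 0) :
    ∃ y : groupCohomology (Rep.ofAlgebraAutOnUnits K L') 2, (galInfl K L' L 2).hom y = x := by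
  have hres := res_eq_zero_of_galRest_eq_zero K L' L (galKer K L' L) (galKer_eq_galSub K L' L) 2 x hx
  obtain ⟨y', hy'⟩ := H2_exists_inf_of_res_eq_zero (Rep.ofAlgebraAutOnUnits K L) (galKer K L' L)
    (isZero_H1_res_galKer K L' L) x hres
  refine ⟨(galQuotIso K L' L 2).hom.hom y', ?_⟩
  rw [← galQuotIso_inv_comp_inf K L' L 2, ModuleCat.comp_apply]
  have : (galQuotIso K L' L 2).inv.hom ((galQuotIso K L' L 2).hom.hom y') = y' := by
    rw [← ModuleCat.comp_apply, Iso.hom_inv_id]
    rfl
  rw [this]
  exact hy'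

/-- The inflation-restriction sequence for `Lˣ` in degree two is a complex. -/
theorem galInfl_comp_galRest_succ (n : ℕ) :
    galInfl K L' L (n + 1) ≫ galRest K L' L (n + 1) = 0 := by
  rw [galMap_comp K L' K L L' L (n + 1)]
  have h1 : galRes K L' L' L = 1 := by
    ext σ : 1
    rw [galRes_eq_iff]
    intro x
    exact (σ.commutes x).symm
  change groupCohomology.map (galRes K L' L' L) (galUnitsHom K L' L' L) (n + 1) = 0
  rw [groupCohomology.congr h1 (fun f φ => groupCohomology.map f φ (n + 1)), map_one_succ]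

end InfRes

end Fermat.Agent.CFT
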