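import Mathlib

/-!
# Finite layers of an (infinite) Galois extension

For a normal extension `Ω/k` and intermediate fields `E ≤ E'` with `E'/E` normal, the group
`Gal(E'/E)` (where `E'` is regarded as an intermediate field of `Ω/E` via
`IntermediateField.extendScalars`) is the quotient of `E.fixingSubgroup ≤ Gal(Ω/k)` by the
subgroup fixing `E'`.  This identifies the finite quotients of open subgroups of a level group of
Galois type with honest finite Galois groups, compatibly with the action on `E'`.
-/

set_option autoImplicit false
set_option linter.unusedSectionVars false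
set_option linter.style.haveILetI false

namespace Fermat.Agent.CFT.GaloisTower

open IntermediateField

variable {k Ω : Type*} [Field k] [Field Ω] [Algebra k Ω] [Normal k Ω]
variable {E E' : IntermediateField k Ω} (h : E ≤ E')

/-- The layer `E'/E` as an intermediate field of `Ω/E`. -/
abbrev layer : IntermediateField E Ω := extendScalars h

/-- Restriction `E.fixingSubgroup → Gal(E'/E)` for a normal layer `E'/E`. -/
noncomputable def layerRes [Normal E (layer h)] :
    E.fixingSubgroup →* ((layer h) ≃ₐ[E] (layer h)) :=
  (AlgEquiv.restrictNormalHom (layer h)).comp (fixingSubgroupEquiv E).toMonoidHom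

theorem layerRes_apply [Normal E (layer h)] (σ : E.fixingSubgroup) (x : layer h) :
    ((layerRes h σ x : layer h) : Ω) = (σ : Ω ≃ₐ[k] Ω) (x : Ω) :=
  AlgEquiv.restrictNormal_commutes _ (layer h) x

theorem layerRes_surjective [Normal E (layer h)] : Function.Surjective (layerRes h) := by
  haveI : Normal E Ω := Normal.tower_top_of_normal k E Ω
  intro γ
  obtain ⟨τ, hτ⟩ := AlgEquiv.restrictNormalHom_surjective (F := E) (K₁ := layer h) Ω γ
  exact ⟨(fixingSubgroupEquiv E).symm τ, by
    simp only [layerRes, MonoidHom.comp_apply, MulEquiv.coe_toMonoidHom,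
      MulEquiv.apply_symm_apply, hτ]⟩

theorem mem_ker_layerRes_iff [Normal E (layer h)] (σ : E.fixingSubgroup) :
    σ ∈ (layerRes h).ker ↔ (σ : Ω ≃ₐ[k] Ω) ∈ E'.fixingSubgroup := by
  rw [MonoidHom.mem_ker, IntermediateField.mem_fixingSubgroup_iff]
  constructor
  · intro hσ x hx
    have := layerRes_apply h σ ⟨x, hx⟩
    rw [hσ] at this
    exact this.symm
  · intro hσ
    ext x
    rw [layerRes_apply]
    exact hσ x x.2

theorem ker_layerRes [Normal E (layer h)] :
    (layerRes h).ker = E'.fixingSubgroup.subgroupOf E.fixingSubgroup := by
  ext σ
  rw [mem_ker_layerRes_iff, Subgroup.mem_subgroupOf]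

/-- `Gal(E'/E) = Gal(Ω/E) / Gal(Ω/E')`, inside `Gal(Ω/k)`. -/
noncomputable def layerEquiv [Normal E (layer h)] :
    (E.fixingSubgroup ⧸ (layerRes h).ker) ≃* ((layer h) ≃ₐ[E] (layer h)) :=
  QuotientGroup.quotientKerEquivOfSurjective (layerRes h) (layerRes_surjective h)

theorem layerEquiv_mk [Normal E (layer h)] (σ : E.fixingSubgroup) :
    layerEquiv h (QuotientGroup.mk σ) = layerRes h σ := rfl

/-- The layer is finite-dimensional if `E'` is finite over `k`. -/
theorem finiteDimensional_layer [FiniteDimensional k E'] : FiniteDimensional E (layer h) := by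
  haveI : FiniteDimensional k (layer h) := ‹FiniteDimensional k E'›
  exact FiniteDimensional.right k E (layer h)

/-- The layer `E'/E` is normal as soon as `E'/k` is. -/
theorem normal_layer [Normal k E'] : Normal E (layer h) := by
  haveI : Normal k (layer h) := ‹Normal k E'›
  exact Normal.tower_top_of_normal k E (layer h)

section Integral

variable {A K L : Type*} [CommRing A] [Field K] [Field L] [Algebra A K] [Algebra K L]
  [Algebra A L] [IsScalarTower A K L]

/-- Integrality over the integral closure of `A` in `K` is integrality over `A`. -/
theorem isIntegral_integralClosure_iff (x : L) :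
    IsIntegral (integralClosure A K) x ↔ IsIntegral A x := by
  haveI : IsScalarTower A (integralClosure A K) L :=
    IsScalarTower.of_algebraMap_eq fun a => by
      rw [IsScalarTower.algebraMap_apply A K L]
      rfl
  constructor
  · intro hx
    exact isIntegral_trans x hx
  · intro hx
    exact hx.tower_top

end Integral

end Fermat.Agent.CFT.GaloisTower
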