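import Mathlib
import Fermat.Agent.CFT.GaloisTower

/-!
# Galois towers: open subgroups, fixed points and the module `Ωˣ`

For a Galois extension `Ω/k` (possibly infinite):

* `forall_fixingSubgroup_apply_eq_iff`: the elements of `Ω` fixed by `Gal(Ω/E)` are those of `E`;
* `exists_fixingSubgroup_eq_of_le`: a subgroup containing `Gal(Ω/E')`, `E'/k` finite, is
  `Gal(Ω/E)` for a subfield `E ≤ E'` (open subgroups = finite subextensions);
* `exists_finiteDimensional_forall_apply_eq`: every element is fixed by some `Gal(Ω/E)`, `E/k`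
  finite (smoothness of `Ω` and `Ωˣ`);
* `unitsInvariantsIso`: for `E ≤ E'` with `E'/E` normal, the `Gal(Ω/E)/Gal(Ω/E')`-module
  `(Ωˣ)^{Gal(Ω/E')}` (Mathlib's `Rep.quotientToInvariants`) is the `Gal(E'/E)`-module `E'ˣ`
  (Mathlib's `Rep.ofAlgebraAutOnUnits`), along `GaloisTower.layerEquiv`.
-/

set_option autoImplicit false
set_option linter.unusedSectionVars false
set_option linter.style.haveILetI false

namespace Fermat.Agent.CFT.GaloisTower

open IntermediateField

variable {k Ω : Type} [Field k] [Field Ω] [Algebra k Ω] [IsGalois k Ω]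

theorem forall_fixingSubgroup_apply_eq_iff (E : IntermediateField k Ω) (x : Ω) :
    (∀ σ ∈ E.fixingSubgroup, σ x = x) ↔ x ∈ E := by
  conv_rhs => rw [← InfiniteGalois.fixedField_fixingSubgroup E]
  rw [IntermediateField.mem_fixedField_iff]


/-- Every subgroup containing the fixing subgroup of a finite subextension `E'` is itself the
fixing subgroup of a subfield of `E'`: open subgroups of `Gal(Ω/k)` are the `Gal(Ω/E)`, `E/k`
finite. -/
theorem exists_fixingSubgroup_eq_of_le (U : Subgroup (Ω ≃ₐ[k] Ω)) {E' : IntermediateField k Ω}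
    [FiniteDimensional k E'] (hU : E'.fixingSubgroup ≤ U) :
    ∃ E : IntermediateField k Ω, E ≤ E' ∧ E.fixingSubgroup = U := by
  have hopen : IsOpen (U : Set (Ω ≃ₐ[k] Ω)) :=
    Subgroup.isOpen_mono hU (IntermediateField.fixingSubgroup_isOpen E')
  have hclosed : IsClosed (U : Set (Ω ≃ₐ[k] Ω)) := Subgroup.isClosed_of_isOpen U hopen
  refine ⟨IntermediateField.fixedField U, ?_, ?_⟩
  · intro x hx
    rw [← forall_fixingSubgroup_apply_eq_iff E' x]
    intro σ hσ
    exact (IntermediateField.mem_fixedField_iff U x).1 hx σ (hU hσ)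
  · exact InfiniteGalois.fixingSubgroup_fixedField ⟨U, hclosed⟩

/-- Smoothness: every element of `Ω` is fixed by `Gal(Ω/E)` for some finite `E/k`. -/
theorem exists_finiteDimensional_forall_apply_eq (x : Ω) :
    ∃ E : IntermediateField k Ω, FiniteDimensional k E ∧ ∀ σ ∈ E.fixingSubgroup, σ x = x := by
  have hx : IsIntegral k x := Algebra.IsIntegral.isIntegral x
  refine ⟨k⟮x⟯, IntermediateField.adjoin.finiteDimensional hx, fun σ hσ => ?_⟩
  exact (IntermediateField.mem_fixingSubgroup_iff _ σ).1 hσ x
    (IntermediateField.mem_adjoin_simple_self k x)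

variable {E E' : IntermediateField k Ω} (h : E ≤ E')

/-- The `Gal(Ω/E)`-module `Ωˣ`. -/
noncomputable abbrev unitsRep (E : IntermediateField k Ω) : Rep ℤ E.fixingSubgroup :=
  Rep.res E.fixingSubgroup.subtype (Rep.ofAlgebraAutOnUnits k Ω)

theorem unitsRep_ρ_apply (σ : E.fixingSubgroup) (x : Additive Ωˣ) :
    ((Additive.toMul (((unitsRep E).ρ σ x : Additive Ωˣ)) : Ωˣ) : Ω) =
      (σ : Ω ≃ₐ[k] Ω) ((Additive.toMul x : Ωˣ) : Ω) := by
  rfl

theorem ofAlgebraAutOnUnits_ρ_apply {R S : Type} [CommRing R] [CommRing S] [Algebra R S]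
    (σ : S ≃ₐ[R] S) (x : Additive Sˣ) :
    ((Additive.toMul (((Rep.ofAlgebraAutOnUnits R S).ρ σ x : Additive Sˣ)) : Sˣ) : S) =
      σ ((Additive.toMul x : Sˣ) : S) := by
  rfl

variable [Normal E (layer h)]

/-- invariants of Ωˣ under Gal(Ω/E') (as subgroup of Gal(Ω/E)) -/
theorem mem_invariants_unitsRep_iff (x : Additive Ωˣ) :
    x ∈ Representation.invariants ((unitsRep E).ρ.comp (layerRes h).ker.subtype) ↔
      ((Additive.toMul x : Ωˣ) : Ω) ∈ E' := by
  rw [← forall_fixingSubgroup_apply_eq_iff E']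
  constructor
  · intro hx σ hσ
    have hσE : σ ∈ E.fixingSubgroup := IntermediateField.fixingSubgroup_antitone h hσ
    have hker : (⟨σ, hσE⟩ : E.fixingSubgroup) ∈ (layerRes h).ker :=
      (mem_ker_layerRes_iff h _).2 hσ
    have := hx ⟨⟨σ, hσE⟩, hker⟩
    have h2 := congrArg (fun y : Additive Ωˣ => ((Additive.toMul y : Ωˣ) : Ω)) this
    exact h2
  · intro hx σ
    have hσ : ((σ : E.fixingSubgroup) : Ω ≃ₐ[k] Ω) ∈ E'.fixingSubgroup :=
      (mem_ker_layerRes_iff h _).1 σ.2
    apply Additive.toMul.injective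
    apply Units.ext
    exact hx _ hσ

/-- The `Gal(Ω/E')`-invariants of `Ωˣ` are the units of the layer `E'`. -/
noncomputable def unitsInvariantsEquiv :
    Representation.invariants ((unitsRep E).ρ.comp (layerRes h).ker.subtype) ≃+
      Additive (layer h)ˣ where
  toFun x := Additive.ofMul (Units.mk0
    (⟨((Additive.toMul (x.1 : Additive Ωˣ) : Ωˣ) : Ω), (mem_invariants_unitsRep_iff h _).1 x.2⟩ :
      layer h)
    (fun h0 => (Additive.toMul (x.1 : Additive Ωˣ) : Ωˣ).ne_zero (congrArg Subtype.val h0)))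
  invFun y := ⟨Additive.ofMul (Units.map (algebraMap (layer h) Ω : layer h →* Ω) (Additive.toMul y)),
    (mem_invariants_unitsRep_iff h _).2 ((Additive.toMul y : (layer h)ˣ) : layer h).2⟩
  left_inv x := by
    apply Subtype.ext
    apply Additive.toMul.injective
    apply Units.ext
    rfl
  right_inv y := by
    apply Additive.toMul.injective
    apply Units.ext
    apply Subtype.ext
    rfl
  map_add' x y := by
    apply Additive.toMul.injective
    apply Units.ext
    apply Subtype.ext
    rfl

theorem unitsInvariantsEquiv_coe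
    (x : Representation.invariants ((unitsRep E).ρ.comp (layerRes h).ker.subtype)) :
    (((Additive.toMul (unitsInvariantsEquiv h x) : (layer h)ˣ) : layer h) : Ω) =
      ((Additive.toMul (x.1 : Additive Ωˣ) : Ωˣ) : Ω) := rfl

/-- `(Ωˣ)^{Gal(Ω/E')}` as a module over `Gal(Ω/E)/Gal(Ω/E')` is `E'ˣ` as a module over
`Gal(E'/E)`. -/
noncomputable def unitsInvariantsIso :
    (unitsRep E).quotientToInvariants (layerRes h).ker ≅
      Rep.res (layerEquiv h).toMonoidHom (Rep.ofAlgebraAutOnUnits E (layer h)) :=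
  Rep.mkIso (Representation.Equiv.mk (unitsInvariantsEquiv h).toIntLinearEquiv (by
    intro g
    induction g using QuotientGroup.induction_on with
    | H σ =>
      ext x
      apply Additive.toMul.injective
      apply Units.ext
      apply Subtype.ext
      exact (layerRes_apply h σ (⟨((Additive.toMul (x.1 : Additive Ωˣ) : Ωˣ) : Ω),
        (mem_invariants_unitsRep_iff h _).1 x.2⟩ : layer h)).symm))

theorem unitsInvariantsIso_hom_apply
    (x : Representation.invariants ((unitsRep E).ρ.comp (layerRes h).ker.subtype)) :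
    (unitsInvariantsIso h).hom.hom x = unitsInvariantsEquiv h x := rfl

theorem unitsInvariantsIso_inv_apply (y : Additive (layer h)ˣ) :
    (unitsInvariantsIso h).inv.hom y = (unitsInvariantsEquiv h).symm y := rfl

end Fermat.Agent.CFT.GaloisTower
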