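import Mathlib
import Fermat.Agent.CFT.GaloisTower
import Fermat.Agent.CFT.GalMap

/-!
# Galois functoriality for the layers of a tower

`k ⊆ Ω` fields, `E ≤ E'` intermediate fields: the layer `E'/E` is `GaloisTower.layer h`
(`= IntermediateField.extendScalars h : IntermediateField E Ω`).  For a "square of layers"
`E ≤ E'`, `F ≤ F'`, `E ≤ F`, `E' ≤ F'` with `E'/E` normal we define
`layerMap : Hⁿ(Gal(E'/E), E'ˣ) ⟶ Hⁿ(Gal(F'/F), F'ˣ)` (`galMap` for the inclusion algebra
structures), with functoriality.  Special cases: inflation (`E = F`) and restriction (`E' = F'`).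
-/

set_option autoImplicit false
set_option linter.style.haveILetI false

open CategoryTheory groupCohomology IntermediateField

namespace Fermat.Agent.CFT

open GaloisTower

namespace LayerMaps

variable {k Ω : Type} [Field k] [Field Ω] [Algebra k Ω]

section Instances

variable {E E' F F' : IntermediateField k Ω}

/-- the inclusion `E → F` as an algebra structure -/
@[reducible] noncomputable def algBase (hEF : E ≤ F) : Algebra E F :=
  (IntermediateField.inclusion hEF).toRingHom.toAlgebra

/-- the inclusion of layers `E' → F'` as a ring homomorphism -/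
noncomputable def layerIncl (hEE' : E ≤ E') (hFF' : F ≤ F') (hE'F' : E' ≤ F') :
    layer hEE' →+* layer hFF' where
  toFun x := ⟨(x : Ω), hE'F' x.2⟩
  map_one' := rfl
  map_mul' _ _ := rfl
  map_zero' := rfl
  map_add' _ _ := rfl

@[simp] lemma layerIncl_coe (hEE' : E ≤ E') (hFF' : F ≤ F') (hE'F' : E' ≤ F') (x : layer hEE') :
    ((layerIncl hEE' hFF' hE'F' x : layer hFF') : Ω) = (x : Ω) := rfl

/-- the inclusion of layers as an algebra structure -/
@[reducible] noncomputable def algTop (hEE' : E ≤ E') (hFF' : F ≤ F') (hE'F' : E' ≤ F') :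
    Algebra (layer hEE') (layer hFF') :=
  (layerIncl hEE' hFF' hE'F').toAlgebra

/-- `E → F'` -/
@[reducible] noncomputable def algDiag (hEF : E ≤ F) (hFF' : F ≤ F') : Algebra E (layer hFF') :=
  ((algebraMap F (layer hFF')).comp (IntermediateField.inclusion hEF).toRingHom).toAlgebra

lemma tower_base (hEF : E ≤ F) (hFF' : F ≤ F') :
    letI := algBase hEF
    letI := algDiag hEF hFF'
    IsScalarTower E F (layer hFF') := by
  letI := algBase hEF
  letI := algDiag hEF hFF'
  exact IsScalarTower.of_algebraMap_eq fun _ => rfl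

lemma tower_top (hEE' : E ≤ E') (hFF' : F ≤ F') (hEF : E ≤ F) (hE'F' : E' ≤ F') :
    letI := algTop hEE' hFF' hE'F'
    letI := algDiag hEF hFF'
    IsScalarTower E (layer hEE') (layer hFF') := by
  letI := algTop hEE' hFF' hE'F'
  letI := algDiag hEF hFF'
  exact IsScalarTower.of_algebraMap_eq fun _ => rfl

end Instances

section Map

variable {E E' F F' : IntermediateField k Ω}

/-- **Functoriality for a square of layers.** -/
noncomputable def layerMap (hEE' : E ≤ E') (hFF' : F ≤ F') (hEF : E ≤ F) (hE'F' : E' ≤ F')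
    [Normal E (layer hEE')] (n : ℕ) :
    groupCohomology (Rep.ofAlgebraAutOnUnits E (layer hEE')) n ⟶
      groupCohomology (Rep.ofAlgebraAutOnUnits F (layer hFF')) n :=
  letI := algBase hEF
  letI := algTop hEE' hFF' hE'F'
  letI := algDiag hEF hFF'
  haveI := tower_base hEF hFF'
  haveI := tower_top hEE' hFF' hEF hE'F'
  galMap E (layer hEE') F (layer hFF') n

variable {J J' : IntermediateField k Ω}

lemma tower_top_top (hEE' : E ≤ E') (hFF' : F ≤ F') (hJJ' : J ≤ J') (hE'F' : E' ≤ F')
    (hF'J' : F' ≤ J') :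
    letI := algTop hEE' hFF' hE'F'
    letI := algTop hFF' hJJ' hF'J'
    letI := algTop hEE' hJJ' (hE'F'.trans hF'J')
    IsScalarTower (layer hEE') (layer hFF') (layer hJJ') := by
  letI := algTop hEE' hFF' hE'F'
  letI := algTop hFF' hJJ' hF'J'
  letI := algTop hEE' hJJ' (hE'F'.trans hF'J')
  exact IsScalarTower.of_algebraMap_eq fun _ => rfl

/-- **Functoriality** of `layerMap`. -/
theorem layerMap_comp (hEE' : E ≤ E') (hFF' : F ≤ F') (hJJ' : J ≤ J') (hEF : E ≤ F)
    (hE'F' : E' ≤ F') (hFJ : F ≤ J) (hF'J' : F' ≤ J')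
    [Normal E (layer hEE')] [Normal F (layer hFF')] (n : ℕ) :
    layerMap hEE' hFF' hEF hE'F' n ≫ layerMap hFF' hJJ' hFJ hF'J' n =
      layerMap hEE' hJJ' (hEF.trans hFJ) (hE'F'.trans hF'J') n := by
  letI := algBase hEF
  letI := algTop hEE' hFF' hE'F'
  letI := algDiag hEF hFF'
  haveI := tower_base hEF hFF'
  haveI := tower_top hEE' hFF' hEF hE'F'
  letI := algBase hFJ
  letI := algTop hFF' hJJ' hF'J'
  letI := algDiag hFJ hJJ'
  haveI := tower_base hFJ hJJ'
  haveI := tower_top hFF' hJJ' hFJ hF'J'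
  letI := algBase (hEF.trans hFJ)
  letI := algTop hEE' hJJ' (hE'F'.trans hF'J')
  letI := algDiag (hEF.trans hFJ) hJJ'
  haveI := tower_base (hEF.trans hFJ) hJJ'
  haveI := tower_top hEE' hJJ' (hEF.trans hFJ) (hE'F'.trans hF'J')
  haveI := tower_top_top hEE' hFF' hJJ' hE'F' hF'J'
  exact galMap_comp E (layer hEE') F (layer hFF') J (layer hJJ') n

/-- Inflation between layers over the same base. -/
noncomputable abbrev layerInfl (hEE' : E ≤ E') (hE'F' : E' ≤ F') [Normal E (layer hEE')] (n : ℕ) :
    groupCohomology (Rep.ofAlgebraAutOnUnits E (layer hEE')) n ⟶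
      groupCohomology (Rep.ofAlgebraAutOnUnits E (layer (hEE'.trans hE'F'))) n :=
  layerMap hEE' (hEE'.trans hE'F') le_rfl hE'F' n

/-- Restriction: same top field, bigger base. -/
noncomputable abbrev layerRest (hEF : E ≤ F) (hFF' : F ≤ F') [Normal E (layer (hEF.trans hFF'))]
    (n : ℕ) :
    groupCohomology (Rep.ofAlgebraAutOnUnits E (layer (hEF.trans hFF'))) n ⟶
      groupCohomology (Rep.ofAlgebraAutOnUnits F (layer hFF')) n :=
  layerMap (hEF.trans hFF') hFF' hEF le_rfl n

end Map

end LayerMaps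

end Fermat.Agent.CFT
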