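import Fermat.Agent.CFT.LayerMaps
import Fermat.Agent.CFT.Local.LayerInv

/-!
# Transport of layers along an automorphism of the ambient field

For `γ : Ω ≃ₐ[k] Ω` and a layer `E ≤ E'` of `Ω/k`, the automorphism `γ` maps the layer `E'/E`
isomorphically onto the layer `γE'/γE`; `layerConj γ h n` is the induced map
`Hⁿ(Gal(E'/E), E'ˣ) ⟶ Hⁿ(Gal(γE'/γE), (γE')ˣ)` (`galMap` for the algebra structures given by `γ`).
A system of invariant maps is *conjugation invariant* if it is compatible with these maps
(`LayerInvSystem.IsConjInvariant`): the transport-of-structure property (LCF-T) needed by the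
global layer.
-/

set_option autoImplicit false
set_option linter.style.haveILetI false

open CategoryTheory groupCohomology IntermediateField

namespace Fermat.Agent.CFT

open GaloisTower

namespace LayerMaps

variable {k Ω : Type} [Field k] [Field Ω] [Algebra k Ω] (γ : Ω ≃ₐ[k] Ω)
  {E E' : IntermediateField k Ω}

/-- The image of an intermediate field under an automorphism of `Ω/k`. -/
abbrev conjField (E : IntermediateField k Ω) : IntermediateField k Ω :=
  E.map (γ : Ω →ₐ[k] Ω)

lemma conjField_mono (h : E ≤ E') : conjField γ E ≤ conjField γ E' :=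
  IntermediateField.map_mono _ h

/-- `γ : E → γE`. -/
noncomputable def conjBase (E : IntermediateField k Ω) : E →+* conjField γ E where
  toFun x := ⟨γ (x : Ω), ⟨(x : Ω), x.2, rfl⟩⟩
  map_one' := Subtype.ext (map_one γ)
  map_mul' x y := Subtype.ext (map_mul γ (x : Ω) (y : Ω))
  map_zero' := Subtype.ext (map_zero γ)
  map_add' x y := Subtype.ext (map_add γ (x : Ω) (y : Ω))

/-- `γ : E' → γE'` on layers. -/
noncomputable def conjTop (h : E ≤ E') : layer h →+* layer (conjField_mono γ h) where
  toFun x := ⟨γ (x : Ω), ⟨(x : Ω), x.2, rfl⟩⟩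
  map_one' := Subtype.ext (map_one γ)
  map_mul' x y := Subtype.ext (map_mul γ (x : Ω) (y : Ω))
  map_zero' := Subtype.ext (map_zero γ)
  map_add' x y := Subtype.ext (map_add γ (x : Ω) (y : Ω))

@[simp] lemma conjBase_coe (E : IntermediateField k Ω) (x : E) :
    ((conjBase γ E x : conjField γ E) : Ω) = γ (x : Ω) := rfl

@[simp] lemma conjTop_coe (h : E ≤ E') (x : layer h) :
    ((conjTop γ h x : layer (conjField_mono γ h)) : Ω) = γ (x : Ω) := rfl

/-- the algebra structure `E → γE` given by `γ` -/
@[reducible] noncomputable def algConjBase (E : IntermediateField k Ω) :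
    Algebra E (conjField γ E) := (conjBase γ E).toAlgebra

/-- the algebra structure `E' → γE'` given by `γ` -/
@[reducible] noncomputable def algConjTop (h : E ≤ E') :
    Algebra (layer h) (layer (conjField_mono γ h)) := (conjTop γ h).toAlgebra

/-- the algebra structure `E → γE'` given by `γ` -/
@[reducible] noncomputable def algConjDiag (h : E ≤ E') :
    Algebra E (layer (conjField_mono γ h)) :=
  ((algebraMap (conjField γ E) (layer (conjField_mono γ h))).comp (conjBase γ E)).toAlgebra

lemma conj_tower_base (h : E ≤ E') :
    letI := algConjBase γ E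
    letI := algConjDiag γ h
    IsScalarTower E (conjField γ E) (layer (conjField_mono γ h)) := by
  letI := algConjBase γ E
  letI := algConjDiag γ h
  exact IsScalarTower.of_algebraMap_eq fun _ => rfl

lemma conj_tower_top (h : E ≤ E') :
    letI := algConjTop γ h
    letI := algConjDiag γ h
    IsScalarTower E (layer h) (layer (conjField_mono γ h)) := by
  letI := algConjTop γ h
  letI := algConjDiag γ h
  exact IsScalarTower.of_algebraMap_eq fun _ => rfl

/-- **Transport of structure** along `γ`:
`Hⁿ(Gal(E'/E), E'ˣ) ⟶ Hⁿ(Gal(γE'/γE), (γE')ˣ)`. -/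
noncomputable def layerConj (h : E ≤ E') [Normal E (layer h)] (n : ℕ) :
    groupCohomology (Rep.ofAlgebraAutOnUnits E (layer h)) n ⟶
      groupCohomology (Rep.ofAlgebraAutOnUnits (conjField γ E)
        (layer (conjField_mono γ h))) n :=
  letI := algConjBase γ E
  letI := algConjTop γ h
  letI := algConjDiag γ h
  haveI := conj_tower_base γ h
  haveI := conj_tower_top γ h
  galMap E (layer h) (conjField γ E) (layer (conjField_mono γ h)) n

end LayerMaps

open LayerMaps

/-- A system of invariant maps is conjugation invariant if it is compatible with transport of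
structure along every automorphism of `Ω/k`. -/
def LayerInvSystem.IsConjInvariant {k Ω : Type} [Field k] [Field Ω] [Algebra k Ω]
    (S : LayerInvSystem k Ω) : Prop :=
  ∀ (γ : Ω ≃ₐ[k] Ω) {E E' : IntermediateField k Ω} (h : E ≤ E') [FiniteDimensional k E']
    [Normal E (layer h)] (x : groupCohomology (Rep.ofAlgebraAutOnUnits E (layer h)) 2),
    S.inv (conjField_mono γ h) ((layerConj γ h 2).hom x) = S.inv h x

end Fermat.Agent.CFT
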