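import Mathlib
import Fermat.Agent.CFT.LayerConj
import Fermat.Agent.CFT.Local.LayerInvRange
import Fermat.Agent.CFT.Tate.InnerTrivial

/-!
# Every system of invariant maps is conjugation invariant (LCF-T)

For `γ : Ω ≃ₐ[k] Ω` and two layers `E ≤ E'`, `F ≤ F'` with `γE ⊆ F`, `γE' ⊆ F'` we define the
*twisted layer map* `layerTw γ : Hⁿ(Gal(E'/E), E'ˣ) ⟶ Hⁿ(Gal(F'/F), F'ˣ)` (it generalises both
`layerMap` (`γ = 1`) and `layerConj`), prove its compatibility with `layerMap`, and that it is the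
identity when `γ` restricts to an element of `Gal(E'/E)` (inner automorphisms act trivially on
cohomology).  Then for `Ω/k` normal of characteristic zero every `S : LayerInvSystem k Ω` is
conjugation invariant: classes of `H²(M/E)` are restrictions of classes of `H²(M/k)` (`M/k` normal),
on which `γ` acts trivially.
-/

set_option autoImplicit false
set_option linter.style.haveILetI false
set_option linter.unusedSectionVars false

open CategoryTheory groupCohomology IntermediateField Rep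

namespace Fermat.Agent.CFT

open GaloisTower LayerMaps

namespace LayerMaps

variable {k Ω : Type} [Field k] [Field Ω] [Algebra k Ω] (γ : Ω ≃ₐ[k] Ω)
  {E E' F F' : IntermediateField k Ω}

/-- `γ : E → F` when `γE ⊆ F`. -/
noncomputable def twBase (hEF : ∀ x ∈ E, γ x ∈ F) : E →+* F where
  toFun x := ⟨γ (x : Ω), hEF x x.2⟩
  map_one' := Subtype.ext (map_one γ)
  map_mul' x y := Subtype.ext (map_mul γ (x : Ω) (y : Ω))
  map_zero' := Subtype.ext (map_zero γ)
  map_add' x y := Subtype.ext (map_add γ (x : Ω) (y : Ω))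

/-- `γ : E' → F'` on layers when `γE' ⊆ F'`. -/
noncomputable def twTop (hEE' : E ≤ E') (hFF' : F ≤ F') (hE'F' : ∀ x ∈ E', γ x ∈ F') :
    layer hEE' →+* layer hFF' where
  toFun x := ⟨γ (x : Ω), hE'F' x x.2⟩
  map_one' := Subtype.ext (map_one γ)
  map_mul' x y := Subtype.ext (map_mul γ (x : Ω) (y : Ω))
  map_zero' := Subtype.ext (map_zero γ)
  map_add' x y := Subtype.ext (map_add γ (x : Ω) (y : Ω))

@[simp] lemma twBase_coe (hEF : ∀ x ∈ E, γ x ∈ F) (x : E) :
    ((twBase γ hEF x : F) : Ω) = γ (x : Ω) := rfl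

@[simp] lemma twTop_coe (hEE' : E ≤ E') (hFF' : F ≤ F') (hE'F' : ∀ x ∈ E', γ x ∈ F')
    (x : layer hEE') : ((twTop γ hEE' hFF' hE'F' x : layer hFF') : Ω) = γ (x : Ω) := rfl

/-- the algebra structure `E → F` given by `γ` -/
@[reducible] noncomputable def algTwBase (hEF : ∀ x ∈ E, γ x ∈ F) : Algebra E F :=
  (twBase γ hEF).toAlgebra

/-- the algebra structure `E' → F'` given by `γ` -/
@[reducible] noncomputable def algTwTop (hEE' : E ≤ E') (hFF' : F ≤ F')
    (hE'F' : ∀ x ∈ E', γ x ∈ F') : Algebra (layer hEE') (layer hFF') :=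
  (twTop γ hEE' hFF' hE'F').toAlgebra

/-- the algebra structure `E → F'` given by `γ` -/
@[reducible] noncomputable def algTwDiag (hFF' : F ≤ F') (hEF : ∀ x ∈ E, γ x ∈ F) :
    Algebra E (layer hFF') :=
  ((algebraMap F (layer hFF')).comp (twBase γ hEF)).toAlgebra

lemma tw_tower_base (hFF' : F ≤ F') (hEF : ∀ x ∈ E, γ x ∈ F) :
    letI := algTwBase γ hEF
    letI := algTwDiag γ hFF' hEF
    IsScalarTower E F (layer hFF') := by
  letI := algTwBase γ hEF
  letI := algTwDiag γ hFF' hEF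
  exact IsScalarTower.of_algebraMap_eq fun _ => rfl

lemma tw_tower_top (hEE' : E ≤ E') (hFF' : F ≤ F') (hEF : ∀ x ∈ E, γ x ∈ F)
    (hE'F' : ∀ x ∈ E', γ x ∈ F') :
    letI := algTwTop γ hEE' hFF' hE'F'
    letI := algTwDiag γ hFF' hEF
    IsScalarTower E (layer hEE') (layer hFF') := by
  letI := algTwTop γ hEE' hFF' hE'F'
  letI := algTwDiag γ hFF' hEF
  exact IsScalarTower.of_algebraMap_eq fun _ => rfl

/-- **Twisted layer map** along `γ`. -/
noncomputable def layerTw (hEE' : E ≤ E') (hFF' : F ≤ F') (hEF : ∀ x ∈ E, γ x ∈ F)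
    (hE'F' : ∀ x ∈ E', γ x ∈ F') [Normal E (layer hEE')] (n : ℕ) :
    groupCohomology (Rep.ofAlgebraAutOnUnits E (layer hEE')) n ⟶
      groupCohomology (Rep.ofAlgebraAutOnUnits F (layer hFF')) n :=
  letI := algTwBase γ hEF
  letI := algTwTop γ hEE' hFF' hE'F'
  letI := algTwDiag γ hFF' hEF
  haveI := tw_tower_base γ hFF' hEF
  haveI := tw_tower_top γ hEE' hFF' hEF hE'F'
  galMap E (layer hEE') F (layer hFF') n

/-- `layerConj` is a twisted layer map. -/
theorem layerConj_eq_layerTw (h : E ≤ E') [Normal E (layer h)] (n : ℕ) :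
    layerConj γ h n = layerTw γ h (conjField_mono γ h) (fun x hx => ⟨x, hx, rfl⟩)
      (fun x hx => ⟨x, hx, rfl⟩) n :=
  galMap_congr_inst' E (layer h) (conjField γ E) (layer (conjField_mono γ h))
    (algConjBase γ E) (algConjTop γ h) (algConjDiag γ h) (conj_tower_base γ h)
    (conj_tower_top γ h)
    (algTwBase γ (fun x hx => ⟨x, hx, rfl⟩)) (algTwTop γ h (conjField_mono γ h)
      (fun x hx => ⟨x, hx, rfl⟩)) (algTwDiag γ (conjField_mono γ h) (fun x hx => ⟨x, hx, rfl⟩))
    (tw_tower_base γ _ _) (tw_tower_top γ _ _ _ _) (fun _ => rfl) n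

variable {J J' : IntermediateField k Ω}

/-- a plain layer map followed by a twisted one is twisted -/
theorem layerMap_comp_layerTw (hEE' : E ≤ E') (hFF' : F ≤ F') (hJJ' : J ≤ J') (hEF : E ≤ F)
    (hE'F' : E' ≤ F') (hFJ : ∀ x ∈ F, γ x ∈ J) (hF'J' : ∀ x ∈ F', γ x ∈ J')
    [Normal E (layer hEE')] [Normal F (layer hFF')] (n : ℕ) :
    layerMap hEE' hFF' hEF hE'F' n ≫ layerTw γ hFF' hJJ' hFJ hF'J' n =
      layerTw γ hEE' hJJ' (fun x hx => hFJ x (hEF hx)) (fun x hx => hF'J' x (hE'F' hx)) n := by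
  letI := algBase hEF
  letI := algTop hEE' hFF' hE'F'
  letI := algDiag hEF hFF'
  haveI := tower_base hEF hFF'
  haveI := tower_top hEE' hFF' hEF hE'F'
  letI := algTwBase γ hFJ
  letI := algTwTop γ hFF' hJJ' hF'J'
  letI := algTwDiag γ hJJ' hFJ
  haveI := tw_tower_base γ hJJ' hFJ
  haveI := tw_tower_top γ hFF' hJJ' hFJ hF'J'
  letI := algTwBase γ (fun x hx => hFJ x (hEF hx))
  letI := algTwTop γ hEE' hJJ' (fun x hx => hF'J' x (hE'F' hx))
  letI := algTwDiag γ hJJ' (fun x hx => hFJ x (hEF hx))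
  haveI := tw_tower_base γ hJJ' (fun x hx => hFJ x (hEF hx))
  haveI := tw_tower_top γ hEE' hJJ' (fun x hx => hFJ x (hEF hx)) (fun x hx => hF'J' x (hE'F' hx))
  haveI : IsScalarTower (layer hEE') (layer hFF') (layer hJJ') :=
    IsScalarTower.of_algebraMap_eq fun _ => rfl
  exact galMap_comp E (layer hEE') F (layer hFF') J (layer hJJ') n

/-- a twisted layer map followed by a plain one is twisted -/
theorem layerTw_comp_layerMap (hEE' : E ≤ E') (hFF' : F ≤ F') (hJJ' : J ≤ J')
    (hEF : ∀ x ∈ E, γ x ∈ F) (hE'F' : ∀ x ∈ E', γ x ∈ F') (hFJ : F ≤ J) (hF'J' : F' ≤ J')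
    [Normal E (layer hEE')] [Normal F (layer hFF')] (n : ℕ) :
    layerTw γ hEE' hFF' hEF hE'F' n ≫ layerMap hFF' hJJ' hFJ hF'J' n =
      layerTw γ hEE' hJJ' (fun x hx => hFJ (hEF x hx)) (fun x hx => hF'J' (hE'F' x hx)) n := by
  letI := algTwBase γ hEF
  letI := algTwTop γ hEE' hFF' hE'F'
  letI := algTwDiag γ hFF' hEF
  haveI := tw_tower_base γ hFF' hEF
  haveI := tw_tower_top γ hEE' hFF' hEF hE'F'
  letI := algBase hFJ
  letI := algTop hFF' hJJ' hF'J'
  letI := algDiag hFJ hJJ'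
  haveI := tower_base hFJ hJJ'
  haveI := tower_top hFF' hJJ' hFJ hF'J'
  letI := algTwBase γ (fun x hx => hFJ (hEF x hx))
  letI := algTwTop γ hEE' hJJ' (fun x hx => hF'J' (hE'F' x hx))
  letI := algTwDiag γ hJJ' (fun x hx => hFJ (hEF x hx))
  haveI := tw_tower_base γ hJJ' (fun x hx => hFJ (hEF x hx))
  haveI := tw_tower_top γ hEE' hJJ' (fun x hx => hFJ (hEF x hx)) (fun x hx => hF'J' (hE'F' x hx))
  haveI : IsScalarTower (layer hEE') (layer hFF') (layer hJJ') :=
    IsScalarTower.of_algebraMap_eq fun _ => rfl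
  exact galMap_comp E (layer hEE') F (layer hFF') J (layer hJJ') n

end LayerMaps

section Twist

variable (K₁ L₁ K₂ L₂ : Type) [Field K₁] [Field L₁] [Field K₂] [Field L₂]
  [Algebra K₁ L₁] [Algebra K₂ L₂] [Normal K₁ L₁]

/-- Twisting the map `L₁ → L₂` of a square by an element of `Gal(L₁/K₁)` does not change
`galMap` in degree two (inner automorphisms act trivially on cohomology). -/
theorem galMap_twist_eq (σ : L₁ ≃ₐ[K₁] L₁)
    (a : Algebra K₁ K₂) (b : Algebra L₁ L₂) (d : Algebra K₁ L₂)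
    (t₁ : @IsScalarTower K₁ K₂ L₂ a.toSMul _ d.toSMul)
    (t₂ : @IsScalarTower K₁ L₁ L₂ _ b.toSMul d.toSMul)
    (a' : Algebra K₁ K₂) (b' : Algebra L₁ L₂) (d' : Algebra K₁ L₂)
    (t₁' : @IsScalarTower K₁ K₂ L₂ a'.toSMul _ d'.toSMul)
    (t₂' : @IsScalarTower K₁ L₁ L₂ _ b'.toSMul d'.toSMul)
    (hb : ∀ x : L₁, @algebraMap L₁ L₂ _ _ b' x = @algebraMap L₁ L₂ _ _ b (σ x)) :
    @galMap K₁ L₁ K₂ L₂ _ _ _ _ _ _ a' b' d' t₁' t₂' _ 2 =
      @galMap K₁ L₁ K₂ L₂ _ _ _ _ _ _ a b d t₁ t₂ _ 2 := by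
  have hres : @galRes K₁ L₁ K₂ L₂ _ _ _ _ _ _ a' b' d' t₁' t₂' _ =
      (conjInvHom σ).comp (@galRes K₁ L₁ K₂ L₂ _ _ _ _ _ _ a b d t₁ t₂ _) := by
    ext τ : 1
    rw [@galRes_eq_iff K₁ L₁ K₂ L₂ _ _ _ _ _ _ a' b' d' t₁' t₂' _]
    intro x
    rw [hb, hb, MonoidHom.comp_apply, conjInvHom_apply]
    have h1 : σ ((σ⁻¹ * (@galRes K₁ L₁ K₂ L₂ _ _ _ _ _ _ a b d t₁ t₂ _) τ * σ) x) =
        (@galRes K₁ L₁ K₂ L₂ _ _ _ _ _ _ a b d t₁ t₂ _) τ (σ x) :=
      σ.apply_symm_apply _
    rw [h1]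
    exact @galRes_commutes K₁ L₁ K₂ L₂ _ _ _ _ _ _ a b d t₁ t₂ _ τ (σ x)
  have h2 := groupCohomology.map_comp (conjInvHom σ)
    (@galRes K₁ L₁ K₂ L₂ _ _ _ _ _ _ a b d t₁ t₂ _)
    (conjRepHom (Rep.ofAlgebraAutOnUnits K₁ L₁) σ)
    (@galUnitsHom K₁ L₁ K₂ L₂ _ _ _ _ _ _ a b d t₁ t₂ _) 2
  rw [map_conj_H2, Category.id_comp] at h2
  unfold galMap
  rw [← h2]
  refine groupCohomology.map_congr hres ?_ 2
  refine LinearMap.ext fun x => ?_
  apply Additive.toMul.injective
  apply Units.ext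
  exact hb _

end Twist

namespace LayerMaps

variable {k Ω : Type} [Field k] [Field Ω] [Algebra k Ω] (γ : Ω ≃ₐ[k] Ω)
  {E E' F F' : IntermediateField k Ω}

/-- `γ` as an `E`-algebra automorphism of `Ω` when it fixes `E` pointwise. -/
noncomputable def fixAlgEquiv (hfix : ∀ x ∈ E, γ x = x) : Ω ≃ₐ[E] Ω :=
  AlgEquiv.ofRingEquiv (f := γ.toRingEquiv) (fun x => hfix x x.2)

/-- the restriction of `γ` to a normal layer `E'/E` (for `γ` fixing `E` pointwise) -/
noncomputable def fixRestrict (h : E ≤ E') [Normal E (layer h)] (hfix : ∀ x ∈ E, γ x = x) :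
    layer h ≃ₐ[E] layer h :=
  (fixAlgEquiv γ hfix).restrictNormal (layer h)

lemma fixRestrict_coe (h : E ≤ E') [Normal E (layer h)] (hfix : ∀ x ∈ E, γ x = x)
    (x : layer h) : ((fixRestrict γ h hfix x : layer h) : Ω) = γ (x : Ω) :=
  (fixAlgEquiv γ hfix).restrictNormal_commutes (layer h) x

lemma stab_of_fix (h : E ≤ E') [Normal E (layer h)] (hfix : ∀ x ∈ E, γ x = x) :
    ∀ x ∈ E', γ x ∈ E' := fun x hx => by
  have := fixRestrict_coe γ h hfix ⟨x, hx⟩
  rw [← this]
  exact (fixRestrict γ h hfix ⟨x, hx⟩).2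

/-- **A twisted layer map whose twist fixes the base of the source layer is the plain layer map**
(in degree two). -/
theorem layerTw_eq_layerMap_of_fix (hEE' : E ≤ E') (hFF' : F ≤ F') (hEF : E ≤ F)
    (hE'F' : E' ≤ F') [Normal E (layer hEE')] (hfix : ∀ x ∈ E, γ x = x) :
    layerTw γ hEE' hFF' (fun x hx => by rw [hfix x hx]; exact hEF hx)
      (fun x hx => hE'F' (stab_of_fix γ hEE' hfix x hx)) 2 = layerMap hEE' hFF' hEF hE'F' 2 :=
  galMap_twist_eq E (layer hEE') F (layer hFF') (fixRestrict γ hEE' hfix)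
    (algBase hEF) (algTop hEE' hFF' hE'F') (algDiag hEF hFF') (tower_base hEF hFF')
    (tower_top hEE' hFF' hEF hE'F')
    (algTwBase γ (fun x hx => by rw [hfix x hx]; exact hEF hx))
    (algTwTop γ hEE' hFF' (fun x hx => hE'F' (stab_of_fix γ hEE' hfix x hx)))
    (algTwDiag γ hFF' (fun x hx => by rw [hfix x hx]; exact hEF hx))
    (tw_tower_base γ hFF' _) (tw_tower_top γ hEE' hFF' _ _)
    (fun x => Subtype.ext (fixRestrict_coe γ hEE' hfix x).symm)

end LayerMaps

namespace LayerInvSystem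

variable {k Ω : Type} [Field k] [Field Ω] [Algebra k Ω]

/-- layers below a normal field are normal -/
lemma normal_layer_of_normal_top {F M : IntermediateField k Ω} (hFM : F ≤ M) [Normal k M] :
    Normal F (layer hFM) := by
  haveI : Normal k (layer hFM) := ‹Normal k M›
  exact Normal.tower_top_of_normal k F (layer hFM)

/-- the conjugate of a normal layer is normal -/
lemma normal_layer_conj (γ : Ω ≃ₐ[k] Ω) {E E' : IntermediateField k Ω} (h : E ≤ E')
    [Normal E (layer h)] : Normal (conjField γ E) (layer (conjField_mono γ h)) := by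
  let f : E ≃+* conjField γ E := (IntermediateField.equivMap E (γ : Ω →ₐ[k] Ω)).toRingEquiv
  let g : layer h ≃+* layer (conjField_mono γ h) :=
    (IntermediateField.equivMap E' (γ : Ω →ₐ[k] Ω)).toRingEquiv
  exact Normal.of_equiv_equiv (F := E) (E := layer h) (f := f) (g := g)
    (RingHom.ext fun x => Subtype.ext rfl)

/-- the degree of a layer over `⊥` is the degree over `k` -/
lemma finrank_layer_bot (E : IntermediateField k Ω) :
    Module.finrank (⊥ : IntermediateField k Ω) (layer (bot_le : ⊥ ≤ E)) = Module.finrank k E := by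
  have h1 := Module.finrank_mul_finrank k (⊥ : IntermediateField k Ω) (layer (bot_le : ⊥ ≤ E))
  rw [IntermediateField.finrank_bot, one_mul] at h1
  exact h1

variable [CharZero k] [Normal k Ω] (S : LayerInvSystem k Ω)

/-- **LCF-T**: every system of invariant maps on the layers of a normal extension `Ω/k` of
characteristic zero is conjugation invariant. -/
theorem isConjInvariant : S.IsConjInvariant := by
  intro γ E E' h _ _ x
  -- a finite normal extension `M/k` containing `E'`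
  let M : IntermediateField k Ω := IntermediateField.normalClosure k E' Ω
  have hE'M : E' ≤ M := IntermediateField.le_normalClosure E'
  haveI : FiniteDimensional k M := normalClosure.is_finiteDimensional k E' Ω
  haveI : Normal k M := normalClosure.normal k E' Ω
  have hγM : ∀ y ∈ M, γ y ∈ M := fun y hy =>
    (IntermediateField.normal_iff_forall_map_le'.1 ‹Normal k M› γ) ⟨y, hy, rfl⟩
  have γh := conjField_mono γ h
  have hγE'M : conjField γ E' ≤ M := by
    rintro _ ⟨y, hy, rfl⟩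
    exact hγM y (hE'M hy)
  have hbot : ∀ y ∈ (⊥ : IntermediateField k Ω), γ y = y := by
    intro y hy
    obtain ⟨c, rfl⟩ := IntermediateField.mem_bot.1 hy
    exact γ.commutes c
  have hbase : ∀ y ∈ E, γ y ∈ conjField γ E := fun y hy => ⟨y, hy, rfl⟩
  -- normality of all layers involved
  haveI : Normal E (layer (h.trans hE'M)) := normal_layer_of_normal_top _
  haveI : Normal (conjField γ E) (layer (conjField_mono γ h)) := normal_layer_conj γ h
  haveI : Normal (conjField γ E) (layer ((conjField_mono γ h).trans hγE'M)) :=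
    normal_layer_of_normal_top _
  haveI : Normal (⊥ : IntermediateField k Ω) (layer (bot_le : ⊥ ≤ M)) :=
    normal_layer_of_normal_top _
  haveI : Normal (⊥ : IntermediateField k Ω)
      (layer ((bot_le : ⊥ ≤ E).trans (h.trans hE'M))) :=
    normal_layer_of_normal_top _
  -- the class comes by restriction from `H²(M/k)`
  obtain ⟨z, hz⟩ := S.layerRest_surjective (bot_le : ⊥ ≤ E) (h.trans hE'M)
    ((layerInfl h hE'M 2).hom x)
  -- the three identities between layer maps
  have e1 : layerConj γ h 2 ≫ layerInfl (conjField_mono γ h) hγE'M 2 =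
      layerTw γ h ((conjField_mono γ h).trans hγE'M) hbase
        (fun y hy => hγE'M ⟨y, hy, rfl⟩) 2 := by
    rw [layerConj_eq_layerTw]
    exact layerTw_comp_layerMap γ h (conjField_mono γ h) ((conjField_mono γ h).trans hγE'M)
      _ _ le_rfl hγE'M 2
  have e2 : layerInfl h hE'M 2 ≫
      layerTw γ (h.trans hE'M) ((conjField_mono γ h).trans hγE'M) hbase hγM 2 =
      layerTw γ h ((conjField_mono γ h).trans hγE'M) hbase
        (fun y hy => hγE'M ⟨y, hy, rfl⟩) 2 :=
    layerMap_comp_layerTw γ h (h.trans hE'M) ((conjField_mono γ h).trans hγE'M) le_rfl hE'M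
      hbase hγM 2
  have e3 : layerRest (bot_le : ⊥ ≤ E) (h.trans hE'M) 2 ≫
      layerTw γ (h.trans hE'M) ((conjField_mono γ h).trans hγE'M) hbase hγM 2 =
      layerMap ((bot_le : ⊥ ≤ E).trans (h.trans hE'M)) ((conjField_mono γ h).trans hγE'M)
        bot_le le_rfl 2 := by
    rw [← layerTw_eq_layerMap_of_fix γ _ _ bot_le le_rfl hbot]
    exact layerMap_comp_layerTw γ ((bot_le : ⊥ ≤ E).trans (h.trans hE'M)) (h.trans hE'M)
      ((conjField_mono γ h).trans hγE'M) bot_le le_rfl hbase hγM 2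
  -- left hand side
  have hL : S.inv (conjField_mono γ h) ((layerConj γ h 2).hom x) =
      Module.finrank (⊥ : IntermediateField k Ω) (layer (bot_le : ⊥ ≤ conjField γ E)) •
        S.inv ((bot_le : ⊥ ≤ E).trans (h.trans hE'M)) z := by
    rw [← S.inv_layerInfl (conjField_mono γ h) hγE'M, ← ModuleCat.comp_apply, e1, ← e2,
      ModuleCat.comp_apply, ← hz, ← ModuleCat.comp_apply, e3]
    exact S.inv_layerMap _ _ bot_le le_rfl z
  have hR : S.inv h x =
      Module.finrank (⊥ : IntermediateField k Ω) (layer (bot_le : ⊥ ≤ E)) •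
        S.inv ((bot_le : ⊥ ≤ E).trans (h.trans hE'M)) z := by
    rw [← S.inv_layerInfl h hE'M, ← hz]
    exact S.inv_layerRest bot_le (h.trans hE'M) z
  rw [hL, hR, finrank_layer_bot, finrank_layer_bot]
  congr 1
  exact (IntermediateField.equivMap E (γ : Ω →ₐ[k] Ω)).toLinearEquiv.finrank_eq.symm

end LayerInvSystem

end Fermat.Agent.CFT
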