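import Mathlib
import Fermat.Agent.CFT.ShapiroLow
import Fermat.Agent.CFT.CupLowLevel

/-!
# Explicit Shapiro lemma in low degrees: level-constant cochains

For a normal subgroup `N` of `G` contained in `S` we show that all constructions of
`ShapiroLow.lean` (the Shapiro maps `sh₁ sh₂`, their sections `ι₀ ι₁ ι₂`, the prism homotopies
`hty₁ hty₂`) preserve cochains of level `N` (right invariant under `N`, with values fixed by `N`;
on the `S`-side with respect to `N.subgroupOf S`). Summary statements, in cochain form and ready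
for a "level cohomology" wrapper: `Shap.exists_level_cocycle₁/₂` (surjectivity),
`Shap.exists_level_primitive₁/₂` (injectivity); `Shap.fixedBy_coind_iff`,
`Shap.fixedBy_coind_of_forall_rep`, `Shap.exists_finite_reps` (smoothness of `coind Y` for `S` of
finite index).
-/

set_option autoImplicit false

universe u

open CategoryTheory groupCohomology

namespace Fermat.Agent.CFT.Shap

open Cup

section Hmg

variable {k Γ : Type u} [CommRing k] [Group Γ] {A : Rep.{u} k Γ} {M : Subgroup Γ} [M.Normal]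

lemma conj_inv_mem {m : Γ} (hm : m ∈ M) (x : Γ) : x⁻¹ * m * x ∈ M := by
  have := (inferInstance : M.Normal).conj_mem m hm x⁻¹
  simpa using this

lemma h₁_level {f : Γ → A} (hf : RightInv₁ M f) (hv : ∀ g, FixedBy A M (f g))
    (x₀ x₁ : Γ) {m₀ m₁ : Γ} (h₀ : m₀ ∈ M) (h₁' : m₁ ∈ M) :
    h₁ f (m₀ * x₀) (m₁ * x₁) = h₁ f x₀ x₁ := by
  have e : (m₀ * x₀)⁻¹ * (m₁ * x₁) = x₀⁻¹ * x₁ * (x₁⁻¹ * (m₀⁻¹ * m₁) * x₁) := by group
  have hm : x₁⁻¹ * (m₀⁻¹ * m₁) * x₁ ∈ M := conj_inv_mem (M.mul_mem (M.inv_mem h₀) h₁') x₁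
  simp only [h₁]
  rw [e, hf _ _ hm, map_mul, Module.End.mul_apply, ((hv _).ρ x₀) m₀ h₀]

lemma h₂_level {F : Γ × Γ → A} (hF : RightInv₂ M F) (hv : ∀ p, FixedBy A M (F p))
    (x₀ x₁ x₂ : Γ) {m₀ m₁ m₂ : Γ} (h₀ : m₀ ∈ M) (h₁' : m₁ ∈ M) (h₂' : m₂ ∈ M) :
    h₂ F (m₀ * x₀) (m₁ * x₁) (m₂ * x₂) = h₂ F x₀ x₁ x₂ := by
  have e : (m₀ * x₀)⁻¹ * (m₁ * x₁) = x₀⁻¹ * x₁ * (x₁⁻¹ * (m₀⁻¹ * m₁) * x₁) := by group
  have e' : (m₁ * x₁)⁻¹ * (m₂ * x₂) = x₁⁻¹ * x₂ * (x₂⁻¹ * (m₁⁻¹ * m₂) * x₂) := by group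
  have hm : x₁⁻¹ * (m₀⁻¹ * m₁) * x₁ ∈ M := conj_inv_mem (M.mul_mem (M.inv_mem h₀) h₁') x₁
  have hm' : x₂⁻¹ * (m₁⁻¹ * m₂) * x₂ ∈ M := conj_inv_mem (M.mul_mem (M.inv_mem h₁') h₂') x₂
  simp only [h₂]
  rw [e, e', hF _ _ _ hm _ hm', map_mul, Module.End.mul_apply, ((hv _).ρ x₀) m₀ h₀]

end Hmg

section Coind

variable {k G : Type u} [CommRing k] [Group G] {S : Subgroup G} {Y : Rep.{u} k S}
  {N : Subgroup G} [N.Normal]

/-- An element of `coind Y` is fixed by the normal subgroup `N ≤ S` iff all its values are fixed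
by `N`. -/
lemma fixedBy_coind_iff (hNS : N ≤ S) (c : Rep.coind S.subtype Y) :
    FixedBy (Rep.coind S.subtype Y) N c ↔ ∀ x, FixedBy Y (N.subgroupOf S) (c.1 x) := by
  constructor
  · intro hc x n hn
    have hn' : (n : G) ∈ N := hn
    have h1 : x⁻¹ * (n : G) * x ∈ N := conj_inv_mem hn' x
    have h2 : c.1 (x * (x⁻¹ * (n : G) * x)) = c.1 x :=
      congrArg (fun c' : Rep.coind S.subtype Y => c'.1 x) (hc _ h1)
    have h3 : x * (x⁻¹ * (n : G) * x) = (n : G) * x := by group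
    rw [← Cup.coind_apply_mul, ← h3, h2]
  · intro hc n hn
    apply Subtype.ext
    funext x
    rw [Cup.coind_ρ_apply]
    have h1 : x * n * x⁻¹ ∈ N := (inferInstance : N.Normal).conj_mem n hn x
    have h2 : x * n = ((⟨x * n * x⁻¹, hNS h1⟩ : S) : G) * x := by
      show x * n = x * n * x⁻¹ * x
      group
    rw [h2, Cup.coind_apply_mul]
    exact hc x ⟨x * n * x⁻¹, hNS h1⟩ h1


/-! ### homogeneous functions invariant under left translations by `N` in each variable -/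

/-- `ψ : G → Y` is invariant under left translation by `N`. -/
def LInv₀ {X : Type*} (N : Subgroup G) (ψ : G → X) : Prop :=
  ∀ x₀ : G, ∀ n₀ ∈ N, ψ (n₀ * x₀) = ψ x₀

/-- `ψ : G → G → Y` is invariant under left translation by `N` in each variable. -/
def LInv₁ {X : Type*} (N : Subgroup G) (ψ : G → G → X) : Prop :=
  ∀ x₀ x₁ : G, ∀ n₀ ∈ N, ∀ n₁ ∈ N, ψ (n₀ * x₀) (n₁ * x₁) = ψ x₀ x₁

/-- `ψ : G → G → G → Y` is invariant under left translation by `N` in each variable. -/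
def LInv₂ {X : Type*} (N : Subgroup G) (ψ : G → G → G → X) : Prop :=
  ∀ x₀ x₁ x₂ : G, ∀ n₀ ∈ N, ∀ n₁ ∈ N, ∀ n₂ ∈ N, ψ (n₀ * x₀) (n₁ * x₁) (n₂ * x₂) = ψ x₀ x₁ x₂

lemma fixedBy_mk₀ {ψ : G → Y} (hψ) (h : LInv₀ N ψ) :
    FixedBy (Rep.coind S.subtype Y) N (mk₀ (S := S) ψ hψ) := by
  intro n hn
  apply Subtype.ext
  funext x
  show ψ (x * n) = ψ x
  have h1 : x * n * x⁻¹ ∈ N := (inferInstance : N.Normal).conj_mem n hn x
  have h2 : x * n = x * n * x⁻¹ * x := by group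
  rw [h2, h _ _ h1]

lemma rightInv₁_mk₁ {ψ : G → G → Y} (hψ) (h : LInv₁ N ψ) :
    RightInv₁ N (mk₁ (S := S) ψ hψ) := by
  intro g n hn
  apply Subtype.ext
  funext x
  show ψ x (x * (g * n)) = ψ x (x * g)
  have h1 : x * g * n * (x * g)⁻¹ ∈ N := (inferInstance : N.Normal).conj_mem n hn (x * g)
  have h2 : x * (g * n) = x * g * n * (x * g)⁻¹ * (x * g) := by group
  have := h x (x * g) 1 N.one_mem _ h1
  rw [one_mul] at this
  rw [h2, this]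

lemma fixedBy_mk₁ {ψ : G → G → Y} (hψ) (h : LInv₁ N ψ) (g : G) :
    FixedBy (Rep.coind S.subtype Y) N (mk₁ (S := S) ψ hψ g) := by
  intro n hn
  apply Subtype.ext
  funext x
  show ψ (x * n) (x * n * g) = ψ x (x * g)
  have h1 : x * n * x⁻¹ ∈ N := (inferInstance : N.Normal).conj_mem n hn x
  have h2 : x * n = x * n * x⁻¹ * x := by group
  have h3 : x * n * g = x * n * x⁻¹ * (x * g) := by group
  exact (congrArg₂ ψ h2 h3).trans (h _ _ _ h1 _ h1)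

lemma rightInv₂_mk₂ {ψ : G → G → G → Y} (hψ) (h : LInv₂ N ψ) :
    RightInv₂ N (mk₂ (S := S) ψ hψ) := by
  intro g g' n hn n' hn'
  apply Subtype.ext
  funext x
  show ψ x (x * (g * n)) (x * (g * n) * (g' * n')) = ψ x (x * g) (x * g * g')
  have h1 : x * g * n * (x * g)⁻¹ ∈ N := (inferInstance : N.Normal).conj_mem n hn (x * g)
  have h2 : x * (g * n) = x * g * n * (x * g)⁻¹ * (x * g) := by group
  have h3 : x * g * g' * (g'⁻¹ * n * g' * n') * (x * g * g')⁻¹ ∈ N :=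
    (inferInstance : N.Normal).conj_mem _ (N.mul_mem (conj_inv_mem hn g') hn') (x * g * g')
  have h4 : x * (g * n) * (g' * n') =
      x * g * g' * (g'⁻¹ * n * g' * n') * (x * g * g')⁻¹ * (x * g * g') := by group
  have := h x (x * g) (x * g * g') 1 N.one_mem _ h1 _ h3
  rw [one_mul] at this
  rw [h4, h2, this]

lemma fixedBy_mk₂ {ψ : G → G → G → Y} (hψ) (h : LInv₂ N ψ) (p : G × G) :
    FixedBy (Rep.coind S.subtype Y) N (mk₂ (S := S) ψ hψ p) := by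
  intro n hn
  apply Subtype.ext
  funext x
  show ψ (x * n) (x * n * p.1) (x * n * p.1 * p.2) = ψ x (x * p.1) (x * p.1 * p.2)
  have h1 : x * n * x⁻¹ ∈ N := (inferInstance : N.Normal).conj_mem n hn x
  have h2 : x * n = x * n * x⁻¹ * x := by group
  have h3 : x * n * p.1 = x * n * x⁻¹ * (x * p.1) := by group
  have h4 : x * n * p.1 * p.2 = x * n * x⁻¹ * (x * p.1 * p.2) := by group
  have e : ψ (x * n) (x * n * p.1) (x * n * p.1 * p.2) =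
      ψ (x * n * x⁻¹ * x) (x * n * x⁻¹ * (x * p.1)) (x * n * x⁻¹ * (x * p.1 * p.2)) := by
    rw [← h4, ← h3, ← h2]
  exact e.trans (h _ _ _ _ h1 _ h1 _ h1)

/-! ### level lemmas for `e₁`, `e₂` -/

lemma e₁_level {f : G → Rep.coind S.subtype Y} (hf : RightInv₁ N f)
    (hv : ∀ g, FixedBy (Rep.coind S.subtype Y) N (f g)) : LInv₁ N (e₁ f) := by
  intro x₀ x₁ n₀ h₀ n₁ h₁'
  rw [e₁_eq, e₁_eq, h₁_level hf hv x₀ x₁ h₀ h₁']

lemma e₂_level {F : G × G → Rep.coind S.subtype Y} (hF : RightInv₂ N F)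
    (hv : ∀ p, FixedBy (Rep.coind S.subtype Y) N (F p)) : LInv₂ N (e₂ F) := by
  intro x₀ x₁ x₂ n₀ h₀ n₁ h₁' n₂ h₂'
  rw [e₂_eq, e₂_eq, h₂_level hF hv x₀ x₁ x₂ h₀ h₁' h₂']

/-! ### level lemmas for the Shapiro maps -/

omit [N.Normal] in
lemma rightInv₁_sh₁ {f : G → Rep.coind S.subtype Y} (hf : RightInv₁ N f) :
    RightInv₁ (N.subgroupOf S) (sh₁ f) := by
  intro s n hn
  show (f ((s : G) * (n : G))).1 1 = (f s).1 1
  have hn' : (n : G) ∈ N := hn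
  rw [hf _ _ hn']

lemma fixedBy_sh₁ (hNS : N ≤ S) {f : G → Rep.coind S.subtype Y}
    (hv : ∀ g, FixedBy (Rep.coind S.subtype Y) N (f g)) (s : S) :
    FixedBy Y (N.subgroupOf S) (sh₁ f s) :=
  (fixedBy_coind_iff hNS _).1 (hv s) 1

omit [N.Normal] in
lemma rightInv₂_sh₂ {F : G × G → Rep.coind S.subtype Y} (hF : RightInv₂ N F) :
    RightInv₂ (N.subgroupOf S) (sh₂ F) := by
  intro s t n hn n' hn'
  show (F ((s : G) * (n : G), (t : G) * (n' : G))).1 1 = (F (s, t)).1 1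
  have hn1 : (n : G) ∈ N := hn
  have hn2 : (n' : G) ∈ N := hn'
  rw [hF _ _ _ hn1 _ hn2]

lemma fixedBy_sh₂ (hNS : N ≤ S) {F : G × G → Rep.coind S.subtype Y}
    (hv : ∀ p, FixedBy (Rep.coind S.subtype Y) N (F p)) (p : S × S) :
    FixedBy Y (N.subgroupOf S) (sh₂ F p) :=
  (fixedBy_coind_iff hNS _).1 (hv (p.1, p.2)) 1

variable (R : Retr S)

omit [N.Normal] in
lemma Retr.r_mul_of_mem (hNS : N ≤ S) {n : G} (hn : n ∈ N) (x : G) :
    R.r (n * x) = (⟨n, hNS hn⟩ : S) * R.r x := R.r_mul ⟨n, hNS hn⟩ x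

instance normal_subgroupOf : (N.subgroupOf S).Normal := Subgroup.Normal.subgroupOf inferInstance S

lemma fixedBy_ι₀ (hNS : N ≤ S) {y : Y} (hy : FixedBy Y (N.subgroupOf S) y) :
    FixedBy (Rep.coind S.subtype Y) N (ι₀ R y) :=
  fixedBy_mk₀ _ (fun x₀ n₀ h₀ => by
    rw [R.r_mul_of_mem hNS h₀, map_mul, Module.End.mul_apply]
    exact (hy.ρ (R.r x₀)) _ h₀)

lemma lInv₁_ι₁ (hNS : N ≤ S) {f : S → Y} (hf : RightInv₁ (N.subgroupOf S) f)
    (hv : ∀ s, FixedBy Y (N.subgroupOf S) (f s)) :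
    LInv₁ N (fun x₀ x₁ => h₁ f (R.r x₀) (R.r x₁)) := by
  intro x₀ x₁ n₀ h₀ n₁ h₁'
  show h₁ f (R.r (n₀ * x₀)) (R.r (n₁ * x₁)) = _
  rw [R.r_mul_of_mem hNS h₀, R.r_mul_of_mem hNS h₁']
  exact h₁_level hf hv _ _ h₀ h₁'

lemma lInv₂_ι₂ (hNS : N ≤ S) {F : S × S → Y} (hF : RightInv₂ (N.subgroupOf S) F)
    (hv : ∀ p, FixedBy Y (N.subgroupOf S) (F p)) :
    LInv₂ N (fun x₀ x₁ x₂ => h₂ F (R.r x₀) (R.r x₁) (R.r x₂)) := by
  intro x₀ x₁ x₂ n₀ h₀ n₁ h₁' n₂ h₂'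
  show h₂ F (R.r (n₀ * x₀)) (R.r (n₁ * x₁)) (R.r (n₂ * x₂)) = _
  rw [R.r_mul_of_mem hNS h₀, R.r_mul_of_mem hNS h₁', R.r_mul_of_mem hNS h₂']
  exact h₂_level hF hv _ _ _ h₀ h₁' h₂'

lemma rightInv₁_ι₁ (hNS : N ≤ S) {f : S → Y} (hf : RightInv₁ (N.subgroupOf S) f)
    (hv : ∀ s, FixedBy Y (N.subgroupOf S) (f s)) : RightInv₁ N (ι₁ R f) :=
  rightInv₁_mk₁ _ (lInv₁_ι₁ R hNS hf hv)

lemma fixedBy_ι₁ (hNS : N ≤ S) {f : S → Y} (hf : RightInv₁ (N.subgroupOf S) f)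
    (hv : ∀ s, FixedBy Y (N.subgroupOf S) (f s)) (g : G) :
    FixedBy (Rep.coind S.subtype Y) N (ι₁ R f g) :=
  fixedBy_mk₁ _ (lInv₁_ι₁ R hNS hf hv) g

lemma rightInv₂_ι₂ (hNS : N ≤ S) {F : S × S → Y} (hF : RightInv₂ (N.subgroupOf S) F)
    (hv : ∀ p, FixedBy Y (N.subgroupOf S) (F p)) : RightInv₂ N (ι₂ R F) :=
  rightInv₂_mk₂ _ (lInv₂_ι₂ R hNS hF hv)

lemma fixedBy_ι₂ (hNS : N ≤ S) {F : S × S → Y} (hF : RightInv₂ (N.subgroupOf S) F)
    (hv : ∀ p, FixedBy Y (N.subgroupOf S) (F p)) (p : G × G) :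
    FixedBy (Rep.coind S.subtype Y) N (ι₂ R F p) :=
  fixedBy_mk₂ _ (lInv₂_ι₂ R hNS hF hv) p

/-! ### level lemmas for the homotopies -/

lemma fixedBy_hty₁ (hNS : N ≤ S) {f : G → Rep.coind S.subtype Y} (hf : RightInv₁ N f)
    (hv : ∀ g, FixedBy (Rep.coind S.subtype Y) N (f g)) :
    FixedBy (Rep.coind S.subtype Y) N (hty₁ R f) :=
  fixedBy_mk₀ _ (fun x₀ n₀ h₀ => by
    show e₁ f (n₀ * x₀) (R.r (n₀ * x₀)) = e₁ f x₀ (R.r x₀)
    rw [R.r_mul_of_mem hNS h₀]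
    exact e₁_level hf hv x₀ (R.r x₀) n₀ h₀ n₀ h₀)

lemma lInv₁_hty₂ (hNS : N ≤ S) {F : G × G → Rep.coind S.subtype Y} (hF : RightInv₂ N F)
    (hv : ∀ p, FixedBy (Rep.coind S.subtype Y) N (F p)) :
    LInv₁ N (fun x₀ x₁ => e₂ F x₀ (R.r x₀) (R.r x₁) - e₂ F x₀ x₁ (R.r x₁)) := by
  intro x₀ x₁ n₀ h₀ n₁ h₁'
  show e₂ F (n₀ * x₀) (R.r (n₀ * x₀)) (R.r (n₁ * x₁)) -
    e₂ F (n₀ * x₀) (n₁ * x₁) (R.r (n₁ * x₁)) = _
  rw [R.r_mul_of_mem hNS h₀, R.r_mul_of_mem hNS h₁']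
  have a := e₂_level hF hv x₀ (R.r x₀) (R.r x₁) n₀ h₀ n₀ h₀ n₁ h₁'
  have b := e₂_level hF hv x₀ x₁ (R.r x₁) n₀ h₀ n₁ h₁' n₁ h₁'
  exact congrArg₂ (· - ·) a b

lemma rightInv₁_hty₂ (hNS : N ≤ S) {F : G × G → Rep.coind S.subtype Y} (hF : RightInv₂ N F)
    (hv : ∀ p, FixedBy (Rep.coind S.subtype Y) N (F p)) : RightInv₁ N (hty₂ R F) :=
  rightInv₁_mk₁ _ (lInv₁_hty₂ R hNS hF hv)

lemma fixedBy_hty₂ (hNS : N ≤ S) {F : G × G → Rep.coind S.subtype Y} (hF : RightInv₂ N F)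
    (hv : ∀ p, FixedBy (Rep.coind S.subtype Y) N (F p)) (g : G) :
    FixedBy (Rep.coind S.subtype Y) N (hty₂ R F g) :=
  fixedBy_mk₁ _ (lInv₁_hty₂ R hNS hF hv) g


/-! ### Summary: Shapiro's lemma for level-constant cochains, in cochain form -/

omit R in
/-- Surjectivity of the Shapiro map on level-`N` `1`-cocycles. -/
theorem exists_level_cocycle₁ (hNS : N ≤ S) {f : S → Y} (hf : f ∈ cocycles₁ Y)
    (hl : RightInv₁ (N.subgroupOf S) f) (hv : ∀ s, FixedBy Y (N.subgroupOf S) (f s)) :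
    ∃ F : G → Rep.coind S.subtype Y, F ∈ cocycles₁ (Rep.coind S.subtype Y) ∧ RightInv₁ N F ∧
      (∀ g, FixedBy (Rep.coind S.subtype Y) N (F g)) ∧ sh₁ F = f := by
  obtain ⟨R⟩ := Retr.nonempty S
  exact ⟨ι₁ R f, ι₁_mem_cocycles₁ R hf, rightInv₁_ι₁ R hNS hl hv, fixedBy_ι₁ R hNS hl hv,
    sh₁_ι₁ R f⟩

omit R in
/-- Surjectivity of the Shapiro map on level-`N` `2`-cocycles. -/
theorem exists_level_cocycle₂ (hNS : N ≤ S) {F : S × S → Y} (hF : F ∈ cocycles₂ Y)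
    (hl : RightInv₂ (N.subgroupOf S) F) (hv : ∀ p, FixedBy Y (N.subgroupOf S) (F p)) :
    ∃ F' : G × G → Rep.coind S.subtype Y, F' ∈ cocycles₂ (Rep.coind S.subtype Y) ∧
      RightInv₂ N F' ∧ (∀ p, FixedBy (Rep.coind S.subtype Y) N (F' p)) ∧ sh₂ F' = F := by
  obtain ⟨R⟩ := Retr.nonempty S
  exact ⟨ι₂ R F, ι₂_mem_cocycles₂ R hF, rightInv₂_ι₂ R hNS hl hv, fixedBy_ι₂ R hNS hl hv,
    sh₂_ι₂ R F⟩

omit R in
/-- Injectivity of the Shapiro map in degree `1`, level form: if `sh₁ f = d y` with `y` fixed by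
`N` then `f = d c` with `c` fixed by `N`. -/
theorem exists_level_primitive₁ (hNS : N ≤ S) {f : G → Rep.coind S.subtype Y}
    (hf : f ∈ cocycles₁ (Rep.coind S.subtype Y)) (hl : RightInv₁ N f)
    (hv : ∀ g, FixedBy (Rep.coind S.subtype Y) N (f g)) {y : Y}
    (hy : FixedBy Y (N.subgroupOf S) y) (h : (d₀₁ Y).hom y = sh₁ f) :
    ∃ c : Rep.coind S.subtype Y, FixedBy (Rep.coind S.subtype Y) N c ∧
      (d₀₁ (Rep.coind S.subtype Y)).hom c = f := by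
  obtain ⟨R⟩ := Retr.nonempty S
  refine ⟨ι₀ R y - hty₁ R f, (fixedBy_ι₀ R hNS hy).sub (fixedBy_hty₁ R hNS hl hv), ?_⟩
  rw [map_sub, ← ι₁_d₀₁, h]
  exact (eq_ι₁_sh₁_sub R hf).symm

omit R in
/-- Injectivity of the Shapiro map in degree `2`, level form: if `sh₂ F = d φ` with `φ` of level
`N` then `F = d Φ` with `Φ` of level `N`. -/
theorem exists_level_primitive₂ (hNS : N ≤ S) {F : G × G → Rep.coind S.subtype Y}
    (hF : F ∈ cocycles₂ (Rep.coind S.subtype Y)) (hl : RightInv₂ N F)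
    (hv : ∀ p, FixedBy (Rep.coind S.subtype Y) N (F p)) {φ : S → Y}
    (hφ : RightInv₁ (N.subgroupOf S) φ) (hφv : ∀ s, FixedBy Y (N.subgroupOf S) (φ s))
    (h : (d₁₂ Y).hom φ = sh₂ F) :
    ∃ Φ : G → Rep.coind S.subtype Y, RightInv₁ N Φ ∧
      (∀ g, FixedBy (Rep.coind S.subtype Y) N (Φ g)) ∧
      (d₁₂ (Rep.coind S.subtype Y)).hom Φ = F := by
  obtain ⟨R⟩ := Retr.nonempty S
  refine ⟨ι₁ R φ - hty₂ R F, ?_, ?_, ?_⟩
  · intro g n hn
    show ι₁ R φ (g * n) - hty₂ R F (g * n) = ι₁ R φ g - hty₂ R F g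
    rw [rightInv₁_ι₁ R hNS hφ hφv g n hn, rightInv₁_hty₂ R hNS hl hv g n hn]
  · intro g
    exact (fixedBy_ι₁ R hNS hφ hφv g).sub (fixedBy_hty₂ R hNS hl hv g)
  · rw [map_sub, ← ι₂_d₁₂, h]
    exact (eq_ι₂_sh₂_sub R hF).symm

/-! ### smoothness of `coind Y` -/

omit R in
/-- An element of `coind Y` is fixed by `N` as soon as its values on a set of representatives of
`S \ G` are fixed by `N`. -/
lemma fixedBy_coind_of_forall_rep (hNS : N ≤ S) (c : Rep.coind S.subtype Y) (T : Set G)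
    (hT : ∀ x : G, ∃ t ∈ T, ∃ s : S, x = (s : G) * t)
    (h : ∀ t ∈ T, FixedBy Y (N.subgroupOf S) (c.1 t)) :
    FixedBy (Rep.coind S.subtype Y) N c := by
  rw [fixedBy_coind_iff hNS]
  intro x
  obtain ⟨t, ht, s, rfl⟩ := hT x
  rw [Cup.coind_apply_mul]
  exact (h t ht).ρ s

omit R [N.Normal] in
/-- A finite set of representatives of `S \ G` for a subgroup of finite index. -/
lemma exists_finite_reps (S : Subgroup G) [S.FiniteIndex] :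
    ∃ T : Set G, T.Finite ∧ ∀ x : G, ∃ t ∈ T, ∃ s : S, x = (s : G) * t := by
  classical
  have : Finite (G ⧸ S) := Subgroup.finite_quotient_of_finiteIndex
  have : Finite (Quotient (QuotientGroup.rightRel S)) :=
    Finite.of_equiv _ (QuotientGroup.quotientRightRelEquivQuotientLeftRel S).symm
  refine ⟨Set.range (fun q : Quotient (QuotientGroup.rightRel S) => q.out), Set.finite_range _,
    fun x => ⟨_, ⟨Quotient.mk _ x, rfl⟩, ⟨_, Retr.r0_mem S x⟩, ?_⟩⟩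
  show x = x * (Quotient.mk (QuotientGroup.rightRel S) x).out⁻¹ *
    (Quotient.mk (QuotientGroup.rightRel S) x).out
  group

end Coind

end Fermat.Agent.CFT.Shap
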