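import Mathlib
import Fermat.Agent.CFT.ShapiroLow

/-!
# Compatibility of the explicit Shapiro maps and of the trace with cup products (cochain level)

For `φ : RepPairing A (res_S B) C` (`A C : Rep k S`, `B : Rep k G`) and the coinduced pairing
`φ.coind S : coind A × B → coind C`, the cochain-level Shapiro maps are multiplicative:
`sh (a ∪ b) = sh a ∪ res b`. For `Φ : RepPairing X B Z` over `G`, the trace satisfies
`tr ∘ (a ∪ b) = (tr ∘ a) ∪ b` for the pairing `(Φ.res).coind S`. All statements are about plain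
functions, so they hold verbatim on any subcomplex.
-/

set_option autoImplicit false

universe u

open CategoryTheory groupCohomology

namespace Fermat.Agent.CFT.Shap

variable {k G : Type u} [CommRing k] [Group G] (S : Subgroup G)

section Sh

variable {A C : Rep.{u} k S} {B : Rep.{u} k G} (φ : RepPairing A (Rep.res S.subtype B) C)

/-- restriction of a `1`-cochain to `S` -/
def rs₁ (f : G → B) : S → Rep.res S.subtype B := fun s => f s

/-- restriction of a `2`-cochain to `S` -/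
def rs₂ (F : G × G → B) : S × S → Rep.res S.subtype B := fun p => F (p.1, p.2)

@[simp] lemma rs₁_apply (f : G → B) (s : S) : rs₁ S f s = f s := rfl

@[simp] lemma rs₂_apply (F : G × G → B) (p : S × S) : rs₂ S F p = F (p.1, p.2) := rfl

lemma ev₁_coind_toLin (c : Rep.coind S.subtype A) (b : B) :
    ((φ.coind S).toLin c b).1 1 = φ.toLin (c.1 1) b := φ.ev₁_coind S c b

lemma sh₁_cup₀₁ (c : Rep.coind S.subtype A) (f' : G → B) :
    sh₁ ((φ.coind S).cup₀₁ c f') = φ.cup₀₁ (c.1 1) (rs₁ S f') := by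
  funext s
  exact ev₁_coind_toLin S φ c (f' s)

lemma sh₁_cup₁₀ (f : G → Rep.coind S.subtype A) (b : B) :
    sh₁ ((φ.coind S).cup₁₀ f b) = φ.cup₁₀ (sh₁ f) (b : Rep.res S.subtype B) := by
  funext s
  exact ev₁_coind_toLin S φ (f s) (B.ρ s b)

lemma sh₂_cup₁₁ (f : G → Rep.coind S.subtype A) (f' : G → B) :
    sh₂ ((φ.coind S).cup₁₁ f f') = φ.cup₁₁ (sh₁ f) (rs₁ S f') := by
  funext p
  exact ev₁_coind_toLin S φ (f p.1) (B.ρ p.1 (f' p.2))

lemma sh₂_cup₀₂ (c : Rep.coind S.subtype A) (F' : G × G → B) :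
    sh₂ ((φ.coind S).cup₀₂ c F') = φ.cup₀₂ (c.1 1) (rs₂ S F') := by
  funext p
  exact ev₁_coind_toLin S φ c (F' (p.1, p.2))

lemma sh₂_cup₂₀ (F : G × G → Rep.coind S.subtype A) (b : B) :
    sh₂ ((φ.coind S).cup₂₀ F b) = φ.cup₂₀ (sh₂ F) (b : Rep.res S.subtype B) := by
  funext p
  exact ev₁_coind_toLin S φ (F (p.1, p.2)) (B.ρ ((p.1 : G) * (p.2 : G)) b)

end Sh

section Tr

variable [S.FiniteIndex] {X B Z : Rep.{u} k G} (Φ : RepPairing X B Z)

lemma tr_cup₀₁ (c : Rep.coind S.subtype (Rep.res S.subtype X)) (f' : G → B) :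
    (fun g => (Cup.tr S Z).hom ((((Φ.res S.subtype).coind S).cup₀₁ c f') g)) =
      Φ.cup₀₁ ((Cup.tr S X).hom c) f' := by
  funext g
  exact Φ.tr_coind S c (f' g)

lemma tr_cup₁₀ (f : G → Rep.coind S.subtype (Rep.res S.subtype X)) (b : B) :
    (fun g => (Cup.tr S Z).hom ((((Φ.res S.subtype).coind S).cup₁₀ f b) g)) =
      Φ.cup₁₀ (fun g => (Cup.tr S X).hom (f g)) b := by
  funext g
  exact Φ.tr_coind S (f g) (B.ρ g b)

lemma tr_cup₁₁ (f : G → Rep.coind S.subtype (Rep.res S.subtype X)) (f' : G → B) :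
    (fun p => (Cup.tr S Z).hom ((((Φ.res S.subtype).coind S).cup₁₁ f f') p)) =
      Φ.cup₁₁ (fun g => (Cup.tr S X).hom (f g)) f' := by
  funext p
  exact Φ.tr_coind S (f p.1) (B.ρ p.1 (f' p.2))

lemma tr_cup₀₂ (c : Rep.coind S.subtype (Rep.res S.subtype X)) (F' : G × G → B) :
    (fun p => (Cup.tr S Z).hom ((((Φ.res S.subtype).coind S).cup₀₂ c F') p)) =
      Φ.cup₀₂ ((Cup.tr S X).hom c) F' := by
  funext p
  exact Φ.tr_coind S c (F' p)

lemma tr_cup₂₀ (F : G × G → Rep.coind S.subtype (Rep.res S.subtype X)) (b : B) :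
    (fun p => (Cup.tr S Z).hom ((((Φ.res S.subtype).coind S).cup₂₀ F b) p)) =
      Φ.cup₂₀ (fun p => (Cup.tr S X).hom (F p)) b := by
  funext p
  exact Φ.tr_coind S (F p) (B.ρ (p.1 * p.2) b)

end Tr

end Fermat.Agent.CFT.Shap
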