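import Mathlib
import Fermat.Agent.CFT.LayerConjInv

/-!
# Conjugation invariance on a stable layer

For `γ : Ω ≃ₐ[k] Ω` stabilising both `F` and `M` (`F ≤ M` a finite normal layer), conjugation by
`γ` is an endomorphism `layerTw γ h h` of `H²(Gal(M/F), Mˣ)` (on cocycles
`x ↦ ((σ, τ) ↦ γ (x (γ⁻¹σγ, γ⁻¹τγ)))`), and every system of invariant maps is invariant under it.
-/

set_option autoImplicit false
set_option linter.style.haveILetI false
set_option linter.unusedSectionVars false

open CategoryTheory groupCohomology IntermediateField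

namespace Fermat.Agent.CFT

open GaloisTower LayerMaps

namespace LayerInvSystem

variable {k Ω : Type} [Field k] [Field Ω] [Algebra k Ω] [CharZero k] [Normal k Ω]
  (S : LayerInvSystem k Ω)

/-- elements of `F` are mapped into `F` by `γ` when `γF = F` -/
lemma mem_of_conjField_eq (γ : Ω ≃ₐ[k] Ω) {F : IntermediateField k Ω}
    (hF : conjField γ F = F) : ∀ x ∈ F, γ x ∈ F := fun x hx => by
  rw [← hF]
  exact ⟨x, hx, rfl⟩

/-- **Conjugation invariance on a stable layer.** -/
theorem inv_layerTw_self (γ : Ω ≃ₐ[k] Ω) {F M : IntermediateField k Ω} (h : F ≤ M)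
    [FiniteDimensional k M] [Normal F (layer h)] (hF : conjField γ F = F)
    (hM : conjField γ M = M)
    (x : groupCohomology (Rep.ofAlgebraAutOnUnits F (layer h)) 2) :
    S.inv h ((layerTw γ h h (mem_of_conjField_eq γ hF) (mem_of_conjField_eq γ hM) 2).hom x) =
      S.inv h x := by
  haveI : Normal (conjField γ F) (layer (conjField_mono γ h)) := normal_layer_conj γ h
  have hFle : conjField γ F ≤ F := hF.le
  have hMle : conjField γ M ≤ M := hM.le
  have e : layerConj γ h 2 ≫ layerMap (conjField_mono γ h) h hFle hMle 2 =
      layerTw γ h h (mem_of_conjField_eq γ hF) (mem_of_conjField_eq γ hM) 2 := by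
    rw [layerConj_eq_layerTw]
    exact layerTw_comp_layerMap γ h (conjField_mono γ h) h _ _ hFle hMle 2
  rw [← e, ModuleCat.comp_apply, S.inv_layerMap (conjField_mono γ h) h hFle hMle,
    S.isConjInvariant γ h x]
  have h1 : Module.finrank (conjField γ F) (layer hFle) = 1 := by
    have hb : (layer hFle : IntermediateField (conjField γ F) Ω) = ⊥ := by
      ext y
      rw [IntermediateField.mem_bot]
      constructor
      · intro hy
        have hy' : y ∈ conjField γ F := by rw [hF]; exact hy
        exact ⟨⟨y, hy'⟩, rfl⟩
      · rintro ⟨z, rfl⟩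
        exact hFle z.2
    rw [hb]
    exact IntermediateField.finrank_bot
  rw [h1, one_smul]

end LayerInvSystem

end Fermat.Agent.CFT
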