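import Mathlib
import Fermat.Agent.CFT.Tate.DimShift

/-!
# Unipotent `𝔽_p`-representations and the Sylow trick

Pure representation theory used in the dévissage of the abstract duality theorem:

* `exists_fixed_ne_zero`: if every `g` acts on a finite nonzero `𝔽_p`-module with `ρ g ^ p^k = 1`
  (the image is a `p`-group) then there is a nonzero fixed vector;
* `IsUnipotentRep`, `fixedLineSES`: the short exact sequence `0 → N₁ → N → N / N₁ → 0` with `N₁`
  the line spanned by a fixed vector, and the induction principle `unipotent_induction`;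
* `exists_subgroup_unipotent`: for a finite module `N` there is a subgroup `V` of finite index
  prime to `p`, containing the kernel of the action, acting unipotently (preimage of a Sylow
  `p`-subgroup of the image).
-/

set_option autoImplicit false

open CategoryTheory Limits Rep

namespace Fermat.Agent.CFT

section FixedVector

variable {p : ℕ} [hp : Fact p.Prime] {U V : Type*} [Group U] [AddCommGroup V]
  [Module (ZMod p) V]

/-- A nontrivial finite `𝔽_p`-module has cardinality divisible by `p`. -/
lemma prime_dvd_natCard_of_nontrivial [Finite V] [Nontrivial V] : p ∣ Nat.card V := by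
  obtain ⟨v, hv⟩ := exists_ne (0 : V)
  have h1 : p • v = 0 := by
    have : ((p : ZMod p)) • v = 0 := by rw [ZMod.natCast_self, zero_smul]
    rwa [Nat.cast_smul_eq_nsmul] at this
  have h2 : addOrderOf v = p := by
    have hdvd := addOrderOf_dvd_of_nsmul_eq_zero h1
    rcases (Nat.dvd_prime hp.out).1 hdvd with h | h
    · exact absurd (AddMonoid.addOrderOf_eq_one_iff.1 h) hv
    · exact h
  rw [← h2]
  exact addOrderOf_dvd_natCard v

/-- **Fixed vector**: a group acting on a finite nonzero `𝔽_p`-module through a `p`-group fixes a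
nonzero vector. -/
theorem exists_fixed_ne_zero [Finite V] [Nontrivial V] (ρ : Representation (ZMod p) U V)
    (hρ : ∀ g : U, ∃ k : ℕ, ρ g ^ p ^ k = 1) : ∃ v : V, v ≠ 0 ∧ ∀ g, ρ g v = v := by
  classical
  let Q : Subgroup (V →ₗ[ZMod p] V)ˣ := (Representation.asGroupHom ρ).range
  have hfinEnd : Finite (V →ₗ[ZMod p] V) := Finite.of_injective _ DFunLike.coe_injective
  have hQ : IsPGroup p Q := by
    rintro ⟨u, g, rfl⟩
    obtain ⟨k, hk⟩ := hρ g
    refine ⟨k, Subtype.ext (Units.ext ?_)⟩
    show ((Representation.asGroupHom ρ g ^ p ^ k : (V →ₗ[ZMod p] V)ˣ) : V →ₗ[ZMod p] V) = 1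
    rw [Units.val_pow_eq_pow_val, Representation.asGroupHom_apply]
    exact hk
  have hdvd : p ∣ Nat.card V := prime_dvd_natCard_of_nontrivial
  have h0 : (0 : V) ∈ MulAction.fixedPoints Q V := by
    intro q
    show ((q : (V →ₗ[ZMod p] V)ˣ) : V →ₗ[ZMod p] V) 0 = 0
    exact map_zero _
  obtain ⟨b, hb, hb0⟩ := hQ.exists_fixed_point_of_prime_dvd_card_of_fixed_point V hdvd h0
  refine ⟨b, Ne.symm hb0, fun g => ?_⟩
  exact hb ⟨Representation.asGroupHom ρ g, g, rfl⟩

end FixedVector

section Unipotent

variable {p : ℕ} [hp : Fact p.Prime] {U : Type} [Group U]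

/-- The group acts on `N` through a `p`-group. -/
def IsUnipotentRep (N : Rep.{0} (ZMod p) U) : Prop :=
  ∀ g : U, ∃ k : ℕ, N.ρ g ^ p ^ k = 1

/-- The line spanned by a fixed vector is stable. -/
lemma span_fixed_le_comap (N : Rep.{0} (ZMod p) U) {v : N} (hv : ∀ g, N.ρ g v = v) (g : U) :
    Submodule.span (ZMod p) {v} ≤ (Submodule.span (ZMod p) {v}).comap (N.ρ g) := by
  rw [Submodule.span_le]
  intro x hx
  rw [Set.mem_singleton_iff.1 hx]
  show N.ρ g v ∈ Submodule.span (ZMod p) {v}
  rw [hv g]
  exact Submodule.mem_span_singleton_self v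

/-- The short complex `⟨v⟩ → N → N / ⟨v⟩` for a fixed vector `v`. -/
noncomputable abbrev fixedLineSES (N : Rep.{0} (ZMod p) U) {v : N} (hv : ∀ g, N.ρ g v = v) :
    ShortComplex (Rep.{0} (ZMod p) U) :=
  ShortComplex.mk (Rep.subtype N _ (span_fixed_le_comap N hv))
    (Rep.mkQ N _ (span_fixed_le_comap N hv)) (by
      ext ⟨x, hx⟩
      exact (Submodule.Quotient.mk_eq_zero _).2 hx)

lemma fixedLineSES_shortExact (N : Rep.{0} (ZMod p) U) {v : N} (hv : ∀ g, N.ρ g v = v) :
    (fixedLineSES N hv).ShortExact := by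
  apply rep_shortExact_of
  · exact Subtype.val_injective
  · intro x hx
    exact ⟨⟨x, (Submodule.Quotient.mk_eq_zero _).1 hx⟩, rfl⟩
  · exact Submodule.Quotient.mk_surjective _

/-- The group acts trivially on the fixed line. -/
lemma fixedLineSES_X₁_trivial (N : Rep.{0} (ZMod p) U) {v : N} (hv : ∀ g, N.ρ g v = v)
    (g : U) (x : (fixedLineSES N hv).X₁) : (fixedLineSES N hv).X₁.ρ g x = x := by
  obtain ⟨x, hx⟩ := x
  apply Subtype.ext
  show N.ρ g x = x
  obtain ⟨c, rfl⟩ := Submodule.mem_span_singleton.1 hx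
  rw [map_smul, hv g]

/-- The fixed line is one-dimensional. -/
lemma fixedLineSES_X₁_finrank (N : Rep.{0} (ZMod p) U) {v : N} (hv : ∀ g, N.ρ g v = v)
    (hv0 : v ≠ 0) : Module.finrank (ZMod p) (fixedLineSES N hv).X₁ = 1 :=
  finrank_span_singleton hv0

/-- The fixed line is `𝔽_p` with trivial action. -/
noncomputable def fixedLineIso (N : Rep.{0} (ZMod p) U) {v : N} (hv : ∀ g, N.ρ g v = v)
    (hv0 : v ≠ 0) : Rep.trivial (ZMod p) U (ZMod p) ≅ (fixedLineSES N hv).X₁ :=
  Rep.mkIso (Representation.Equiv.mk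
    (LinearEquiv.toSpanNonzeroSingleton (ZMod p) N v hv0) (fun g => by
      apply LinearMap.ext
      intro c
      exact (fixedLineSES_X₁_trivial N hv g
        (LinearEquiv.toSpanNonzeroSingleton (ZMod p) N v hv0 c)).symm))

/-- The quotient of a unipotent representation is unipotent. -/
lemma IsUnipotentRep.quotient {N : Rep.{0} (ZMod p) U} (hN : IsUnipotentRep N) {v : N}
    (hv : ∀ g, N.ρ g v = v) : IsUnipotentRep (fixedLineSES N hv).X₃ := by
  intro g
  obtain ⟨k, hk⟩ := hN g
  refine ⟨k, ?_⟩
  apply LinearMap.ext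
  intro x
  obtain ⟨y, rfl⟩ := Submodule.Quotient.mk_surjective _ x
  have hc : (fixedLineSES N hv).X₃.ρ g ∘ₗ (Submodule.span (ZMod p) {v}).mkQ =
      (Submodule.span (ZMod p) {v}).mkQ ∘ₗ N.ρ g := rfl
  have h1 := Module.End.commute_pow_left_of_commute hc (p ^ k)
  have h2 := LinearMap.congr_fun h1 y
  rw [hk] at h2
  exact h2

/-- The quotient by the fixed line has smaller cardinality. -/
lemma natCard_quotient_lt (N : Rep.{0} (ZMod p) U) [Finite N] {v : N} (hv : ∀ g, N.ρ g v = v)
    (hv0 : v ≠ 0) : Nat.card (fixedLineSES N hv).X₃ < Nat.card N := by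
  have : Fintype N := Fintype.ofFinite N
  let W : Submodule (ZMod p) N := Submodule.span (ZMod p) {v}
  have h1 : Nat.card N = Nat.card W * Nat.card (N ⧸ W) := by
    exact Submodule.card_eq_card_quotient_mul_card W
  have h2 : 1 < Nat.card W := by
    rw [Finite.one_lt_card_iff_nontrivial]
    exact ⟨⟨0, ⟨v, Submodule.mem_span_singleton_self v⟩, fun h => hv0 (congrArg Subtype.val h).symm⟩⟩
  have h3 : 0 < Nat.card (N ⧸ W) := Nat.card_pos
  show Nat.card (N ⧸ W) < Nat.card N
  rw [h1]
  exact lt_mul_left h3 h2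

/-- **Induction principle for unipotent representations**: a property of finite
`𝔽_p[U]`-modules which holds for zero modules and passes from the quotient `N / ⟨v⟩` by a fixed
line to `N` holds for all finite unipotent modules. -/
theorem unipotent_induction {motive : Rep.{0} (ZMod p) U → Prop}
    (h0 : ∀ N : Rep.{0} (ZMod p) U, Subsingleton N → motive N)
    (hstep : ∀ (N : Rep.{0} (ZMod p) U) (v : N) (hv : ∀ g, N.ρ g v = v), v ≠ 0 → Finite N →
      IsUnipotentRep N → motive (fixedLineSES N hv).X₃ → motive N)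
    (N : Rep.{0} (ZMod p) U) [Finite N] (hN : IsUnipotentRep N) : motive N := by
  induction hn : Nat.card N using Nat.strong_induction_on generalizing N with
  | _ n ih =>
    rcases subsingleton_or_nontrivial N with hs | hnt
    · exact h0 N hs
    · obtain ⟨v, hv0, hv⟩ := exists_fixed_ne_zero N.ρ hN
      have hfin : Finite (fixedLineSES N hv).X₃ :=
        Finite.of_surjective _ (Submodule.Quotient.mk_surjective (Submodule.span (ZMod p) {v}))
      exact hstep N v hv hv0 inferInstance hN
        (ih _ (hn ▸ natCard_quotient_lt N hv hv0) _ (hN.quotient hv) rfl)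

end Unipotent

section SylowTrick

variable {p : ℕ} [hp : Fact p.Prime] {U V : Type*} [Group U] [AddCommGroup V]
  [Module (ZMod p) V]

/-- **Sylow trick**: for a finite `𝔽_p[U]`-module there is a subgroup of finite index prime to
`p`, containing the kernel of the action, which acts through a `p`-group. -/
theorem exists_subgroup_unipotent [Finite V] (ρ : Representation (ZMod p) U V) :
    ∃ W : Subgroup U, W.FiniteIndex ∧ ¬ p ∣ W.index ∧ (∀ g : U, ρ g = 1 → g ∈ W) ∧
      ∀ g ∈ W, ∃ k : ℕ, ρ g ^ p ^ k = 1 := by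
  classical
  let f : U →* (V →ₗ[ZMod p] V)ˣ := Representation.asGroupHom ρ
  have hfinEnd : Finite (V →ₗ[ZMod p] V) := Finite.of_injective _ DFunLike.coe_injective
  have hfinR : Finite f.range := inferInstance
  obtain ⟨P⟩ : Nonempty (Sylow p f.range) := inferInstance
  let W : Subgroup U := (P : Subgroup f.range).comap f.rangeRestrict
  have hidx : W.index = (P : Subgroup f.range).index :=
    Subgroup.index_comap_of_surjective _ f.rangeRestrict_surjective
  have hPfi : (P : Subgroup f.range).FiniteIndex := inferInstance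
  refine ⟨W, ⟨?_⟩, ?_, ?_, ?_⟩
  · rw [hidx]
    exact hPfi.index_ne_zero
  · rw [hidx]
    exact P.not_dvd_index
  · intro g hg
    show f.rangeRestrict g ∈ (P : Subgroup f.range)
    have : f.rangeRestrict g = 1 := by
      apply Subtype.ext
      apply Units.ext
      exact hg
    rw [this]
    exact Subgroup.one_mem _
  · intro g hg
    obtain ⟨k, hk⟩ := P.isPGroup' ⟨f.rangeRestrict g, hg⟩
    refine ⟨k, ?_⟩
    have h1 := congrArg (fun x : (P : Subgroup f.range) => (((x : f.range) :
      (V →ₗ[ZMod p] V)ˣ) : V →ₗ[ZMod p] V)) hk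
    have h2 : ((Representation.asGroupHom ρ g ^ p ^ k : (V →ₗ[ZMod p] V)ˣ) :
        V →ₗ[ZMod p] V) = 1 := h1
    rwa [Units.val_pow_eq_pow_val, Representation.asGroupHom_apply] at h2

end SylowTrick

end Fermat.Agent.CFT
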